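import Fermat.Agent.RT.FreeGamma0
import Fermat.Agent.RT.CoeffBase
import Mathlib.RingTheory.DiscreteValuationRing.Basic
import Mathlib.RingTheory.Filtration
import Mathlib.RingTheory.Localization.FractionRing
import Mathlib.RingTheory.Localization.Integer

/-!
# Integral eigen classes with non-zero reduction

A non-zero eigenclass over the fraction field of a discrete valuation ring of Hecke operators, one
of which has an eigenvalue not congruent to its degree, gives an integral eigenclass with non-zero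
reduction.
-/

set_option autoImplicit false

noncomputable section

open CongruenceSubgroup IsLocalRing

namespace FLTA.RT.Diamond

open FLTA.Periods

variable {O : Type} [CommRing O] [IsDomain O] {K : Type} [Field K] [Algebra O K]
  [IsFractionRing O K] {N : ℕ} [NeZero N] (χ : (ZMod N)ˣ →* Oˣ)

/-- Integral classes seen over the fraction field. -/
def toFieldClass (x : tH1 (gamChar χ) O) : tH1 (gamChar (charMap (algebraMap O K) χ)) K :=
  tH1Base (algebraMap O K) χ (fun r v => Algebra.smul_def r v)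
    (tH1Map (gamChar χ) (Algebra.linearMap O K) x)

theorem toFieldClass_natHecke (l : ℕ) (x : tH1 (gamChar χ) O) :
    toFieldClass (K := K) χ ((natHecke χ l).app O x) =
      (natHecke (charMap (algebraMap O K) χ) l).app K (toFieldClass (K := K) χ x) := by
  rw [toFieldClass, toFieldClass, ← (natHecke χ l).natural, tH1Base_natHecke]

theorem toFieldClass_smul (r : O) (x : tH1 (gamChar χ) O) :
    toFieldClass (K := K) χ (r • x) = algebraMap O K r • toFieldClass (K := K) χ x := by
  rw [toFieldClass, toFieldClass, map_smul, tH1Base_smul]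

theorem toFieldClass_sub (x y : tH1 (gamChar χ) O) :
    toFieldClass (K := K) χ (x - y) = toFieldClass (K := K) χ x - toFieldClass (K := K) χ y := by
  rw [toFieldClass, map_sub, map_sub]
  rfl

/-- A multiple of every class over the fraction field is integral. -/
theorem exists_toFieldClass_eq (z : tH1 (gamChar (charMap (algebraMap O K) χ)) K) :
    ∃ (d : O) (x : tH1 (gamChar χ) O), d ≠ 0 ∧ toFieldClass χ x = algebraMap O K d • z := by
  classical
  obtain ⟨f, rfl⟩ := tClass_surjective _ z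
  obtain ⟨S, hS, hfin⟩ := Group.fg_iff.mp (group_fg_Gamma0 N)
  obtain ⟨d, hd⟩ := IsLocalization.exist_integer_multiples (nonZeroDivisors O) hfin.toFinset f.1
  have hint : ∀ γ, ∃ a : O, algebraMap O K a = algebraMap O K d * f.1 γ := by
    intro γ
    have hg : γ ∈ Subgroup.closure S := hS ▸ trivial
    induction hg using Subgroup.closure_induction with
    | mem s hs =>
      obtain ⟨a, ha⟩ := hd s (hfin.mem_toFinset.mpr hs)
      exact ⟨a, ha.trans (Algebra.smul_def _ _)⟩
    | one => exact ⟨0, by rw [map_zero, tCocycles_one, mul_zero]⟩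
    | mul a b _ _ ha hb =>
      obtain ⟨u, hu⟩ := ha
      obtain ⟨v, hv⟩ := hb
      refine ⟨u + (gamChar χ a : O) * v, ?_⟩
      rw [map_add, map_mul, hu, hv, f.2, coe_gamChar_charMap, smul_eq_mul]
      ring
    | inv a _ ha =>
      obtain ⟨u, hu⟩ := ha
      refine ⟨-((((gamChar χ a)⁻¹ : Oˣ) : O) * u), ?_⟩
      have h := f.2 a a⁻¹
      rw [mul_inv_cancel, tCocycles_one, coe_gamChar_charMap, smul_eq_mul] at h
      have h1 : algebraMap O K (((gamChar χ a)⁻¹ : Oˣ) : O) * algebraMap O K (gamChar χ a : O)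
          = 1 := by rw [← map_mul, Units.inv_mul, map_one]
      rw [map_neg, map_mul, hu]
      linear_combination (algebraMap O K (((gamChar χ a)⁻¹ : Oˣ) : O) * algebraMap O K d) * h
        + (algebraMap O K d * f.1 a⁻¹) * h1
  choose g hg using hint
  have hinj := IsFractionRing.injective O K
  have hmem : g ∈ tCocycles (gamChar χ) O := fun a b => hinj (by
    rw [hg, f.2, smul_eq_mul, smul_eq_mul, map_add, map_mul, hg, hg, coe_gamChar_charMap]
    ring)
  refine ⟨d, tClass _ O ⟨g, hmem⟩, nonZeroDivisors.coe_ne_zero d, ?_⟩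
  rw [toFieldClass, tH1Map_class, tH1Base_class, ← map_smul]
  exact congrArg _ (Subtype.ext (funext fun γ => hg γ))

section dvr

variable [IsDiscreteValuationRing O] [CharZero K]

/-- **An integral eigenclass with non-zero reduction.** -/
theorem exists_integral_eigen (Λ : Set ℕ) (hΛ : ∀ l ∈ Λ, l.Prime) (b : ℕ → O)
    (z : tH1 (gamChar (charMap (algebraMap O K) χ)) K) (hz : z ≠ 0)
    (hT : ∀ l ∈ Λ, (natHecke (charMap (algebraMap O K) χ) l).app K z =
      algebraMap O K (b l) • z)
    {l₀ : ℕ} (hl₀ : l₀ ∈ Λ) (hl₀N : ¬ l₀ ∣ N) (hu : IsUnit (b l₀ - ((l₀ + 1 : ℕ) : O))) :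
    ∃ y : tH1 (gamChar χ) O, (∀ l ∈ Λ, (natHecke χ l).app O y = b l • y) ∧
      tH1Map (gamChar χ) (Algebra.linearMap O (ResidueField O)) y ≠ 0 := by
  have := Fact.mk (hΛ l₀ hl₀)
  have : NeZero l₀ := ⟨(hΛ l₀ hl₀).ne_zero⟩
  set T := fun l => (natHecke χ l).app O
  set Φ := toFieldClass (K := K) χ
  let η : tH1 (gamChar χ) O → tH1 (gamChar χ) O := fun x => T l₀ x - ((l₀ + 1 : ℕ) : O) • x
  have hker : ∀ x, Φ x = 0 → η x = 0 := by
    intro x hx
    have h0 : tH1Map (gamChar χ) (Algebra.linearMap O K) x = 0 :=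
      (tH1Base (V := K) (algebraMap O K) χ fun r v => Algebra.smul_def r v).injective
        (hx.trans (map_zero _).symm)
    have h := (isWeight_T χ hl₀N (coprime_of_not_dvd hl₀N)).sub_card_eq_zero_of_map_eq_zero
      (hwT_mem_range χ _) (Algebra.linearMap O K) (IsFractionRing.injective O K) x h0
    rw [show Fintype.card (OnePoint (ZMod l₀)) = l₀ + 1 from
      Fintype.card_option.trans (by rw [ZMod.card])] at h
    show (natHecke χ l₀).app O x - _ = 0
    rw [natHecke_of_not_dvd χ hl₀N]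
    exact h
  have hη : ∀ l ∈ Λ, ∀ x, Φ ((T l x) - b l • x) = 0 → T l (η x) = b l • η x := by
    intro l hl x hx
    have h := hker _ hx
    simp only [η, T, map_sub, map_smul] at h ⊢
    rw [natHecke_comm χ (hΛ l hl) (hΛ l₀ hl₀) O x]
    linear_combination (norm := module) h
  have hΦη : ∀ x (c : K), Φ x = c • z → Φ (η x) = algebraMap O K (b l₀ - ((l₀ + 1 : ℕ) : O)) • Φ x := by
    intro x c hx
    simp only [η, T, Φ] at hx ⊢
    rw [toFieldClass_sub, toFieldClass_smul, toFieldClass_natHecke, hx, map_smul, hT l₀ hl₀,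
      map_sub]
    module
  have heig : ∀ x (c : K), Φ x = c • z → ∀ l ∈ Λ, Φ (T l x - b l • x) = 0 := by
    intro x c hx l hl
    simp only [T, Φ] at hx ⊢
    rw [toFieldClass_sub, toFieldClass_smul, toFieldClass_natHecke, hx, map_smul, hT l hl,
      smul_smul, smul_smul, mul_comm, sub_self]
  let X : Set (tH1 (gamChar χ) O) := {y | (∀ l ∈ Λ, T l y = b l • y) ∧
    ∃ c : K, c ≠ 0 ∧ Φ y = c • z}
  have hne : ∀ {x : tH1 (gamChar χ) O} {c : K}, c ≠ 0 → Φ x = c • z → η x ∈ X :=
    fun {x c} hc hx => ⟨fun l hl => hη l hl x (heig x c hx l hl),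
      algebraMap O K (b l₀ - ((l₀ + 1 : ℕ) : O)) * c, mul_ne_zero (fun h => hu.ne_zero
        (IsFractionRing.injective O K (h.trans (map_zero _).symm))) hc, by
      rw [hΦη x c hx, hx, smul_smul]⟩
  obtain ⟨y₁, hy₁⟩ : ∃ y, y ∈ X := by
    obtain ⟨d, x, hd, hx⟩ := exists_toFieldClass_eq χ z
    exact ⟨η x, hne (fun h => hd (IsFractionRing.injective O K (h.trans (map_zero _).symm))) hx⟩
  suffices ∃ y ∈ X, tH1Map (gamChar χ) (Algebra.linearMap O (ResidueField O)) y ≠ 0 by
    obtain ⟨y, hy, hy0⟩ := this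
    exact ⟨y, hy.1, hy0⟩
  by_contra! hred
  obtain ⟨ϖ, hϖ⟩ := IsDiscreteValuationRing.exists_irreducible O
  have hm : maximalIdeal O = Ideal.span {ϖ} := hϖ.maximalIdeal_eq
  obtain ⟨u, hu'⟩ := hu
  have step : ∀ y ∈ X, ∃ y' ∈ X, ϖ • y' = y := by
    intro y hy
    obtain ⟨y₂, hy₂⟩ := exists_of_tH1Map_eq_zero (gamChar χ) (ϖ • LinearMap.id : O →ₗ[O] O)
      (Algebra.linearMap O (ResidueField O)) (mul_right_injective₀ hϖ.ne_zero)
      residue_surjective (fun a ha => by
        have : a ∈ maximalIdeal O := (residue_eq_zero_iff a).mp ha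
        rw [hm, Ideal.mem_span_singleton'] at this
        obtain ⟨c, rfl⟩ := this
        exact ⟨c, mul_comm _ _⟩) y (hred y hy)
    rw [tH1Map_smul, tH1Map_id] at hy₂
    obtain ⟨c, hc, hyc⟩ := hy.2
    have hϖK : algebraMap O K ϖ ≠ 0 := fun h =>
      hϖ.ne_zero (IsFractionRing.injective O K (h.trans (map_zero _).symm))
    have hy₂c : Φ y₂ = ((algebraMap O K ϖ)⁻¹ * c) • z := by
      rw [← hy₂] at hyc
      simp only [Φ] at hyc ⊢
      rw [toFieldClass_smul] at hyc
      rw [mul_smul, ← hyc, inv_smul_smul₀ hϖK]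
    obtain ⟨he, c', hc', hηc⟩ := hne (mul_ne_zero (inv_ne_zero hϖK) hc) hy₂c
    refine ⟨(↑u⁻¹ : O) • η y₂, ⟨fun l hl => ?_, algebraMap O K (↑u⁻¹ : O) * c', mul_ne_zero
      (fun h => u⁻¹.ne_zero (IsFractionRing.injective O K (h.trans (map_zero _).symm))) hc', ?_⟩,
      ?_⟩
    · rw [map_smul, he l hl, smul_comm]
    · simp only [Φ] at hηc ⊢
      rw [toFieldClass_smul, hηc, smul_smul]
    · have h1 : η y = (u : O) • y := by
        simp only [η]
        rw [hy.1 l₀ hl₀, ← sub_smul, hu']
      have h2 : η (ϖ • y₂) = ϖ • η y₂ := by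
        simp only [η, T, map_smul, smul_sub, smul_comm ϖ]
      rw [smul_comm, ← h2, hy₂, h1, smul_smul, Units.inv_mul, one_smul]
  have hall : ∀ (n : ℕ), ∀ y ∈ X, y ∈ (maximalIdeal O ^ n • ⊤ : Submodule O (tH1 (gamChar χ) O)) := by
    intro n
    induction n with
    | zero => intro y _; simp
    | succ n ih =>
      intro y hy
      obtain ⟨y', hy', rfl⟩ := step y hy
      rw [pow_succ', Submodule.mul_smul]
      exact Submodule.smul_mem_smul (hm ▸ Ideal.mem_span_singleton_self ϖ) (ih y' hy')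
  have : Group.FG (Gamma0 N) := group_fg_Gamma0 N
  have := finite_tH1 (χ := gamChar χ) O
  have h0 : y₁ = 0 := by
    rw [← Submodule.mem_bot O, ← Ideal.iInf_pow_smul_eq_bot_of_isLocalRing (M := tH1 (gamChar χ) O)
      (maximalIdeal O) (maximalIdeal.isMaximal O).ne_top, Submodule.mem_iInf]
    exact fun n => hall n y₁ hy₁
  obtain ⟨c, hc, hyc⟩ := hy₁.2
  have hΦ0 : Φ y₁ = 0 := by
    rw [h0]
    show toFieldClass (K := K) χ 0 = 0
    rw [toFieldClass]
    rw [map_zero, map_zero]
  exact hz ((smul_eq_zero.mp (hyc.symm.trans hΦ0)).resolve_left hc)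

end dvr

end FLTA.RT.Diamond

end
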