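import Fermat.Agent.RT.Diamond.PointRelation
import Fermat.Agent.RT.HeckeLocalDegeneracy
import Fermat.Agent.LT2.TraceHecke

/-!
# A residual eigen class at an auxiliary prime is old

Let `x` be a parabolic class of level `L q` over a field `κ` of characteristic `p`, `q = 1` in `κ`,
an eigenclass of the good Hecke operators with the traces of Frobenius of `ρ` and of `U_q` with
eigenvalue `α`, a root of `X² - t X + 1`, `t = tr ρ(Frob_q)`, `t² ≠ 4`.  Then `x` is old,
`x = y ∘ incl + y' ∘ conj` with `y ≠ 0` and `T_q y = t y`.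
-/

set_option autoImplicit false
set_option synthInstance.maxHeartbeats 400000

noncomputable section

open AlgebraicCurve ModularCurve CongruenceSubgroup IsLocalRing
open FLTA.Gamma0 (homPar0 homPar0Map IsParHom0)

namespace FLTA.RT.Diamond

open FLTA.Periods FLTA.LevelRaising

local notation "Qb" => AlgebraicClosure ℚ
local notation "Γℚ" => AlgebraicClosure ℚ ≃ₐ[ℚ] AlgebraicClosure ℚ

variable {p : ℕ} [Fact p.Prime] {κ : Type} [Field κ] [CharP κ p]

/-- Functionals to `ℤ/p` separate the points. -/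
theorem exists_functional_ne {z : κ} (hz : z ≠ 0) : ∃ e : κ →+ ZMod p, e z ≠ 0 := by
  letI : Algebra (ZMod p) κ := ZMod.algebra κ p
  obtain ⟨f, hf⟩ : ∃ f : κ →ₗ[ZMod p] ZMod p, f z ≠ 0 := by
    by_contra! h
    exact hz ((Module.forall_dual_apply_eq_zero_iff (ZMod p) z).mp h)
  exact ⟨f.toAddMonoidHom, hf⟩

theorem field_pow_le (m : ℕ) : ∃ N : ℕ, maximalIdeal κ ^ N ≤ Ideal.span {((p ^ m : ℕ) : κ)} := by
  refine ⟨1, ?_⟩
  rw [pow_one, IsLocalRing.isField_iff_maximalIdeal_eq.mp (Field.toIsField κ)]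
  exact bot_le

/-- The eigenvalue at a further good prime of an eigenclass is the trace of Frobenius. -/
theorem heckeHom_eq_trace_smul {L : ℕ} [NeZero L] (ρ : GaloisRepAdic κ)
    (hdet : ρ.DetIsCyclotomic p) (S : Finset ℕ) (hpS : p ∈ S)
    (hLS : ∀ l : ℕ, l.Prime → l ∣ L → l ∈ S) (y : homPar0 ℤ (Gamma0 L) κ) (a : ℕ → κ)
    (hy : ∀ l : ℕ, l.Prime → l ∉ S →
      heckeHom ℤ L l y.1 = (AddMonoidHom.mulLeft (a l)).comp y.1)
    (htr : ∀ l : ℕ, l.Prime → l ∉ S → ∀ A : ValuationSubring Qb, A.LiesOverPrime l →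
      ∀ σ : Γℚ, A.IsFrobeniusAt σ l → ρ.trace σ = a l)
    {q : ℕ} (hq : q.Prime) (hqL : ¬ q ∣ L) (hqp : q ≠ p) {A : ValuationSubring Qb}
    (hA : A.LiesOverPrime q) {F : Γℚ} (hF : A.IsFrobeniusAt F q) :
    heckeHom ℤ L q y.1 = (AddMonoidHom.mulLeft (ρ.trace F)).comp y.1 := by
  have hp : p.Prime := Fact.out
  have : NeZero (p ^ 1) := ⟨pow_ne_zero 1 hp.ne_zero⟩
  obtain ⟨ψ, hψ⟩ : ∃ ψ : homPar0 ℤ (Gamma0 L) κ, ψ.1 = heckeHom ℤ L q y.1 :=
    ⟨⟨_, heckeHom_mem_homPar0 ℤ q y.2⟩, rfl⟩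
  have key : ∀ e : κ →+ ZMod (p ^ 1), e.comp ψ.1 = (pre e (ρ.trace F)).comp y.1 := by
    intro e
    have hrel := galois_relation_of_eigen ρ hdet field_pow_le S hpS hLS y a hy htr F 1 e
    have hmem : p ^ 1 • classPts (p := p) 1 y e = 0 :=
      nsmul_jTors' (rawPoint L (p ^ 1) (homPar0Map (Gamma0 L) e y))
    have hES := FLTA.Congruence.frobenius_quadratic_torsion hq hqL hA
      (LocalGalois.not_dvd_pow_of_ne hq hp hqp.symm 1) hF hmem
    have hTq : heckeOperatorBar L ⟨q, hq⟩ (classPts (p := p) 1 y e) =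
        (rawPoint L (p ^ 1) (homPar0Map (Gamma0 L) e ψ) : JZero L) := by
      refine heckeOperatorBar_rawPoint hq hqL _ _ ?_
      rw [FLTA.Gamma0.homPar0Map_coe, FLTA.Gamma0.homPar0Map_coe, heckeHom_comp, hψ]
    rw [← GaloisReps.heckeOperatorBar_galois, natCast_zsmul, ← map_nsmul, ← pre_natCast,
      hTq] at hES
    rw [LocalGalois.det_frobenius_eq ρ hdet hq hp hqp.symm hA hF] at hrel
    have h1 : F • (rawPoint L (p ^ 1) (homPar0Map (Gamma0 L) e ψ) : JZero L) =
        F • classPts (p := p) 1 y (pre e (ρ.trace F)) := by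
      have h := hES.trans hrel.symm
      exact sub_right_inj.mp (add_right_cancel h)
    have h2 := MulAction.injective F h1
    exact congrArg Subtype.val ((FLTA.Kummer.kummerRaw L (p ^ 1)).symm.injective (Subtype.ext h2))
  refine AddMonoidHom.ext fun g => ?_
  rw [← hψ]
  by_contra hne
  obtain ⟨f, hf⟩ := exists_functional_ne (p := p) (sub_ne_zero.mpr hne)
  let c : ZMod p →+* ZMod (p ^ 1) := ZMod.castHom (by rw [pow_one]) _
  have hc : Function.Injective c := by
    intro u v huv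
    have := congrArg (ZMod.castHom (by rw [pow_one] : p ∣ p ^ 1) (ZMod p)) huv
    simpa [c] using this
  refine hf (hc ?_)
  have h := DFunLike.congr_fun (key (c.toAddMonoidHom.comp f)) g
  rw [map_sub, map_sub, map_zero, sub_eq_zero]
  exact h

/-- A residual eigen class at an auxiliary prime is old, given that restriction to the level `L q`
is injective. -/
theorem exists_old_of_eigen_of_injective {L q : ℕ} [NeZero L] [Fact q.Prime] [NeZero (L * q)] (hqL : ¬ q ∣ L)
    (hqp : q ≠ p) (hinj : ∀ z : Additive (Gamma0 L) →+ κ, inclRes L q z = 0 → z = 0) (ρ : GaloisRepAdic κ) (hdet : ρ.DetIsCyclotomic p)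
    (S : Finset ℕ) (hpS : p ∈ S) (hLS : ∀ l : ℕ, l.Prime → l ∣ L * q → l ∈ S) (a : ℕ → κ)
    (htr : ∀ l : ℕ, l.Prime → l ∉ S → ∀ A : ValuationSubring Qb, A.LiesOverPrime l →
      ∀ σ : Γℚ, A.IsFrobeniusAt σ l → ρ.trace σ = a l)
    (x : Additive (Gamma0 (L * q)) →+ κ) (hx : IsParHom0 (Gamma0 (L * q)) x) (hx0 : x ≠ 0)
    (hT : ∀ l : ℕ, l.Prime → l ∉ S → heckeHom κ (L * q) l x = a l • x)
    (α : κ) (hU : heckeHom κ (L * q) q x = α • x) {A : ValuationSubring Qb}
    (hA : A.LiesOverPrime q) {F : Γℚ} (hF : A.IsFrobeniusAt F q)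
    (hα : α * α - ρ.trace F * α + 1 = 0) (ht : ρ.trace F ^ 2 ≠ 4) :
    ∃ y y' : homPar0 ℤ (Gamma0 L) κ, y ≠ 0 ∧
      (∀ g, x (Additive.ofMul g) =
        y.1 (Additive.ofMul (inclHom L q g)) + y'.1 (Additive.ofMul (conjHom L q g))) ∧
      heckeHom κ L q y.1 = ρ.trace F • y.1 ∧
      ∀ e : κ →+ ZMod p,
        heckeOperatorBar L ⟨q, Fact.out⟩
            (rawPoint L p (homPar0Map (Gamma0 L) e y) : JZero L) =
          (rawPoint L p (homPar0Map (Gamma0 L) (e.comp (AddMonoidHom.mulLeft (ρ.trace F))) y) :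
            JZero L) := by
  classical
  have hqq : q.Prime := Fact.out
  have : NeZero q := ⟨hqq.ne_zero⟩
  have hcop : Nat.Coprime q L := hqq.coprime_iff_not_dvd.mpr hqL
  have := Fintype.ofFinite (Gamma0 L ⧸ (Gamma0 (L * q)).subgroupOf (Gamma0 L))
  have : IsAdicComplete (maximalIdeal κ) κ := by
    rw [IsLocalRing.isField_iff_maximalIdeal_eq.mp (Field.toIsField κ)]
    infer_instance
  have hpar := isParabolicHom_of_isParHom0 hx
  have hα2 : 1 - α * α ≠ 0 := fun h => by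
    refine ht ?_
    have h1 : ρ.trace F * α = 2 := by linear_combination -hα - h
    linear_combination (ρ.trace F * α + 2) * h1 + ρ.trace F ^ 2 * h
  -- `Y = cor (w x)` satisfies `incl Y = α x + w x`
  set Y := corRes (alRes hcop x) with hYdef
  have hYpar : IsParHom0 (Gamma0 L) Y := FLTA.Gamma0.corHom_isParHom0 (isParHom0_alRes hcop hx)
  have hinclY : inclRes L q Y = α • x + alRes hcop x := by
    rw [hYdef, inclRes_corRes_alRes κ hqL hcop hpar, hU]
  have halα : ∀ c : κ, alRes hcop (c • x) = c • alRes hcop x := fun c => rfl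
  have hconjY : conjRes L q Y = α • alRes hcop x + x := by
    rw [← alRes_inclRes hcop Y, hinclY]
    refine AddMonoidHom.ext fun g => ?_
    show α * _ + alRes hcop (alRes hcop x) g = _
    rw [alRes_alRes hcop x]
    rfl
  have hxY : (1 - α * α) • x = conjRes L q Y - α • inclRes L q Y := by
    rw [hconjY, hinclY]
    module
  have hYT : ∀ l : ℕ, l.Prime → l ∉ S → heckeHom κ L l Y = a l • Y := by
    intro l hl hlS
    have hlLq : ¬ l ∣ L * q := fun h => hlS (hLS l hl h)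
    have hlq : l ≠ q := fun h => hlLq (h ▸ dvd_mul_left q L)
    refine sub_eq_zero.mp (hinj _ ?_)
    have h1 := (heckeHom_restrictions (O := κ) hqq hl hlq Y).1
    show inclRes L q (heckeHom κ L l Y - a l • Y) = 0
    have h2 : inclRes L q (heckeHom κ L l Y - a l • Y) =
        inclRes L q (heckeHom κ L l Y) - a l • inclRes L q Y := AddMonoidHom.ext fun _ => rfl
    rw [h2, ← h1, hinclY, map_add, map_smul, hT l hl hlS,
      LT2.heckeHom_alRes (𝕜 := κ) hcop hl hlLq hpar, hT l hl hlS, halα, smul_add, smul_comm (a l) α]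
    exact sub_self _
  have hY0 : Y ≠ 0 := by
    intro h
    refine hx0 ?_
    have h1 : (1 - α * α) • x = 0 := by
      rw [hxY, h]
      exact AddMonoidHom.ext fun _ => by simp [inclRes, conjRes]
    exact (smul_eq_zero.mp h1).resolve_left hα2
  set c := (1 - α * α)⁻¹
  have hα0 : α ≠ 0 := fun h => by simp [h] at hα
  let y : homPar0 ℤ (Gamma0 L) κ := ⟨(-(c * α)) • Y, fun γ hγ => by
    show -(c * α) * Y (Additive.ofMul γ) = 0
    rw [hYpar γ hγ, mul_zero]⟩
  let y' : homPar0 ℤ (Gamma0 L) κ := ⟨c • Y, fun γ hγ => by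
    show c * Y (Additive.ofMul γ) = 0
    rw [hYpar γ hγ, mul_zero]⟩
  have hyT : ∀ l : ℕ, l.Prime → l ∉ S →
      heckeHom ℤ L l y.1 = (AddMonoidHom.mulLeft (a l)).comp y.1 := by
    intro l hl hlS
    rw [← heckeHom_eq_int κ]
    show heckeHom κ L l ((-(c * α)) • Y) = _
    rw [map_smul, hYT l hl hlS]
    refine AddMonoidHom.ext fun g => ?_
    show -(c * α) * (a l * Y g) = a l * (-(c * α) * Y g)
    ring
  have hkey := heckeHom_eq_trace_smul ρ hdet S hpS (fun l hl h => hLS l hl (h.mul_right q)) y a hyT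
    htr hqq hqL hqp hA hF
  refine ⟨y, y', fun h => hY0 ?_, fun g => ?_, ?_, fun e => ?_⟩
  · have h1 : (-(c * α)) • Y = 0 := congrArg Subtype.val h
    exact (smul_eq_zero.mp h1).resolve_left
      (neg_ne_zero.mpr (mul_ne_zero (inv_ne_zero hα2) hα0))
  · have h := DFunLike.congr_fun hxY (Additive.ofMul g)
    show _ = -(c * α) * Y _ + c * Y _
    have h' : (1 - α * α) * x (Additive.ofMul g) =
        Y (Additive.ofMul (conjHom L q g)) - α * Y (Additive.ofMul (inclHom L q g)) := h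
    linear_combination c * h' - x (Additive.ofMul g) * inv_mul_cancel₀ hα2
  · rw [heckeHom_eq_int κ, hkey]
    rfl
  · refine heckeOperatorBar_rawPoint hqq hqL _ _ ?_
    rw [FLTA.Gamma0.homPar0Map_coe, FLTA.Gamma0.homPar0Map_coe, heckeHom_comp, hkey,
      AddMonoidHom.comp_assoc]

/-- **A residual eigen class at an auxiliary prime is old.** -/
theorem exists_old_of_eigen {L q : ℕ} [NeZero L] [Fact q.Prime] [NeZero (L * q)] (hqL : ¬ q ∣ L)
    (hqp : q ≠ p) (h2 : (2 : κ) ≠ 0) (hq1 : (q : κ) = 1) (ρ : GaloisRepAdic κ) (hdet : ρ.DetIsCyclotomic p)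
    (S : Finset ℕ) (hpS : p ∈ S) (hLS : ∀ l : ℕ, l.Prime → l ∣ L * q → l ∈ S) (a : ℕ → κ)
    (htr : ∀ l : ℕ, l.Prime → l ∉ S → ∀ A : ValuationSubring Qb, A.LiesOverPrime l →
      ∀ σ : Γℚ, A.IsFrobeniusAt σ l → ρ.trace σ = a l)
    (x : Additive (Gamma0 (L * q)) →+ κ) (hx : IsParHom0 (Gamma0 (L * q)) x) (hx0 : x ≠ 0)
    (hT : ∀ l : ℕ, l.Prime → l ∉ S → heckeHom κ (L * q) l x = a l • x)
    (α : κ) (hU : heckeHom κ (L * q) q x = α • x) {A : ValuationSubring Qb}
    (hA : A.LiesOverPrime q) {F : Γℚ} (hF : A.IsFrobeniusAt F q)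
    (hα : α * α - ρ.trace F * α + 1 = 0) (ht : ρ.trace F ^ 2 ≠ 4) :
    ∃ y y' : homPar0 ℤ (Gamma0 L) κ, y ≠ 0 ∧
      (∀ g, x (Additive.ofMul g) =
        y.1 (Additive.ofMul (inclHom L q g)) + y'.1 (Additive.ofMul (conjHom L q g))) ∧
      heckeHom κ L q y.1 = ρ.trace F • y.1 ∧
      ∀ e : κ →+ ZMod p,
        heckeOperatorBar L ⟨q, Fact.out⟩
            (rawPoint L p (homPar0Map (Gamma0 L) e y) : JZero L) =
          (rawPoint L p (homPar0Map (Gamma0 L) (e.comp (AddMonoidHom.mulLeft (ρ.trace F))) y) :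
            JZero L) := by
  classical
  refine exists_old_of_eigen_of_injective hqL hqp ?_ ρ hdet S hpS hLS a htr x hx hx0 hT α hU hA hF
    hα ht
  intro z hz
  have : NeZero q := ⟨(Fact.out : q.Prime).ne_zero⟩
  have h := congrArg (fun w => corRes w) hz
  simp only [corRes_inclRes hqL] at h
  refine AddMonoidHom.ext fun g => ?_
  have h' := DFunLike.congr_fun h g
  rw [AddMonoidHom.nsmul_apply, nsmul_eq_mul, Nat.cast_succ, hq1, one_add_one_eq_two] at h'
  have hz0 : (2 : κ) * z g = 0 := h'.trans (by simp [corRes, FLTA.Gamma0.corHom])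
  exact (mul_eq_zero.mp hz0).resolve_left h2

end FLTA.RT.Diamond

end
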