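import Fermat.Agent.RT.PointTwist

/-!
# Twisting away a set of components, keeping `U` at the others

A variant of `exists_realisation_to` which also follows the operators `U` at the kept primes.
-/

set_option autoImplicit false

noncomputable section

universe u

open CongruenceSubgroup ModularCurve.Period
open scoped MatrixGroups

namespace FLTA.RT

open FLTA.Periods FLTA.LevelRaising

variable {K : Type u} [Field K] [CharZero K]

/-- Iterated twisting, keeping the components in `T` and the operators `U` at them. -/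
theorem exists_realisation_keep (T Q₀ : Finset ℕ) :
    ∀ (L : ℕ) [NeZero L] (ε : ∀ q : ℕ, (ZMod q)ˣ →* Kˣ), Disjoint Q₀ T →
      (∀ q ∈ Q₀ ∪ T, q.Prime ∧ q ∣ L ∧ ¬ q * q ∣ L) → (∀ q ∈ Q₀, ε q ^ 2 = 1 → ε q = 1) →
      ∀ χ : (ZMod L)ˣ →* Kˣ, χ = sigProd L (Q₀ ∪ T) ε →
      ∃ (N : ℕ) (_ : NeZero N) (P : ℕ), N * P = L * (∏ q ∈ Q₀, q) ∧
        (∀ q ∈ T, q ∣ N ∧ ¬ q * q ∣ N) ∧ (∀ l : ℕ, l.Prime → l ∣ N → l ∣ L) ∧ L ∣ N ∧
        ∃ J : tH1 (gamChar χ) K →ₗ[K] tH1 (gamChar (sigProd N T ε)) K, Function.Injective J ∧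
          ∀ l : ℕ, l.Prime → ¬ l ∣ L ∨ l ∈ T → ∀ x,
            J ((kap Q₀ ε l : K) • (natHecke χ l).app K x) =
              (natHecke (sigProd N T ε) l).app K (J x) := by
  classical
  induction Q₀ using Finset.induction_on with
  | empty =>
    intro L _ ε _ hQ _ χ hχ
    rw [Finset.empty_union] at hQ hχ
    refine ⟨L, inferInstance, 1, by simp, fun q hq => ⟨(hQ q hq).2.1, (hQ q hq).2.2⟩,
      fun l _ h => h, dvd_rfl, (tH1Cast (V := K) hχ).toLinearMap, (tH1Cast (V := K) hχ).injective,
      fun l hl _ x => ?_⟩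
    rw [show kap ∅ ε l = 1 from Finset.prod_empty, Units.val_one, one_smul]
    exact tH1Cast_natHecke (V := K) hχ l x
  | @insert q s hqs ih =>
    intro L _ ε hdisj hQ hodd χ hχ
    obtain ⟨hqp, hqL, hqq⟩ := hQ q (by simp)
    have hqT : q ∉ T := Finset.disjoint_left.mp hdisj (Finset.mem_insert_self q s)
    have hsT : Disjoint s T := hdisj.mono_left (Finset.subset_insert q s)
    have hqsT : q ∉ s ∪ T := by simp [hqs, hqT]
    have hins : insert q s ∪ T = insert q (s ∪ T) := Finset.insert_union q s T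
    have hs : ∀ r ∈ s ∪ T, r.Prime ∧ r ∣ L ∧ ¬ r * r ∣ L := fun r hr =>
      hQ r (hins ▸ Finset.mem_insert_of_mem hr)
    have hodd' : ∀ r ∈ s, ε r ^ 2 = 1 → ε r = 1 := fun r hr =>
      hodd r (Finset.mem_insert_of_mem hr)
    have hsplit : ∀ y, χ y = sigChar L (ε q) y ^ 2 * sigProd L (s ∪ T) ε y := fun y => by
      rw [hχ, sigProd_apply, sigProd_apply, hins, Finset.prod_insert hqsT]
    by_cases hε : ε q = 1
    · -- nothing to twist
      have hχ' : χ = sigProd L (s ∪ T) ε := MonoidHom.ext fun y => by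
        rw [hsplit, sigChar_of_dvd _ hqL, hε, MonoidHom.one_apply, one_pow, one_mul]
      obtain ⟨N, hN, P, hNP, hT, hNL, hLN, J, hJ, hJT⟩ := ih L ε hsT hs hodd' χ hχ'
      refine ⟨N, hN, P * q, ?_, hT, hNL, hLN, J, hJ, fun l hl hlL x => ?_⟩
      · rw [← mul_assoc, hNP, Finset.prod_insert hqs]
        ring
      · have : epsAt (ε q) l = 1 := by
          unfold epsAt
          split_ifs <;> simp [hε]
        rw [kap, Finset.prod_insert hqs, this, one_mul]
        exact hJT l hl hlL x
    · -- twist away the component at `q`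
      have := Fact.mk hqp
      have : NeZero q := ⟨hqp.ne_zero⟩
      have : NeZero (L * q) := ⟨mul_ne_zero (NeZero.ne L) hqp.ne_zero⟩
      obtain ⟨L', hL'⟩ := hqL
      have hL : L = L' * q := hL'.trans (mul_comm q L')
      have hqL : q ∣ L := ⟨L', hL'⟩
      have hcop : L'.Coprime q := ((hqp.coprime_iff_not_dvd).mpr fun h =>
        hqq (hL' ▸ mul_dvd_mul_left q h)).symm
      have hL0 : L' ≠ 0 := fun h => NeZero.ne L (by rw [hL', h, mul_zero])
      have hne : ∀ r ∈ s ∪ T, r ≠ q := fun r hr h => hqsT (h ▸ hr)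
      have hs' : ∀ r ∈ s ∪ T, r.Prime ∧ r ∣ L * q ∧ ¬ r * r ∣ L * q := fun r hr =>
        ⟨(hs r hr).1, dvd_mul_of_dvd_left (hs r hr).2.1 q, fun h => (hs r hr).2.2
          ((Nat.Coprime.dvd_of_dvd_mul_right (by
            have hco := (Nat.coprime_primes (hs r hr).1 hqp).mpr (hne r hr)
            exact Nat.Coprime.mul_left hco hco) h))⟩
      set χ' : (ZMod (L * q))ˣ →* Kˣ := sigProd (L * q) (s ∪ T) ε
      have hχ' : ∀ γ, gamChar χ (inclHom L q γ) = gamChar χ' γ * ε q (aMod L q γ) ^ 2 := by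
        intro γ
        rw [gamChar_apply, gamChar_apply, hsplit, aUnit_incl, mul_comm]
        refine congrArg₂ (· * ·) ?_ ?_
        · rw [sigProd_apply, sigProd_apply]
          exact Finset.prod_congr rfl fun r hr => by rw [sigChar_unitsMap _ (hs r hr).2.1]
        · rw [sigChar_unitsMap _ hqL, sigChar_of_dvd _ (dvd_mul_left q L)]
          rfl
      obtain ⟨N, hN, P, hNP, hT, hNL, hLN, J, hJ, hJT⟩ := ih (L * q) ε hsT hs' hodd' χ' rfl
      obtain ⟨v, hv⟩ : ∃ v, ε q v ^ 2 ≠ 1 := by
        by_contra! h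
        exact hε (hodd q (Finset.mem_insert_self q s) (MonoidHom.ext fun v => by simpa using h v))
      obtain ⟨x, hx1, hx2⟩ : ∃ x : (ZMod L)ˣ, ZMod.unitsMap (Dvd.intro q hL.symm) x = 1 ∧
          ZMod.unitsMap hqL x = v := by
        subst hL
        exact exists_unit_crt hcop v
      have hχx : χ x ≠ 1 := by
        rw [hsplit, sigChar_of_dvd _ hqL, hx2, sigProd_apply, Finset.prod_eq_one fun r hr => ?_,
          mul_one]
        · exact hv
        · have hrL' : r ∣ L' := ((Nat.coprime_primes (hs r hr).1 hqp).mpr (hne r hr)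
            ).dvd_of_dvd_mul_right (hL ▸ (hs r hr).2.1)
          rw [← sigChar_unitsMap _ hrL' (Dvd.intro q hL.symm), hx1, map_one, one_pow]
      refine ⟨N, hN, P, ?_, hT, fun l hl hd => ?_, (dvd_mul_right L q).trans hLN, J.comp (twistH (V := K) hqL (ε q) χ χ' hχ'),
        hJ.comp (twistH_injective hL hL0 hcop hqL (ε q) hε χ χ' hχ' x hx1 hχx),
        fun l hl hlL y => ?_⟩
      · rw [hNP, Finset.prod_insert hqs, mul_assoc]
      · exact (hl.dvd_mul.mp (hNL l hl hd)).elim id fun h =>
          ((Nat.prime_dvd_prime_iff_eq hl hqp).mp h) ▸ hqL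
      · have : NeZero l := ⟨hl.ne_zero⟩
        have hlq' : l ≠ q := by
          rintro rfl
          exact hlL.elim (fun h => h hqL) hqT
        have hlq : l.Coprime q := (Nat.coprime_primes hl hqp).mpr hlq'
        rcases hlL with hlL | hlT
        · have := Fact.mk hl
          have hlL' : ¬ l ∣ L * q := fun h => (hl.dvd_mul.mp h).elim hlL
            (hl.coprime_iff_not_dvd.mp hlq)
          have hχl : χ (ZMod.unitOfCoprime l (coprime_of_not_dvd hlL))
              = χ' (ZMod.unitOfCoprime l (coprime_of_not_dvd hlL'))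
                * ε q (ZMod.unitOfCoprime l hlq) ^ 2 := by
            rw [hsplit, sigChar_unitOfCoprime _ hqL,
              sigProd_unitOfCoprime _ (fun r hr => (hs r hr).2.1),
              sigProd_unitOfCoprime _ (fun r hr => (hs' r hr).2.1), epsAt, dif_pos hlq, mul_comm]
          rw [LinearMap.comp_apply, LinearMap.comp_apply, map_smul, natHecke_of_not_dvd χ hlL]
          show J ((kap (insert q s) ε l : K) • twistH (V := K) hqL (ε q) χ χ' hχ'
            ((isWeight_T χ hlL (coprime_of_not_dvd hlL)).op K y)) = _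
          rw [twistH_opT hqL (ε q) χ χ' hχ' hlL hlL' (coprime_of_not_dvd hlL)
            (coprime_of_not_dvd hlL') hlq hχl (isWeight_T χ hlL _) (isWeight_T χ' hlL' _),
            smul_smul, ← Units.val_mul, kap, Finset.prod_insert hqs, epsAt, dif_pos hlq,
            mul_comm (ε q _), mul_inv_cancel_right, ← hJT l hl (Or.inl hlL') _, kap,
            natHecke_of_not_dvd χ' hlL']
          rfl
        · have hlL : l ∣ L := (hQ l (Finset.mem_union_right _ hlT)).2.1
          have hlL' : l ∣ L * q := hlL.mul_right q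
          rw [LinearMap.comp_apply, LinearMap.comp_apply, map_smul, natHecke_of_dvd χ hlL]
          show J ((kap (insert q s) ε l : K) • twistH (V := K) hqL (ε q) χ χ' hχ'
            ((isWeight_U χ hlL).op K y)) = _
          rw [twistH_opU hqL (ε q) χ χ' hχ' hlL hlL' hlq (isWeight_U χ hlL) (isWeight_U χ' hlL'),
            smul_smul, ← Units.val_mul, kap, Finset.prod_insert hqs, epsAt, dif_pos hlq,
            mul_comm (ε q _), mul_inv_cancel_right, ← hJT l hl (Or.inr hlT) _, kap,
            natHecke_of_dvd χ' hlL']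
          rfl

end FLTA.RT

end
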