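import Fermat.Agent.RT.Diamond.Main
import Fermat.Agent.RT.Diamond.TwistKeep
import Fermat.Agent.RT.Diamond.IntegralEigen
import Fermat.Agent.RT.Diamond.ResidualOld
import Fermat.Agent.LT2.PointsTameOld
import Fermat.Agent.RT.Main.ModulesAlg

/-!
# The diamond relation at a point, from an eigenclass

A non-zero eigenclass in twisted cohomology over the fraction field, with the traces of Frobenius
of `ρ` as eigenvalues and a `U_q`-eigenvalue reducing to a root of the residual characteristic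
polynomial, gives `tr ρ(σ) = ε(u) + ε(u)⁻¹` for `σ` in inertia at `q` acting by `u` on the `q`-th
roots of unity.
-/

set_option autoImplicit false
set_option synthInstance.maxHeartbeats 400000

noncomputable section

open AlgebraicCurve ModularCurve CongruenceSubgroup IsLocalRing
open FLTA.Gamma0 (homPar0 homPar0Map IsParHom0)
open ModularCurve.Period (IsParabolicHom)

namespace FLTA.RT.Diamond

open FLTA.Periods FLTA.LevelRaising
open scoped MatrixGroups

local notation "Qb" => AlgebraicClosure ℚ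
local notation "Γℚ" => AlgebraicClosure ℚ ≃ₐ[ℚ] AlgebraicClosure ℚ

/-- A residually trivial character into the units of a domain of residue characteristic not two
with trivial square is trivial. -/
theorem eq_one_of_sq_eq_one {O : Type} [CommRing O] [IsDomain O] [IsLocalRing O]
    (h2 : (2 : ResidueField O) ≠ 0) {G : Type} [Group G] (f : G →* Oˣ)
    (hf : ∀ u, residue O (f u : O) = 1) (h : f ^ 2 = 1) : f = 1 := by
  refine MonoidHom.ext fun u => Units.ext ?_
  have h1 : (f u : O) ^ 2 = 1 := by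
    rw [← Units.val_pow_eq_pow_val, show f u ^ 2 = 1 from DFunLike.congr_fun h u, Units.val_one]
  rw [MonoidHom.one_apply, Units.val_one]
  rcases sq_eq_one_iff.mp h1 with e | e
  · exact e
  · refine absurd ?_ h2
    have := hf u
    rw [e, map_neg, map_one] at this
    linear_combination -this

/-- The twist of a domain valued class is a parabolic eigen homomorphism. -/
theorem exists_twist_hom {O : Type} [CommRing O] [IsDomain O] [CharZero O] {N q : ℕ} [NeZero N]
    [Fact q.Prime] [NeZero (N * q)] (hqN : q ∣ N) (ε : (ZMod q)ˣ →* Oˣ)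
    (g : tCocycles (gamChar (sqChar hqN ε)) O) (b : ℕ → O) (S : Finset ℕ)
    (hS : ∀ l : ℕ, l.Prime → l ∣ N * q → l ∈ S)
    (hg : ∀ l : ℕ, l.Prime → l ∉ S →
      (natHecke (sqChar hqN ε) l).app O (tClass _ O g) = b l • tClass _ O g)
    {l₀ : ℕ} (hl₀ : l₀.Prime) (hl₀S : l₀ ∉ S) (hl₀1 : (l₀ : ZMod (N * q)) = 1)
    (hne : (epsAt ε l₀ : O) * b l₀ ≠ (l₀ : O) + 1) :
    ∃ u : Additive (Gamma0 (N * q)) →+ O, IsParabolicHom (Gamma0 (N * q)) u ∧
      (∀ γ, u (Additive.ofMul γ) = twistFun hqN ε g.1 γ) ∧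
      ∀ l : ℕ, l.Prime → l ∉ S → heckeHom O (N * q) l u = ((epsAt ε l : O) * b l) • u := by
  have hq : q.Prime := Fact.out
  have hχ1 : ∀ γ, gamChar (sqChar hqN ε) (inclHom N q γ) =
      gamChar (1 : (ZMod (N * q))ˣ →* Oˣ) γ * ε (aMod N q γ) ^ 2 := fun γ => by
    rw [gamChar_apply, gamChar_apply, MonoidHom.one_apply, one_mul, aUnit_incl]
    show ε (ZMod.unitsMap hqN _) ^ 2 = _
    congr 2
    exact Units.ext (by simp [aMod, ZMod.unitsMap_def])
  have htriv : ∀ γ (v : O), (gamChar (1 : (ZMod (N * q))ˣ →* Oˣ) γ : O) • v = v := fun γ v => by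
    rw [gamChar_apply, MonoidHom.one_apply, Units.val_one, one_smul]
  let Φ := (tH1EquivHom htriv).toLinearMap.comp (twistH (V := O) hqN ε _ 1 hχ1)
  have hT : ∀ l : ℕ, l.Prime → l ∉ S → heckeHom O (N * q) l (Φ (tClass _ O g)) =
      ((epsAt ε l : O) * b l) • Φ (tClass _ O g) := by
    intro l hl hlS
    have := Fact.mk hl
    have : NeZero l := ⟨hl.ne_zero⟩
    have hlM : ¬ l ∣ N * q := fun h => hlS (hS l hl h)
    have hlN : ¬ l ∣ N := fun h => hlM (dvd_mul_of_dvd_left h q)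
    have hlq : l.Coprime q :=
      (Nat.coprime_primes hl hq).mpr fun h => hlM (h ▸ dvd_mul_left q N)
    have h1 := congrArg Φ (hg l hl hlS)
    rw [map_smul, natHecke_of_not_dvd _ hlN] at h1
    rw [epsAt, dif_pos hlq, mul_smul, ← h1]
    show _ = _ • tH1EquivHom htriv (twistH (V := O) hqN ε _ 1 hχ1
      ((isWeight_T (sqChar hqN ε) hlN (coprime_of_not_dvd hlN)).op O (tClass _ O g)))
    rw [twistH_opT hqN ε _ 1 hχ1 hlN hlM (coprime_of_not_dvd hlN) (coprime_of_not_dvd hlM) hlq (by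
        rw [MonoidHom.one_apply, one_mul]
        show ε (ZMod.unitsMap hqN _) ^ 2 = _
        rw [unitsMap_unitOfCoprime])
      (isWeight_T _ hlN _) (isWeight_T _ hlM _), map_smul, smul_smul, ← Units.val_mul,
      mul_inv_cancel, Units.val_one, one_smul]
    show heckeHom O (N * q) l (tH1EquivHom htriv (twistH (V := O) hqN ε _ 1 hχ1 (tClass _ O g)))
      = _
    rw [← tH1EquivHom_natHecke _ htriv hl, natHecke_of_not_dvd _ hlM]
    rfl
  refine ⟨Φ (tClass _ O g), ?_, fun γ => rfl, hT⟩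
  have := Fact.mk hl₀
  have h1 := isParabolicHom_of_eisenstein O (fun b hb => by simpa using hb)
    (fun h => hl₀S (hS l₀ hl₀ h)) hl₀1 (Φ (tClass _ O g))
  rw [hT l₀ hl₀ hl₀S, ← Nat.cast_smul_eq_nsmul O, ← sub_smul, Nat.cast_succ] at h1
  intro γ hγ
  exact (mul_eq_zero.mp (h1 γ hγ)).resolve_left (sub_ne_zero.mpr hne)

/-- An eigen homomorphism which vanishes at `-1`, with eigenvalue of `T_ℓ` different from `ℓ + 1`
for a prime `ℓ ≡ 1`, is parabolic. -/
theorem isParabolicHom_of_eigen_neg_one {N ℓ : ℕ} [NeZero N] [Fact ℓ.Prime] {κ : Type} [Field κ]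
    (hℓN : ¬ ℓ ∣ N) (hℓ1 : (ℓ : ZMod N) = 1) (φ : Additive (Gamma0 N) →+ κ) (b : κ)
    (hφ : heckeHom κ N ℓ φ = b • φ) (hb : b ≠ (ℓ : κ) + 1)
    (h1 : φ (Additive.ofMul ⟨-1, neg_one_mem_gamma0 N⟩) = 0) :
    IsParabolicHom (Gamma0 N) φ := by
  intro γ hγ
  let m : Gamma0 N := ⟨-1, neg_one_mem_gamma0 N⟩
  have key : ∀ γ' : Gamma0 N, φ (Additive.ofMul γ') = φ (Additive.ofMul γ) →
      ∀ (δ : SL(2, ℤ)) (n : ℤ), (γ' : SL(2, ℤ)) = δ * ModularGroup.T ^ n * δ⁻¹ →
        φ (Additive.ofMul γ) = 0 := by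
    intro γ' he δ n hn
    have h := heckeHom_conj_T hℓN κ hℓ1 φ δ n γ' hn
    rw [hφ, AddMonoidHom.smul_apply, he, nsmul_eq_mul, smul_eq_mul, ← sub_eq_zero, ← sub_mul,
      Nat.cast_succ] at h
    exact (mul_eq_zero.mp h).resolve_left (sub_ne_zero.mpr hb)
  obtain ⟨δ, n, hn⟩ := FLTA.Gamma0.ConjClass.exists_conj_eq_T_zpow (γ : SL(2, ℤ)) hγ
  rcases hn with hn | hn
  · exact key γ rfl δ⁻¹ n (by rw [← hn]; group)
  · refine key (m * γ) (by rw [ofMul_mul, map_add, h1, zero_add]) δ⁻¹ n ?_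
    have e : (ModularGroup.T ^ n : SL(2, ℤ)) = -(δ * (γ : SL(2, ℤ)) * δ⁻¹) := by simp [hn]
    rw [e]
    simp [m, mul_assoc]

/-- The bridge at a level where the twist is only at `q ≥ 5`; the residue characteristic may be
`2`. -/
theorem trace_inertia_of_class_single_five_le {p q L₀ : ℕ} [Fact p.Prime] [Fact q.Prime] [NeZero L₀]
    [NeZero (L₀ * q)] (hqL : ¬ q ∣ L₀) (hq5 : 5 ≤ q) (hpq : p ∣ q - 1)
    {O : Type} [CommRing O] [IsDomain O] [IsDiscreteValuationRing O] [CharZero O] [Algebra ℤ_[p] O]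
    [Module.Free ℤ_[p] O] [Module.Finite ℤ_[p] O] (hp : (p : O) ∈ maximalIdeal O)
    (ε : (ZMod q)ˣ →* Oˣ) (hε : ∀ u, residue O (ε u : O) = 1)
    (S : Finset ℕ) (hpS : p ∈ S) (hLS : ∀ l : ℕ, l.Prime → l ∣ L₀ * q → l ∈ S)
    (c : ℕ → O) (β : O)
    (z : tH1 (gamChar (charMap (algebraMap O (FractionRing O))
      (sqChar (dvd_mul_left q L₀) ε))) (FractionRing O)) (hz : z ≠ 0)
    (hT : ∀ l : ℕ, l.Prime → l ∉ S →
      algebraMap O (FractionRing O) (epsAt ε l : O) •
        (natHecke (charMap (algebraMap O (FractionRing O)) (sqChar (dvd_mul_left q L₀) ε)) l).app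
          (FractionRing O) z = algebraMap O (FractionRing O) (c l) • z)
    (hU : (natHecke (charMap (algebraMap O (FractionRing O)) (sqChar (dvd_mul_left q L₀) ε)) q).app
        (FractionRing O) z = algebraMap O (FractionRing O) β • z)
    (ρ : GaloisRepAdic O) (hdet : ρ.DetIsCyclotomic p)
    (htr : ∀ l : ℕ, l.Prime → l ∉ S → ∀ A : ValuationSubring Qb, A.LiesOverPrime l →
      ∀ σ : Γℚ, A.IsFrobeniusAt σ l → ρ.trace σ = c l)
    {A : ValuationSubring Qb} (hA : A.LiesOverPrime q) {F : Γℚ} (hF : A.IsFrobeniusAt F q)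
    (hβ : residue O (β * β - ρ.trace F * β + 1) = 0)
    (ht : residue O (ρ.trace F) ^ 2 ≠ 4)
    {l₀ : ℕ} (hl₀ : l₀.Prime) (hl₀S : l₀ ∉ S) (hl₀1 : (l₀ : ZMod (L₀ * q * q)) = 1)
    (hl₀c : residue O (c l₀) ≠ residue O ((l₀ + 1 : ℕ) : O))
    (hellO : ∀ φ : Additive (Gamma0 (L₀ * q * q)) →+ O, IsParabolicHom _ φ → IsParHom0 _ φ)
    (hellk : ∀ φ : Additive (Gamma0 (L₀ * q)) →+ ResidueField O,
      IsParabolicHom _ φ → IsParHom0 _ φ)
    {σ : Γℚ} (hσ : σ ∈ A.inertiaSubgroupIn ℚ) {ζ : Qbˣ} (hζ : IsPrimitiveRoot ζ q)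
    {w : (ZMod q)ˣ} (hw : σ (ζ : Qb) = (ζ : Qb) ^ (w : ZMod q).val) :
    ρ.trace σ = (ε w : O) + ((ε w)⁻¹ : Oˣ) := by
  classical
  have hpP : p.Prime := Fact.out
  have hqP : q.Prime := Fact.out
  have : NeZero (L₀ * q * q) := ⟨mul_ne_zero (NeZero.ne _) hqP.ne_zero⟩
  have hqp : q ≠ p := fun h => by
    rw [h] at hpq
    exact absurd (Nat.le_of_dvd (by have := hpP.two_le; omega) hpq) (by have := hpP.two_le; omega)
  have : CharP (ResidueField O) p := (CharP.charP_iff_prime_eq_zero hpP).mpr (by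
    rw [← map_natCast (residue O), residue_eq_zero_iff]
    exact hp)
  have hqN : q ∣ L₀ * q := dvd_mul_left q L₀
  set Λ : Set ℕ := {l | l.Prime ∧ (l ∉ S ∨ l = q)}
  let b : ℕ → O := fun l => if l = q then β else (((epsAt ε l)⁻¹ : Oˣ) : O) * c l
  have hqS : q ∈ S := hLS q hqP (dvd_mul_left q L₀)
  have hb : ∀ l, l ∉ S → b l = (((epsAt ε l)⁻¹ : Oˣ) : O) * c l := fun l hl =>
    if_neg (show l ≠ q from fun h => hl (h ▸ hqS))
  have hres : ∀ l, residue O (((epsAt ε l)⁻¹ : Oˣ) : O) = 1 := fun l => by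
    unfold epsAt
    split_ifs
    · rw [← map_inv]; exact hε _
    · simp
  have hT' : ∀ l ∈ Λ, (natHecke (charMap (algebraMap O (FractionRing O)) (sqChar hqN ε)) l).app (FractionRing O) z =
      algebraMap O (FractionRing O) (b l) • z := by
    rintro l ⟨hl, hl' | rfl⟩
    · rw [hb l hl', map_mul, mul_smul, ← hT l hl hl', smul_smul, ← map_mul, Units.inv_mul, map_one,
        one_smul]
    · rw [show b l = β from if_pos rfl]
      exact hU
  have hu : IsUnit (b l₀ - ((l₀ + 1 : ℕ) : O)) := by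
    by_contra h
    rw [← mem_nonunits_iff, ← mem_maximalIdeal, ← residue_eq_zero_iff, map_sub, hb l₀ hl₀S,
      map_mul, hres, one_mul, sub_eq_zero] at h
    exact hl₀c h
  obtain ⟨y, hy, hy0⟩ := exists_integral_eigen (K := FractionRing O) (sqChar hqN ε) Λ (fun l hl => hl.1) b z hz hT'
    ⟨hl₀, Or.inl hl₀S⟩ (fun h => hl₀S (hLS l₀ hl₀ h)) hu
  -- reduction
  have htriv : ∀ γ (v : ResidueField O), (gamChar (sqChar hqN ε) γ : O) • v = v := fun γ v => by
    rw [Algebra.smul_def]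
    show residue O (gamChar (sqChar hqN ε) γ : O) * v = v
    rw [gamChar_apply]
    show residue O ((ε (ZMod.unitsMap hqN (aUnit _ γ)) ^ 2 : Oˣ) : O) * v = v
    rw [Units.val_pow_eq_pow_val, map_pow, hε, one_pow, one_mul]
  obtain ⟨g, rfl⟩ := tClass_surjective _ y
  set xb := tH1EquivHom htriv (tH1Map (gamChar (sqChar hqN ε)) (Algebra.linearMap O (ResidueField O))
    (tClass _ O g)) with hxb
  have hxb0 : xb ≠ 0 := fun h => hy0 ((tH1EquivHom htriv).injective (h.trans (map_zero _).symm))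
  have hxg : ∀ γ, xb (Additive.ofMul γ) = residue O (g.1 γ) := fun γ => rfl
  have hxT : ∀ l ∈ Λ, heckeHom (ResidueField O) (L₀ * q) l xb = residue O (b l) • xb := by
    intro l hl
    rw [heckeHom_eq_int, ← heckeHom_eq_int (𝕜 := O), hxb, ← tH1EquivHom_natHecke (sqChar hqN ε) htriv hl.1,
      (natHecke (sqChar hqN ε) l).natural, hy l hl, map_smul, map_smul]
    exact AddMonoidHom.ext fun γ => rfl
  have hl₀N : (l₀ : ZMod (L₀ * q)) = 1 := by
    have e := congrArg (ZMod.castHom (dvd_mul_right (L₀ * q) q) (ZMod (L₀ * q))) hl₀1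
    rw [map_natCast, map_one] at e
    exact e
  have hxpar : IsParHom0 (Gamma0 (L₀ * q)) xb := by
    have := Fact.mk hl₀
    let m : Gamma0 (L₀ * q) := ⟨-1, neg_one_mem_gamma0 _⟩
    have hmm : m * m = 1 := Subtype.ext (by simp [m])
    have hχ : (gamChar (sqChar hqN ε) m : O) = 1 := by
      rw [gamChar_apply]
      show ((ε (ZMod.unitsMap hqN (aUnit _ m)) ^ 2 : Oˣ) : O) = 1
      have hm : aUnit (L₀ * q) m * aUnit (L₀ * q) m = 1 := by rw [← map_mul, hmm, map_one]
      rw [sq, ← map_mul, ← map_mul, hm, map_one, map_one, Units.val_one]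
    have hg0 : g.1 m = 0 := by
      have e1 : g.1 1 = 0 := by
        have h := g.2 1 1
        rw [one_mul, map_one, Units.val_one, one_smul] at h
        exact left_eq_add.mp h
      have h := g.2 m m
      rw [hmm, e1, hχ, one_smul, ← two_mul] at h
      exact (mul_eq_zero.mp h.symm).resolve_left two_ne_zero
    refine hellk xb (isParabolicHom_of_eigen_neg_one (fun h => hl₀S (hLS l₀ hl₀ h)) hl₀N xb
      (residue O (b l₀))
      (hxT l₀ ⟨hl₀, Or.inl hl₀S⟩) (fun h => hl₀c ?_) (by rw [hxg, hg0, map_zero]))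
    rw [hb l₀ hl₀S, map_mul, hres, one_mul] at h
    rw [h, Nat.cast_succ, map_add, map_natCast, map_one]
  set ρb := ρ.baseChangeAlong (residue O) inferInstance
  obtain ⟨yy, yy', hyy0, hxy, hTq, hTJ⟩ := LT2.exists_old_of_eigen_five_le (p := p) hqL hq5 hqp ρb
    (Avoid.detIsCyclotomic_baseChangeAlong _ _ hdet) S hpS hLS (fun l => residue O (c l))
    (fun l hl hlS B hB τ hτ => by
      rw [FLTA.RepTheory.trace_baseChangeAlong, htr l hl hlS B hB τ hτ])
    xb hxpar hxb0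
    (fun l hl hlS => by rw [hxT l ⟨hl, Or.inl hlS⟩, hb l hlS, map_mul, hres, one_mul])
    (residue O β) (by rw [hxT q ⟨hqP, Or.inr rfl⟩, show b q = β from if_pos rfl])
    hA hF (by
      rw [FLTA.RepTheory.trace_baseChangeAlong]
      simpa using hβ)
    (by rwa [FLTA.RepTheory.trace_baseChangeAlong])
  -- twist
  have hS' : ∀ l : ℕ, l.Prime → l ∣ L₀ * q * q → l ∈ S := fun l hl hd =>
    hLS l hl ((hl.dvd_mul.mp hd).elim id fun h => dvd_mul_of_dvd_right h L₀)
  obtain ⟨u, hupar, hug, huT⟩ := exists_twist_hom hqN ε g b S hS'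
    (fun l hl hlS => hy l ⟨hl, Or.inl hlS⟩) hl₀ hl₀S hl₀1 (by
      rw [hb l₀ hl₀S, ← mul_assoc, Units.mul_inv, one_mul]
      exact fun h => hl₀c (by rw [h]; push_cast; rfl))
  have hrel := inertia_relation_of_eigen (p := p) ρ hdet (fun m => ?hpm) S hpS hS' ⟨u, hellO u hupar⟩
    c (fun l hl hlS => by
      rw [← heckeHom_eq_int (𝕜 := O), huT l hl hlS, hb l hlS, ← mul_assoc, Units.mul_inv, one_mul]
      rfl)
    htr hqP hqp hA hσ
  case hpm =>
    obtain ⟨ϖ, hϖ⟩ := IsDiscreteValuationRing.exists_irreducible O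
    obtain ⟨k, hk⟩ := IsDiscreteValuationRing.ideal_eq_span_pow_irreducible
      (s := Ideal.span {((p ^ m : ℕ) : O)}) (by
        rw [Ne, Ideal.span_singleton_eq_bot, Nat.cast_eq_zero]
        exact pow_ne_zero m hpP.ne_zero) hϖ
    refine ⟨k, le_of_eq ?_⟩
    rw [hk, hϖ.maximalIdeal_eq, Ideal.span_singleton_pow]
  refine inertia_trace_eq_of_dvd (p := p) (L := L₀) hqL hpq
    (residue O) residue_surjective ε hε g.1 (fun a b => ?_) ⟨u, hellO u hupar⟩ hug yy yy'
    (fun γ => by rw [← hxg]; exact hxy γ) hyy0 (ρb.trace F)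
    (by rw [FLTA.RepTheory.trace_baseChangeAlong]; exact ht) hTq hTJ hA hσ (ρ.trace σ) hrel hζ hw
  rw [g.2 a b, smul_eq_mul, ← Units.val_pow_eq_pow_val]
  refine congrArg (g.1 a + · * g.1 b) (congrArg Units.val ?_)
  show ε (ZMod.unitsMap hqN (aUnit _ a)) ^ 2 = _
  congr 2

/-- A prime `q ≡ 1` modulo an odd prime is at least `5`. -/
theorem five_le_of_dvd_sub_one {p q : ℕ} [hp : Fact p.Prime] [hq : Fact q.Prime] (hp2 : p ≠ 2)
    (hpq : p ∣ q - 1) : 5 ≤ q := by
  have h1 := hp.out.two_le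
  have h2 := hq.out.two_le
  have h3 := Nat.le_of_dvd (by omega) hpq
  have h4 : q ≠ 4 := fun h => absurd (h ▸ hq.out) (by norm_num)
  omega

/-- The bridge at a level where the twist is only at `q`. -/
theorem trace_inertia_of_class_single {p q L₀ : ℕ} [Fact p.Prime] [Fact q.Prime] [NeZero L₀]
    [NeZero (L₀ * q)] (hqL : ¬ q ∣ L₀) (hp2 : p ≠ 2) (hpq : p ∣ q - 1)
    {O : Type} [CommRing O] [IsDomain O] [IsDiscreteValuationRing O] [CharZero O] [Algebra ℤ_[p] O]
    [Module.Free ℤ_[p] O] [Module.Finite ℤ_[p] O] (hp : (p : O) ∈ maximalIdeal O)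
    (ε : (ZMod q)ˣ →* Oˣ) (hε : ∀ u, residue O (ε u : O) = 1)
    (S : Finset ℕ) (hpS : p ∈ S) (hLS : ∀ l : ℕ, l.Prime → l ∣ L₀ * q → l ∈ S)
    (c : ℕ → O) (β : O)
    (z : tH1 (gamChar (charMap (algebraMap O (FractionRing O))
      (sqChar (dvd_mul_left q L₀) ε))) (FractionRing O)) (hz : z ≠ 0)
    (hT : ∀ l : ℕ, l.Prime → l ∉ S →
      algebraMap O (FractionRing O) (epsAt ε l : O) •
        (natHecke (charMap (algebraMap O (FractionRing O)) (sqChar (dvd_mul_left q L₀) ε)) l).app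
          (FractionRing O) z = algebraMap O (FractionRing O) (c l) • z)
    (hU : (natHecke (charMap (algebraMap O (FractionRing O)) (sqChar (dvd_mul_left q L₀) ε)) q).app
        (FractionRing O) z = algebraMap O (FractionRing O) β • z)
    (ρ : GaloisRepAdic O) (hdet : ρ.DetIsCyclotomic p)
    (htr : ∀ l : ℕ, l.Prime → l ∉ S → ∀ A : ValuationSubring Qb, A.LiesOverPrime l →
      ∀ σ : Γℚ, A.IsFrobeniusAt σ l → ρ.trace σ = c l)
    {A : ValuationSubring Qb} (hA : A.LiesOverPrime q) {F : Γℚ} (hF : A.IsFrobeniusAt F q)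
    (hβ : residue O (β * β - ρ.trace F * β + 1) = 0)
    (ht : residue O (ρ.trace F) ^ 2 ≠ 4)
    {l₀ : ℕ} (hl₀ : l₀.Prime) (hl₀S : l₀ ∉ S) (hl₀1 : (l₀ : ZMod (L₀ * q * q)) = 1)
    (hl₀c : residue O (c l₀) ≠ residue O ((l₀ + 1 : ℕ) : O))
    (hellO : ∀ φ : Additive (Gamma0 (L₀ * q * q)) →+ O, IsParabolicHom _ φ → IsParHom0 _ φ)
    (hellk : ∀ φ : Additive (Gamma0 (L₀ * q)) →+ ResidueField O,
      IsParabolicHom _ φ → IsParHom0 _ φ)
    {σ : Γℚ} (hσ : σ ∈ A.inertiaSubgroupIn ℚ) {ζ : Qbˣ} (hζ : IsPrimitiveRoot ζ q)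
    {w : (ZMod q)ˣ} (hw : σ (ζ : Qb) = (ζ : Qb) ^ (w : ZMod q).val) :
    ρ.trace σ = (ε w : O) + ((ε w)⁻¹ : Oˣ) :=
  trace_inertia_of_class_single_five_le hqL (five_le_of_dvd_sub_one hp2 hpq) hpq hp ε hε S hpS hLS
    c β z hz hT hU ρ hdet htr hA hF hβ ht hl₀ hl₀S hl₀1 hl₀c hellO hellk hσ hζ hw

/-- **The diamond relation at a point, from an eigenclass.** -/
theorem trace_inertia_of_class {p q L : ℕ} [Fact p.Prime] [Fact q.Prime] [NeZero L]
    (hp2 : p ≠ 2) {O : Type} [CommRing O] [IsDomain O] [IsDiscreteValuationRing O] [CharZero O]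
    [Algebra ℤ_[p] O] [Module.Free ℤ_[p] O] [Module.Finite ℤ_[p] O]
    (hp : (p : O) ∈ maximalIdeal O)
    (Q : Finset ℕ) (hQ : ∀ l ∈ Q, l.Prime ∧ l ∣ L ∧ ¬ l * l ∣ L) (hq : q ∈ Q) (hpq : p ∣ q - 1)
    (ε : ∀ l : ℕ, (ZMod l)ˣ →* Oˣ) (hε : ∀ l ∈ Q, ∀ u, residue O (ε l u : O) = 1)
    (S : Finset ℕ) (hpS : p ∈ S) (hLS : ∀ l : ℕ, l.Prime → l ∣ L → l ∈ S)
    (c : ℕ → O) (α : O)
    (z : tH1 (gamChar (charMap (algebraMap O (FractionRing O)) (sigProd L Q ε))) (FractionRing O))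
    (hz : z ≠ 0)
    (hT : ∀ l : ℕ, l.Prime → l ∉ S →
      algebraMap O (FractionRing O) (kap Q ε l : O) •
        (natHecke (charMap (algebraMap O (FractionRing O)) (sigProd L Q ε)) l).app
          (FractionRing O) z = algebraMap O (FractionRing O) (c l) • z)
    (hU : (natHecke (charMap (algebraMap O (FractionRing O)) (sigProd L Q ε)) q).app
        (FractionRing O) z = algebraMap O (FractionRing O) α • z)
    (ρ : GaloisRepAdic O) (hdet : ρ.DetIsCyclotomic p)
    (htr : ∀ l : ℕ, l.Prime → l ∉ S → ∀ A : ValuationSubring Qb, A.LiesOverPrime l →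
      ∀ σ : Γℚ, A.IsFrobeniusAt σ l → ρ.trace σ = c l)
    {A : ValuationSubring Qb} (hA : A.LiesOverPrime q) {F : Γℚ} (hF : A.IsFrobeniusAt F q)
    (hα : residue O (α * α - ρ.trace F * α + 1) = 0)
    (ht : residue O (ρ.trace F) ^ 2 ≠ 4)
    {l₀ : ℕ} (hl₀ : l₀.Prime) (hl₀S : l₀ ∉ S)
    (hl₀1 : (l₀ : ZMod (L * ∏ l ∈ Q, l)) = 1)
    (hl₀c : residue O (c l₀) ≠ residue O ((l₀ + 1 : ℕ) : O))
    (hell : ∀ M : ℕ, L ∣ M →
      (∀ φ : Additive (Gamma0 M) →+ O, IsParabolicHom _ φ → IsParHom0 _ φ) ∧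
        ∀ φ : Additive (Gamma0 M) →+ ResidueField O, IsParabolicHom _ φ → IsParHom0 _ φ)
    {σ : Γℚ} (hσ : σ ∈ A.inertiaSubgroupIn ℚ) {ζ : Qbˣ} (hζ : IsPrimitiveRoot ζ q)
    {w : (ZMod q)ˣ} (hw : σ (ζ : Qb) = (ζ : Qb) ^ (w : ZMod q).val) :
    ρ.trace σ = (ε q w : O) + ((ε q w)⁻¹ : Oˣ) := by
  classical
  have hpP : p.Prime := Fact.out
  have hqP : q.Prime := Fact.out
  have hinj : Function.Injective (algebraMap O (FractionRing O)) := IsFractionRing.injective O (FractionRing O)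
  have : CharZero (FractionRing O) := charZero_of_injective_ringHom hinj
  have h2 : (2 : ResidueField O) ≠ 0 := fun h => hp2 (by
    have : CharP (ResidueField O) p := (CharP.charP_iff_prime_eq_zero hpP).mpr (by
      rw [← map_natCast (residue O), residue_eq_zero_iff]
      exact hp)
    have h' : ((2 : ℕ) : ResidueField O) = 0 := by exact_mod_cast h
    rw [CharP.cast_eq_zero_iff (ResidueField O) p] at h'
    exact (Nat.prime_dvd_prime_iff_eq hpP Nat.prime_two).mp h')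
  set εK : ∀ l : ℕ, (ZMod l)ˣ →* (FractionRing O)ˣ := fun l => charMap (algebraMap O (FractionRing O)) (ε l) with hεK
  have hunion : Q.erase q ∪ {q} = Q := by
    rw [Finset.union_comm, ← Finset.insert_eq, Finset.insert_erase hq]
  obtain ⟨N, hN0, P, hNP, hTN, hNL, hLN, J, hJ, hJT⟩ := exists_realisation_keep (K := (FractionRing O)) {q}
    (Q.erase q) L εK (by simp) (by rw [hunion]; exact hQ)
    (fun l hl h => by
      have hl' := (Finset.mem_erase.mp hl).2
      have hsq : ε l ^ 2 = 1 := MonoidHom.ext fun u => Units.ext (hinj (by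
        have := congrArg Units.val (DFunLike.congr_fun h u)
        simp only [MonoidHom.pow_apply, Units.val_pow_eq_pow_val,
          MonoidHom.one_apply, Units.val_one] at this ⊢
        rw [map_pow, map_one]
        exact this))
      refine MonoidHom.ext fun u => ?_
      simp [εK, eq_one_of_sq_eq_one h2 (ε l) (hε l hl') hsq, charMap])
    (charMap (algebraMap O (FractionRing O)) (sigProd L Q ε)) (by rw [hunion, charMap_sigProd])
  obtain ⟨L₀, rfl⟩ : ∃ L₀, N = L₀ * q := (hTN q (Finset.mem_singleton_self q)).1.imp fun a h =>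
    h.trans (mul_comm q a)
  have hqL : ¬ q ∣ L₀ := fun h =>
    (hTN q (Finset.mem_singleton_self q)).2 (mul_dvd_mul_right h q)
  have : NeZero L₀ := ⟨fun h => NeZero.ne (L₀ * q) (by rw [h, zero_mul])⟩
  have hdvd : L₀ * q * q ∣ L * ∏ l ∈ Q, l := by
    rw [← Finset.mul_prod_erase Q (fun l => l) hq, mul_left_comm, ← hNP, mul_comm q]
    exact mul_dvd_mul_right (dvd_mul_right _ _) q
  have hsig : sigProd (L₀ * q) {q} εK =
      charMap (algebraMap O (FractionRing O)) (sqChar (dvd_mul_left q L₀) (ε q)) := by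
    refine MonoidHom.ext fun u => Units.ext ?_
    rw [sigProd_apply, Finset.prod_singleton, sigChar_of_dvd _ (dvd_mul_left q L₀)]
    simp [εK, sqChar, charMap]
  have hrw : ∀ l : ℕ, l ≠ q → kap Q ε l = epsAt (ε q) l * kap (Q.erase q) ε l := fun l _ => by
    rw [kap, kap, ← Finset.mul_prod_erase Q _ hq]
  have hkK : ∀ l : ℕ, (kap (Q.erase q) εK l : (FractionRing O)) =
      algebraMap O (FractionRing O) (kap (Q.erase q) ε l : O) := fun l => coe_kap_charMap _ _ ε l
  set z' := tH1Cast (V := FractionRing O) hsig (J z)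
  have hz' : z' ≠ 0 := fun h => hz (hJ (((tH1Cast (V := FractionRing O) hsig).injective
    (h.trans (map_zero _).symm)).trans (map_zero J).symm))
  have hk1 : residue O (kap (Q.erase q) ε q : O) = 1 := by
    rw [kap, Units.coe_prod, map_prod]
    refine Finset.prod_eq_one fun l hl => ?_
    unfold epsAt
    split_ifs
    · exact hε l (Finset.mem_erase.mp hl).2 _
    · simp
  refine trace_inertia_of_class_single hqL hp2 hpq hp (ε q) (hε q hq) S hpS
    (fun l hl h => hLS l hl (hNL l hl h)) c ((kap (Q.erase q) ε q : O) * α) z' hz'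
    (fun l hl hlS => ?_) ?_ ρ hdet htr hA hF ?_ ht hl₀ hl₀S ?_ hl₀c
    (hell _ (hLN.trans (dvd_mul_right _ _))).1 (hell _ hLN).2 hσ hζ hw
  · have hlL : ¬ l ∣ L := fun h => hlS (hLS l hl h)
    have hlq : l ≠ q := fun h => hlL (h ▸ (hQ q hq).2.1)
    have h := congrArg (tH1Cast (V := FractionRing O) hsig) (hJT l hl (Or.inl hlL) z)
    rw [tH1Cast_natHecke] at h
    rw [← h, hkK, map_smul, map_smul, smul_smul, ← map_mul, ← Units.val_mul, ← hrw l hlq,
      ← map_smul, ← map_smul, hT l hl hlS, map_smul, map_smul]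
  · have h := congrArg (tH1Cast (V := FractionRing O) hsig)
      (hJT q hqP (Or.inr (Finset.mem_singleton_self q)) z)
    rw [tH1Cast_natHecke] at h
    rw [← h, hkK, map_smul, map_smul, hU, map_smul, map_smul, map_mul, smul_smul]
  · simpa [map_sub, map_add, map_mul, hk1] using hα
  · have e := congrArg (ZMod.castHom hdvd (ZMod (L₀ * q * q))) hl₀1
    rw [map_natCast, map_one] at e
    exact e

end FLTA.RT.Diamond

end
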