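import Fermat.Agent.RT.Diamond.RawHecke
import Fermat.Agent.RT.LocalExtra
import Fermat.Agent.Congruence.Torsion
import Fermat.Agent.Density.Frobenius
import Fermat.Agent.Deformation.AdicMatrix
import Fermat.Agent.Galois.Cyclotomic

/-!
# The quadratic relation of Galois on the torsion points of an eigen class

For a class `P` with values in `O` which is an eigenclass of the good Hecke operators with the
traces of Frobenius of a representation `ρ` as eigenvalues, every `σ` satisfies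
`σ² - tr ρ(σ) σ + det ρ(σ) = 0` on the torsion points of `P`.
-/

set_option autoImplicit false
set_option synthInstance.maxHeartbeats 400000

noncomputable section

open AlgebraicCurve ModularCurve CongruenceSubgroup IsLocalRing
open FLTA.Gamma0 (homPar0 homPar0Map)

namespace FLTA.RT.Diamond

open FLTA.Deformation

local notation "Qb" => AlgebraicClosure ℚ
local notation "Γℚ" => AlgebraicClosure ℚ ≃ₐ[ℚ] AlgebraicClosure ℚ

section pre

variable {O B : Type} [CommRing O] [AddCommGroup B]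

/-- A functional composed with multiplication. -/
def pre (e : O →+ B) (a : O) : O →+ B := e.comp (AddMonoidHom.mulLeft a)

theorem pre_apply (e : O →+ B) (a x : O) : pre e a x = e (a * x) := rfl

theorem pre_pre (e : O →+ B) (a b : O) : pre (pre e a) b = pre e (a * b) :=
  AddMonoidHom.ext fun x => by simp [pre_apply, mul_assoc]

theorem pre_add (e : O →+ B) (a b : O) : pre e (a + b) = pre e a + pre e b :=
  AddMonoidHom.ext fun x => by simp [pre_apply, add_mul]

theorem pre_sub (e : O →+ B) (a b : O) : pre e (a - b) = pre e a - pre e b :=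
  AddMonoidHom.ext fun x => by simp [pre_apply, sub_mul]

theorem pre_one (e : O →+ B) : pre e 1 = e :=
  AddMonoidHom.ext fun x => by simp [pre_apply]

theorem pre_natCast (e : O →+ B) (k : ℕ) : pre e (k : O) = k • e :=
  AddMonoidHom.ext fun x => by rw [pre_apply, ← nsmul_eq_mul, map_nsmul]; rfl

theorem pre_eq_of_sub_mem {m : ℕ} (e : O →+ ZMod m) {a b : O}
    (h : a - b ∈ Ideal.span {(m : O)}) : pre e a = pre e b := by
  obtain ⟨c, hc⟩ := Ideal.mem_span_singleton'.mp h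
  refine sub_eq_zero.mp ?_
  rw [← pre_sub, ← hc]
  refine AddMonoidHom.ext fun x => ?_
  rw [pre_apply, mul_comm c, mul_assoc, ← nsmul_eq_mul, map_nsmul, nsmul_eq_mul,
    ZMod.natCast_self, zero_mul]
  rfl

end pre

theorem mat2_sq {R : Type} [CommRing R] (G : Matrix (Fin 2) (Fin 2) R) :
    G * G = G.trace • G - G.det • 1 := by
  ext i j
  fin_cases i <;> fin_cases j <;>
    simp [Matrix.mul_apply, Fin.sum_univ_two, Matrix.trace_fin_two, Matrix.det_fin_two] <;> ring

variable {M p : ℕ} [NeZero M] [Fact p.Prime]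
  {O : Type} [CommRing O] [IsLocalRing O]

/-- The points of the functionals composed with `P`. -/
def classPts (m : ℕ) (P : homPar0 ℤ (Gamma0 M) O) : (O →+ ZMod (p ^ m)) →+ JZero M :=
  haveI : NeZero (p ^ m) := ⟨pow_ne_zero m (Fact.out (p := p.Prime)).ne_zero⟩
  AddMonoidHom.mk' (fun e => (rawPoint M (p ^ m) (homPar0Map (Gamma0 M) e P) : JZero M))
    fun e e' => by
      rw [show homPar0Map (Gamma0 M) (e + e') P =
          homPar0Map (Gamma0 M) e P + homPar0Map (Gamma0 M) e' P from Subtype.ext rfl]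
      simp only [rawPoint, map_add, AddSubgroup.coe_add]

theorem galois_smul_zero (σ : Γℚ) : σ • (0 : JZero M) = 0 :=
  map_zero (DistribSMul.toAddMonoidHom (JZero M) σ)

theorem galois_smul_add (σ : Γℚ) (x y : JZero M) : σ • (x + y) = σ • x + σ • y :=
  map_add (DistribSMul.toAddMonoidHom (JZero M) σ) x y

theorem galois_smul_sub (σ : Γℚ) (x y : JZero M) : σ • (x - y) = σ • x - σ • y :=
  map_sub (DistribSMul.toAddMonoidHom (JZero M) σ) x y

theorem nsmul_jTors' {n : ℕ} (x : FLTA.Kummer.JTors M n) : n • (x : JZero M) = 0 := by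
  rw [← natCast_zsmul]
  exact AlgebraicCurve.Pic0.mem_torsion.mp x.2

/-- The quadratic relation at an element, for all maps to torsion with the given Hecke
eigenvalues. -/
theorem quadratic_of_pow (m : ℕ) (c : ℕ → O) (good : ℕ → Prop)
    (hT : ∀ (l : ℕ) (hl : l.Prime), good l → ∀ (g : Γℚ) (x : JZero M),
      heckeOperatorBar M ⟨l, hl⟩ (g • x) = g • heckeOperatorBar M ⟨l, hl⟩ x)
    (τ : Γℚ) (G : Matrix (Fin 2) (Fin 2) O)
    (hτ : ∀ Φ : (O →+ ZMod (p ^ m)) →+ JZero M,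
      (∀ (l : ℕ) (hl : l.Prime), good l → ∀ e, heckeOperatorBar M ⟨l, hl⟩ (Φ e) = Φ (pre e (c l))) →
      ∀ e, τ • τ • Φ e = τ • Φ (pre e G.trace) - Φ (pre e G.det))
    (k : ℕ) (Φ : (O →+ ZMod (p ^ m)) →+ JZero M)
    (hΦ : ∀ (l : ℕ) (hl : l.Prime), good l → ∀ e,
      heckeOperatorBar M ⟨l, hl⟩ (Φ e) = Φ (pre e (c l)))
    (e : O →+ ZMod (p ^ m)) :
    τ ^ k • τ ^ k • Φ e = τ ^ k • Φ (pre e (G ^ k).trace) - Φ (pre e (G ^ k).det) := by
  obtain ⟨a, b, hG, hk⟩ : ∃ a b : O, G ^ k = a • G + b • 1 ∧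
      ∀ e, τ ^ k • Φ e = τ • Φ (pre e a) + Φ (pre e b) := by
    induction k with
    | zero =>
      refine ⟨0, 1, by simp, fun e => ?_⟩
      rw [pow_zero, one_smul, pre_one,
        show pre e 0 = 0 from AddMonoidHom.ext fun x => by simp [pre_apply], map_zero, galois_smul_zero,
        zero_add]
    | succ k ih =>
      obtain ⟨a, b, hG, hk⟩ := ih
      refine ⟨a * G.trace + b, -(a * G.det), ?_, fun e => ?_⟩
      · rw [pow_succ, hG, add_mul, smul_mul_assoc, mat2_sq, smul_mul_assoc, one_mul, smul_sub,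
          smul_smul, smul_smul, add_smul, neg_smul]
        abel
      · rw [pow_succ', mul_smul, hk, galois_smul_add, hτ Φ hΦ, pre_pre, pre_pre, pre_add, map_add,
          galois_smul_add, show pre e (-(a * G.det)) = -pre e (a * G.det) from
            AddMonoidHom.ext fun x => by simp [pre_apply], map_neg]
        abel
  have hcomm : ∀ x : JZero M, τ ^ k • τ • x = τ • τ ^ k • x := fun x => by
    rw [← mul_smul, ← mul_smul, ← pow_succ, ← pow_succ']
  have htr : (G ^ k).trace = a * G.trace + 2 * b := by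
    rw [hG, Matrix.trace_add, Matrix.trace_smul, Matrix.trace_smul, Matrix.trace_one,
      Fintype.card_fin]
    push_cast
    simp only [smul_eq_mul]
    ring
  have hdet : (G ^ k).det = a * a * G.det + a * b * G.trace + b * b := by
    rw [hG]
    simp [Matrix.det_fin_two, Matrix.trace_fin_two]
    ring
  let L : O →+ JZero M := AddMonoidHom.mk' (fun x => τ • Φ (pre e x)) fun x y => by
    rw [pre_add, map_add, galois_smul_add]
  let K : O →+ JZero M := AddMonoidHom.mk' (fun x => Φ (pre e x)) fun x y => by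
    rw [pre_add, map_add]
  have hL : ∀ x, τ • Φ (pre e x) = L x := fun _ => rfl
  have hK : ∀ x, Φ (pre e x) = K x := fun _ => rfl
  rw [hk e, galois_smul_add, hcomm, hk, hk, hk, galois_smul_add, hτ Φ hΦ]
  simp only [pre_pre]
  simp only [hL]
  simp only [hK]
  rw [htr, hdet,
    show (a * G.trace + 2 * b) * a = a * a * G.trace + (a * b + b * a) by ring,
    show (a * G.trace + 2 * b) * b = a * b * G.trace + (b * b + b * b) by ring]
  simp only [map_add]
  abel

/-- Galois satisfies the quadratic of `ρ` on the torsion points of an eigen class. -/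
theorem galois_relation_of_eigen [IsNoetherianRing O] (ρ : GaloisRepAdic O)
    (hdet : ρ.DetIsCyclotomic p)
    (hpm : ∀ m : ℕ, ∃ N : ℕ, maximalIdeal O ^ N ≤ Ideal.span {((p ^ m : ℕ) : O)})
    (S : Finset ℕ) (hpS : p ∈ S) (hMS : ∀ l : ℕ, l.Prime → l ∣ M → l ∈ S)
    (P : homPar0 ℤ (Gamma0 M) O) (c : ℕ → O)
    (hc : ∀ l : ℕ, l.Prime → l ∉ S →
      FLTA.Periods.heckeHom ℤ M l P.1 = (AddMonoidHom.mulLeft (c l)).comp P.1)
    (htr : ∀ l : ℕ, l.Prime → l ∉ S → ∀ A : ValuationSubring Qb, A.LiesOverPrime l →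
      ∀ σ : Γℚ, A.IsFrobeniusAt σ l → ρ.trace σ = c l)
    (σ : Γℚ) (m : ℕ) (e : O →+ ZMod (p ^ m)) :
    σ • σ • classPts m P e - σ • classPts m P (pre e (ρ.trace σ))
      + classPts m P (pre e (LinearMap.det (ρ.ρ σ))) = 0 := by
  have hp : p.Prime := Fact.out
  haveI : NeZero (p ^ m) := ⟨pow_ne_zero m hp.ne_zero⟩
  set Φ := classPts (p := p) m P with hΦdef
  have hΦmem : ∀ e, (p ^ m) • Φ e = 0 := fun e => nsmul_jTors'
    (rawPoint M (p ^ m) (homPar0Map (Gamma0 M) e P))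
  have hΦ : ∀ (l : ℕ) (hl : l.Prime), l ∉ S → ∀ e,
      heckeOperatorBar M ⟨l, hl⟩ (Φ e) = Φ (pre e (c l)) := fun l hl hlS e => by
    refine heckeOperatorBar_rawPoint hl (fun h => hlS (hMS l hl h)) _ _ ?_
    rw [FLTA.Gamma0.homPar0Map_coe, FLTA.Gamma0.homPar0Map_coe, FLTA.Periods.heckeHom_comp,
      hc l hl hlS]
    rfl
  -- a level at which `ρ` and the torsion points are constant
  obtain ⟨N, hN⟩ := hpm m
  obtain ⟨L₁, hL₁, h1⟩ := GaloisReps.exists_level_galMat M (p ^ m)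
  obtain ⟨L₂, hL₂, h2⟩ := matCont_toMat ρ N
  haveI := hL₁
  haveI := hL₂
  obtain ⟨l, hl, hlS, A, hA, τ, hτ, k, hk⟩ :=
    Density.exists_frobenius_pow_eq (L₁ ⊔ L₂) S σ
  have hg : ∀ (L : IntermediateField ℚ Qb), L ≤ L₁ ⊔ L₂ → ∀ x ∈ L, ((τ ^ k)⁻¹ * σ) x = x :=
    fun L hL x hx => by
      rw [AlgEquiv.mul_apply, ← hk x (hL hx), ← AlgEquiv.mul_apply, inv_mul_cancel,
        AlgEquiv.one_apply]
  have hfix : ∀ y : FLTA.Kummer.JTors M (p ^ m), σ • (y : JZero M) = τ ^ k • (y : JZero M) :=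
    fun y => by
      conv_lhs => rw [← mul_inv_cancel_left (τ ^ k) σ, mul_smul,
        (GaloisReps.galMat_eq_one_iff M (p ^ m) _).mp (h1 _ (hg L₁ le_sup_left)) y]
  have hmat : ∀ i j, toMat ρ σ i j - (toMat ρ τ ^ k) i j ∈ Ideal.span {((p ^ m : ℕ) : O)} := by
    intro i j
    refine hN ?_
    have e0 : toMat ρ σ - toMat ρ τ ^ k = toMat ρ τ ^ k * (toMat ρ ((τ ^ k)⁻¹ * σ) - 1) := by
      rw [mul_sub, mul_one, ← map_pow, ← map_mul, mul_inv_cancel_left]
    rw [← Matrix.sub_apply, e0, Matrix.mul_apply]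
    refine Ideal.sum_mem _ fun x _ => ?_
    rw [Matrix.sub_apply]
    exact Ideal.mul_mem_left _ _ (h2 _ (hg L₂ le_sup_right) x j)
  set H := toMat ρ τ ^ k with hH
  have htrH : ρ.trace σ - H.trace ∈ Ideal.span {((p ^ m : ℕ) : O)} := by
    rw [← trace_toMat, Matrix.trace_fin_two, Matrix.trace_fin_two, add_sub_add_comm]
    exact add_mem (hmat 0 0) (hmat 1 1)
  have hdetH : LinearMap.det (ρ.ρ σ) - H.det ∈ Ideal.span {((p ^ m : ℕ) : O)} := by
    rw [← LinearMap.det_toMatrix (repBasis ρ), ← toMat_apply, Matrix.det_fin_two,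
      Matrix.det_fin_two,
      show ∀ a b c d a' b' c' d' : O, a * d - b * c - (a' * d' - b' * c') =
        (a - a') * d + a' * (d - d') - ((b - b') * c + b' * (c - c')) by intros; ring]
    exact sub_mem (add_mem (Ideal.mul_mem_right _ _ (hmat 0 0)) (Ideal.mul_mem_left _ _ (hmat 1 1)))
      (add_mem (Ideal.mul_mem_right _ _ (hmat 0 1)) (Ideal.mul_mem_left _ _ (hmat 1 0)))
  -- Eichler–Shimura at `l`
  have hlM : ¬ l ∣ M := fun h => hlS (hMS l hl h)
  have hlp : l ≠ p := fun h => hlS (h ▸ hpS)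
  have hfrob : ∀ Ψ : (O →+ ZMod (p ^ m)) →+ JZero M,
      (∀ (r : ℕ) (hr : r.Prime), r ∉ S → ∀ e,
        heckeOperatorBar M ⟨r, hr⟩ (Ψ e) = Ψ (pre e (c r))) →
      ∀ e, τ • τ • Ψ e =
        τ • Ψ (pre e (toMat ρ τ).trace) - Ψ (pre e (toMat ρ τ).det) := by
    intro Ψ hΨ e
    have hpe : p ^ m • Ψ e = 0 := by
      rw [← map_nsmul, show p ^ m • e = 0 from AddMonoidHom.ext fun x => by
        simp [nsmul_eq_mul], map_zero]
    have hES := FLTA.Congruence.frobenius_quadratic_torsion hl hlM hA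
      (LocalGalois.not_dvd_pow_of_ne hl hp hlp.symm m) hτ hpe
    rw [← GaloisReps.heckeOperatorBar_galois, hΨ l hl hlS, natCast_zsmul, ← map_nsmul,
      ← pre_natCast] at hES
    rw [trace_toMat, htr l hl hlS A hA τ hτ, toMat_apply, LinearMap.det_toMatrix,
      LocalGalois.det_frobenius_eq ρ hdet hl hp hlp.symm hA hτ]
    rw [sub_add] at hES
    exact sub_eq_zero.mp hES
  have hrel := quadratic_of_pow m c (fun r => r ∉ S)
    (fun r hr _ g x => (GaloisReps.heckeOperatorBar_galois M ⟨r, hr⟩ g x).symm) τ (toMat ρ τ) hfrob k Φ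
    hΦ e
  rw [pre_eq_of_sub_mem e htrH, pre_eq_of_sub_mem e hdetH]
  have e1 : σ • Φ e = τ ^ k • Φ e := hfix (rawPoint M (p ^ m) (homPar0Map (Gamma0 M) e P))
  have e2 : ∀ e', σ • Φ e' = τ ^ k • Φ e' := fun e' =>
    hfix (rawPoint M (p ^ m) (homPar0Map (Gamma0 M) e' P))
  have e3 : σ • τ ^ k • Φ e = τ ^ k • τ ^ k • Φ e :=
    hfix ⟨τ ^ k • Φ e, AlgebraicCurve.Pic0.mem_torsion.mpr (by
      rw [natCast_zsmul]; exact FLTA.Congruence.nsmul_smul_eq_zero (hΦmem e))⟩
  rw [e1, e3, e2, hrel]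
  abel

/-- At an inertia element at `q ≠ p` the relation has constant term one. -/
theorem inertia_relation_of_eigen [IsNoetherianRing O] (ρ : GaloisRepAdic O)
    (hdet : ρ.DetIsCyclotomic p)
    (hpm : ∀ m : ℕ, ∃ N : ℕ, maximalIdeal O ^ N ≤ Ideal.span {((p ^ m : ℕ) : O)})
    (S : Finset ℕ) (hpS : p ∈ S) (hMS : ∀ l : ℕ, l.Prime → l ∣ M → l ∈ S)
    (P : homPar0 ℤ (Gamma0 M) O) (c : ℕ → O)
    (hc : ∀ l : ℕ, l.Prime → l ∉ S →
      FLTA.Periods.heckeHom ℤ M l P.1 = (AddMonoidHom.mulLeft (c l)).comp P.1)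
    (htr : ∀ l : ℕ, l.Prime → l ∉ S → ∀ A : ValuationSubring Qb, A.LiesOverPrime l →
      ∀ σ : Γℚ, A.IsFrobeniusAt σ l → ρ.trace σ = c l)
    {q : ℕ} (hq : q.Prime) (hqp : q ≠ p) {A : ValuationSubring Qb} (hA : A.LiesOverPrime q)
    {σ : Γℚ} (hσ : σ ∈ A.inertiaSubgroupIn ℚ) (m : ℕ) (e : O →+ ZMod (p ^ m)) :
    σ • σ • classPts m P e - σ • classPts m P (e.comp (AddMonoidHom.mulLeft (ρ.trace σ)))
      + classPts m P e = 0 := by
  have h := galois_relation_of_eigen ρ hdet hpm S hpS hMS P c hc htr σ m e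
  rwa [pre_eq_of_sub_mem e (a := LinearMap.det (ρ.ρ σ)) (b := ((1 : ℕ) : O))
    (hdet.2 m σ 1 fun μ hμ => by
      rw [pow_one]
      exact FLTA.Galois.inertia_apply_rootOfUnity hq hA hσ
        (LocalGalois.not_dvd_pow_of_ne hq Fact.out hqp.symm m) hμ), Nat.cast_one, pre_one] at h

end FLTA.RT.Diamond
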