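import Fermat.Agent.RT.CoeffTwist
import Fermat.Agent.Gamma0.Complex.Basic

/-!
# The group identities of the twist

`wcl L q c = !![1, 0; c L q, 1]`.  Averaged over the translations `t ^ (i/q)`, the conjugates of a
twist by `wcl c` restricted to the elements with diagonal `1 mod q` lie in the span of `ε c` and
`ε c⁻¹`.  The twist by the trivial character of an old class is an old class.
-/

set_option autoImplicit false

noncomputable section

open CongruenceSubgroup
open scoped MatrixGroups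

namespace FLTA.RT.Diamond

open FLTA.Periods FLTA.LevelRaising

/-- `!![1, 0; c L q, 1]`. -/
def wcl (L q : ℕ) (c : ℤ) : SL(2, ℤ) :=
  ⟨!![1, 0; c * L * q, 1], by simp [Matrix.det_fin_two_of]⟩

/-- `γ` is the conjugate of `η` by `wcl c` followed by translation by `i / q`. -/
def IsMidConj (L q : ℕ) (c i : ℤ) (η γ : Gamma0 (L * q * q)) : Prop :=
  shiftGL ((i : ℝ) / q) * gamma0GL (L * q * q) η
    = (Matrix.SpecialLinearGroup.mapGL ℝ (wcl L q c))⁻¹ * gamma0GL (L * q * q) γ *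
      Matrix.SpecialLinearGroup.mapGL ℝ (wcl L q c) * shiftGL ((i : ℝ) / q)

theorem shiftGL_mul (a b : ℝ) : shiftGL a * shiftGL b = shiftGL (a + b) := by
  refine Units.ext ?_
  rw [Units.val_mul, val_shiftGL, val_shiftGL, val_shiftGL]
  simp [add_comm]

theorem mapGL_entry (g : SL(2, ℤ)) (r s : Fin 2) :
    (Matrix.SpecialLinearGroup.mapGL ℝ g : GL (Fin 2) ℝ) r s = ((g r s : ℤ) : ℝ) := by
  simp

theorem mapGL_wcl (L q : ℕ) (c : ℤ) :
    ((Matrix.SpecialLinearGroup.mapGL ℝ (wcl L q c) : GL (Fin 2) ℝ) : Matrix (Fin 2) (Fin 2) ℝ)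
      = !![1, 0; (c : ℝ) * L * q, 1] := by
  ext r s
  rw [mapGL_entry]
  fin_cases r <;> fin_cases s <;> simp [wcl]

theorem val_gamma0GL {N : ℕ} (γ : Gamma0 N) :
    ((gamma0GL N γ : GL (Fin 2) ℝ) : Matrix (Fin 2) (Fin 2) ℝ)
      = !![((((γ : SL(2, ℤ)) 0 0 : ℤ)) : ℝ), (((γ : SL(2, ℤ)) 0 1 : ℤ) : ℝ);
          (((γ : SL(2, ℤ)) 1 0 : ℤ) : ℝ), (((γ : SL(2, ℤ)) 1 1 : ℤ) : ℝ)] := by
  ext r s
  rw [gamma0GL_apply]
  fin_cases r <;> fin_cases s <;> rfl

theorem exists_isMidConj (L q : ℕ) [NeZero L] [NeZero q] (c i : ℤ) (η : Gamma0 (L * q * q))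
    (hη : (((η : SL(2, ℤ)) 0 0 : ℤ) : ZMod q) = 1) :
    ∃ γ, IsMidConj L q c i η γ ∧ (((γ : SL(2, ℤ)) 0 0 : ℤ) : ZMod q) = 1 := by
  set a := (η : SL(2, ℤ)) 0 0 with ha
  set b := (η : SL(2, ℤ)) 0 1 with hb
  set d := (η : SL(2, ℤ)) 1 1 with hd
  have hdet : a * d - b * (η : SL(2, ℤ)) 1 0 = 1 := by
    have h := (η : SL(2, ℤ)).det_coe
    rwa [Matrix.det_fin_two] at h
  obtain ⟨e, he⟩ := dvd_of_mem_Gamma0 η.2
  push_cast at he
  set k := (L : ℤ) * e with hk
  have hc0 : (η : SL(2, ℤ)) 1 0 = (q : ℤ) * q * k := by rw [he, hk]; ring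
  have hcq : (((η : SL(2, ℤ)) 1 0 : ℤ) : ZMod q) = 0 := by rw [hc0]; simp
  have hd1 : ((d : ℤ) : ZMod q) = 1 := by
    have h := congrArg (Int.cast : ℤ → ZMod q) hdet
    push_cast at h
    linear_combination h - ((d : ℤ) : ZMod q) * hη + ((b : ℤ) : ZMod q) * hcq
  obtain ⟨m, hm⟩ : (q : ℤ) ∣ d - a := by
    rw [← ZMod.intCast_zmod_eq_zero_iff_dvd]
    push_cast
    rw [hd1, hη, sub_self]
  let a' : ℤ := a + i * q * k
  let b' : ℤ := b + i * m - i ^ 2 * k
  let d' : ℤ := d - i * q * k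
  let C : ℤ := c * L * q
  let M : Matrix (Fin 2) (Fin 2) ℤ :=
    !![a' - b' * C, b'; C * (a' - d') - C ^ 2 * b' + q * q * k, C * b' + d']
  have hM : M.det = 1 := by
    simp only [M, Matrix.det_fin_two_of, a', b', d']
    linear_combination hdet + b * hc0 + (i * q * k) * hm
  refine ⟨⟨(⟨M, hM⟩ : SL(2, ℤ)), mem_Gamma0_of_dvd ⟨c * (2 * i * k - m) - c ^ 2 * L * b' + e, ?_⟩⟩, ?_, ?_⟩
  · show C * (a' - d') - C ^ 2 * b' + q * q * k = _
    simp only [C, a', d', hk]
    push_cast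
    linear_combination (-(c * L * q : ℤ)) * hm
  · show shiftGL _ * _ = _ * _ * _ * _
    generalize hG : gamma0GL (L * q * q) (⟨⟨M, hM⟩, _⟩ : Gamma0 (L * q * q)) = G
    simp only [mul_assoc]
    rw [eq_inv_mul_iff_mul_eq]
    subst hG
    have hmR : (d : ℝ) - a = (q : ℝ) * m := by exact_mod_cast hm
    have hcR : (((η : SL(2, ℤ)) 1 0 : ℤ) : ℝ) = (q : ℝ) * q * k := by exact_mod_cast hc0
    have hq : (q : ℝ) ≠ 0 := Nat.cast_ne_zero.mpr (NeZero.ne q)
    refine Units.ext ?_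
    rw [Units.val_mul, Units.val_mul, Units.val_mul, Units.val_mul, mapGL_wcl, val_shiftGL,
      val_gamma0GL, val_gamma0GL, ← ha, ← hb, ← hd, hcR]
    ext r s
    fin_cases r <;> fin_cases s <;>
      simp [M, C, a', b', d'] <;>
      field_simp
    all_goals first
      | ring1
      | linear_combination (i : ℝ) * hmR
      | linear_combination ((c : ℝ) * L * q + (c : ℝ) * L * i) * hmR
      | linear_combination (-((c : ℝ) * L * q + (c : ℝ) * L * i)) * hmR
      | linear_combination ((c : ℝ) * L * q) * hmR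
      | linear_combination (-((c : ℝ) * L * q)) * hmR
      | linear_combination ((c : ℝ) * L * i) * hmR
      | linear_combination (-((c : ℝ) * L * i)) * hmR
  · show (((a' - b' * C : ℤ)) : ZMod q) = 1
    simp [a', C, hη]

variable {L q : ℕ} {O : Type*} [CommRing O]

theorem cocycle_one {ψ : Gamma0 (L * q) →* Oˣ} {x : Gamma0 (L * q) → O}
    (hx : ∀ g h, x (g * h) = x g + (ψ g : O) * x h) : x 1 = 0 := by
  have h := hx 1 1
  rw [mul_one, map_one, Units.val_one, one_mul] at h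
  exact left_eq_add.mp h

theorem cocycle_conj {ψ : Gamma0 (L * q) →* Oˣ} {x : Gamma0 (L * q) → O}
    (hx : ∀ g h, x (g * h) = x g + (ψ g : O) * x h) (g h : Gamma0 (L * q)) (hh : ψ h = 1) :
    x (g * h * g⁻¹) = (ψ g : O) * x h := by
  have h1 := hx g g⁻¹
  rw [mul_inv_cancel, cocycle_one hx] at h1
  rw [hx, hx, map_mul, hh, mul_one]
  linear_combination -h1

/-- An integral element transporting conjugates multiplies the value by its character. -/
theorem x_eq_of_conj {ψ : Gamma0 (L * q) →* Oˣ} {x : Gamma0 (L * q) → O}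
    (hx : ∀ g h, x (g * h) = x g + (ψ g : O) * x h) {g z δ : Gamma0 (L * q)} (hz : ψ z = 1)
    {H H' η : GL (Fin 2) ℝ} (hH : H = gamma0GL (L * q) g * H')
    (hδ : gamma0GL (L * q) δ = H * η * H⁻¹) (hzc : gamma0GL (L * q) z = H' * η * H'⁻¹) :
    x δ = (ψ g : O) * x z := by
  have e : δ = g * z * g⁻¹ := by
    apply gamma0GL_injective
    rw [map_mul, map_mul, map_inv, hδ, hzc, hH]
    group
  rw [e, cocycle_conj hx g z hz]

theorem sum_fin_add_eq [NeZero q] (f : ZMod q → O) (s : ZMod q) :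
    ∑ i : Fin q, f (((i : ℕ) : ZMod q) + s) = ∑ v : ZMod q, f v := by
  refine Fintype.sum_bijective (fun i : Fin q => ((i : ℕ) : ZMod q) + s) ?_ _ _ fun _ => rfl
  refine (Fintype.bijective_iff_injective_and_card _).mpr ⟨fun i j h => ?_, by simp⟩
  have h1 := congrArg ZMod.val (add_right_cancel h)
  rw [ZMod.val_natCast, ZMod.val_natCast, Nat.mod_eq_of_lt i.isLt, Nat.mod_eq_of_lt j.isLt] at h1
  exact Fin.ext h1

/-- The square of the extension by zero of a character. -/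
def sqExt [Fact q.Prime] (ε : (ZMod q)ˣ →* Oˣ) (z : ZMod q) : O :=
  if h : z = 0 then 0 else (ε (Units.mk0 z h) : O) ^ 2

/-- The averaged conjugates of a twist lie in the span of two characters of `c`. -/
theorem exists_twist_avg [NeZero L] [Fact q.Prime] (hqL : ¬ q ∣ L) (ε : (ZMod q)ˣ →* Oˣ)
    {x : Gamma0 (L * q) → O}
    (hx : ∀ g h, x (g * h) = x g + (ε (aMod L q g) : O) ^ 2 * x h)
    (η : Gamma0 (L * q * q)) (hη : (((η : SL(2, ℤ)) 0 0 : ℤ) : ZMod q) = 1) :
    ∃ X Y : O, ∀ (c : ℤ) (u : (ZMod q)ˣ), (u : ZMod q) = (c : ZMod q) →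
      ∀ γ : Fin q → Gamma0 (L * q * q), (∀ i : Fin q, IsMidConj L q c (i : ℕ) η (γ i)) →
        ∑ i : Fin q, twistFun (Dvd.intro_left L rfl) ε x (γ i)
          = (ε u : O) * X + ((ε u)⁻¹ : Oˣ) * Y := by
  classical
  have hqn : q ∣ L * q := Dvd.intro_left L rfl
  let ψ : Gamma0 (L * q) →* Oˣ := (powMonoidHom 2).comp (ε.comp (aMod L q))
  have hxψ : ∀ g h, x (g * h) = x g + (ψ g : O) * x h := fun g h => by
    rw [hx]; simp [ψ]
  have hψ : ∀ g : Gamma0 (L * q), (((g : SL(2, ℤ)) 0 0 : ℤ) : ZMod q) = 1 → ψ g = 1 := by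
    intro g hg
    have : aMod L q g = 1 := Units.ext (by rw [coe_aMod, hg]; rfl)
    simp [ψ, this]
  have hperm : ∀ γ : Gamma0 (L * q * q), (((γ : SL(2, ℤ)) 0 0 : ℤ) : ZMod q) = 1 →
      ∀ v, twistPerm (L := L * q) γ v = v := by
    intro γ hγ v
    have : aMod (L * q) q γ = 1 := Units.ext (by rw [coe_aMod, hγ]; rfl)
    simp [twistPerm, this]
  have hcocyc : ∀ γ : Gamma0 (L * q * q), (((γ : SL(2, ℤ)) 0 0 : ℤ) : ZMod q) = 1 →
      ∀ v : (ZMod q)ˣ, (((twistCocyc hqn γ v : SL(2, ℤ)) 0 0 : ℤ) : ZMod q) = 1 ∧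
        gamma0GL (L * q) (twistCocyc hqn γ v) = shiftGL (((v : ZMod q).val : ℝ) / q)
          * gamma0GL (L * q * q) γ * (shiftGL (((v : ZMod q).val : ℝ) / q))⁻¹ := by
    intro γ hγ v
    refine ⟨?_, ?_⟩
    · have h := congrArg (fun w : (ZMod (L * q))ˣ => ZMod.castHom hqn (ZMod q) (w : ZMod (L * q)))
        (aUnit_twistCocyc hqn γ v)
      simpa [hγ] using h
    · rw [twistCocyc_spec hqn γ v, hperm γ hγ v]
      group
  -- the conjugates by translations
  have hz : ∀ v : ZMod q, ∃ z : Gamma0 (L * q), (((z : SL(2, ℤ)) 0 0 : ℤ) : ZMod q) = 1 ∧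
      gamma0GL (L * q) z = shiftGL ((v.val : ℝ) / q) * gamma0GL (L * q * q) η
        * (shiftGL ((v.val : ℝ) / q))⁻¹ := by
    intro v
    by_cases hv : v = 0
    · refine ⟨inclHom (L * q) q η, hη, ?_⟩
      have : shiftGL ((v.val : ℝ) / q) = 1 := by
        refine Units.ext ?_
        simp [hv, Matrix.one_fin_two]
      rw [this, one_mul, inv_one, mul_one]
      refine Units.ext (Matrix.ext fun r s => ?_)
      rw [gamma0GL_apply, gamma0GL_apply, inclHom_coe]
    · exact ⟨_, hcocyc η hη (Units.mk0 v hv)⟩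
  choose z hz1 hz2 using hz
  -- the exceptional index at `c = 1`
  have hLq : ((L : ℤ) : ZMod q) ≠ 0 := by
    rw [Int.cast_natCast, Ne, ZMod.natCast_eq_zero_iff]; exact hqL
  let Lu : (ZMod q)ˣ := Units.mk0 _ hLq
  let v₁ : (ZMod q)ˣ := -Lu⁻¹
  choose γ₁ hγ₁ hγ₁a using fun i : Fin q => exists_isMidConj L q 1 (i : ℕ) η hη
  let z₁ : Fin q → Gamma0 (L * q) := fun i => twistCocyc hqn (γ₁ i) v₁
  let J : O := ∑ w : (ZMod q)ˣ, (((ε w)⁻¹ : Oˣ) : O) * sqExt ε (1 + w)
  refine ⟨(ε Lu : O) * J * ∑ v, x (z v), (ε (-Lu) : O) * ∑ i, x (z₁ i), fun c u hu γ hγ => ?_⟩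
  set W := Matrix.SpecialLinearGroup.mapGL ℝ (wcl L q c) with hW
  have hγa : ∀ i, (((γ i : SL(2, ℤ)) 0 0 : ℤ) : ZMod q) = 1 := by
    intro i
    obtain ⟨g, hg, hga⟩ := exists_isMidConj L q c (i : ℕ) η hη
    have : γ i = g := by
      apply gamma0GL_injective
      have h1 := (hγ i).symm.trans hg
      exact mul_left_cancel (mul_right_cancel (mul_right_cancel h1))
    rw [this, hga]
  have hγc : ∀ i : Fin q, gamma0GL (L * q * q) (γ i) = W * shiftGL (((i : ℕ) : ℝ) / q)
      * gamma0GL (L * q * q) η * (W * shiftGL (((i : ℕ) : ℝ) / q))⁻¹ := by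
    intro i
    have h := hγ i
    simp only [IsMidConj, ← hW, Int.cast_natCast] at h
    rw [mul_assoc W, h]
    group
  have hδ : ∀ (i : Fin q) (v : (ZMod q)ˣ), gamma0GL (L * q) (twistCocyc hqn (γ i) v)
      = shiftGL (((v : ZMod q).val : ℝ) / q) * W * shiftGL (((i : ℕ) : ℝ) / q)
        * gamma0GL (L * q * q) η
        * (shiftGL (((v : ZMod q).val : ℝ) / q) * W * shiftGL (((i : ℕ) : ℝ) / q))⁻¹ := by
    intro i v
    rw [(hcocyc _ (hγa i) v).2, hγc i]
    group
  have hcu : ((c : ℤ) : ZMod q) * (L : ZMod q) = ((u * Lu : (ZMod q)ˣ) : ZMod q) := by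
    simp [Lu, hu]
  -- the generic indices
  have key1 : ∀ v : (ZMod q)ˣ, 1 + (v : ZMod q) * ((u * Lu : (ZMod q)ˣ) : ZMod q) ≠ 0 →
      ∑ i : Fin q, x (twistCocyc hqn (γ i) v)
        = sqExt ε (1 + (v : ZMod q) * ((u * Lu : (ZMod q)ˣ) : ZMod q)) * ∑ w, x (z w) := by
    intro v hv
    set n := ((v : ZMod q).val : ℤ) with hn
    set A : ZMod q := 1 + (v : ZMod q) * ((u * Lu : (ZMod q)ˣ) : ZMod q) with hA
    rw [← sum_fin_add_eq (fun w => x (z w)) ((v : ZMod q) * A⁻¹), Finset.mul_sum]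
    refine Finset.sum_congr rfl fun i _ => ?_
    set r : ZMod q := ((i : ℕ) : ZMod q) + (v : ZMod q) * A⁻¹ with hr
    obtain ⟨e, he⟩ : (q : ℤ) ∣ (1 + n * c * L) * ((i : ℕ) - (r.val : ℤ)) + n := by
      rw [← ZMod.intCast_zmod_eq_zero_iff_dvd]
      push_cast
      rw [hn, Int.cast_natCast, ZMod.natCast_zmod_val, ZMod.natCast_zmod_val, mul_assoc, hcu,
        ← hA, hr]
      field_simp
      ring
    let M : Matrix (Fin 2) (Fin 2) ℤ :=
      !![1 + n * c * L, e; c * L * q, c * L * ((i : ℕ) - (r.val : ℤ)) + 1]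
    have hM : M.det = 1 := by
      simp only [M, Matrix.det_fin_two_of]
      linear_combination (c * L) * he
    let g : Gamma0 (L * q) := ⟨(⟨M, hM⟩ : SL(2, ℤ)), mem_Gamma0_of_dvd ⟨c, by
      show c * L * q = _
      push_cast; ring⟩⟩
    have hg : (ψ g : O) = sqExt ε A := by
      have h0 : (aMod L q g : ZMod q) = A := by
        rw [coe_aMod]
        show (((1 + n * c * L : ℤ)) : ZMod q) = A
        push_cast
        rw [hn, Int.cast_natCast, ZMod.natCast_zmod_val, mul_assoc, hcu]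
      rw [sqExt, dif_neg hv, show Units.mk0 A hv = aMod L q g from Units.ext h0.symm]
      rfl
    rw [← hg]
    refine x_eq_of_conj hxψ (hψ _ (hz1 r)) ?_ (hδ i v) (hz2 r)
    refine Units.ext ?_
    have hq : (q : ℝ) ≠ 0 := Nat.cast_ne_zero.mpr (NeZero.ne q)
    have heR : (1 + (n : ℝ) * c * L) * ((i : ℕ) - (r.val : ℝ)) + n = (q : ℝ) * e := by
      exact_mod_cast he
    have hnR : ((v : ZMod q).val : ℝ) = (n : ℝ) := (Int.cast_natCast _).symm
    rw [Units.val_mul, Units.val_mul, Units.val_mul, hW, mapGL_wcl, val_shiftGL, val_shiftGL,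
      val_shiftGL, val_gamma0GL, hnR]
    clear_value n
    ext a b
    fin_cases a <;> fin_cases b <;> simp [g, M, -ZMod.natCast_val] <;> field_simp
    all_goals first
      | ring1
      | linear_combination heR
      | linear_combination -heR
  -- the exceptional index
  let v₀ : (ZMod q)ˣ := -(u * Lu)⁻¹
  have key0 : ∑ i : Fin q, x (twistCocyc hqn (γ i) v₀)
      = ((ε u)⁻¹ : Oˣ) ^ 2 * ∑ i, x (z₁ i) := by
    set n := ((v₀ : ZMod q).val : ℤ) with hn
    set n₁ := ((v₁ : ZMod q).val : ℤ) with hn₁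
    obtain ⟨m, hm⟩ : (q : ℤ) ∣ 1 + n * c * L := by
      rw [← ZMod.intCast_zmod_eq_zero_iff_dvd]
      push_cast
      rw [hn, Int.cast_natCast, ZMod.natCast_zmod_val, mul_assoc, hcu,
        show v₀ = -(u * Lu)⁻¹ from rfl, Units.val_neg, neg_mul, Units.inv_mul, add_neg_cancel]
    obtain ⟨m₁, hm₁⟩ : (q : ℤ) ∣ 1 + n₁ * L := by
      rw [← ZMod.intCast_zmod_eq_zero_iff_dvd]
      push_cast
      rw [hn₁, Int.cast_natCast, ZMod.natCast_zmod_val]
      have : ((L : ℕ) : ZMod q) ≠ 0 := by simpa using hLq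
      simp [v₁, Lu, this]
    let M : Matrix (Fin 2) (Fin 2) ℤ :=
      !![m * q - n * L, -(m * n₁) + n * m₁; L * q * (c - 1), -(c * L * n₁) + q * m₁]
    have hM : M.det = 1 := by
      simp only [M, Matrix.det_fin_two_of]
      linear_combination (m₁ * q - n₁ * L) * (-1 : ℤ) * (hm) * (-1 : ℤ) * 0 +
        (-(n₁ * (L : ℤ)) + q * m₁) * (-hm) + (-1 : ℤ) * hm₁
    let g : Gamma0 (L * q) := ⟨(⟨M, hM⟩ : SL(2, ℤ)), mem_Gamma0_of_dvd ⟨c - 1, by
      show (L : ℤ) * q * (c - 1) = _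
      push_cast; ring⟩⟩
    have hg : (ψ g : O) = ((ε u)⁻¹ : Oˣ) ^ 2 := by
      have h0 : aMod L q g = u⁻¹ := by
        refine Units.ext ?_
        rw [coe_aMod]
        show (((m * q - n * L : ℤ)) : ZMod q) = _
        push_cast
        have hL : ((L : ℕ) : ZMod q) = ((Lu : (ZMod q)ˣ) : ZMod q) := by simp [Lu]
        rw [hn, Int.cast_natCast, ZMod.natCast_zmod_val, ZMod.natCast_self, mul_zero, zero_sub,
          hL, show v₀ = -(u * Lu)⁻¹ from rfl, Units.val_neg, neg_mul, neg_neg, ← Units.val_mul,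
          mul_inv_rev, mul_comm Lu⁻¹, inv_mul_cancel_right, Units.val_inv_eq_inv_val]
      simp [ψ, h0, map_inv]
    rw [← hg, Finset.mul_sum]
    refine Finset.sum_congr rfl fun i _ => ?_
    refine x_eq_of_conj hxψ (hψ _ (hcocyc _ (hγ₁a i) v₁).1)
      (H' := shiftGL (((v₁ : ZMod q).val : ℝ) / q) *
        Matrix.SpecialLinearGroup.mapGL ℝ (wcl L q 1) * shiftGL (((i : ℕ) : ℝ) / q))
      (H := shiftGL (((v₀ : ZMod q).val : ℝ) / q) * W * shiftGL (((i : ℕ) : ℝ) / q)) ?_ (hδ i v₀) ?_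
    · rw [← mul_assoc, ← mul_assoc]
      congr 1
      refine Units.ext ?_
      have hq : (q : ℝ) ≠ 0 := Nat.cast_ne_zero.mpr (NeZero.ne q)
      have hmR : 1 + (n : ℝ) * c * L = (q : ℝ) * m := by exact_mod_cast hm
      have hmR₁ : 1 + (n₁ : ℝ) * L = (q : ℝ) * m₁ := by exact_mod_cast hm₁
      have hnR : ((v₀ : ZMod q).val : ℝ) = (n : ℝ) := (Int.cast_natCast _).symm
      have hnR₁ : ((v₁ : ZMod q).val : ℝ) = (n₁ : ℝ) := (Int.cast_natCast _).symm
      rw [Units.val_mul, Units.val_mul, Units.val_mul, hW, mapGL_wcl, mapGL_wcl, val_shiftGL,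
        val_shiftGL, val_gamma0GL, hnR, hnR₁]
      clear_value n n₁
      ext a b
      fin_cases a <;> fin_cases b <;> simp [g, M, -ZMod.natCast_val] <;> field_simp
      all_goals first
        | linear_combination hmR₁
        | linear_combination hmR + (n : ℝ) * L * hmR₁
        | linear_combination (n : ℝ) * hmR₁
        | linear_combination (L : ℝ) * hmR₁
        | linear_combination (L : ℝ) * q * hmR₁
    · show gamma0GL (L * q) (z₁ i) = _
      rw [(hcocyc _ (hγ₁a i) v₁).2]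
      have h := hγ₁ i
      simp only [IsMidConj, Int.cast_natCast] at h
      generalize hS : shiftGL (((v₁ : ZMod q).val : ℝ) / q) = S
      generalize hT : shiftGL (((i : ℕ) : ℝ) / q) = T at h ⊢
      generalize hV : Matrix.SpecialLinearGroup.mapGL ℝ (wcl L q 1) = V at h ⊢
      generalize hE : gamma0GL (L * q * q) η = E at h ⊢
      rw [show S * V * T * E * (S * V * T)⁻¹ = S * V * (T * E) * (S * V * T)⁻¹ by group, h]
      group
  -- assembling
  have hsplit : ∀ v : (ZMod q)ˣ, ∑ i : Fin q, x (twistCocyc hqn (γ i) v)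
      = sqExt ε (1 + (v : ZMod q) * ((u * Lu : (ZMod q)ˣ) : ZMod q)) * (∑ w, x (z w))
        + if v = v₀ then (((ε u)⁻¹ : Oˣ) : O) ^ 2 * ∑ i, x (z₁ i) else 0 := by
    intro v
    by_cases hv : v = v₀
    · have h0 : 1 + (v : ZMod q) * ((u * Lu : (ZMod q)ˣ) : ZMod q) = 0 := by
        rw [hv, show v₀ = -(u * Lu)⁻¹ from rfl, Units.val_neg, neg_mul, Units.inv_mul,
          add_neg_cancel]
      rw [if_pos hv, h0, sqExt, dif_pos rfl, zero_mul, zero_add, hv, key0]
    · rw [if_neg hv, add_zero]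
      refine key1 v fun h0 => hv ?_
      refine Units.ext ?_
      simp only [v₀, Units.val_neg, Units.val_inv_eq_inv_val]
      field_simp
      linear_combination h0
  calc ∑ i : Fin q, twistFun hqn ε x (γ i)
      = ∑ v : (ZMod q)ˣ, (((ε v)⁻¹ : Oˣ) : O) * ∑ i : Fin q, x (twistCocyc hqn (γ i) v) := by
        simp only [twistFun, smul_eq_mul, Finset.mul_sum]
        rw [Finset.sum_comm]
    _ = (∑ v : (ZMod q)ˣ, (((ε v)⁻¹ : Oˣ) : O) *
          sqExt ε (1 + (v : ZMod q) * ((u * Lu : (ZMod q)ˣ) : ZMod q))) * (∑ w, x (z w))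
        + (((ε v₀)⁻¹ : Oˣ) : O) * ((((ε u)⁻¹ : Oˣ) : O) ^ 2 * ∑ i, x (z₁ i)) := by
        simp only [hsplit, mul_add, Finset.sum_add_distrib, mul_ite, mul_zero, Finset.sum_ite_eq',
          Finset.mem_univ, if_true, Finset.sum_mul, mul_assoc]
    _ = _ := by
        have hJ : ∑ v : (ZMod q)ˣ, (((ε v)⁻¹ : Oˣ) : O) *
            sqExt ε (1 + (v : ZMod q) * ((u * Lu : (ZMod q)ˣ) : ZMod q))
            = (ε (u * Lu) : O) * J := by
          rw [Finset.mul_sum]
          refine Fintype.sum_equiv (Equiv.mulRight (u * Lu)) _ _ fun v => ?_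
          rw [Equiv.coe_mulRight, ← mul_assoc, ← Units.val_mul, ← Units.val_mul]
          congr 2
          rw [map_mul ε v, mul_inv_rev, mul_inv_cancel_left]
        have h0 : ((ε v₀)⁻¹ : Oˣ) * ((ε u)⁻¹) ^ 2 = (ε u)⁻¹ * ε (-Lu) := by
          have e : v₀⁻¹ = u * -Lu := inv_eq_of_mul_eq_one_right (by
            show -(u * Lu)⁻¹ * (u * -Lu) = 1
            rw [mul_neg, neg_mul_neg, inv_mul_cancel])
          rw [← map_inv ε v₀, e, map_mul, sq, ← map_inv]
          rw [mul_comm (ε u) (ε (-Lu)), mul_assoc, ← mul_assoc (ε u), ← map_mul ε u u⁻¹,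
            mul_inv_cancel, map_one, one_mul, mul_comm]
        rw [hJ, map_mul, ← mul_assoc ((((ε v₀)⁻¹ : Oˣ) : O)), ← Units.val_pow_eq_pow_val,
          ← Units.val_mul (((ε v₀)⁻¹ : Oˣ)), h0, Units.val_mul, Units.val_mul]
        ring

theorem gamma0GL_inclHom {N q : ℕ} (γ : Gamma0 (N * q)) :
    gamma0GL N (inclHom N q γ) = gamma0GL (N * q) γ := rfl

theorem gamma0GL_conjHom_mul {N q : ℕ} [NeZero q] (γ : Gamma0 (N * q)) :
    gamma0GL N (conjHom N q γ) * ModularForm.heckeDiagMatrix q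
      = ModularForm.heckeDiagMatrix q * gamma0GL (N * q) γ := by
  obtain ⟨k, hk⟩ := dvd_lowerLeft_right γ.2
  have hq : (q : ℤ) ≠ 0 := by exact_mod_cast NeZero.ne q
  refine Units.ext ?_
  rw [Units.val_mul, Units.val_mul, val_gamma0GL, val_gamma0GL, conjHom_coe,
    ModularForm.val_heckeDiagMatrix (NeZero.ne q), hk]
  ext r s
  fin_cases r <;> fin_cases s <;>
    simp [conjDiagMat, Matrix.mul_apply, Fin.sum_univ_two, hk,
      mul_comm]

theorem heckeMatrix_mul_diag {q : ℕ} [NeZero q] (i : ℕ) :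
    ((ModularForm.heckeMatrix q i : GL (Fin 2) ℝ) : Matrix (Fin 2) (Fin 2) ℝ)
        * (ModularForm.heckeDiagMatrix q : GL (Fin 2) ℝ)
      = (q : ℝ) • (shiftGL ((i : ℝ) / q) : Matrix (Fin 2) (Fin 2) ℝ) := by
  have hq : (q : ℝ) ≠ 0 := Nat.cast_ne_zero.mpr (NeZero.ne q)
  rw [ModularForm.val_heckeMatrix (NeZero.ne q), ModularForm.val_heckeDiagMatrix (NeZero.ne q),
    val_shiftGL]
  ext r s
  fin_cases r <;> fin_cases s <;> simp
  field_simp

theorem diag_mul_shiftGL {q : ℕ} [NeZero q] (i : ℕ) :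
    ModularForm.heckeDiagMatrix q * shiftGL ((i : ℝ) / q)
      = shiftGL (i : ℝ) * ModularForm.heckeDiagMatrix q := by
  have hq : (q : ℝ) ≠ 0 := Nat.cast_ne_zero.mpr (NeZero.ne q)
  refine Units.ext ?_
  rw [Units.val_mul, Units.val_mul, ModularForm.val_heckeDiagMatrix (NeZero.ne q), val_shiftGL,
    val_shiftGL]
  ext r s
  fin_cases r <;> fin_cases s <;> simp
  field_simp

/-- Translation by an integer in `Γ₀(L)`. -/
def transGamma0 (L : ℕ) (i : ℤ) : Gamma0 L :=
  ⟨⟨!![1, i; 0, 1], by simp [Matrix.det_fin_two_of]⟩, mem_Gamma0_of_dvd (by simp)⟩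

theorem gamma0GL_transGamma0 (L : ℕ) (i : ℤ) :
    gamma0GL L (transGamma0 L i) = shiftGL (i : ℝ) := by
  refine Units.ext ?_
  rw [val_gamma0GL, val_shiftGL]
  simp [transGamma0]

theorem parHom0_transGamma0 {L : ℕ} {V : Type*} [AddCommGroup V]
    {y : Additive (Gamma0 L) →+ V} (hy : Gamma0.IsParHom0 (Gamma0 L) y) (i : ℤ) :
    y (Additive.ofMul (transGamma0 L i)) = 0 := by
  apply hy
  simp [Gamma0.IsSmallTrace, transGamma0, Matrix.trace_fin_two]

theorem sum_units_eq {q : ℕ} [Fact q.Prime] {M : Type*} [AddCommMonoid M] (f : ZMod q → M) :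
    ∑ x, f x = f 0 + ∑ u : (ZMod q)ˣ, f u := by
  classical
  rw [Fintype.sum_eq_add_sum_compl 0, Finset.compl_singleton]
  congr 1
  refine Finset.sum_bij' (fun x hx => Units.mk0 x (Finset.ne_of_mem_erase hx))
    (fun u _ => (u : ZMod q)) ?_ ?_ ?_ ?_ ?_ <;> simp

/-- The twist of an old class by the trivial character. -/
theorem twist_old {L q : ℕ} [NeZero L] [Fact q.Prime] (hqL : ¬ q ∣ L) {V : Type*}
    [CommRing V] (hq1 : (q : V) = 1) {y y' : Additive (Gamma0 L) →+ V}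
    (hy : Gamma0.IsParHom0 (Gamma0 L) y) (hy' : Gamma0.IsParHom0 (Gamma0 L) y')
    (γ : Gamma0 (L * q * q)) :
    twistFun (Dvd.intro_left L rfl) (1 : (ZMod q)ˣ →* Vˣ)
        (fun g => y (Additive.ofMul (inclHom L q g)) + y' (Additive.ofMul (conjHom L q g))) γ
      = heckeHom V L q y (Additive.ofMul (conjHom L q (inclHom (L * q) q γ)))
        - y (Additive.ofMul (inclHom L q (inclHom (L * q) q γ)))
        - y (Additive.ofMul (conjHom L q (conjHom (L * q) q γ))) := by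
  haveI : NeZero q := ⟨(Fact.out : q.Prime).ne_zero⟩
  set g : Gamma0 L := conjHom L q (inclHom (L * q) q γ) with hg
  have hD : gamma0GL L g * ModularForm.heckeDiagMatrix q
      = ModularForm.heckeDiagMatrix q * gamma0GL (L * q * q) γ := by
    rw [hg, gamma0GL_conjHom_mul, gamma0GL_inclHom]
  -- the representative with offset `i` moves to the one with offset `j`
  have hmove : ∀ (i j : ℕ) (δ : Gamma0 L),
      shiftGL ((i : ℝ) / q) * gamma0GL (L * q * q) γ = gamma0GL L δ * shiftGL ((j : ℝ) / q) →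
      ModularForm.heckeMatrix q i * gamma0GL L g
        = gamma0GL L δ * ModularForm.heckeMatrix q j := by
    intro i j δ h
    refine mul_right_cancel (b := ModularForm.heckeDiagMatrix q) ?_
    rw [mul_assoc, hD, ← mul_assoc, mul_assoc (gamma0GL L δ)]
    refine Units.ext ?_
    simp only [Units.val_mul]
    rw [heckeMatrix_mul_diag, heckeMatrix_mul_diag, smul_mul_assoc, mul_smul_comm,
      ← Units.val_mul, h, Units.val_mul]
  have hinf : ModularForm.heckeDiagMatrix q * gamma0GL L g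
      = gamma0GL L (conjHom L q (conjHom (L * q) q γ)) * ModularForm.heckeDiagMatrix q := by
    rw [gamma0GL_conjHom_mul]
    congr 1
  have hT : heckeHom V L q y (Additive.ofMul g)
      = y (Additive.ofMul (conjHom L q (conjHom (L * q) q γ)))
        + (y (Additive.ofMul (inclHom L q (inclHom (L * q) q γ)))
          + ∑ u : (ZMod q)ˣ,
              y (Additive.ofMul (inclHom L q (twistCocyc (Dvd.intro_left L rfl) γ u)))) := by
    rw [heckeHom_of_not_dvd V Fact.out hqL]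
    show (repsT hqL).transferHom y (Additive.ofMul g) = _
    rw [HeckeReps.transferHom_apply]
    refine (Fintype.sum_option _).trans (congrArg₂ (· + ·) ?_ ((sum_units_eq _).trans
      (congrArg₂ (· + ·) ?_ (Finset.sum_congr rfl fun u _ => ?_))))
    · refine congrArg (fun d => y (Additive.ofMul d))
        ((repsT hqL).eq_of_rep_eq (y := (none : OnePoint (ZMod q))) ?_).2
      exact hinf
    · refine congrArg (fun d => y (Additive.ofMul d))
        ((repsT hqL).eq_of_rep_eq (y := ((0 : ZMod q) : OnePoint (ZMod q))) ?_).2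
      show ModularForm.heckeMatrix q (0 : ZMod q).val * _
        = _ * ModularForm.heckeMatrix q (0 : ZMod q).val
      refine hmove _ _ _ ?_
      rw [gamma0GL_inclHom, gamma0GL_inclHom, ZMod.val_zero, Nat.cast_zero, zero_div]
      have h1 : shiftGL (0 : ℝ) = 1 := Units.ext (by simp [Matrix.one_fin_two])
      rw [h1, one_mul, mul_one]
    · refine congrArg (fun d => y (Additive.ofMul d))
        ((repsT hqL).eq_of_rep_eq
          (y := ((twistPerm (L := L * q) γ u : ZMod q) : OnePoint (ZMod q))) ?_).2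
      refine hmove _ _ _ ?_
      rw [gamma0GL_inclHom]
      exact twistCocyc_spec _ γ u
  have hconj : ∀ u : (ZMod q)ˣ,
      y' (Additive.ofMul (conjHom L q (twistCocyc (Dvd.intro_left L rfl) γ u)))
        = y' (Additive.ofMul g) := by
    intro u
    have hspec := twistCocyc_spec (Dvd.intro_left L rfl) γ u
    generalize hi : (u : ZMod q).val = i at hspec
    generalize hj : (twistPerm (L := L * q) γ u : ZMod q).val = j at hspec
    generalize hδ : twistCocyc (Dvd.intro_left L rfl) γ u = δ at hspec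
    have e : conjHom L q δ * transGamma0 L j = transGamma0 L i * g := by
      apply gamma0GL_injective
      refine mul_right_cancel (b := ModularForm.heckeDiagMatrix q) ?_
      rw [map_mul, map_mul, gamma0GL_transGamma0, gamma0GL_transGamma0, Int.cast_natCast,
        Int.cast_natCast, mul_assoc, ← diag_mul_shiftGL, ← mul_assoc, gamma0GL_conjHom_mul,
        mul_assoc, ← hspec, ← mul_assoc, diag_mul_shiftGL, mul_assoc, ← hD, mul_assoc]
    have := congrArg (fun d => y' (Additive.ofMul d)) e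
    simpa [ofMul_mul, parHom0_transGamma0 hy'] using this
  rw [hT, twistFun]
  simp only [MonoidHom.one_apply, inv_one, Units.val_one, one_smul, Finset.sum_add_distrib,
    hconj, Finset.sum_const, Finset.card_univ, ZMod.card_units]
  rw [nsmul_eq_mul, Nat.cast_sub (Fact.out : q.Prime).one_lt.le, hq1, Nat.cast_one, sub_self,
    zero_mul]
  ring

end FLTA.RT.Diamond
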