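import Fermat.Agent.RT.CoeffTwist
import Fermat.Agent.RT.RaiseCoeff
import Fermat.Agent.Gamma0.Complex.Basic

/-!
# The twist of an old class by the trivial character
-/

set_option autoImplicit false

noncomputable section

open CongruenceSubgroup
open scoped MatrixGroups OnePoint

open P2MW.S_ModularForm_heckeT_slash_eq_self_of_mem_Gamma0.ModularForm.HeckeSlashInvariance
  (heckeRep)

namespace FLTA.RT.Diamond

open FLTA.Periods FLTA.LevelRaising

theorem shiftGL_zero_eq : shiftGL (0 : ℝ) = 1 := by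
  apply Units.ext
  ext r s
  fin_cases r <;> fin_cases s <;> simp

theorem heckeRep_coe' (q : ℕ) (j : ZMod q) :
    heckeRep q (j : OnePoint (ZMod q)) = ModularForm.heckeMatrix q j.val := rfl

theorem heckeMatrix_eq_shift (q : ℕ) [NeZero q] (j : ℕ) :
    ModularForm.heckeMatrix q j * degGL q = scalGL q * shiftGL ((j : ℝ) / q) := by
  have hq : (q : ℝ) ≠ 0 := Nat.cast_ne_zero.mpr (NeZero.ne q)
  apply Units.ext
  rw [Units.val_mul, Units.val_mul, ModularForm.val_heckeMatrix (NeZero.ne q),
    val_degGL (NeZero.ne q)]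
  ext r s
  fin_cases r <;> fin_cases s <;> simp [scalGL, Matrix.mul_apply, Fin.sum_univ_two]
  field_simp

theorem degGL_mul_shift (q : ℕ) [NeZero q] (j : ℕ) :
    degGL q * shiftGL ((j : ℝ) / q) = shiftGL (j : ℝ) * degGL q := by
  have hq : (q : ℝ) ≠ 0 := Nat.cast_ne_zero.mpr (NeZero.ne q)
  apply Units.ext
  rw [Units.val_mul, Units.val_mul, val_degGL (NeZero.ne q)]
  ext r s
  fin_cases r <;> fin_cases s <;> simp [Matrix.mul_apply, Fin.sum_univ_two]
  field_simp

/-- Translation by an integer in `Γ₀(L)`. -/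
def transGamma (L : ℕ) (j : ℤ) : Gamma0 L :=
  ⟨⟨!![1, j; 0, 1], by simp [Matrix.det_fin_two_of]⟩, mem_Gamma0_of_dvd (by simp)⟩

theorem gamma0GL_transGamma (L : ℕ) (j : ℤ) : gamma0GL L (transGamma L j) = shiftGL (j : ℝ) := by
  ext r s
  rw [gamma0GL_apply]
  fin_cases r <;> fin_cases s <;> simp [transGamma]

theorem parHom_transGamma {L : ℕ} {V : Type*} [AddCommGroup V] {y : Additive (Gamma0 L) →+ V}
    (hy : Gamma0.IsParHom0 (Gamma0 L) y) (j : ℤ) : y (Additive.ofMul (transGamma L j)) = 0 := by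
  refine hy _ ?_
  show (Matrix.trace _) ^ 2 ≤ 4
  simp [transGamma, Matrix.trace_fin_two]

variable {L q : ℕ} [Fact q.Prime] {V : Type*} [AddCommGroup V]

theorem sum_conjHom_twistCocyc (hd : q ∣ L * q) {y : Additive (Gamma0 L) →+ V}
    (hy : Gamma0.IsParHom0 (Gamma0 L) y) (γ : Gamma0 (L * q * q)) :
    ∑ u : (ZMod q)ˣ, y (Additive.ofMul (conjHom L q (twistCocyc hd γ u)))
      = (q - 1) • y (Additive.ofMul (inclHom L q (conjHom (L * q) q γ))) := by
  have h : ∀ u, y (Additive.ofMul (conjHom L q (twistCocyc hd γ u)))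
      = y (Additive.ofMul (inclHom L q (conjHom (L * q) q γ))) := by
    intro u
    set i := (u : ZMod q).val
    set j := (twistPerm γ u : ZMod q).val
    have e : conjHom L q (twistCocyc hd γ u) * transGamma L j
        = transGamma L i * inclHom L q (conjHom (L * q) q γ) := by
      apply gamma0GL_injective
      rw [map_mul, map_mul, gamma0GL_transGamma, gamma0GL_transGamma, gamma0GL_inclHom,
        Int.cast_natCast, Int.cast_natCast]
      refine mul_right_cancel (b := degGL q) ?_
      rw [mul_assoc _ (shiftGL _) (degGL q), ← degGL_mul_shift, ← mul_assoc, ← degGL_mul,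
        mul_assoc, ← twistCocyc_spec hd γ u, ← mul_assoc, degGL_mul_shift, mul_assoc, degGL_mul,
        ← mul_assoc]
    have := congrArg (fun g => y (Additive.ofMul g)) e
    simpa [parHom_transGamma hy] using this
  simp only [h, Finset.sum_const, Finset.card_univ, ZMod.card_units q]

/-- `T_q` at the conjugate of an element of level `L q²`. -/
theorem heckeHom_conjHom_incl [NeZero L] (hqL : ¬ q ∣ L) (𝕜 : Type*) [Semiring 𝕜] [Module 𝕜 V]
    (hd : q ∣ L * q) (y : Additive (Gamma0 L) →+ V) (γ : Gamma0 (L * q * q)) :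
    heckeHom 𝕜 L q y (Additive.ofMul (conjHom L q (inclHom (L * q) q γ)))
      = ∑ u : (ZMod q)ˣ, y (Additive.ofMul (inclHom L q (twistCocyc hd γ u)))
        + y (Additive.ofMul (inclHom L q (inclHom (L * q) q γ)))
        + y (Additive.ofMul (conjHom L q (conjHom (L * q) q γ))) := by
  classical
  have hq : q.Prime := Fact.out
  rw [heckeHom_of_not_dvd 𝕜 hq hqL]
  show (repsT hqL).transferHom y _ = _
  rw [HeckeReps.transferHom_apply]
  set g := conjHom L q (inclHom (L * q) q γ) with hg
  have hgd : gamma0GL L g * degGL q = degGL q * gamma0GL (L * q * q) γ := by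
    rw [hg, ← degGL_mul, gamma0GL_inclHom]
  have hdeg : ∀ j : ℕ, ∀ (δ : Gamma0 L) (k : ℕ),
      gamma0GL L δ * shiftGL ((k : ℝ) / q) = shiftGL ((j : ℝ) / q) * gamma0GL (L * q * q) γ →
      ModularForm.heckeMatrix q j * gamma0GL L g
        = gamma0GL L δ * ModularForm.heckeMatrix q k := by
    intro j δ k h
    refine mul_right_cancel (b := degGL q) ?_
    rw [mul_assoc, hgd, ← mul_assoc, heckeMatrix_eq_shift, mul_assoc, ← h, ← mul_assoc,
      scalGL_comm, mul_assoc, ← heckeMatrix_eq_shift, ← mul_assoc]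
  have h0 : (repsT hqL).cocyc g ((0 : ZMod q) : OnePoint (ZMod q))
      = inclHom L q (inclHom (L * q) q γ) := by
    refine ((repsT hqL).eq_of_rep_eq (y := ((0 : ZMod q) : OnePoint (ZMod q))) ?_).2
    rw [repsT_rep, heckeRep_coe', ZMod.val_zero]
    refine hdeg 0 _ 0 ?_
    rw [gamma0GL_inclHom, gamma0GL_inclHom, Nat.cast_zero, zero_div, shiftGL_zero_eq, mul_one,
      one_mul]
  have hinf : (repsT hqL).cocyc g (∞ : OnePoint (ZMod q))
      = conjHom L q (conjHom (L * q) q γ) := by
    refine ((repsT hqL).eq_of_rep_eq (y := ∞) ?_).2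
    rw [repsT_rep]
    show degGL q * _ = _ * degGL q
    refine mul_right_cancel (b := degGL q) ?_
    rw [mul_assoc, hgd, degGL_mul, ← mul_assoc, degGL_mul, mul_assoc]
  have hu : ∀ u : (ZMod q)ˣ, (repsT hqL).cocyc g ((u : ZMod q) : OnePoint (ZMod q))
      = inclHom L q (twistCocyc hd γ u) := by
    intro u
    refine ((repsT hqL).eq_of_rep_eq
      (y := ((twistPerm γ u : ZMod q) : OnePoint (ZMod q))) ?_).2
    rw [repsT_rep, heckeRep_coe', heckeRep_coe']
    refine hdeg _ _ _ ?_
    rw [gamma0GL_inclHom]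
    exact (twistCocyc_spec hd γ u).symm
  have hz : ∀ f : ZMod q → V, ∑ z, f z = f 0 + ∑ u : (ZMod q)ˣ, f (u : ZMod q) := by
    intro f
    rw [← Finset.add_sum_erase Finset.univ f (Finset.mem_univ 0)]
    congr 1
    refine Finset.sum_bij' (fun z hz => Units.mk0 z (Finset.ne_of_mem_erase hz))
      (fun u _ => (u : ZMod q)) (by simp) (fun u _ => by simp [u.ne_zero]) (fun z _ => rfl)
      (fun u _ => Units.ext rfl) (fun z _ => rfl)
  rw [show ∑ x : OnePoint (ZMod q), y (Additive.ofMul ((repsT hqL).cocyc g x))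
      = y (Additive.ofMul ((repsT hqL).cocyc g ∞))
        + ∑ z : ZMod q, y (Additive.ofMul ((repsT hqL).cocyc g (z : OnePoint (ZMod q))))
    from Fintype.sum_option _,
    hz (fun z => y (Additive.ofMul ((repsT hqL).cocyc g (z : OnePoint (ZMod q)))))]
  simp only [hinf, h0, hu]
  abel

/-- The twist of an old class by the trivial character. -/
theorem twistFun_old_eq {L q : ℕ} [NeZero L] [Fact q.Prime] (hqL : ¬ q ∣ L) {V : Type*}
    [CommRing V] (hq1 : (q : V) = 1) {y y' : Additive (Gamma0 L) →+ V}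
    (hy' : Gamma0.IsParHom0 (Gamma0 L) y') (γ : Gamma0 (L * q * q)) :
    twistFun (Dvd.intro_left L rfl) (1 : (ZMod q)ˣ →* Vˣ)
        (fun g => y (Additive.ofMul (inclHom L q g)) + y' (Additive.ofMul (conjHom L q g))) γ
      = heckeHom V L q y (Additive.ofMul (conjHom L q (inclHom (L * q) q γ)))
        - y (Additive.ofMul (inclHom L q (inclHom (L * q) q γ)))
        - y (Additive.ofMul (conjHom L q (conjHom (L * q) q γ))) := by
  have hd : q ∣ L * q := Dvd.intro_left L rfl
  simp only [twistFun, MonoidHom.one_apply, inv_one, Units.val_one, one_smul,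
    Finset.sum_add_distrib]
  rw [sum_conjHom_twistCocyc hd hy' γ, nsmul_eq_mul, Nat.cast_sub (Fact.out : q.Prime).one_le,
    hq1, Nat.cast_one, sub_self, zero_mul, add_zero, heckeHom_conjHom_incl hqL V hd y γ]
  abel

end FLTA.RT.Diamond
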