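import Fermat.Agent.RT.Diamond.Residue
import Fermat.Agent.PlaceRed.GaussModular
import Fermat.Agent.BadRed.SeriesCalc

/-!
# The Gauss valuation on all fractions of series with finitely generated coefficients

`bigRing` is the Gauss valuation ring of the field generated by the series with coefficients in
finitely generated groups, `bigRed` its reduction. `ResIn K₀ F` says that the integral elements of
the subfield `F` reduce into `K₀`; `ResIn.insert` propagates it along simple residual roots.
-/

set_option autoImplicit false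
set_option synthInstance.maxHeartbeats 400000

noncomputable section

open ModularCurve AlgebraicCurve Polynomial
open FLTA.PlaceRed

namespace FLTA.RT.Diamond

section Defs

variable (L : Type) [Field L]

/-- The field generated by all series with coefficients in finitely generated groups. -/
def bigField : IntermediateField L (LaurentSeries L) :=
  IntermediateField.adjoin L {x | IsZFinite x}

theorem hasZFiniteFractions_big : HasZFiniteFractions (bigField L) :=
  hasZFiniteFractions_adjoin L _ fun _ h => h

variable {L}

theorem mem_bigField {x : LaurentSeries L} (hx : IsZFinite x) : x ∈ bigField L :=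
  IntermediateField.subset_adjoin L _ hx

variable {A : ValuationSubring L} {k : Type} [Field k] {π : A →+* k}
  (hπ : Function.Surjective π)

/-- The Gauss valuation ring of `bigField`. -/
abbrev bigRing : ValuationSubring (bigField L) :=
  gaussRing A π (bigField L) (hasZFiniteFractions_big L) hπ

/-- The reduction. -/
abbrev bigRed : bigRing hπ →+* LaurentSeries k :=
  gaussRedHom A π (bigField L) (hasZFiniteFractions_big L) hπ

variable (A) in
/-- The integral series with finitely generated coefficients. -/
def zInt : Subring (LaurentSeries A) :=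
  (zFiniteSubalgebra L).toSubring.comap (coeffMap A.subtype)

theorem mem_zInt {y : LaurentSeries A} : y ∈ zInt A ↔ IsZFinite (coeffMap A.subtype y) := Iff.rfl

/-- An integral series in the valuation ring. -/
def toBig : zInt A →+* bigRing hπ where
  toFun y := ⟨⟨coeffMap A.subtype y, mem_bigField y.2⟩,
    coeffMap_mem_gaussRing (hasZFiniteFractions_big L) hπ _ (mem_bigField y.2)⟩
  map_one' := by apply Subtype.ext; apply Subtype.ext; simp
  map_zero' := by apply Subtype.ext; apply Subtype.ext; simp
  map_add' x y := by apply Subtype.ext; apply Subtype.ext; simp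
  map_mul' x y := by apply Subtype.ext; apply Subtype.ext; simp

theorem coe_toBig (y : zInt A) :
    ((toBig hπ y : bigField L) : LaurentSeries L) = coeffMap A.subtype (y : LaurentSeries A) := rfl

theorem bigRed_toBig (y : zInt A) : bigRed hπ (toBig hπ y) = coeffMap π (y : LaurentSeries A) :=
  gaussRedHom_coeffMap (hasZFiniteFractions_big L) hπ _ (mem_bigField y.2)

end Defs

variable {L : Type} [Field L] {A : ValuationSubring L} {k : Type} [Field k] {π : A →+* k}
  (hπ : Function.Surjective π)

/-- The integral elements of `F` reduce into `K₀`. -/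
def ResIn (K₀ : IntermediateField k (LaurentSeries k)) (F : IntermediateField L (bigField L)) :
    Prop :=
  ∀ u : bigRing hπ, (u : bigField L) ∈ F → bigRed hπ u ∈ K₀

variable {hπ} {K₀ : IntermediateField k (LaurentSeries k)} {F : IntermediateField L (bigField L)}

theorem ResIn.mono (h : ResIn hπ K₀ F) {F' : IntermediateField L (bigField L)} (hle : F' ≤ F) :
    ResIn hπ K₀ F' :=
  fun u hu => h u (hle hu)

theorem ResIn.mono_right (h : ResIn hπ K₀ F) {K₁ : IntermediateField k (LaurentSeries k)}
    (hle : K₀ ≤ K₁) : ResIn hπ K₁ F :=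
  fun u hu => hle (h u hu)

/-- Adjoining a simple residual root with residue in `K₀` keeps the residues in `K₀`. -/
theorem ResIn.insert (h : ResIn hπ K₀ F) (y : bigRing hπ) (hy : bigRed hπ y ∈ K₀)
    (Q : (bigRing hπ)[X]) (hQ : Q.Monic) (hF : ∀ i, (Q.coeff i : bigField L) ∈ F)
    (hroot : Q.eval y = 0)
    (hsimple : ((derivative Q).map (bigRed hπ)).eval (bigRed hπ y) ≠ 0) :
    ResIn hπ K₀ (F ⊔ IntermediateField.adjoin L {(y : bigField L)}) := by
  let O := belowRing (F := F) (bigRing hπ)
  let inc : O →+* bigRing hπ := toAbove (bigRing hπ)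
  have hlift : Q ∈ lifts inc := (lifts_iff_coeff_lifts _).mpr fun i =>
    ⟨⟨⟨_, hF i⟩, (Q.coeff i).2⟩, rfl⟩
  obtain ⟨P, hP, -, hPm⟩ := lifts_and_degree_eq_and_monic hlift hQ
  intro u hu
  rw [← IntermediateField.restrictScalars_adjoin_eq_sup, IntermediateField.mem_restrictScalars] at hu
  have hd : (derivative P).eval₂ inc y = (derivative Q).eval y := by
    rw [← hP, derivative_map, eval_map]
  have hroot' : P.eval₂ ((algebraMap F (bigField L)).comp O.subtype) (y : bigField L) = 0 := by
    have h0 : P.eval₂ inc y = 0 := by rw [← eval_map, hP, hroot]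
    have h1 := congrArg (bigRing hπ).subtype h0
    rw [hom_eval₂, map_zero] at h1
    exact h1
  have hmem := red_mem_of_simple_root (F := F) (V := bigRing hπ) (red := bigRed hπ)
    (C := K₀.toSubfield) (fun o => h _ (o : F).2) y.2 hPm hroot'
    (by
      show bigRed hπ ((derivative P).eval₂ inc y) ≠ 0
      rw [hd, ← eval_map_apply]
      exact hsimple)
    hu u.2
  refine (Subfield.closure_le (t := K₀.toSubfield)).mpr ?_ hmem
  rintro x (hx | rfl)
  · exact hx
  · exact hy

/-- Adjoining finitely many simple residual roots over a fixed field. -/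
theorem ResIn.union (h : ResIn hπ K₀ F) {ι : Type*} (s : Finset ι) (y : ι → bigRing hπ)
    (hy : ∀ i ∈ s, bigRed hπ (y i) ∈ K₀)
    (hex : ∀ i ∈ s, ∃ Q : (bigRing hπ)[X], Q.Monic ∧ (∀ j, (Q.coeff j : bigField L) ∈ F) ∧
      Q.eval (y i) = 0 ∧ ((derivative Q).map (bigRed hπ)).eval (bigRed hπ (y i)) ≠ 0) :
    ResIn hπ K₀ (F ⊔ IntermediateField.adjoin L ((fun i => (y i : bigField L)) '' (s : Set ι))) := by
  classical
  induction s using Finset.induction with
  | empty => simpa using h
  | insert a s ha ih =>
    obtain ⟨Q, hQ, hF, hroot, hsimple⟩ := hex a (Finset.mem_insert_self a s)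
    refine ((ih (fun i hi => hy i (Finset.mem_insert_of_mem hi))
      (fun i hi => hex i (Finset.mem_insert_of_mem hi))).insert (y a)
        (hy a (Finset.mem_insert_self a s)) Q hQ (fun j => le_sup_left (b := IntermediateField.adjoin L _) (hF j))
        hroot hsimple).mono ?_
    rw [Finset.coe_insert, Set.image_insert_eq, sup_assoc]
    refine sup_le_sup_left ?_ _
    rw [IntermediateField.adjoin_le_iff]
    rintro x (rfl | hx)
    · exact le_sup_right (a := IntermediateField.adjoin L _)
        (IntermediateField.mem_adjoin_simple_self L _)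
    · exact le_sup_left (b := IntermediateField.adjoin L _)
        (IntermediateField.subset_adjoin L _ hx)

/-- A polynomial with simple roots after reduction and all its coefficients in `F`. -/
theorem eval_derivative_ne_zero_of_separable {Q : (bigRing hπ)[X]} {y : bigRing hπ}
    (hroot : Q.eval y = 0) (hsep : (Q.map (bigRed hπ)).Separable) :
    ((derivative Q).map (bigRed hπ)).eval (bigRed hπ y) ≠ 0 := by
  rw [← derivative_map]
  exact hsep.eval₂_derivative_ne_zero (RingHom.id _)
    (by rw [eval₂_id, eval_map_apply, hroot, map_zero])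

section Base

variable (N : ℕ) [NeZero N] {A₀ : ValuationSubring (AlgebraicClosure ℚ)} {π₀ : A₀ →+* k}
  {hπ₀ : Function.Surjective π₀}

/-- The level `N` field inside the big field. -/
def baseField : IntermediateField (AlgebraicClosure ℚ) (bigField (AlgebraicClosure ℚ)) :=
  (modularFunctionFieldBar N).comap (bigField (AlgebraicClosure ℚ)).val

/-- At a place of good reduction the level `N` field reduces into its reduction. -/
theorem resIn_baseField (hN : (N : k) ≠ 0) :
    ResIn hπ₀ (modularFunctionFieldFullC k N) (baseField N) := by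
  intro u hu
  rcases eq_or_ne u 0 with rfl | hu0
  · rw [map_zero]; exact zero_mem _
  let f : modularFunctionFieldBar N := ⟨_, hu⟩
  have hf : f ≠ 0 := fun h => hu0 (Subtype.ext (Subtype.ext
    (congrArg (fun x : modularFunctionFieldBar N => (x : LaurentSeries (AlgebraicClosure ℚ))) h)))
  obtain ⟨c, g, y, z, hc, hg, hy, hfg⟩ :=
    exists_scalar_mul_gaussRep (hasZFiniteFractions_bar N) hπ₀ hf
  have hle : modularFunctionFieldBar N ≤ bigField (AlgebraicClosure ℚ) := by
    show laurentBaseChange (AlgebraicClosure ℚ) (modularFunctionFieldFull N) ≤ _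
    rw [FLTA.Curves.laurentBaseChange_full_eq, modularFunctionFieldFullC,
      IntermediateField.adjoin_le_iff]
    rintro x ⟨d, hd0, -, rfl⟩
    refine mem_bigField ?_
    rw [← coeffMap_jqModC (Int.castRingHom _), ← coeffMap_qExpand]
    exact isZFinite_coeffMap_intCast _
  let g' : bigField (AlgebraicClosure ℚ) := ⟨_, hle g.2⟩
  have hg' : GaussRep A₀ π₀ (bigField (AlgebraicClosure ℚ)) g' y z :=
    ⟨hle hg.num_mem, hle hg.den_mem, hg.den_ne, hg.mul_eq⟩
  let gV : bigRing hπ₀ := ⟨g', y, z, hg'⟩
  have hgne : bigRed hπ₀ gV ≠ 0 := by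
    rw [bigRed, gaussRedHom_eq (hasZFiniteFractions_big _) hπ₀ gV hg']
    exact div_ne_zero hy hg.den_ne
  have hgmem : bigRed hπ₀ gV ∈ modularFunctionFieldFullC k N := by
    rw [bigRed, gaussRedHom_eq (hasZFiniteFractions_big _) hπ₀ gV hg']
    exact div_mem (coeffMap_mem_fullC_of_mem_bar N hπ₀ hN y hg.num_mem)
      (coeffMap_mem_fullC_of_mem_bar N hπ₀ hN z hg.den_mem)
  have hu' : (u : bigField (AlgebraicClosure ℚ)) =
      algebraMap (AlgebraicClosure ℚ) (bigField (AlgebraicClosure ℚ)) c * g' :=
    Subtype.ext
      (congrArg (fun x : modularFunctionFieldBar N => (x : LaurentSeries (AlgebraicClosure ℚ))) hfg)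
  by_cases hcA : c ∈ A₀
  · have : u = ⟨_, algebraMap_mem_gaussRing (hasZFiniteFractions_big _) hπ₀ ⟨c, hcA⟩⟩ * gV :=
      Subtype.ext hu'
    rw [this, map_mul, bigRed, gaussRedHom_algebraMap]
    exact mul_mem (IntermediateField.algebraMap_mem _ _) hgmem
  · exfalso
    have hcA' : c⁻¹ ∈ A₀ := (A₀.mem_or_inv_mem c).resolve_left hcA
    have h : gV = ⟨_, algebraMap_mem_gaussRing (hasZFiniteFractions_big _) hπ₀ ⟨c⁻¹, hcA'⟩⟩ * u := by
      refine Subtype.ext ?_
      show g' = algebraMap _ _ c⁻¹ * (u : bigField (AlgebraicClosure ℚ))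
      rw [hu', ← mul_assoc, ← map_mul, inv_mul_cancel₀ hc, map_one, one_mul]
    refine hgne ?_
    rw [h, map_mul, bigRed, gaussRedHom_algebraMap]
    have h0 : π₀ ⟨c⁻¹, hcA'⟩ = 0 :=
      FLTA.BadRed.residue_eq_zero_of_inv_notMem hπ₀ hcA' (by rwa [inv_inv])
    rw [h0, map_zero, zero_mul]

end Base

end FLTA.RT.Diamond

end
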