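import Fermat.Agent.RT.Diamond.Gauss

/-!
# Properties of the Gauss reduction up to scalars

Every non-zero element of `gaussField A` has a reduction, unique up to a constant and
multiplicative; the constants are `n`-th powers in every subfield, so `gClass` is a homomorphism.
-/

set_option autoImplicit false

noncomputable section

open ModularCurve

namespace FLTA.RT.Diamond

open FLTA.BadRed

local notation "Qb" => AlgebraicClosure ℚ

variable {A : ValuationSubring Qb} {q : ℕ}

local notation "k" => IsLocalRing.ResidueField A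
local notation "πA" => IsLocalRing.residue A

section Integral

theorem gInt_of_intSeries {x : LaurentSeries Qb} (hx : IntSeries A x) : GInt A x :=
  ⟨x, 1, hx, IntSeries.one, by rw [redSeries_one]; exact one_ne_zero, mul_one x⟩

theorem gRed_eq {x a b : LaurentSeries Qb} (ha : IntSeries A a) (hb : IntSeries A b)
    (hb0 : redSeries A πA b ≠ 0) (h : x * b = a) :
    gRed A x = redSeries A πA a / redSeries A πA b := by
  have hx : GInt A x := ⟨a, b, ha, hb, hb0, h⟩
  unfold gRed
  rw [dif_pos hx]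
  obtain ⟨ha', hb', hb0', h'⟩ := hx.choose_spec.choose_spec
  rw [div_eq_div_iff hb0' hb0, ← redSeries_mul ha' hb, ← redSeries_mul ha hb']
  congr 1
  linear_combination hx.choose_spec.choose * h - b * h'

theorem gRed_of_intSeries {x : LaurentSeries Qb} (hx : IntSeries A x) :
    gRed A x = redSeries A πA x := by
  rw [gRed_eq hx IntSeries.one (by rw [redSeries_one]; exact one_ne_zero) (mul_one x),
    redSeries_one, div_one]

theorem GInt.mul {x y : LaurentSeries Qb} (hx : GInt A x) (hy : GInt A y) :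
    GInt A (x * y) ∧ gRed A (x * y) = gRed A x * gRed A y := by
  obtain ⟨a, b, ha, hb, hb0, h⟩ := hx
  obtain ⟨c, d, hc, hd, hd0, h'⟩ := hy
  have hbd : redSeries A πA (b * d) ≠ 0 := by
    rw [redSeries_mul hb hd]; exact mul_ne_zero hb0 hd0
  have e : x * y * (b * d) = a * c := by rw [← h, ← h']; ring
  refine ⟨⟨_, _, ha.mul hc, hb.mul hd, hbd, e⟩, ?_⟩
  rw [gRed_eq (ha.mul hc) (hb.mul hd) hbd e, gRed_eq ha hb hb0 h, gRed_eq hc hd hd0 h',
    redSeries_mul ha hc, redSeries_mul hb hd, div_mul_div_comm]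

theorem GInt.add {x y : LaurentSeries Qb} (hx : GInt A x) (hy : GInt A y) :
    GInt A (x + y) ∧ gRed A (x + y) = gRed A x + gRed A y := by
  obtain ⟨a, b, ha, hb, hb0, h⟩ := hx
  obtain ⟨c, d, hc, hd, hd0, h'⟩ := hy
  have hbd : redSeries A πA (b * d) ≠ 0 := by
    rw [redSeries_mul hb hd]; exact mul_ne_zero hb0 hd0
  have e : (x + y) * (b * d) = a * d + b * c := by rw [← h, ← h']; ring
  refine ⟨⟨_, _, (ha.mul hd).add (hb.mul hc), hb.mul hd, hbd, e⟩, ?_⟩
  rw [gRed_eq ((ha.mul hd).add (hb.mul hc)) (hb.mul hd) hbd e, gRed_eq ha hb hb0 h,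
    gRed_eq hc hd hd0 h', redSeries_add (ha.mul hd) (hb.mul hc), redSeries_mul ha hd,
    redSeries_mul hb hc, redSeries_mul hb hd, div_add_div _ _ hb0 hd0]

theorem GInt.inv {x : LaurentSeries Qb} (hx : GInt A x) (h0 : gRed A x ≠ 0) :
    GInt A x⁻¹ ∧ gRed A x⁻¹ = (gRed A x)⁻¹ := by
  obtain ⟨a, b, ha, hb, hb0, h⟩ := hx
  rw [gRed_eq ha hb hb0 h] at h0 ⊢
  have ha0 : redSeries A πA a ≠ 0 := fun e => h0 (by rw [e, zero_div])
  have ha' : a ≠ 0 := fun e => ha0 (by rw [e, redSeries_zero])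
  have hx' : x ≠ 0 := fun e => ha' (by rw [← h, e, zero_mul])
  have e : x⁻¹ * a = b := by rw [← h, ← mul_assoc, inv_mul_cancel₀ hx', one_mul]
  exact ⟨⟨_, _, hb, ha, ha0, e⟩, by rw [gRed_eq hb ha ha0 e, inv_div]⟩

theorem intSeries_const {c : Qb} (hc : c ∈ A) :
    IntSeries A (algebraMap Qb (LaurentSeries Qb) c) :=
  FLTA.BadRed.Series.intSeries_algebraMap hc

theorem redSeries_const {c : Qb} (hc : c ∈ A) :
    redSeries A πA (algebraMap Qb (LaurentSeries Qb) c) =
      algebraMap k (LaurentSeries k) (πA ⟨c, hc⟩) := by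
  ext i
  rw [redSeries_coeff, algebraMap_laurentSeries_eq_single, algebraMap_laurentSeries_eq_single,
    HahnSeries.coeff_single, HahnSeries.coeff_single]
  split_ifs
  · exact redCoeff_coe A πA ⟨c, hc⟩
  · exact (redCoeff_coe A πA 0).trans (map_zero πA)

/-- Scaling by a scalar of the valuation ring. -/
theorem GInt.smul {x : LaurentSeries Qb} (hx : GInt A x) {c : Qb} (hc : c ∈ A) :
    GInt A (c • x) ∧
      gRed A (c • x) = algebraMap k (LaurentSeries k) (πA ⟨c, hc⟩) * gRed A x := by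
  rw [FLTA.BadRed.Series.smul_eq_algebraMap_mul]
  refine ⟨((gInt_of_intSeries (intSeries_const hc)).mul hx).1, ?_⟩
  rw [((gInt_of_intSeries (intSeries_const hc)).mul hx).2, gRed_of_intSeries (intSeries_const hc),
    redSeries_const hc]

end Integral

section UpToScalars

/-- A reduction is unique up to a constant. -/
theorem IsGRed.unique {x : LaurentSeries Qb} {y y' : LaurentSeries k} (h : IsGRed A x y)
    (h' : IsGRed A x y') : ∃ u : k, u ≠ 0 ∧ y' = algebraMap k (LaurentSeries k) u * y := by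
  obtain ⟨c, hc, hi, hy, hy0⟩ := h
  obtain ⟨d, hd, hi', hy', hy0'⟩ := h'
  rcases A.mem_or_inv_mem (d / c) with hm | hm
  · obtain ⟨-, e⟩ := hi.smul hm
    rw [smul_smul, div_mul_cancel₀ d hc, hy', hy] at e
    exact ⟨_, fun h0 => hy0' (by rw [e, h0, map_zero, zero_mul]), e⟩
  · rw [inv_div] at hm
    obtain ⟨-, e⟩ := hi'.smul hm
    rw [smul_smul, div_mul_cancel₀ c hd, hy', hy] at e
    have h0 : πA ⟨c / d, hm⟩ ≠ 0 := fun h0 => hy0 (by rw [e, h0, map_zero, zero_mul])
    exact ⟨_, inv_ne_zero h0,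
      by rw [e, ← mul_assoc, ← map_mul, inv_mul_cancel₀ h0, map_one, one_mul]⟩

theorem IsGRed.mul {x x' : LaurentSeries Qb} {y y' : LaurentSeries k} (h : IsGRed A x y)
    (h' : IsGRed A x' y') : IsGRed A (x * x') (y * y') := by
  obtain ⟨c, hc, hi, hy, hy0⟩ := h
  obtain ⟨d, hd, hi', hy', hy0'⟩ := h'
  refine ⟨c * d, mul_ne_zero hc hd, ?_⟩
  rw [show (c * d) • (x * x') = (c • x) * (d • x') by
    simp only [FLTA.BadRed.Series.smul_eq_algebraMap_mul, map_mul]; ring]
  exact ⟨(hi.mul hi').1, by rw [(hi.mul hi').2, hy, hy'], mul_ne_zero hy0 hy0'⟩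

theorem IsGRed.inv {x : LaurentSeries Qb} {y : LaurentSeries k} (h : IsGRed A x y) :
    IsGRed A x⁻¹ y⁻¹ := by
  obtain ⟨c, hc, hi, hy, hy0⟩ := h
  obtain ⟨h1, h2⟩ := hi.inv (by rw [hy]; exact hy0)
  have e : c⁻¹ • x⁻¹ = (c • x)⁻¹ := by
    rw [FLTA.BadRed.Series.smul_eq_algebraMap_mul, FLTA.BadRed.Series.smul_eq_algebraMap_mul,
      mul_inv, map_inv₀]
  exact ⟨c⁻¹, inv_ne_zero hc, e ▸ h1, by rw [e, h2, hy], inv_ne_zero hy0⟩

theorem isGRed_one : IsGRed A 1 1 :=
  ⟨1, one_ne_zero, by rw [one_smul]; exact gInt_of_intSeries IntSeries.one,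
    by rw [one_smul, gRed_of_intSeries IntSeries.one, redSeries_one], one_ne_zero⟩

theorem IsGRed.pow {x : LaurentSeries Qb} {y : LaurentSeries k} (h : IsGRed A x y) :
    ∀ n : ℕ, IsGRed A (x ^ n) (y ^ n)
  | 0 => by rw [pow_zero, pow_zero]; exact isGRed_one
  | n + 1 => by rw [pow_succ, pow_succ]; exact (h.pow n).mul h

theorem isGRed_const {c : Qb} (hc : c ≠ 0) :
    IsGRed A (algebraMap Qb (LaurentSeries Qb) c) 1 := by
  have e : c⁻¹ • algebraMap Qb (LaurentSeries Qb) c = 1 := by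
    rw [FLTA.BadRed.Series.smul_eq_algebraMap_mul, ← map_mul, inv_mul_cancel₀ hc, map_one]
  exact ⟨c⁻¹, inv_ne_zero hc, e ▸ gInt_of_intSeries IntSeries.one,
    by rw [e, gRed_of_intSeries IntSeries.one, redSeries_one], one_ne_zero⟩

theorem isGRed_of_intSeries {x : LaurentSeries Qb} (hx : IntSeries A x)
    (h0 : redSeries A πA x ≠ 0) : IsGRed A x (redSeries A πA x) :=
  ⟨1, one_ne_zero, by rw [one_smul]; exact gInt_of_intSeries hx,
    by rw [one_smul, gRed_of_intSeries hx], h0⟩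

theorem IsGRed.ne_zero {x : LaurentSeries Qb} {y : LaurentSeries k} (h : IsGRed A x y) :
    x ≠ 0 := by
  rintro rfl
  obtain ⟨c, -, -, hy, hy0⟩ := h
  rw [smul_zero, gRed_of_intSeries IntSeries.zero, redSeries_zero] at hy
  exact hy0 hy.symm

end UpToScalars

section GaussField

attribute [local instance] FLTA.BadRed.Series.isAlgebraic_qbar

/-- An integral series with coefficients in a number field can be scaled. -/
theorem exists_isGRed_of_int [Fact q.Prime] (hA : A.LiesOverPrime q) {x : LaurentSeries Qb}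
    (hx : IntSeries A x) (hn : FLTA.BadRed.Series.HasNumberField x) (h0 : x ≠ 0) :
    ∃ y, IsGRed A x y := by
  obtain ⟨s, hs⟩ := hn.exists_finset
  have hqn : (q : Qb) ∈ A.nonunits :=
    (FLTA.Galois.natCast_mem_nonunits_iff Fact.out hA q).mpr dvd_rfl
  obtain ⟨_, ⟨i, rfl⟩, hi0, hmax⟩ := FLTA.BadRed.Series.isDiscreteOn_bar Fact.out hqn s
    (Set.range x.coeff) (by rintro _ ⟨i, rfl⟩; exact hs i)
    ⟨_, ⟨x.order, rfl⟩, mt HahnSeries.coeff_order_eq_zero.mp h0⟩
    ⟨1, one_ne_zero, by rintro _ ⟨i, rfl⟩; rw [div_one]; exact hx i⟩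
  have hint : IntSeries A ((x.coeff i)⁻¹ • x) := fun j => by
    rw [HahnSeries.coeff_smul, smul_eq_mul, ← div_eq_inv_mul]
    exact hmax _ ⟨j, rfl⟩
  refine ⟨_, (x.coeff i)⁻¹, inv_ne_zero hi0, gInt_of_intSeries hint, gRed_of_intSeries hint, ?_⟩
  intro h
  have h1 := congrArg (fun z => HahnSeries.coeff z i) h
  simp only [redSeries_coeff, HahnSeries.coeff_smul, smul_eq_mul, inv_mul_cancel₀ hi0,
    HahnSeries.coeff_zero] at h1
  exact one_ne_zero ((map_one πA).symm.trans ((redCoeff_coe A πA 1).symm.trans h1))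

/-- The integral series with coefficients in number fields form a subring. -/
def intNFSeries : Subring (LaurentSeries Qb) where
  carrier := {x | IntSeries A x ∧ FLTA.BadRed.Series.HasNumberField x}
  mul_mem' h h' := ⟨h.1.mul h'.1, h.2.mul h'.2⟩
  add_mem' h h' := ⟨h.1.add h'.1, h.2.add h'.2⟩
  neg_mem' h := ⟨h.1.neg, h.2.neg⟩
  zero_mem' := ⟨IntSeries.zero, by
    simpa using FLTA.BadRed.Series.hasNumberField_algebraMap (K := Qb) 0⟩
  one_mem' := ⟨IntSeries.one, by
    simpa using FLTA.BadRed.Series.hasNumberField_algebraMap (K := Qb) 1⟩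

/-- Every non-zero element of `gaussField A` has a reduction. -/
theorem exists_isGRed [Fact q.Prime] (hA : A.LiesOverPrime q) {x : LaurentSeries Qb}
    (hx : x ∈ gaussField A) (h0 : x ≠ 0) : ∃ y, IsGRed A x y := by
  have hcl : Subring.closure {z : LaurentSeries Qb | IntSeries A z ∧
      FLTA.BadRed.Series.HasNumberField z} = intNFSeries :=
    Subring.closure_eq (intNFSeries (A := A))
  obtain ⟨a, ha, b, hb, rfl⟩ := Subfield.mem_closure_iff.mp hx
  rw [hcl] at ha hb
  obtain ⟨ha0, hb0⟩ := div_ne_zero_iff.mp h0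
  obtain ⟨y, hy⟩ := exists_isGRed_of_int hA ha.1 ha.2 ha0
  obtain ⟨z, hz⟩ := exists_isGRed_of_int hA hb.1 hb.2 hb0
  exact ⟨y * z⁻¹, by rw [div_eq_mul_inv]; exact hy.mul hz.inv⟩

theorem algebraMap_mem_gaussField (c : Qb) : algebraMap Qb (LaurentSeries Qb) c ∈ gaussField A := by
  have key : ∀ d : Qb, d ∈ A → algebraMap Qb (LaurentSeries Qb) d ∈ gaussField A := fun d hd =>
    Subfield.subset_closure
      ⟨intSeries_const hd, FLTA.BadRed.Series.hasNumberField_algebraMap d⟩
  rcases A.mem_or_inv_mem c with h | h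
  · exact key c h
  · rw [← inv_inv c, map_inv₀]
    exact inv_mem (key _ h)

end GaussField

section Classes

variable (E : IntermediateField (IsLocalRing.ResidueField A)
  (LaurentSeries (IsLocalRing.ResidueField A))) {n : ℕ} [NeZero n]

theorem const_mem_powUnits {u : k} {v : (LaurentSeries k)ˣ}
    (hv : (v : LaurentSeries k) = algebraMap k (LaurentSeries k) u) :
    v ∈ powUnits A E n := by
  have := FLTA.Galois.isAlgClosed_residueField A
  obtain ⟨z, hz⟩ := IsAlgClosed.exists_pow_nat_eq u (Nat.pos_of_ne_zero (NeZero.ne n))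
  exact ⟨algebraMap k (LaurentSeries k) z, E.algebraMap_mem z, by rw [hv, ← map_pow, hz]⟩

/-- The class is that of any reduction. -/
theorem gClass_eq {x : LaurentSeries Qb} {y : LaurentSeries k} (h : IsGRed A x y) (hy : y ≠ 0) :
    gClass E n x = Additive.ofMul
      ((Units.mk0 y hy : (LaurentSeries k)ˣ) : (LaurentSeries k)ˣ ⧸ powUnits A E n) := by
  have hex : ∃ y, IsGRed A x y := ⟨y, h⟩
  unfold gClass
  rw [dif_pos hex]
  obtain ⟨u, hu, hy'⟩ := hex.choose_spec.unique h
  refine congrArg Additive.ofMul (QuotientGroup.eq.mpr (const_mem_powUnits E (u := u) ?_))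
  rw [Units.val_mul, Units.val_inv_eq_inv_val, Units.val_mk0, Units.val_mk0]
  rw [← mul_inv_cancel_right₀ (b := hex.choose) (fun e => hy (by rw [hy', e, mul_zero]))
    (algebraMap k (LaurentSeries k) u), ← hy', mul_comm]

theorem IsGRed.red_ne_zero {x : LaurentSeries Qb} {y : LaurentSeries k} (h : IsGRed A x y) :
    y ≠ 0 := by
  obtain ⟨_, _, _, _, hy⟩ := h
  exact hy

theorem gClass_mul {x x' : LaurentSeries Qb} {y y' : LaurentSeries k} (h : IsGRed A x y)
    (h' : IsGRed A x' y') : gClass E n (x * x') = gClass E n x + gClass E n x' := by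
  rw [gClass_eq E h h.red_ne_zero, gClass_eq E h' h'.red_ne_zero,
    gClass_eq E (h.mul h') (h.mul h').red_ne_zero, ← ofMul_mul, ← QuotientGroup.mk_mul]
  congr 2
  exact Units.ext rfl

theorem gClass_eq_zero_iff {x : LaurentSeries Qb} {y : LaurentSeries k} (h : IsGRed A x y) :
    gClass E n x = 0 ↔ ∃ b ∈ E, y = b ^ n := by
  rw [gClass_eq E h h.red_ne_zero, ofMul_eq_zero, QuotientGroup.eq_one_iff]
  exact Iff.rfl

theorem gClass_pow {x : LaurentSeries Qb} {y : LaurentSeries k} (h : IsGRed A x y) (m : ℕ) :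
    gClass E n (x ^ m) = m • gClass E n x := by
  induction m with
  | zero =>
    rw [pow_zero, zero_nsmul, gClass_eq_zero_iff E isGRed_one]
    exact ⟨1, one_mem E, (one_pow n).symm⟩
  | succ m ih => rw [pow_succ, gClass_mul E (h.pow m) h, ih, succ_nsmul]

end Classes

end FLTA.RT.Diamond
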