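import Fermat.Agent.RT.Diamond.ResidueFields
import Fermat.Agent.RT.Diamond.GaussLemmas
import Fermat.Agent.LevelLowering.HeckeNorm
import Fermat.Agent.Kummer.Comparison

/-!
# Eichler–Shimura on reductions at level `L`

The norm `N_α (β f)` reduces to `H(t^q) * φ H`, `φ` the Frobenius of the coefficients; applying `φ`
gives `φ² H * H` up to `p`-th powers as `q = 1 mod p`.
-/

set_option autoImplicit false
set_option maxHeartbeats 1000000
set_option synthInstance.maxHeartbeats 400000

noncomputable section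

open AlgebraicCurve ModularCurve

namespace FLTA.RT.Diamond

open FLTA.BadRed FLTA.Congruence FLTA.LevelLowering FLTA.Kummer

local notation "Qb" => AlgebraicClosure ℚ

section Series

variable {R : Type*} [CommRing R] [IsDomain R]

/-- The product over the conjugates is a series in `t ^ l`. -/
theorem exists_isHeckeImage {l : ℕ} [NeZero l] {ζ : Rˣ} (hζ : IsPrimitiveRoot ζ l)
    (y : LaurentSeries R) : ∃ z, IsHeckeImage l ζ y z := by
  set w := conjProd l ζ y with hw
  have hinv : scaleHom ζ w = w := by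
    rw [hw, conjProd_apply, map_mul, map_prod,
      scaleHom_qExpand ζ (l * l) (by rw [pow_mul, hζ.pow_eq_one, one_pow])]
    congr 1
    simp only [scaleHom_scaleHom, ← pow_succ']
    obtain ⟨m, rfl⟩ : ∃ m, l = m + 1 := Nat.exists_eq_succ_of_ne_zero (NeZero.ne l)
    rw [Finset.prod_range_succ, Finset.prod_range_succ', hζ.pow_eq_one, pow_zero]
  have hsupp : ∀ n : ℤ, ¬ (l : ℤ) ∣ n → w.coeff n = 0 := by
    intro n hn
    have h := congrArg (fun s : LaurentSeries R => s.coeff n) hinv
    simp only [scaleHom_coeff] at h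
    by_contra h0
    refine hn ((hζ.zpow_eq_one_iff_dvd n).mp (Units.ext ?_))
    exact mul_right_cancel₀ h0 (h.trans (one_mul _).symm)
  have hl : (0 : ℤ) < l := by exact_mod_cast Nat.pos_of_ne_zero (NeZero.ne l)
  refine ⟨{ coeff := fun m => w.coeff ((l : ℤ) * m), isPWO_support' := ?_ }, ?_⟩
  · have hsub : Function.support (fun m => w.coeff ((l : ℤ) * m)) ⊆
        (fun m : ℤ => (l : ℤ) * m) ⁻¹' w.support := fun m hm => hm
    refine Set.IsPWO.mono ?_ hsub
    rw [Set.isPWO_iff_isWF]
    refine BddBelow.isWF ?_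
    obtain ⟨b, hb⟩ : BddBelow w.support := ⟨w.order, fun x hx => HahnSeries.order_le_of_coeff_ne_zero hx⟩
    refine ⟨min b 0, fun m hm => ?_⟩
    have := hb hm
    rcases le_or_gt 0 m with h | h
    · exact (min_le_right _ _).trans h
    · exact (min_le_left _ _).trans (this.trans (by nlinarith))
  · show qExpand R l _ = w
    ext n
    by_cases hn : (l : ℤ) ∣ n
    · obtain ⟨m, rfl⟩ := hn
      rw [qExpand_coeff_mul]
    · rw [qExpand_coeff_of_not_dvd l _ hn, hsupp n hn]

end Series

variable {L q : ℕ} [NeZero L] [Fact q.Prime] {A : ValuationSubring Qb}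

local notation "k" => IsLocalRing.ResidueField A
local notation "πA" => IsLocalRing.residue A

omit [NeZero L] in
/-- Functions of level `L` have reductions. -/
theorem level_mem_gaussField (x : modularFunctionFieldBar L) :
    (x : LaurentSeries Qb) ∈ gaussField A := by
  have hx : (x : LaurentSeries Qb) ∈ IntermediateField.adjoin Qb (divisorExpansionsC Qb L) := by
    rw [← laurentBaseChange_full_eq_adjoin]; exact x.2
  revert hx
  generalize (x : LaurentSeries Qb) = y
  intro hy
  induction hy using IntermediateField.adjoin_induction with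
  | mem y hy =>
    obtain ⟨d, hd0, -, rfl⟩ := hy
    exact Subfield.subset_closure ⟨FLTA.BadRed.Series.intSeries_qExpand_jqModC d,
      by rw [← coeffEmb_qExpand_jq]; exact FLTA.BadRed.Series.hasNumberField_coeffEmb _⟩
  | algebraMap a => exact algebraMap_mem_gaussField a
  | add x y _ _ ihx ihy => exact add_mem ihx ihy
  | inv x _ ih => exact inv_mem ih
  | mul x y _ _ ihx ihy => exact mul_mem ihx ihy

omit [NeZero L] in
/-- The coefficientwise Frobenius preserves `levelRes`. -/
theorem coeffMap_mem_levelRes (φ : k →+* k) {y : LaurentSeries k} (hy : y ∈ levelRes A L) :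
    coeffMap φ y ∈ levelRes A L := by
  rw [levelRes, modularFunctionFieldFullC] at hy ⊢
  induction hy using IntermediateField.adjoin_induction with
  | mem y hy =>
    obtain ⟨d, hd0, hd, rfl⟩ := hy
    rw [coeffMap_qExpand, coeffMap_jqModC]
    exact IntermediateField.subset_adjoin _ _ ⟨d, hd0, hd, rfl⟩
  | algebraMap a =>
    rw [coeffMap_algebraMap]
    exact IntermediateField.algebraMap_mem _ _
  | add x y _ _ ihx ihy => rw [map_add]; exact add_mem ihx ihy
  | inv x _ ih => rw [map_inv₀]; exact inv_mem ih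
  | mul x y _ _ ihx ihy => rw [map_mul]; exact mul_mem ihx ihy

omit [Fact q.Prime] in
/-- The reduction of the image under `T_q`. -/
theorem isGRed_heckeImage [NeZero q] [ExpChar k q] {φ : k →+* k} (hφ : ∀ c, φ c = c ^ q)
    {ζ : Aˣ} (hζ : IsPrimitiveRoot (Units.map (A.subtype : A →* Qb) ζ) q)
    {f g : LaurentSeries Qb} (h : IsHeckeImage q (Units.map (A.subtype : A →* Qb) ζ) f g)
    {H : LaurentSeries k} (hH : IsGRed A f H) :
    IsGRed A g (qExpand k q H * coeffMap φ H) := by
  have hφe : φ = frobenius k q := RingHom.ext fun c => hφ c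
  subst hφe
  have hπ : Units.map (πA : A →* k) ζ = 1 := by
    refine Units.ext (frobenius_inj k q ?_)
    rw [frobenius_def, frobenius_def, Units.val_one, one_pow, ← Units.val_pow_eq_pow_val,
      ← map_pow]
    have : ζ ^ q = 1 := Units.map_injective (f := (A.subtype : A →* Qb)) Subtype.coe_injective
      (by rw [map_pow, hζ.pow_eq_one, map_one])
    rw [this, map_one, Units.val_one]
  have hred : ∀ y z : LaurentSeries Qb,
      IsHeckeImage q (Units.map (A.subtype : A →* Qb) ζ) y z → IntSeries A y →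
      IntSeries A z ∧ redSeries A πA z =
        qExpand k q (redSeries A πA y) * coeffMap (frobenius k q) (redSeries A πA y) := by
    intro y z hyz hy
    obtain ⟨hz, hzr⟩ := hyz.red (π := πA) hy
    refine ⟨hz, qExpand_injective q ?_⟩
    rw [hzr, hπ, conjProd_apply, map_mul, qExpand_coeffMap_frobenius, qExpand_qExpand]
    simp only [one_pow, scaleHom_one, Finset.prod_const, Finset.card_range]
  obtain ⟨c, hc, ⟨a, b, ha, hb, hb0, hab⟩, hy, hy0⟩ := hH
  obtain ⟨zb, hzb⟩ := exists_isHeckeImage hζ b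
  have hza : IsHeckeImage q (Units.map (A.subtype : A →* Qb) ζ) a (c ^ (q + 1) • g * zb) := by
    rw [← hab, smul_eq_C_mul, smul_eq_C_mul]
    exact ((isHeckeImage_C c).mul h).mul hzb
  obtain ⟨hzai, hzar⟩ := hred _ _ hza ha
  obtain ⟨hzbi, hzbr⟩ := hred _ _ hzb hb
  have hne : ∀ y : LaurentSeries k, y ≠ 0 → qExpand k q y * coeffMap (frobenius k q) y ≠ 0 :=
    fun y hy => mul_ne_zero
      (fun e => hy (qExpand_injective q (e.trans (map_zero _).symm)))
      (fun e => hy ((map_eq_zero _).mp e))
  have hzb0 : redSeries A πA zb ≠ 0 := by rw [hzbr]; exact hne _ hb0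
  refine ⟨c ^ (q + 1), pow_ne_zero _ hc, ⟨_, _, hzai, hzbi, hzb0, rfl⟩, ?_, hne _ hy0⟩
  rw [gRed_eq hzai hzbi hzb0 rfl, hzar, hzbr, ← hy, gRed_eq ha hb hb0 hab, map_div₀, map_div₀,
    div_mul_div_comm]

/-- Eichler–Shimura on reductions: `φ H_T = φ² H · H` up to `p`-th powers. -/
theorem exists_isGRed_heckeBottom {p : ℕ} [Fact p.Prime] (hqL : ¬ q ∣ L) (hpq : p ∣ q - 1)
    (hA : A.LiesOverPrime q)
    {φ : k →+* k} (hφ : ∀ c, φ c = c ^ q) (x x' : JTors L p)
    (hT : heckeOperatorBar L ⟨q, Fact.out⟩ (x : JZero L) = (x' : JZero L))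
    {f g : modularFunctionFieldBar L}
    (hf : TorsionRep p (x : Pic0 Qb (modularFunctionFieldBar L)) f)
    (hg : TorsionRep p (x' : Pic0 Qb (modularFunctionFieldBar L)) g)
    {H H' : LaurentSeries k} (hH : IsGRed A (f : LaurentSeries Qb) H)
    (hH' : IsGRed A (g : LaurentSeries Qb) H') :
    ∃ c ∈ levelRes A L,
      ModularCurve.coeffMap φ H' =
        ModularCurve.coeffMap φ (ModularCurve.coeffMap φ H) * H * c ^ p := by
  have hq : q.Prime := Fact.out
  have hp : p.Prime := Fact.out
  have : NeZero q := ⟨hq.ne_zero⟩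
  have : CharP k q := FLTA.Galois.charP_residueField hq hA
  have : IsAlgClosed k := FLTA.Galois.isAlgClosed_residueField A
  have : ExpChar k q := ExpChar.prime hq
  obtain ⟨hf0, D, hD, hDf⟩ := hf
  obtain ⟨hg0, D', hD', hDg⟩ := hg
  obtain ⟨hmem, hmk⟩ := heckeOperatorAlong_mk L q D
  have hTmk : Pic0.mk (⟨_, hmem⟩ : Divisor.degZero (K := Qb) (F := modularFunctionFieldBar L)) =
      (1 : ℤ) • Pic0.mk D' := by
    rw [one_zsmul, hD', ← hmk, hD]
    exact hT
  obtain ⟨a, h, ha, hh, hN⟩ := exists_eq_mul_zpow_mul_pow (FLTA.PlaceRed.rrCurve_bar L) hg0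
    (heckeNormHom_ne_zero L q hf0) (a := 1) (a' := 1) (d := 0) (n := p) (by simp)
    (D := (D' : Divisor Qb (modularFunctionFieldBar L))) hDg
    (E := heckeDiv L q (D : Divisor Qb (modularFunctionFieldBar L)))
    (fun v => by
      have h1 := heckeDiv_ord L q hf0 ((p : ℤ) • (D : Divisor Qb (modularFunctionFieldBar L)))
        (fun v => by rw [Finsupp.smul_apply, smul_eq_mul, hDf]) v
      rwa [map_zsmul, Finsupp.smul_apply, smul_eq_mul] at h1)
    (isPrincipal_sub_of_mk_eq hTmk)
  obtain ⟨y, hy⟩ := exists_isGRed hA (level_mem_gaussField h)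
    (fun e => hh (Subtype.ext e))
  have hrhs : IsGRed A ((heckeNormHom L q f : modularFunctionFieldBar L) : LaurentSeries Qb)
      (H' * y ^ p) := by
    rw [hN, zpow_one]
    push_cast
    simpa using ((isGRed_const ha).mul hH').mul (hy.pow p)
  have hlhs := isGRed_heckeImage hφ (zetaA_primitive q A)
    (isHeckeImage_heckeNormHom L q hq hqL (zetaA_primitive q A) f) hH
  obtain ⟨u, hu, hHu⟩ := hlhs.unique hrhs
  obtain ⟨α, hα⟩ := IsAlgClosed.exists_pow_nat_eq (φ u) hp.pos
  obtain ⟨r, hr⟩ := hpq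
  refine ⟨algebraMap k _ α * H ^ r * (coeffMap φ y)⁻¹,
    mul_mem (mul_mem (IntermediateField.algebraMap_mem _ _)
      (pow_mem (mem_levelRes_of_isGRed hqL hA f.2 hH) _))
      (inv_mem (coeffMap_mem_levelRes φ (mem_levelRes_of_isGRed hqL hA h.2 hy))), ?_⟩
  have hy0 : coeffMap φ y ≠ 0 := (map_ne_zero _).mpr hy.red_ne_zero
  have e := congrArg (coeffMap φ) hHu
  have hfr : qExpand k q (coeffMap φ H) = H ^ q := by
    rw [show φ = frobenius k q from RingHom.ext hφ, qExpand_coeffMap_frobenius]
  rw [map_mul, map_mul, map_mul, map_pow, coeffMap_algebraMap, coeffMap_qExpand, hfr, ← hα,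
    map_pow, show q = r * p + 1 by rw [mul_comm, ← hr, Nat.sub_add_cancel hq.one_le], pow_succ,
    pow_mul] at e
  rw [mul_pow, mul_pow, inv_pow]
  field_simp
  linear_combination e

end FLTA.RT.Diamond

end
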