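import Fermat.Agent.RT.Diamond.Classes
import Fermat.Agent.Congruence.Inputs
import Fermat.Agent.BadRed.SeriesCalc

/-!
# Torsion points with a `p`-th power reduction vanish

A function of level `L` has a reduction up to scalars, which is the residue of a scalar multiple in
the Gauss valuation ring.  If the function of a `p`-torsion point reduces to a `p`-th power then the
reduced divisor is principal, so the point reduces to zero and hence vanishes.
-/

set_option autoImplicit false
set_option maxHeartbeats 1000000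
set_option synthInstance.maxHeartbeats 400000

noncomputable section

open AlgebraicCurve ModularCurve CongruenceSubgroup

namespace FLTA.RT.Diamond

open FLTA.Kummer FLTA.BadRed FLTA.Congruence

local notation "Qb" => AlgebraicClosure ℚ

variable {L q p : ℕ} [NeZero L] [Fact q.Prime] [Fact p.Prime] {A : ValuationSubring Qb}

local notation "k" => IsLocalRing.ResidueField A
local notation "πA" => IsLocalRing.residue A

/-- Functions of level `L` have reductions. -/
theorem mem_gaussField_of_level (x : modularFunctionFieldBar L) :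
    (x : LaurentSeries Qb) ∈ gaussField A := by
  suffices h : ∀ y ∈ IntermediateField.adjoin Qb (divisorExpansionsC Qb L), y ∈ gaussField A from
    h (x : LaurentSeries Qb) (by rw [← laurentBaseChange_full_eq_adjoin]; exact x.2)
  intro y hy
  induction hy using IntermediateField.adjoin_induction with
  | mem y hy =>
    obtain ⟨d, hd0, -, rfl⟩ := hy
    exact Subfield.subset_closure ⟨FLTA.BadRed.Series.intSeries_qExpand_jqModC d,
      by rw [← coeffEmb_qExpand_jq]; exact FLTA.BadRed.Series.hasNumberField_coeffEmb _⟩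
  | algebraMap a => exact algebraMap_mem_gaussField a
  | add x y _ _ ihx ihy => exact add_mem ihx ihy
  | inv x _ ih => exact inv_mem ih
  | mul x y _ _ ihx ihy => exact mul_mem ihx ihy

omit [Fact p.Prime] in
/-- A scalar multiple of a function lies in the Gauss ring with residue a multiple of any
reduction up to scalars. -/
theorem exists_gaussRedModL_of_isGRed (hqL : ¬ q ∣ L) (hA : A.LiesOverPrime q)
    {f : modularFunctionFieldBar L} {y : LaurentSeries k}
    (hy : IsGRed A (f : LaurentSeries Qb) y) :
    ∃ (c : Qb) (u : (PlaceRed.gaussRedModL L hqL A hA).O) (ν : k), c ≠ 0 ∧ ν ≠ 0 ∧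
      (u : modularFunctionFieldBar L) = algebraMap Qb (modularFunctionFieldBar L) c * f ∧
      ((PlaceRed.gaussRedModL L hqL A hA).red u : LaurentSeries k) =
        algebraMap k (LaurentSeries k) ν * y := by
  have hf0 : f ≠ 0 := fun h => hy.ne_zero (by rw [h]; rfl)
  obtain ⟨c, g, a, b, hc, hg, ha0, hfg⟩ := PlaceRed.exists_scalar_mul_gaussRep
    (PlaceRed.hasZFiniteFractions_bar L) (residue_surj (A := A)) hf0
  have hA1 : IsGRed A (coeffMap A.subtype a) (coeffMap πA a) := by
    have := isGRed_of_intSeries (FLTA.BadRed.intSeries_coeffMap a)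
      (by rw [FLTA.BadRed.redSeries_coeffMap]; exact ha0)
    rwa [FLTA.BadRed.redSeries_coeffMap] at this
  have hB1 : IsGRed A (coeffMap A.subtype b) (coeffMap πA b) := by
    have := isGRed_of_intSeries (FLTA.BadRed.intSeries_coeffMap b)
      (by rw [FLTA.BadRed.redSeries_coeffMap]; exact hg.den_ne)
    rwa [FLTA.BadRed.redSeries_coeffMap] at this
  have hgab : (g : LaurentSeries Qb) = coeffMap A.subtype a * (coeffMap A.subtype b)⁻¹ := by
    rw [← hg.mul_eq, mul_inv_cancel_right₀ hg.den_ne']
  have hf : (f : LaurentSeries Qb) =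
      algebraMap Qb (LaurentSeries Qb) c * (g : LaurentSeries Qb) := by
    rw [hfg]
    rfl
  have h1 : IsGRed A (f : LaurentSeries Qb) (1 * (coeffMap πA a * (coeffMap πA b)⁻¹)) := by
    rw [hf, hgab]
    exact (isGRed_const hc).mul (hA1.mul hB1.inv)
  obtain ⟨ν, hν, e⟩ := hy.unique h1
  refine ⟨c⁻¹, ⟨g, ⟨a, b, hg⟩⟩, ν, inv_ne_zero hc, hν, ?_, ?_⟩
  · show g = _
    rw [hfg, ← mul_assoc, ← map_mul, inv_mul_cancel₀ hc, map_one, one_mul]
  · rw [← e, one_mul]
    exact (PlaceRed.coe_gaussRed_red_eq L _ _ _ hg).trans (div_eq_mul_inv _ _)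

/-- A torsion point whose function reduces to a `p`-th power is zero. -/
theorem eq_zero_of_isGRed_pow (hqL : ¬ q ∣ L) (hpq : p ∣ q - 1) (hA : A.LiesOverPrime q)
    (x : JTors L p) {f : modularFunctionFieldBar L}
    (hf : TorsionRep p (x : Pic0 Qb (modularFunctionFieldBar L)) f) {c : LaurentSeries k}
    (hc : c ∈ levelRes A L) (hr : IsGRed A (f : LaurentSeries Qb) (c ^ p)) : x = 0 := by
  classical
  have hp : p.Prime := Fact.out
  have hq : q.Prime := Fact.out
  have hqp : ¬ q ∣ p := fun h => by
    rcases (Nat.dvd_prime hp).mp h with h1 | h1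
    · exact hq.ne_one h1
    · have h2 : 0 < q - 1 := Nat.sub_pos_of_lt hq.one_lt
      have h3 : p ≤ q - 1 := Nat.le_of_dvd h2 hpq
      omega
  obtain ⟨hf0, D, hD, hDf⟩ := hf
  obtain ⟨a, u, ν, ha, hν, hu, hred⟩ := exists_gaussRedModL_of_isGRed hqL hA hr
  set η : modularFunctionFieldFullC k L := ⟨c, hc⟩ with hη
  have hη0 : η ≠ 0 := fun h => hr.red_ne_zero (by
    rw [show c = 0 from congrArg Subtype.val h, zero_pow hp.ne_zero])
  have hred' : (PlaceRed.gaussRedModL L hqL A hA).red u =
      algebraMap k (modularFunctionFieldFullC k L) ν * η ^ p := Subtype.ext (by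
    rw [hred]
    rfl)
  have hne : (PlaceRed.gaussRedModL L hqL A hA).red u ≠ 0 := by
    rw [hred']
    exact mul_ne_zero ((map_ne_zero _).mpr hν) (pow_ne_zero _ hη0)
  have hDu : ∀ P : Place Qb (modularFunctionFieldBar L),
      (p : ℤ) * (D : Divisor Qb (modularFunctionFieldBar L)) P =
        P.ord (u : modularFunctionFieldBar L) := fun P => by
    rw [hu, P.ord_mul ((map_ne_zero _).mpr ha) hf0, Curves.ord_algebraMap, zero_add, hDf]
  apply Subtype.ext
  rw [ZeroMemClass.coe_zero]
  refine FLTA.Congruence.eq_zero_of_reductionModL_eq_zero L hq hqL A hA p hqp _ ?_ ?_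
  · exact x.2
  · rw [← hD]
    refine (PlaceRed.reductionModL_mk_eq_zero_iff hqL hA D).mpr ⟨η, hη0, fun Q => ?_⟩
    have hr' := PlaceRed.isPlaceMap_placeRed L hqL A hA u hne
      (p • (D : Divisor Qb (modularFunctionFieldBar L)))
      (fun P => by rw [Finsupp.smul_apply, nsmul_eq_mul]; exact hDu P) Q
    rw [Finsupp.mapDomain_smul, Finsupp.smul_apply, nsmul_eq_mul, hred',
      Q.ord_mul ((map_ne_zero _).mpr hν) (pow_ne_zero _ hη0), Curves.ord_algebraMap, zero_add,
      Curves.ord_pow] at hr'
    exact mul_left_cancel₀ (Nat.cast_ne_zero.mpr hp.ne_zero) hr'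

end FLTA.RT.Diamond
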