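import Fermat.Agent.RT.Diamond.Classes
import Fermat.Agent.RT.Diamond.TwistOld
import Fermat.Agent.RT.Diamond.Twist
import Fermat.Agent.Kummer.HeckeNorm
import Fermat.Agent.Curves.BasicModular
import Fermat.Agent.BadRed.IntSeries

/-!
# The function of an old class at a middle cusp

Pullbacks of Kummer characters along the degeneracy maps, and the expansions of pulled back
functions at the middle cusps with their reductions.
-/

set_option autoImplicit false
set_option maxHeartbeats 1000000
set_option synthInstance.maxHeartbeats 400000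

noncomputable section

open AlgebraicCurve ModularCurve CongruenceSubgroup
open FLTA.Gamma0 (homPar0 homPar0Map)
open scoped MatrixGroups
open FLTA.Bridge (Mero evMero meroSmul meroSmul_mul)

namespace FLTA.RT.Diamond

open FLTA.Kummer FLTA.LevelRaising

local notation "Qb" => AlgebraicClosure ℚ
local notation "ιbar" => AlgHom.toRingHom complexEmbedding

section Characters

variable {N n q : ℕ} [NeZero N] [NeZero n] [NeZero q]

theorem hasMult_incl {χ : Additive (Gamma0 N) →+ ZMod n} {F : Mero} (h : HasMult χ F) :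
    HasMult (N := N * q) (χ.comp (MonoidHom.toAdditive (inclHom N q))) F := fun γ =>
  h (inclHom N q γ)

theorem diagPos_mul_slPos (γ : Gamma0 (N * q)) :
    diagPos q * slPosHom (γ : SL(2, ℤ)) = slPosHom ((conjHom N q γ : Gamma0 N) : SL(2, ℤ)) * diagPos q :=
  Subtype.ext (gamma0GL_conjHom_mul γ).symm

theorem hasMult_conj {χ : Additive (Gamma0 N) →+ ZMod n} {F : Mero} (h : HasMult χ F) :
    HasMult (N := N * q) (χ.comp (MonoidHom.toAdditive (conjHom N q)))
      (meroSmul (diagPos q) F) := fun γ => by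
  rw [← meroSmul_mul, diagPos_mul_slPos, meroSmul_mul, h (conjHom N q γ), map_mul,
    AlgEquiv.commutes]
  rfl

theorem isDivFun_pullback {F F' : Type*} [Field F] [Field F'] [Algebra Qb F] [Algebra Qb F']
    (ψ : F →ₐ[Qb] F') (hψ : ψ.toRingHom.IsIntegral) {f : F} (hf : IsDivFun Qb n f) :
    IsDivFun Qb n (ψ f) :=
  ⟨(map_ne_zero_iff _ ψ.toRingHom.injective).mpr hf.1, fun w => by
    rw [Place.ord_restrictAlong ψ hψ w f]
    exact (hf.2 _).mul_left _⟩

theorem kummerChar_alphaBar {f : modularFunctionFieldBar N} (hf : IsDivFun Qb n f) :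
    IsDivFun Qb n (heckeAlphaBar Qb N q f) ∧
      kummerChar (N * q) n ιbar (heckeAlphaBar Qb N q f)
        = (kummerChar N n ιbar f).comp (MonoidHom.toAdditive (inclHom N q)) := by
  obtain ⟨hα, -⟩ := FLTA.Curves.heckeInputsAlong N Qb q
  obtain ⟨F, hF, hχ, -⟩ := exists_isKummerRoot N n ιbar hf
  have h := isDivFun_pullback (heckeAlphaBar Qb N q) hα hf
  exact ⟨h, kummerChar_eq _ _ _ h.1 ⟨hasMult_incl hχ, 1, one_ne_zero, by
    rw [map_one, one_mul, evMero_heckeAlphaBar, hF]⟩⟩

theorem kummerChar_betaBar {f : modularFunctionFieldBar N} (hf : IsDivFun Qb n f) :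
    IsDivFun Qb n (heckeBetaBar Qb N q f) ∧
      kummerChar (N * q) n ιbar (heckeBetaBar Qb N q f)
        = (kummerChar N n ιbar f).comp (MonoidHom.toAdditive (conjHom N q)) := by
  obtain ⟨-, hβ, -⟩ := FLTA.Curves.heckeInputsAlong N Qb q
  obtain ⟨F, hF, hχ, -⟩ := exists_isKummerRoot N n ιbar hf
  have h := isDivFun_pullback (heckeBetaBar Qb N q) hβ hf
  exact ⟨h, kummerChar_eq _ _ _ h.1 ⟨hasMult_conj hχ, 1, one_ne_zero, by
    rw [map_one, one_mul, evMero_heckeBetaBar, ← map_pow, hF]⟩⟩

theorem kummerChar_eq_of_rep {φ : homPar0 ℤ (Gamma0 N) (ZMod n)} {f : modularFunctionFieldBar N}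
    (hf : TorsionRep n (rawPoint N n φ : Pic0 Qb (modularFunctionFieldBar N)) f) :
    kummerChar N n ιbar f = φ.1 := by
  have h : (kummerRaw N n (rawPoint N n φ)).1 = kummerChar N n ιbar f :=
    (kummerMapBar N n).torsionEquiv_apply (mem_range_of_forall_ord_eq_zero N) (NeZero.ne n) _
      (fun _ hf => kummerChar_mem_homPar0 N n ιbar hf)
      (fun _ ha => exists_kummerChar_eq N n ιbar ha) hf
  rw [← h, rawPoint, AddEquiv.apply_symm_apply]

theorem torsionRep_rawPoint {φ : homPar0 ℤ (Gamma0 N) (ZMod n)} {f : modularFunctionFieldBar N}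
    (hf : IsDivFun Qb n f) (h : kummerChar N n ιbar f = φ.1) :
    TorsionRep n (rawPoint N n φ : Pic0 Qb (modularFunctionFieldBar N)) f := by
  obtain ⟨x, hx, hrep⟩ := exists_class_of_isDivFun (NeZero.ne n) hf
  have h1 : (kummerRaw N n ⟨x, hx⟩).1 = kummerChar N n ιbar f :=
    (kummerMapBar N n).torsionEquiv_apply (mem_range_of_forall_ord_eq_zero N) (NeZero.ne n) _
      (fun _ hf => kummerChar_mem_homPar0 N n ιbar hf)
      (fun _ ha => exists_kummerChar_eq N n ιbar ha) hrep
  have h2 : rawPoint N n φ = ⟨x, hx⟩ :=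
    (kummerRaw N n).symm_apply_eq.mpr (Subtype.ext (h.symm.trans h1.symm))
  rw [h2]
  exact hrep

theorem _root_.FLTA.Kummer.IsDivFun.inv {F : Type*} [Field F] [Algebra Qb F] {f : F}
    (hf : IsDivFun Qb n f) : IsDivFun Qb n f⁻¹ :=
  ⟨inv_ne_zero hf.1, fun v => by rw [v.ord_inv]; exact (hf.2 v).neg_right⟩

theorem kummerChar_inv {f : modularFunctionFieldBar N} (hf : IsDivFun Qb n f) :
    kummerChar N n ιbar f⁻¹ = -kummerChar N n ιbar f := by
  refine eq_neg_of_add_eq_zero_right ?_
  rw [← kummerChar_mul N n ιbar hf hf.inv, mul_inv_cancel₀ hf.1,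
    ← map_one (algebraMap Qb (modularFunctionFieldBar N))]
  exact kummerChar_const N n ιbar one_ne_zero

end Characters

section OldFunction

variable {L q p : ℕ} [NeZero L] [NeZero q] [NeZero p]

/-- `f₁(q τ) / (f(τ) f(q² τ))` at level `L q²`. -/
def oldFun (f f₁ : modularFunctionFieldBar L) : modularFunctionFieldBar (L * q * q) :=
  heckeAlphaBar Qb (L * q) q (heckeBetaBar Qb L q f₁) *
    (heckeAlphaBar Qb (L * q) q (heckeAlphaBar Qb L q f) *
      heckeBetaBar Qb (L * q) q (heckeBetaBar Qb L q f))⁻¹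

/-- `oldFun` represents the old class. -/
theorem torsionRep_oldFun {u v : homPar0 ℤ (Gamma0 L) (ZMod p)}
    {w : homPar0 ℤ (Gamma0 (L * q * q)) (ZMod p)}
    (hw : ∀ γ, w.1 (Additive.ofMul γ)
      = v.1 (Additive.ofMul (conjHom L q (inclHom (L * q) q γ)))
        - u.1 (Additive.ofMul (inclHom L q (inclHom (L * q) q γ)))
        - u.1 (Additive.ofMul (conjHom L q (conjHom (L * q) q γ))))
    {f g : modularFunctionFieldBar L}
    (hf : TorsionRep p (rawPoint L p u : Pic0 Qb (modularFunctionFieldBar L)) f)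
    (hg : TorsionRep p (rawPoint L p v : Pic0 Qb (modularFunctionFieldBar L)) g) :
    TorsionRep p (rawPoint (L * q * q) p w : Pic0 Qb (modularFunctionFieldBar (L * q * q)))
      (oldFun f g) := by
  obtain ⟨hf1, ef1⟩ := kummerChar_alphaBar (q := q) hf.isDivFun
  obtain ⟨hf2, ef2⟩ := kummerChar_betaBar (q := q) hf.isDivFun
  obtain ⟨hg1, eg1⟩ := kummerChar_betaBar (q := q) hg.isDivFun
  obtain ⟨ha, ea⟩ := kummerChar_alphaBar (q := q) hg1
  obtain ⟨hb, eb⟩ := kummerChar_alphaBar (q := q) hf1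
  obtain ⟨hc, ec⟩ := kummerChar_betaBar (q := q) hf2
  refine torsionRep_rawPoint (ha.mul Qb (hb.mul Qb hc).inv) ?_
  rw [oldFun, kummerChar_mul _ _ _ ha (hb.mul Qb hc).inv, kummerChar_inv (hb.mul Qb hc),
    kummerChar_mul _ _ _ hb hc, ea, eb, ec, eg1, ef1, ef2, kummerChar_eq_of_rep hf,
    kummerChar_eq_of_rep hg]
  refine AddMonoidHom.ext fun γ => ?_
  show _ = w.1 (Additive.ofMul γ.toMul)
  rw [hw]
  simp only [AddMonoidHom.add_apply, AddMonoidHom.neg_apply, AddMonoidHom.comp_apply]
  rw [neg_add, sub_sub, sub_eq_add_neg, neg_add]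
  rfl

end OldFunction

section Expansions

open FLTA.Congruence

variable {L q : ℕ} [NeZero L] [NeZero q]

theorem midEmb_alpha_alpha {ζ : Qbˣ} {b : ℕ}
    {ι : modularFunctionFieldBar (L * q * q) →ₐ[Qb] LaurentSeries Qb}
    (hι : IsMidEmb L q ζ b ι) (x : modularFunctionFieldBar L) :
    ι (heckeAlphaBar Qb (L * q) q (heckeAlphaBar Qb L q x)) = (x : LaurentSeries Qb) := by
  have h : (ι.comp ((heckeAlphaBar Qb (L * q) q).comp (heckeAlphaBar Qb L q))).toRingHom =
      (modularFunctionFieldBar L).toSubfield.subtype := by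
    refine ringHom_ext_jGenBar (fun a => ?_) fun D hD0 hD => ?_
    · exact AlgHom.commutes _ a
    · show ι _ = qExpand Qb D (jqModC Qb)
      refine Eq.trans (congrArg ι (Subtype.ext ?_)) (hι D hD0 hD).1
      show ((heckeAlphaBar Qb (L * q) q (heckeAlphaBar Qb L q (jGenBar L D hD)) :
        modularFunctionFieldBar (L * q * q)) : LaurentSeries Qb) = qExpand Qb D (jqModC Qb)
      rw [coe_heckeAlphaBar, coe_heckeAlphaBar]
      rfl
  exact RingHom.congr_fun h x

theorem qExpand_algebraMap (c : Qb) :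
    qExpand Qb q (algebraMap Qb (LaurentSeries Qb) c) = algebraMap Qb (LaurentSeries Qb) c := by
  rw [algebraMap_laurentSeries_eq_single, qExpand_single, mul_zero]

theorem midEmb_alpha_beta {ζ : Qbˣ} {b : ℕ}
    {ι : modularFunctionFieldBar (L * q * q) →ₐ[Qb] LaurentSeries Qb}
    (hι : IsMidEmb L q ζ b ι) (x : modularFunctionFieldBar L) :
    ι (heckeAlphaBar Qb (L * q) q (heckeBetaBar Qb L q x))
      = qExpand Qb q (x : LaurentSeries Qb) := by
  have h : (ι.comp ((heckeAlphaBar Qb (L * q) q).comp (heckeBetaBar Qb L q))).toRingHom =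
      (qExpand Qb q).comp (modularFunctionFieldBar L).toSubfield.subtype := by
    refine ringHom_ext_jGenBar (fun a => ?_) fun D hD0 hD => ?_
    · exact (AlgHom.commutes _ a).trans (qExpand_algebraMap (q := q) a).symm
    · show ι _ = qExpand Qb q (qExpand Qb D (jqModC Qb))
      rw [qExpand_qExpand, qExpand_congr (mul_comm q D)]
      refine Eq.trans (congrArg ι (Subtype.ext ?_)) (hι D hD0 hD).2.1
      show ((heckeAlphaBar Qb (L * q) q (heckeBetaBar Qb L q (jGenBar L D hD)) :
        modularFunctionFieldBar (L * q * q)) : LaurentSeries Qb) = qExpand Qb (D * q) (jqModC Qb)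
      rw [coe_heckeAlphaBar, coe_heckeBetaBar, coe_jGenBar, qExpand_qExpand]
      exact qExpand_congr (mul_comm q D) _
  exact RingHom.congr_fun h x

theorem midEmb_beta_beta {ζ : Qbˣ} {b : ℕ}
    {ι : modularFunctionFieldBar (L * q * q) →ₐ[Qb] LaurentSeries Qb}
    (hι : IsMidEmb L q ζ b ι) (x : modularFunctionFieldBar L) :
    ι (heckeBetaBar Qb (L * q) q (heckeBetaBar Qb L q x))
      = scaleHom (ζ ^ b) (x : LaurentSeries Qb) := by
  have h : (ι.comp ((heckeBetaBar Qb (L * q) q).comp (heckeBetaBar Qb L q))).toRingHom =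
      (scaleHom (ζ ^ b)).comp (modularFunctionFieldBar L).toSubfield.subtype := by
    refine ringHom_ext_jGenBar (fun a => ?_) fun D hD0 hD => ?_
    · refine (AlgHom.commutes _ a).trans ?_
      show _ = scaleHom (ζ ^ b) (algebraMap Qb (LaurentSeries Qb) a)
      rw [algebraMap_laurentSeries_eq_single, scaleHom_single]
      simp
    · show ι _ = scaleHom (ζ ^ b) (qExpand Qb D (jqModC Qb))
      refine Eq.trans (congrArg ι (Subtype.ext ?_)) (hι D hD0 hD).2.2
      show ((heckeBetaBar Qb (L * q) q (heckeBetaBar Qb L q (jGenBar L D hD)) :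
        modularFunctionFieldBar (L * q * q)) : LaurentSeries Qb) = qExpand Qb (D * q * q) (jqModC Qb)
      rw [coe_heckeBetaBar, coe_heckeBetaBar, coe_jGenBar, qExpand_qExpand, qExpand_qExpand]
      exact qExpand_congr (by ring) _
  exact RingHom.congr_fun h x

end Expansions

section Reduction

open FLTA.BadRed FLTA.Congruence

variable {A : ValuationSubring Qb}

local notation "k" => IsLocalRing.ResidueField A
local notation "πA" => IsLocalRing.residue A

/-- Reductions commute with ring maps that fix constants and commute with reduction of integral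
series. -/
theorem IsGRed.map {F : LaurentSeries Qb →+* LaurentSeries Qb}
    {G : LaurentSeries k →+* LaurentSeries k}
    (hF : ∀ c, F (algebraMap Qb (LaurentSeries Qb) c) = algebraMap Qb (LaurentSeries Qb) c)
    (h : ∀ a, IntSeries A a → IntSeries A (F a) ∧ redSeries A πA (F a) = G (redSeries A πA a))
    {x : LaurentSeries Qb} {y : LaurentSeries k} (hxy : IsGRed A x y) :
    IsGRed A (F x) (G y) := by
  obtain ⟨c, hc, ⟨a, b, ha, hb, hb0, hab⟩, hy, hy0⟩ := hxy
  obtain ⟨ha', ea⟩ := h a ha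
  obtain ⟨hb', eb⟩ := h b hb
  have e : c • F x = F (c • x) := by
    rw [FLTA.BadRed.Series.smul_eq_algebraMap_mul, FLTA.BadRed.Series.smul_eq_algebraMap_mul,
      map_mul, hF]
  have hab' : c • F x * F b = F a := by rw [e, ← map_mul, hab]
  have hb0' : redSeries A πA (F b) ≠ 0 := by rw [eb]; exact (map_ne_zero G).mpr hb0
  refine ⟨c, hc, ⟨_, _, ha', hb', hb0', hab'⟩, ?_, (map_ne_zero G).mpr hy0⟩
  rw [gRed_eq ha' hb' hb0' hab', ea, eb, ← map_div₀, ← hy, gRed_eq ha hb hb0 hab]

theorem isGRed_qExpand (q : ℕ) [NeZero q] {x : LaurentSeries Qb} {y : LaurentSeries k}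
    (h : IsGRed A x y) : IsGRed A (qExpand Qb q x) (qExpand k q y) :=
  h.map (fun c => qExpand_algebraMap c) fun a ha =>
    ⟨ha.qExpand q, redSeries_qExpand q ha⟩

theorem residue_eq_one_of_pow {q : ℕ} [Fact q.Prime] (hA : A.LiesOverPrime q) {z : A}
    (hz : z ^ q = 1) : πA z = 1 := by
  have := FLTA.Galois.charP_residueField (Fact.out : q.Prime) hA
  have : ExpChar k q := ExpChar.prime Fact.out
  apply frobenius_inj k q
  rw [frobenius_def, frobenius_def, one_pow, ← map_pow, hz, map_one]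

theorem isGRed_scaleHom {q : ℕ} [Fact q.Prime] (hA : A.LiesOverPrime q) {u : Qbˣ} (hu : u ^ q = 1)
    {x : LaurentSeries Qb} {y : LaurentSeries k} (h : IsGRed A x y) :
    IsGRed A (scaleHom u x) y := by
  have hq : 0 < q := (Fact.out : q.Prime).pos
  have huA : (u : Qb) ∈ A := mem_of_pow_mem hq (by
    rw [← Units.val_pow_eq_pow_val, hu, Units.val_one]; exact A.one_mem)
  let z₀ : A := ⟨u, huA⟩
  have hz₀ : z₀ ^ q = 1 := Subtype.ext (by
    show (u : Qb) ^ q = 1
    rw [← Units.val_pow_eq_pow_val, hu, Units.val_one])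
  let z : Aˣ := Units.ofPowEqOne z₀ q hz₀ hq.ne'
  have hz : Units.map (A.subtype : A →* Qb) z = u := Units.ext rfl
  have hπ : Units.map (πA : A →* k) z = 1 := Units.ext (residue_eq_one_of_pow hA hz₀)
  refine h.map (G := RingHom.id _) (fun c => ?_) fun a ha => ?_
  · rw [algebraMap_laurentSeries_eq_single, scaleHom_single]
    simp
  · obtain ⟨w, rfl⟩ := exists_coeffMap_eq ha
    rw [← hz, ← coeffMap_scaleHom, redSeries_coeffMap, redSeries_coeffMap]
    refine ⟨intSeries_coeffMap _, ?_⟩
    rw [coeffMap_scaleHom, hπ, scaleHom_one]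
    rfl

end Reduction

end FLTA.RT.Diamond
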