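import Fermat.Agent.RT.Diamond.Classes
import Fermat.Agent.RT.Diamond.Twist
import Fermat.Agent.RT.Diamond.BottomMid
import Fermat.Agent.RT.Diamond.BottomHecke
import Fermat.Agent.RT.Diamond.BottomInj
import Fermat.Agent.RT.Diamond.BottomHecke
import Fermat.Agent.Congruence.FrobeniusField
import Fermat.Agent.Congruence.Embeddings
import Fermat.Prelude.Def_ModularCurve_HeckeModule

/-!
# The bottom of the argument at an auxiliary prime

Let `y` be a parabolic class of level `L` with `T_q y = t y`, `t² ≠ 4`, and `P̄` the class of level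
`L q²` given by the twist of an old class.  If all classes of `P̄` at some middle branch vanish then
`y = 0`.  In the multiplicative group of reductions at level `L` modulo `p`-th powers: Eichler–
Shimura gives `A_t = φ A + φ⁻¹ A`, the vanishing gives `A_t = 2 φ A + k` with `φ k = k`.
-/

set_option autoImplicit false
set_option maxHeartbeats 1000000
set_option synthInstance.maxHeartbeats 400000

noncomputable section

open AlgebraicCurve ModularCurve CongruenceSubgroup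
open FLTA.Gamma0 (homPar0 homPar0Map)

namespace FLTA.RT.Diamond

open FLTA.Kummer FLTA.LevelRaising

local notation "Qb" => AlgebraicClosure ℚ

variable {L q p : ℕ} [NeZero L] [Fact q.Prime] [Fact p.Prime] {A : ValuationSubring Qb}

local notation "k" => IsLocalRing.ResidueField A

/-- The function of `(T y) ∘ conj - y - y ∘ conj²` at a middle branch. -/
theorem exists_isGRed_mid (hqL : ¬ q ∣ L) (hpq : p ∣ q - 1) (hA : A.LiesOverPrime q)
    {φ : k →+* k} (hφ : ∀ c, φ c = c ^ q) {ζ : Qbˣ} (hζ : IsPrimitiveRoot ζ q) {b : ℕ}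
    (hb : ¬ q ∣ b) {ι : modularFunctionFieldBar (L * q * q) →ₐ[Qb] LaurentSeries Qb}
    (hι : IsMidEmb L q ζ b ι) (u v : homPar0 ℤ (Gamma0 L) (ZMod p))
    (w : homPar0 ℤ (Gamma0 (L * q * q)) (ZMod p))
    (hw : ∀ γ, w.1 (Additive.ofMul γ)
      = v.1 (Additive.ofMul (conjHom L q (inclHom (L * q) q γ)))
        - u.1 (Additive.ofMul (inclHom L q (inclHom (L * q) q γ)))
        - u.1 (Additive.ofMul (conjHom L q (conjHom (L * q) q γ))))
    (h0 : torCls (midRes A L) ι (rawPoint (L * q * q) p w) = 0)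
    {f g : modularFunctionFieldBar L}
    (hf : TorsionRep p (rawPoint L p u : Pic0 Qb (modularFunctionFieldBar L)) f)
    (hg : TorsionRep p (rawPoint L p v : Pic0 Qb (modularFunctionFieldBar L)) g)
    {H H' : LaurentSeries k} (hH : IsGRed A (f : LaurentSeries Qb) H)
    (hH' : IsGRed A (g : LaurentSeries Qb) H') :
    ∃ a ∈ levelRes A L, (∃ b ∈ midRes A L, a = b ^ p) ∧
      H' = ModularCurve.coeffMap φ H ^ 2 * a := by
  have hq : q.Prime := Fact.out
  have hp : p.Prime := Fact.out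
  have : NeZero q := ⟨hq.ne_zero⟩
  have hqp : ¬ q ∣ p := fun h => by
    rw [(Nat.prime_dvd_prime_iff_eq hq hp).mp h] at hpq
    exact (Nat.sub_lt hp.pos one_pos).not_ge
      (Nat.le_of_dvd (Nat.sub_pos_of_lt hp.one_lt) hpq)
  have := FLTA.Galois.charP_residueField hq hA
  have := FLTA.Galois.isAlgClosed_residueField A
  have : PerfectRing k q := PerfectRing.ofSurjective k q fun x =>
    IsAlgClosed.exists_pow_nat_eq x hq.pos
  obtain rfl : φ = frobenius k q := RingHom.ext fun c => (hφ c).trans (frobenius_def q c).symm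
  have hζb : (ζ ^ b) ^ q = 1 := by rw [← pow_mul, mul_comm, pow_mul, hζ.pow_eq_one, one_pow]
  have hrep := torsionRep_oldFun hw hf hg
  have hY : IsGRed A (ι (oldFun f g)) (qExpand k q H' * (H * H)⁻¹) := by
    rw [oldFun, map_mul, map_inv₀, map_mul, midEmb_alpha_beta hι, midEmb_alpha_alpha hι,
      midEmb_beta_beta hι]
    exact (isGRed_qExpand q hH').mul (hH.mul (isGRed_scaleHom hA hζb hH)).inv
  rw [torCls_eq hA hqp (midRes A L) ι (midEmb_mem_gaussField hq hζ hι)
    (fun x y hy => mem_midRes_of_isGRed hqL hA hζ hb hι x hy) _ hrep,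
    gClass_eq_zero_iff (midRes A L) hY] at h0
  obtain ⟨B, hB, hYB⟩ := h0
  have hHl : H ∈ levelRes A L := mem_levelRes_of_isGRed hqL hA f.2 hH
  have hHl' : H' ∈ levelRes A L := mem_levelRes_of_isGRed hqL hA g.2 hH'
  have hY' : qExpand k q H' ∈ levelRes A L := by
    have h := FLTA.Congruence.pow_frobSemilinear_inv_smul k q L ⟨H', hHl'⟩
    rw [← h]
    exact SetLike.coe_mem _
  obtain ⟨c, hc, hYc⟩ := exists_frob_eq_mul_pow hqL hA hp hpq hφ
    (mul_mem hY' (inv_mem (mul_mem hHl hHl))) hB hYB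
  rw [map_mul, map_inv₀, map_mul, ModularCurve.coeffMap_qExpand,
    FLTA.Congruence.qExpand_coeffMap_frobenius, hYB, ← mul_pow] at hYc
  obtain ⟨m, hm⟩ := hpq
  have hqm : q = p * m + 1 := by have := hq.one_le; omega
  have hH'0 := hH'.red_ne_zero
  have hφH : ModularCurve.coeffMap (frobenius k q) H ≠ 0 :=
    (map_ne_zero _).mpr hH.red_ne_zero
  have key : H' = ModularCurve.coeffMap (frobenius k q) H ^ 2 * ((B * c) * (H' ^ m)⁻¹) ^ p := by
    rw [mul_inv_eq_iff_eq_mul₀ (mul_ne_zero hφH hφH),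
      show H' ^ q = (H' ^ m) ^ p * H' from
        (congrArg (H' ^ ·) hqm).trans (by rw [pow_succ, pow_mul'])] at hYc
    rw [mul_pow, inv_pow, ← mul_assoc, eq_mul_inv_iff_mul_eq₀ (pow_ne_zero _ (pow_ne_zero _ hH'0)),
      mul_comm H', hYc]
    ring
  refine ⟨_, ?_, ⟨_, mul_mem (mul_mem hB (levelRes_le_midRes L hc))
    (inv_mem (pow_mem (levelRes_le_midRes L hHl') m)), rfl⟩, key⟩
  rw [show ((B * c) * (H' ^ m)⁻¹) ^ p
      = (ModularCurve.coeffMap (frobenius k q) H ^ 2)⁻¹ * H' by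
    conv_rhs => rw [key]
    rw [inv_mul_cancel_left₀ (pow_ne_zero 2 hφH)]]
  exact mul_mem (inv_mem (pow_mem
    (FLTA.Congruence.coeffMap_mem_fullC L (frobenius k q) hHl) 2)) hHl'

/-- The linear algebra of the two relations. -/
theorem sub_four_eq_zero {W : Type*} [AddCommGroup W] (Φ : W →+ W) {a₀ a₁ a₂ : W}
    (e₁ : Φ a₁ = Φ (Φ a₀) + a₀) (e₂ : Φ a₂ = Φ (Φ a₁) + a₁)
    (m₁ : Φ a₁ - Φ (Φ a₀) - Φ (Φ a₀) = a₁ - Φ a₀ - Φ a₀)
    (m₂ : Φ a₂ - Φ (Φ a₁) - Φ (Φ a₁) = a₂ - Φ a₁ - Φ a₁) : a₂ - (4 : ℕ) • a₀ = 0 := by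
  have r₁ : a₁ = a₀ + Φ a₀ + Φ a₀ - Φ (Φ a₀) := by
    rw [e₁, ← sub_eq_zero] at m₁
    rw [← sub_eq_zero]
    refine Eq.trans ?_ (neg_eq_zero.mpr m₁)
    abel
  have r₂ : a₂ = a₁ + Φ a₁ + Φ a₁ - Φ (Φ a₁) := by
    rw [e₂, ← sub_eq_zero] at m₂
    rw [← sub_eq_zero]
    refine Eq.trans ?_ (neg_eq_zero.mpr m₂)
    abel
  have h₃ := congrArg Φ r₁
  rw [map_sub, map_add, map_add, e₁, ← sub_eq_zero] at h₃
  rw [r₂, e₁, map_add, r₁]
  refine Eq.trans ?_ (neg_eq_zero.mpr h₃)
  abel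

/-- Main statement of the bottom step. -/
theorem old_bottom_eq_zero (hqL : ¬ q ∣ L) (hpq : p ∣ q - 1) (hA : A.LiesOverPrime q)
    {κ : Type*} [Field κ] [CharP κ p] (y : homPar0 ℤ (Gamma0 L) κ) (t : κ) (ht : t ^ 2 ≠ 4)
    (hTq : FLTA.Periods.heckeHom κ L q y.1 = t • y.1)
    (hTJ : ∀ l : κ →+ ZMod p,
      heckeOperatorBar L ⟨q, Fact.out⟩ (rawPoint L p (homPar0Map (Gamma0 L) l y) : JZero L)
        = (rawPoint L p (homPar0Map (Gamma0 L) (l.comp (AddMonoidHom.mulLeft t)) y) : JZero L))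
    (Pbar : homPar0 ℤ (Gamma0 (L * q * q)) κ)
    (hPbar : ∀ γ, Pbar.1 (Additive.ofMul γ)
      = FLTA.Periods.heckeHom κ L q y.1 (Additive.ofMul (conjHom L q (inclHom (L * q) q γ)))
        - y.1 (Additive.ofMul (inclHom L q (inclHom (L * q) q γ)))
        - y.1 (Additive.ofMul (conjHom L q (conjHom (L * q) q γ))))
    {ζ : Qbˣ} (hζ : IsPrimitiveRoot ζ q) {b : ℕ} (hb : ¬ q ∣ b)
    {ι : modularFunctionFieldBar (L * q * q) →ₐ[Qb] LaurentSeries Qb}
    (hι : IsMidEmb L q ζ b ι)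
    (h0 : ∀ l : κ →+ ZMod p,
      torCls (midRes A L) ι (rawPoint (L * q * q) p (homPar0Map (Gamma0 _) l Pbar)) = 0) :
    y = 0 := by
  have hq : q.Prime := Fact.out
  have hp : p.Prime := Fact.out
  have hqp : ¬ q ∣ p := fun h => by
    rw [(Nat.prime_dvd_prime_iff_eq hq hp).mp h] at hpq
    exact (Nat.sub_lt hp.pos one_pos).not_ge
      (Nat.le_of_dvd (Nat.sub_pos_of_lt hp.one_lt) hpq)
  have := FLTA.Galois.charP_residueField hq hA
  let φ : k →+* k := frobenius k q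
  have hφ : ∀ c, φ c = c ^ q := fun c => frobenius_def q c
  let E := levelRes A L
  let ι₀ : modularFunctionFieldBar L →ₐ[Qb] LaurentSeries Qb := (modularFunctionFieldBar L).val
  have hG : ∀ f, ι₀ f ∈ gaussField A := fun f => mem_gaussField_of_level f
  have hE : ∀ f y, IsGRed A (ι₀ f) y → y ∈ E := fun f y h =>
    mem_levelRes_of_isGRed hqL hA f.2 h
  let Φ : Cls A E p →+ Cls A E p :=
    MonoidHom.toAdditive (QuotientGroup.map _ _ (Units.map (coeffMap φ : _ →* LaurentSeries k))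
      fun z ⟨c, hc, hz⟩ => ⟨_, FLTA.Congruence.coeffMap_mem_fullC L φ hc, by
        show coeffMap φ (z : LaurentSeries k) = _
        rw [hz, map_pow]⟩)
  let pt : (κ →+ ZMod p) → JTors L p := fun l => rawPoint L p (homPar0Map (Gamma0 L) l y)
  let C : (κ →+ ZMod p) → Cls A E p := fun l => torCls E ι₀ (pt l)
  have hC : ∀ l, ∃ (f : modularFunctionFieldBar L) (H : LaurentSeries k) (h : H ≠ 0),
      TorsionRep p (pt l : Pic0 Qb (modularFunctionFieldBar L)) f ∧
        IsGRed A (f : LaurentSeries Qb) H ∧ H ∈ E ∧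
        C l = Additive.ofMul ((Units.mk0 H h : (LaurentSeries k)ˣ) :
          (LaurentSeries k)ˣ ⧸ powUnits A E p) := by
    intro l
    obtain ⟨f, hf⟩ := exists_torsionRep (pt l).2
    obtain ⟨H, hH⟩ := exists_isGRed hA (hG f) ((map_ne_zero_iff _ ι₀.injective).mpr hf.1)
    exact ⟨f, H, hH.red_ne_zero, hf, hH, hE f H hH,
      (torCls_eq hA hqp E ι₀ hG hE (pt l) hf).trans (gClass_eq E hH hH.red_ne_zero)⟩
  choose f H hH0 hf hH hHE hCl using hC
  let lt : (κ →+ ZMod p) → (κ →+ ZMod p) := fun l => l.comp (AddMonoidHom.mulLeft t)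
  have hecke : ∀ l, Φ (C (lt l)) = Φ (Φ (C l)) + C l := by
    intro l
    obtain ⟨c, hc, hce⟩ := exists_isGRed_heckeBottom hqL hpq hA hφ (pt l) (pt (lt l)) (hTJ l)
      (hf l) (hf (lt l)) (hH l) (hH (lt l))
    rw [hCl, hCl]
    show Additive.ofMul _ = Additive.ofMul _
    refine congrArg Additive.ofMul (QuotientGroup.eq.mpr ⟨c⁻¹, inv_mem hc, ?_⟩)
    simp only [Units.val_mul, Units.val_inv_eq_inv_val, Units.coe_map, Units.val_mk0,
      MonoidHom.coe_coe, hce, inv_pow]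
    field_simp [hH0 l, (map_ne_zero (coeffMap φ)).mpr ((map_ne_zero (coeffMap φ)).mpr (hH0 l))]
  have mid : ∀ l, Φ (C (lt l)) - Φ (Φ (C l)) - Φ (Φ (C l)) = C (lt l) - Φ (C l) - Φ (C l) := by
    intro l
    obtain ⟨a, ha, ⟨B, hB, haB⟩, hHa⟩ := exists_isGRed_mid hqL hpq hA hφ hζ hb hι
      (homPar0Map (Gamma0 L) l y) (homPar0Map (Gamma0 L) (lt l) y)
      (homPar0Map (Gamma0 (L * q * q)) l Pbar) (fun γ => by
        show l (Pbar.1 (Additive.ofMul γ)) = _
        rw [hPbar, hTq, map_sub, map_sub]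
        rfl) (h0 l) (hf l) (hf (lt l)) (hH l) (hH (lt l))
    have ha0 : a ≠ 0 := fun h => hH0 (lt l) (by rw [hHa, h, mul_zero])
    obtain ⟨c, hc, hca⟩ := exists_frob_eq_mul_pow hqL hA hp hpq hφ ha hB haB
    have hK : C (lt l) = Φ (C l) + Φ (C l) + Additive.ofMul ((Units.mk0 a ha0 :
        (LaurentSeries k)ˣ) : (LaurentSeries k)ˣ ⧸ powUnits A E p) := by
      rw [hCl, hCl]
      show Additive.ofMul _ = Additive.ofMul _
      refine congrArg Additive.ofMul (congrArg (QuotientGroup.mk (s := powUnits A E p))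
        (Units.ext ?_))
      rw [Units.val_mul, Units.val_mul, Units.val_mk0, Units.val_mk0, Units.coe_map,
        MonoidHom.coe_coe, Units.val_mk0, hHa, sq]
    have hΦa : Φ (Additive.ofMul ((Units.mk0 a ha0 : (LaurentSeries k)ˣ) :
        (LaurentSeries k)ˣ ⧸ powUnits A E p)) = Additive.ofMul ((Units.mk0 a ha0 :
        (LaurentSeries k)ˣ) : (LaurentSeries k)ˣ ⧸ powUnits A E p) := by
      refine congrArg Additive.ofMul (QuotientGroup.eq.mpr ⟨c⁻¹, inv_mem hc, ?_⟩)
      simp only [Units.val_mul, Units.val_inv_eq_inv_val, Units.coe_map, Units.val_mk0,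
        MonoidHom.coe_coe, hca, inv_pow]
      field_simp
    rw [hK, map_add, map_add, hΦa]
    abel
  have hadd : ∀ l l', C (l + l') = C l + C l' := by
    intro l l'
    have h : pt (l + l') = pt l + pt l' := by
      have h1 : homPar0Map (Gamma0 L) (l + l') y
          = homPar0Map (Gamma0 L) l y + homPar0Map (Gamma0 L) l' y := rfl
      simp only [pt, rawPoint, h1]
      exact map_add (kummerRaw L p).symm _ _
    exact (congrArg (torCls E ι₀) h).trans (torCls_add hA hqp E ι₀ hG hE _ _)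
  let CH : (κ →+ ZMod p) →+ Cls A E p := AddMonoidHom.mk' C hadd
  have hkill : ∀ l : κ →+ ZMod p, CH (l.comp (AddMonoidHom.mulLeft (t ^ 2 - 4))) = 0 := by
    intro l
    have e : l.comp (AddMonoidHom.mulLeft (t ^ 2 - 4)) = lt (lt l) - (4 : ℕ) • l := by
      refine AddMonoidHom.ext fun s => ?_
      show l ((t ^ 2 - 4) * s) = l (t * (t * s)) - (4 : ℕ) • l s
      rw [← map_nsmul, ← map_sub, nsmul_eq_mul]
      congr 1
      push_cast
      ring
    rw [e, map_sub, map_nsmul]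
    show C (lt (lt l)) - (4 : ℕ) • C l = 0
    refine sub_four_eq_zero Φ (a₀ := C l) (a₁ := C (lt l)) (a₂ := C (lt (lt l))) ?_ ?_ ?_ ?_
    · exact hecke l
    · exact hecke (lt l)
    · exact mid l
    · exact mid (lt l)
  have hzero : ∀ l : κ →+ ZMod p, C l = 0 := by
    intro l
    have ht' : t ^ 2 - 4 ≠ 0 := sub_ne_zero.mpr ht
    have h := hkill (l.comp (AddMonoidHom.mulLeft (t ^ 2 - 4)⁻¹))
    rwa [show (l.comp (AddMonoidHom.mulLeft (t ^ 2 - 4)⁻¹)).comp
        (AddMonoidHom.mulLeft (t ^ 2 - 4)) = l from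
      AddMonoidHom.ext fun s => congrArg l (inv_mul_cancel_left₀ ht' s)] at h
  have hpt : ∀ l, pt l = 0 := by
    intro l
    have h := hzero l
    rw [hCl, ofMul_eq_zero, QuotientGroup.eq_one_iff] at h
    obtain ⟨c, hc, hHc⟩ := h
    exact eq_zero_of_isGRed_pow hqL hpq hA (pt l) (hf l) hc (by rw [← hHc]; exact hH l)
  refine Subtype.ext (AddMonoidHom.ext fun γ => ?_)
  by_contra hne
  let := ZMod.algebra κ p
  obtain ⟨l, hl⟩ := not_forall.mp
    (mt (Module.forall_dual_apply_eq_zero_iff (ZMod p) _).mp hne)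
  refine hl ?_
  have h := congrArg (kummerRaw L p) (hpt l.toAddMonoidHom)
  rw [map_zero] at h
  have h' : homPar0Map (Gamma0 L) l.toAddMonoidHom y = 0 :=
    ((kummerRaw L p).apply_symm_apply _).symm.trans h
  exact congrArg (fun z : homPar0 ℤ (Gamma0 L) (ZMod p) => z.1 γ) h'

end FLTA.RT.Diamond
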