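import Fermat.Agent.Congruence.NormCongr
import Fermat.Agent.Congruence.AtkinLehner
import Fermat.Agent.Curves.BasicModular

/-!
# An embedding of the level `L q²` field over the level `L q` field

The extension is generated by `j(t ^ (L q²))`, of degree `q`; its conjugates are the `j(w t ^ L)`,
`w ^ q = 1`, `w ≠ 1`, and `j(t ^ (L q²))`.
-/

set_option autoImplicit false
set_option synthInstance.maxHeartbeats 400000
set_option maxHeartbeats 1000000

noncomputable section

open ModularCurve IntermediateField Polynomial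

namespace FLTA.RT.Diamond

open FLTA.Congruence

local notation "Qb" => AlgebraicClosure ℚ

variable {L q : ℕ} [NeZero L] [NeZero q]

theorem natDegree_minpoly_top (hq : q.Prime) :
    (minpoly (modularFunctionFieldFullC Qb (L * q))
      (qExpand Qb (L * q * q) (jqModC Qb))).natDegree = q := by
  have hM : ((L * q : ℕ) : Qb) ≠ 0 := Nat.cast_ne_zero.mpr (NeZero.ne _)
  obtain ⟨-, W, hW⟩ := FLTA.Igusa.relfinrank_and_fricke Qb (L * q) hM
  obtain ⟨h, -⟩ := FLTA.Igusa.step_fricke (L * q) q hq hM (Nat.cast_ne_zero.mpr hq.ne_zero) W hW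
    (fun h => absurd (dvd_mul_left q L) h)
  rwa [if_pos (dvd_mul_left q L)] at h

theorem scaleHom_pow_qExpand {ζ : Qbˣ} (b : ℕ) :
    scaleHom (ζ ^ b) (qExpand Qb L (jqModC Qb)) = substHom L (ζ ^ (b * L)) (jqModC Qb) := by
  rw [scaleHom_qExpand_eq, substHom_apply, pow_mul]

theorem conj_ne_root (hq : q.Prime) (hqL : ¬ q ∣ L) {ζ : Qbˣ} (hζ : IsPrimitiveRoot ζ q) {b : ℕ}
    (hb : ¬ q ∣ b) :
    scaleHom (ζ ^ b) (qExpand Qb L (jqModC Qb)) ≠ qExpand Qb L (jqModC Qb) := by
  rw [scaleHom_pow_qExpand, ← substHom_one_right L (jqModC Qb)]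
  intro h
  obtain ⟨-, h1⟩ := substHom_jqModC_inj h
  rcases hq.dvd_mul.mp ((hζ.pow_eq_one_iff_dvd _).mp h1) with h2 | h2
  exacts [hb h2, hqL h2]

theorem exists_adjoin_emb (hq : q.Prime) (hqL : ¬ q ∣ L) {ζ : Qbˣ} (hζ : IsPrimitiveRoot ζ q)
    {b : ℕ} (hb : ¬ q ∣ b) :
    ∃ τ : (modularFunctionFieldFullC Qb (L * q))⟮qExpand Qb (L * q * q) (jqModC Qb)⟯
        →ₐ[modularFunctionFieldFullC Qb (L * q)] LaurentSeries Qb,
      τ (AdjoinSimple.gen _ _) = scaleHom (ζ ^ b) (qExpand Qb L (jqModC Qb)) := by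
  set F := modularFunctionFieldFullC Qb (L * q) with hF
  set x := qExpand Qb (L * q * q) (jqModC Qb) with hx
  set y := scaleHom (ζ ^ b) (qExpand Qb L (jqModC Qb)) with hy
  have hint : IsIntegral F x :=
    FLTA.Igusa.isIntegral_qExpand _ (jqModC_mem_full Qb _) (L * q * q)
      (Nat.cast_ne_zero.mpr (NeZero.ne _))
  obtain ⟨Φ, hΦ⟩ := modPolyExists_algebraicClosure q hq inferInstance
  set jM : F := ⟨qExpand Qb (L * q) (jqModC Qb), jqModCd_mem_full Qb _ dvd_rfl⟩ with hjM
  set r : F := ⟨qExpand Qb L (jqModC Qb), jqModCd_mem_full Qb _ (dvd_mul_right L q)⟩ with hr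
  set P : F[X] := specializeFst Φ jM with hP
  set ι : F →+* LaurentSeries Qb := algebraMap F (LaurentSeries Qb) with hι
  have hmap : P.map ι = (X - C x) * ∏ i ∈ Finset.range q,
      (X - C (qExpand Qb L (scaleHom (ζ ^ i) (jqModC Qb)))) := by
    rw [hP, map_specializeFst,
      show ι jM = qExpand Qb L (qExpand Qb q (jqModC Qb)) from (qExpand_qExpand _ _ _).symm,
      ← map_specializeFst, hΦ ζ hζ]
    simp only [Polynomial.map_mul, Polynomial.map_sub, Polynomial.map_X, Polynomial.map_C,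
      Polynomial.map_prod, qExpand_qExpand]
    rw [hx, qExpand_congr (mul_assoc L q q).symm]
  have hPm : P.Monic := Polynomial.monic_of_injective ι.injective (hmap ▸
    (monic_X_sub_C x).mul (monic_prod_of_monic _ _ fun i _ => monic_X_sub_C _))
  have hPd : P.natDegree = q + 1 := by
    rw [← natDegree_map_eq_of_injective ι.injective P, hmap,
      Monic.natDegree_mul (monic_X_sub_C x) (monic_prod_of_monic _ _ fun i _ => monic_X_sub_C _),
      natDegree_X_sub_C, natDegree_prod_of_monic _ _ fun i _ => monic_X_sub_C _,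
      Finset.sum_congr rfl fun i _ => natDegree_X_sub_C _, Finset.sum_const, Finset.card_range,
      smul_eq_mul, mul_one, add_comm]
  have hroot : P.IsRoot r := by
    refine Polynomial.IsRoot.of_map (f := ι) ?_ ι.injective
    rw [hmap, Polynomial.IsRoot.def, eval_mul, eval_prod]
    refine mul_eq_zero_of_right _ (Finset.prod_eq_zero (Finset.mem_range.mpr hq.pos) ?_)
    rw [pow_zero, scaleHom_one, eval_sub, eval_X, eval_C, sub_eq_zero]
    rfl
  obtain ⟨Ψ, hΨ⟩ := dvd_iff_isRoot.mpr hroot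
  have hΨm : Ψ.Monic := (monic_X_sub_C r).of_mul_monic_left (hΨ ▸ hPm)
  have hΨd : Ψ.natDegree = q := by
    have := hPd
    rw [hΨ, Monic.natDegree_mul (monic_X_sub_C r) hΨm, natDegree_X_sub_C] at this
    omega
  have hev : ∀ z : LaurentSeries Qb, (P.map ι).eval z = 0 → z ≠ qExpand Qb L (jqModC Qb) →
      aeval z Ψ = 0 := by
    intro z hz hne
    rw [hΨ, Polynomial.map_mul, eval_mul, mul_eq_zero, Polynomial.map_sub, map_X, map_C,
      eval_sub, eval_X, eval_C, sub_eq_zero, eval_map_algebraMap] at hz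
    exact hz.resolve_left hne
  have hΨx : aeval x Ψ = 0 := by
    refine hev x (by rw [hmap, eval_mul, eval_sub, eval_X, eval_C, sub_self, zero_mul]) ?_
    rw [hx, ← substHom_one_right (L * q * q) (jqModC Qb), ← substHom_one_right L (jqModC Qb)]
    intro h
    have h1 := (substHom_jqModC_inj h).1
    have hq2 := Nat.mul_le_mul hq.two_le hq.two_le
    nlinarith [Nat.pos_of_ne_zero (NeZero.ne L)]
  have hmin : minpoly F x = Ψ :=
    (eq_of_monic_of_dvd_of_natDegree_le (minpoly.monic hint) hΨm (minpoly.dvd F x hΨx)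
      (by rw [hΨd, natDegree_minpoly_top hq])).symm
  have hΨy : aeval y (minpoly F x) = 0 := by
    rw [hmin]
    refine hev y ?_ (conj_ne_root hq hqL hζ hb)
    rw [hmap, eval_mul, eval_prod]
    refine mul_eq_zero_of_right _ (Finset.prod_eq_zero
      (Finset.mem_range.mpr (Nat.mod_lt (b * L) hq.pos)) ?_)
    rw [eval_sub, eval_X, eval_C, sub_eq_zero, hy, scaleHom_pow_qExpand, substHom_apply,
      pow_eq_pow_mod (b * L) hζ.pow_eq_one]
  refine ⟨(algHomAdjoinIntegralEquiv F hint).symm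
    ⟨y, mem_aroots.mpr ⟨minpoly.ne_zero hint, hΨy⟩⟩, ?_⟩
  exact algHomAdjoinIntegralEquiv_symm_apply_gen F hint _

theorem mem_adjoin_top (z : LaurentSeries Qb) (hz : z ∈ modularFunctionFieldBar (L * q * q)) :
    z ∈ (modularFunctionFieldFullC Qb (L * q))⟮qExpand Qb (L * q * q) (jqModC Qb)⟯ := by
  rw [← mem_restrictScalars Qb,
    FLTA.Igusa.restrictScalars_adjoin_jMq (L * q) q (Nat.cast_ne_zero.mpr (NeZero.ne _)),
    ← FLTA.Curves.laurentBaseChange_full_eq]
  exact hz

/-- A map over level `L q` restricted to the level `L q²` field. -/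
theorem exists_emb_of_adjoin (hq : q.Prime)
    (τ : (modularFunctionFieldFullC Qb (L * q))⟮qExpand Qb (L * q * q) (jqModC Qb)⟯
        →ₐ[modularFunctionFieldFullC Qb (L * q)] LaurentSeries Qb) :
    ∃ ι : modularFunctionFieldBar (L * q * q) →ₐ[Qb] LaurentSeries Qb,
      (∀ x : modularFunctionFieldBar (L * q),
        ι (heckeAlphaBar Qb (L * q) q x) = (x : LaurentSeries Qb)) ∧
      ι (jGenBar (L * q * q) (L * q * q) dvd_rfl) = τ (AdjoinSimple.gen _ _) := by
  have hle : modularFunctionFieldBar (L * q * q) ≤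
      ((modularFunctionFieldFullC Qb (L * q))⟮qExpand Qb (L * q * q) (jqModC Qb)⟯).restrictScalars
        Qb := fun z hz => mem_adjoin_top z hz
  refine ⟨(τ.restrictScalars Qb).comp (inclusion hle), fun x => ?_, ?_⟩
  · have hx : (x : LaurentSeries Qb) ∈ modularFunctionFieldFullC Qb (L * q) := by
      rw [← FLTA.Curves.laurentBaseChange_full_eq]
      exact x.2
    refine Eq.trans ?_ (τ.commutes ⟨x, hx⟩)
    exact congrArg τ (Subtype.ext (coe_heckeAlphaBar (L * q) q x))
  · exact congrArg τ (Subtype.ext rfl)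

theorem jGenBar_top_eq :
    heckeBetaBar Qb (L * q) q (heckeBetaBar Qb L q (jGenBar (L := Qb) L L dvd_rfl))
      = jGenBar (L := Qb) (L * q * q) (L * q * q) dvd_rfl := by
  apply Subtype.ext
  rw [coe_heckeBetaBar, coe_heckeBetaBar, coe_jGenBar, coe_jGenBar, qExpand_qExpand]
  rw [qExpand_qExpand]
  exact qExpand_congr (by ring) _

theorem beta_alpha_eq (x : modularFunctionFieldBar L) :
    heckeBetaBar Qb (L * q) q (heckeAlphaBar Qb L q x)
      = heckeAlphaBar Qb (L * q) q (heckeBetaBar Qb L q x) := by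
  apply Subtype.ext
  rw [coe_heckeBetaBar, coe_heckeAlphaBar, coe_heckeAlphaBar, coe_heckeBetaBar]

/-- The embedding fixes level `L q` and is `t ↦ ζ ^ b t` on the images of level `L`. -/
theorem exists_emb_fix [Fact q.Prime] (hqL : ¬ q ∣ L) {ζ : Qbˣ} (hζ : IsPrimitiveRoot ζ q)
    {b : ℕ} (hb : ¬ q ∣ b) :
    ∃ ι : modularFunctionFieldBar (L * q * q) →ₐ[Qb] LaurentSeries Qb,
      (∀ x : modularFunctionFieldBar (L * q),
        ι (heckeAlphaBar Qb (L * q) q x) = (x : LaurentSeries Qb)) ∧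
      ∀ f : modularFunctionFieldBar L,
        ι (heckeBetaBar Qb (L * q) q (heckeBetaBar Qb L q f))
          = scaleHom (ζ ^ b) (f : LaurentSeries Qb) := by
  have hq : q.Prime := Fact.out
  obtain ⟨τ, hτ⟩ := exists_adjoin_emb hq hqL hζ hb
  obtain ⟨ι, hfix, htop⟩ := exists_emb_of_adjoin hq τ
  rw [hτ, ← jGenBar_top_eq] at htop
  refine ⟨ι, hfix, ?_⟩
  set σ : modularFunctionFieldBar (L * q) →+* LaurentSeries Qb :=
    ι.toRingHom.comp (heckeBetaBar Qb (L * q) q).toRingHom with hσ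
  obtain ⟨c, hc⟩ := exists_conjSubst_of_root q L hq hqL modPolyExists_algebraicClosure hζ
    (RingHom.id _) σ fun x => by
      rw [RingHom.id_apply, ← coe_heckeBetaBar (L := Qb) L q x, ← hfix]
      exact congrArg ι (beta_alpha_eq x)
  have hj := hc (jGenBar L L dvd_rfl)
  have e : σ (heckeBetaBar Qb L q (jGenBar L L dvd_rfl))
      = scaleHom (ζ ^ b) (qExpand Qb L (jqModC Qb)) := htop
  rw [e, coe_jGenBar, RingHom.id_apply, scaleHom_pow_qExpand] at hj
  intro f
  refine (hc f).trans ?_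
  rw [RingHom.id_apply]
  cases c with
  | none =>
    exfalso
    rw [conjSubst, qExpand_qExpand, ← substHom_one_right (q * q * L)] at hj
    have h1 := (substHom_jqModC_inj hj).1
    have hq2 := Nat.mul_le_mul hq.two_le hq.two_le
    nlinarith [Nat.pos_of_ne_zero (NeZero.ne L)]
  | some i =>
    rw [conjSubst, scaleHom_pow_qExpand] at hj
    obtain ⟨-, h1⟩ := substHom_jqModC_inj hj
    have hm := (pow_inj_mod).mp h1
    rw [← hζ.eq_orderOf] at hm
    have hcop : Nat.Coprime q L := hq.coprime_iff_not_dvd.mpr hqL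
    have hbi : (i : ℕ) ≡ b [MOD q] := (Nat.ModEq.cancel_right_of_coprime hcop hm).symm
    rw [conjSubst, pow_eq_pow_mod b hζ.pow_eq_one, pow_eq_pow_mod (i : ℕ) hζ.pow_eq_one, hbi]

end FLTA.RT.Diamond
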