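import Fermat.Agent.RT.Diamond.Gauss
import Fermat.Agent.Congruence.Embeddings
import Fermat.Agent.Congruence.Twist
import Fermat.Agent.RT.Diamond.EmbedAux

/-!
# The expansions of level `L q²` at the middle cusps

`IsMidEmb L q ζ b ι`: `ι` fixes `j(D τ)` and `j(D q τ)` and sends `j(D q² τ)` to
`j(D τ + D b / q)`, that is to `j(t ^ D)` at `ζ ^ b t`.
-/

set_option autoImplicit false

noncomputable section

open ModularCurve

namespace FLTA.RT.Diamond

open FLTA.Congruence

local notation "Qb" => AlgebraicClosure ℚ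

variable (L q : ℕ) [NeZero L] [NeZero q]

/-- The expansion at the middle cusp of index `b`. -/
def IsMidEmb (ζ : Qbˣ) (b : ℕ)
    (ι : modularFunctionFieldBar (L * q * q) →ₐ[Qb] LaurentSeries Qb) : Prop :=
  ∀ (D : ℕ) (_ : NeZero D) (hD : D ∣ L),
    ι (jGenBar (L * q * q) D (hD.trans (Dvd.intro (q * q) (mul_assoc L q q).symm)))
        = qExpand Qb D (jqModC Qb) ∧
    ι (jGenBar (L * q * q) (D * q) ((mul_dvd_mul_right hD q).trans (dvd_mul_right _ q)))
        = qExpand Qb (D * q) (jqModC Qb) ∧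
    ι (jGenBar (L * q * q) (D * q * q) (mul_dvd_mul_right (mul_dvd_mul_right hD q) q))
        = scaleHom (ζ ^ b) (qExpand Qb D (jqModC Qb))

theorem exists_midEmb [Fact q.Prime] (hqL : ¬ q ∣ L) {ζ : Qbˣ} (hζ : IsPrimitiveRoot ζ q) {b : ℕ}
    (hb : ¬ q ∣ b) : ∃ ι, IsMidEmb L q ζ b ι := by
  obtain ⟨ι, hfix, htop⟩ := exists_emb_fix hqL hζ hb
  refine ⟨ι, fun D _ hD => ⟨?_, ?_, ?_⟩⟩
  · have h := hfix (jGenBar (L * q) D (hD.mul_right q))
    rw [coe_jGenBar] at h
    rw [← h]
    exact congrArg ι (Subtype.ext rfl)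
  · have h := hfix (jGenBar (L * q) (D * q) (mul_dvd_mul_right hD q))
    rw [coe_jGenBar] at h
    rw [← h]
    exact congrArg ι (Subtype.ext rfl)
  · have h := htop (jGenBar L D hD)
    rw [coe_jGenBar] at h
    rw [← h]
    refine congrArg ι (Subtype.ext ?_)
    rw [coe_jGenBar, coe_heckeBetaBar, coe_heckeBetaBar, coe_jGenBar, qExpand_qExpand]
    rw [qExpand_qExpand]
    exact qExpand_congr (by ring) _

end FLTA.RT.Diamond
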