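import Fermat.Agent.RT.Diamond.GaussLemmas
import Fermat.Agent.RT.Diamond.Embed
import Fermat.Agent.Galois.Places
import Fermat.Agent.Kummer.Conjugation

/-!
# Inertia on the reductions and on the middle cusps
-/

set_option autoImplicit false
set_option maxHeartbeats 1000000
set_option synthInstance.maxHeartbeats 400000

noncomputable section

open ModularCurve AlgebraicCurve

namespace FLTA.RT.Diamond

open FLTA.BadRed FLTA.Congruence

local notation "Qb" => AlgebraicClosure ℚ

variable {A : ValuationSubring Qb} {σ : Qb ≃ₐ[ℚ] Qb}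

local notation "k" => IsLocalRing.ResidueField A
local notation "πA" => IsLocalRing.residue A
local notation "cσ" => coeffMap (σ : Qb →+* Qb)

theorem intSeries_inertia (hσ : σ ∈ A.inertiaSubgroupIn ℚ) {x : LaurentSeries Qb}
    (hx : IntSeries A x) :
    IntSeries A (cσ x) ∧ redSeries A πA (cσ x) = redSeries A πA x := by
  obtain ⟨hd, hres⟩ := FLTA.Galois.mem_inertiaSubgroupIn_iff.mp hσ
  have hi : IntSeries A (cσ x) := fun i => by
    rw [coeffMap_coeff]
    exact FLTA.Galois.apply_mem_of_mem_decompositionSubgroup hd (hx i)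
  refine ⟨hi, ?_⟩
  ext i
  rw [redSeries_coeff, redSeries_coeff, coeffMap_coeff]
  have h1 := redCoeff_coe A πA
    ⟨σ (x.coeff i), FLTA.Galois.apply_mem_of_mem_decompositionSubgroup hd (hx i)⟩
  have h2 := redCoeff_coe A πA ⟨x.coeff i, hx i⟩
  refine h1.trans (Eq.trans ?_ h2.symm)
  rw [FLTA.Galois.residue_eq_iff_sub_mem_nonunits]
  exact hres _ (hx i)

theorem IsGRed.inertia (hσ : σ ∈ A.inertiaSubgroupIn ℚ) {x : LaurentSeries Qb}
    {y : LaurentSeries k} (h : IsGRed A x y) : IsGRed A (cσ x) y := by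
  obtain ⟨c, hc, ⟨a, b, ha, hb, hb0, hab⟩, hy, hy0⟩ := h
  obtain ⟨ha', ea⟩ := intSeries_inertia hσ ha
  obtain ⟨hb', eb⟩ := intSeries_inertia hσ hb
  have e : σ c • cσ x = cσ (c • x) := by
    ext i
    simp [coeffMap_coeff]
  have hab' : σ c • cσ x * cσ b = cσ a := by rw [e, ← map_mul, hab]
  have hb0' : redSeries A πA (cσ b) ≠ 0 := by rwa [eb]
  refine ⟨σ c, by simpa using hc, ⟨_, _, ha', hb', hb0', hab'⟩, ?_, hy0⟩
  rw [gRed_eq ha' hb' hb0' hab', ea, eb, ← hy, gRed_eq ha hb hb0 hab]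

theorem gClass_inertia (hσ : σ ∈ A.inertiaSubgroupIn ℚ)
    (E : IntermediateField k (LaurentSeries k)) (n : ℕ) [NeZero n] {x : LaurentSeries Qb}
    {y : LaurentSeries k} (h : IsGRed A x y) :
    gClass E n (cσ x) = gClass E n x := by
  rw [gClass_eq E h h.red_ne_zero, gClass_eq E (h.inertia hσ) (h.inertia hσ).red_ne_zero]

section MidEmb

variable {L q : ℕ} [NeZero L] [NeZero q]

theorem coeffMap_qExpand_jqModC (f : Qb →+* Qb) (d : ℕ) [NeZero d] :
    coeffMap f (qExpand Qb d (jqModC Qb)) = qExpand Qb d (jqModC Qb) := by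
  rw [coeffMap_qExpand, coeffMap_jqModC]

theorem dvd_cases (hq : q.Prime) {d : ℕ} (hd : d ∣ L * q * q) :
    ∃ D, D ∣ L ∧ (d = D ∨ d = D * q ∨ d = D * q * q) := by
  rw [mul_assoc] at hd
  obtain ⟨D, e, hD, he, rfl⟩ := Nat.dvd_mul.mp hd
  rw [← pow_two] at he
  obtain ⟨i, hi, rfl⟩ := (Nat.dvd_prime_pow hq).mp he
  refine ⟨D, hD, ?_⟩
  interval_cases i
  · exact Or.inl (by simp)
  · exact Or.inr (Or.inl (by simp))
  · exact Or.inr (Or.inr (by ring))

/-- Galois conjugation of an expansion at a middle cusp. -/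
theorem midEmb_galois (hq : q.Prime) {ζ : Qbˣ} (hζ : IsPrimitiveRoot ζ q) {w : ℕ}
    (hw : σ (ζ : Qb) = (ζ : Qb) ^ w) {b b' : ℕ} (hbb : b' ≡ b * w [MOD q])
    {ι ι' : modularFunctionFieldBar (L * q * q) →ₐ[Qb] LaurentSeries Qb}
    (hι : IsMidEmb L q ζ b ι) (hι' : IsMidEmb L q ζ b' ι')
    (f : modularFunctionFieldBar (L * q * q)) :
    ι' (arithmeticGalois (modularFunctionFieldFull (L * q * q)) σ • f) = cσ (ι f) := by
  have key : ι'.toRingHom.comp (arithmeticRingAut (modularFunctionFieldFull (L * q * q)) σ).toRingHom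
      = (coeffMap (σ : Qb →+* Qb)).comp ι.toRingHom := by
    refine ringHom_ext_jGenBar (fun a => ?_) fun d hd0 hd => ?_
    · show ι' (arithmeticRingAut _ σ (algebraMap Qb _ a)) = cσ (ι (algebraMap Qb _ a))
      rw [arithmeticRingAut_algebraMap, AlgHom.commutes, AlgHom.commutes, coeffMap_algebraMap]
      rfl
    · have hg : arithmeticRingAut (modularFunctionFieldFull (L * q * q)) σ
          (jGenBar (L := Qb) (L * q * q) d hd) = jGenBar (L * q * q) d hd := by
        apply Subtype.ext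
        rw [coe_arithmeticRingAut_apply, coe_jGenBar, coeffMap_qExpand_jqModC]
      show ι' (arithmeticRingAut _ σ (jGenBar _ d hd)) = cσ (ι (jGenBar _ d hd))
      rw [hg]
      obtain ⟨D, hD, hcase⟩ := dvd_cases hq hd
      haveI : NeZero D := ⟨ne_zero_of_dvd_ne_zero (NeZero.ne L) hD⟩
      obtain ⟨h1, h2, h3⟩ := hι D inferInstance hD
      obtain ⟨h1', h2', h3'⟩ := hι' D inferInstance hD
      rcases hcase with rfl | rfl | rfl
      · rw [h1, h1', coeffMap_qExpand_jqModC]
      · rw [h2, h2', coeffMap_qExpand_jqModC]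
      · rw [h3, h3', coeffMap_scaleHom, coeffMap_qExpand_jqModC]
        congr 2
        apply Units.ext
        rw [Units.coe_map, MonoidHom.coe_coe, Units.val_pow_eq_pow_val, Units.val_pow_eq_pow_val]
        show _ = σ ((ζ : Qb) ^ b)
        rw [map_pow, hw, ← pow_mul, ← Units.val_pow_eq_pow_val, ← Units.val_pow_eq_pow_val]
        congr 1
        rw [pow_eq_pow_mod b' hζ.pow_eq_one, hbb, ← pow_eq_pow_mod _ hζ.pow_eq_one, mul_comm b w]
  exact RingHom.congr_fun key f

/-- The expansions at the middle cusps lie in the Gauss field. -/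
theorem midEmb_mem_gaussField (hq : q.Prime) {ζ : Qbˣ} (hζ : IsPrimitiveRoot ζ q) {b : ℕ}
    {ι : modularFunctionFieldBar (L * q * q) →ₐ[Qb] LaurentSeries Qb}
    (hι : IsMidEmb L q ζ b ι) (f : modularFunctionFieldBar (L * q * q)) :
    ι f ∈ gaussField A := by
  have hj : ∀ (d : ℕ) [NeZero d], qExpand Qb d (jqModC Qb) ∈ gaussField A := fun d _ =>
    Subfield.subset_closure ⟨FLTA.BadRed.Series.intSeries_qExpand_jqModC d,
      by rw [← coeffEmb_qExpand_jq]; exact FLTA.BadRed.Series.hasNumberField_coeffEmb _⟩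
  have hs : ∀ (d : ℕ) [NeZero d], scaleHom (ζ ^ b) (qExpand Qb d (jqModC Qb)) ∈ gaussField A := by
    intro d _
    have h1 : ((ζ : Qb) ^ b) ^ q = 1 := by
      rw [← pow_mul, mul_comm, pow_mul, ← Units.val_pow_eq_pow_val, hζ.pow_eq_one, Units.val_one,
        one_pow]
    have hmem : ∀ z : Qb, z ^ q = 1 → z ∈ A := by
      intro z hz
      rcases A.mem_or_inv_mem z with h | h
      · exact h
      · have : z = z⁻¹ ^ (q - 1) := by
          have hz0 : z ≠ 0 := fun e => by simp [e, hq.ne_zero] at hz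
          rw [inv_pow]
          apply eq_inv_of_mul_eq_one_left
          rw [← pow_succ', Nat.sub_add_cancel hq.one_le, hz]
        exact this ▸ pow_mem h _
    obtain ⟨K, hK, hKi⟩ : FLTA.BadRed.Series.HasNumberField (qExpand Qb d (jqModC Qb)) := by
      rw [← coeffEmb_qExpand_jq]
      exact FLTA.BadRed.Series.hasNumberField_coeffEmb _
    refine Subfield.subset_closure ⟨fun i => ?_, ?_⟩
    · rw [scaleHom_coeff]
      refine mul_mem (hmem _ ?_) (FLTA.BadRed.Series.intSeries_qExpand_jqModC d i)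
      rw [← Units.val_pow_eq_pow_val, ← zpow_natCast, ← zpow_mul, mul_comm i, zpow_mul,
        zpow_natCast, ← pow_mul, mul_comm b, pow_mul, hζ.pow_eq_one, one_pow, one_zpow,
        Units.val_one]
    · haveI := hK
      haveI : FiniteDimensional ℚ (IntermediateField.adjoin ℚ {((ζ ^ b : Qbˣ) : Qb)}) :=
        IntermediateField.adjoin.finiteDimensional (Algebra.IsIntegral.isIntegral _)
      refine ⟨IntermediateField.adjoin ℚ {((ζ ^ b : Qbˣ) : Qb)} ⊔ K, inferInstance, fun i => ?_⟩
      rw [scaleHom_coeff, Units.val_zpow_eq_zpow_val]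
      exact mul_mem (le_sup_left (a := IntermediateField.adjoin ℚ {((ζ ^ b : Qbˣ) : Qb)})
        (zpow_mem (IntermediateField.mem_adjoin_simple_self ℚ _) _)) (le_sup_right (b := K) (hKi i))
  set S : Subfield (modularFunctionFieldBar (L * q * q)) := (gaussField A).comap ι.toRingHom with hS
  set T : Subfield (LaurentSeries Qb) :=
    S.map (modularFunctionFieldBar (L * q * q)).val.toRingHom with hT
  suffices h : ∀ x ∈ IntermediateField.adjoin Qb (divisorExpansionsC Qb (L * q * q)), x ∈ T by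
    obtain ⟨g, hg, hgf⟩ := Subfield.mem_map.mp
      (h (f : LaurentSeries Qb) (by rw [← laurentBaseChange_full_eq_adjoin]; exact f.2))
    rw [← show g = f from Subtype.ext hgf]
    exact hg
  intro x hx
  induction hx using IntermediateField.adjoin_induction with
  | mem x hxg =>
    obtain ⟨d, hd0, hd, rfl⟩ := hxg
    refine Subfield.mem_map.mpr ⟨jGenBar (L * q * q) d hd, ?_, rfl⟩
    show ι (jGenBar (L * q * q) d hd) ∈ gaussField A
    obtain ⟨D, hD, hcase⟩ := dvd_cases hq hd
    haveI : NeZero D := ⟨ne_zero_of_dvd_ne_zero (NeZero.ne L) hD⟩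
    obtain ⟨h1, h2, h3⟩ := hι D inferInstance hD
    rcases hcase with rfl | rfl | rfl
    · rw [h1]; exact hj _
    · rw [h2]; exact hj _
    · rw [h3]; exact hs _
  | algebraMap a =>
    refine Subfield.mem_map.mpr ⟨algebraMap Qb _ a, ?_, rfl⟩
    show ι (algebraMap Qb _ a) ∈ gaussField A
    rw [AlgHom.commutes]
    exact algebraMap_mem_gaussField a
  | add x y _ _ ihx ihy => exact add_mem ihx ihy
  | inv x _ ih => exact inv_mem ih
  | mul x y _ _ ihx ihy => exact mul_mem ihx ihy

end MidEmb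

end FLTA.RT.Diamond
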