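import Fermat.Agent.RT.Diamond.ResidueFields
import Fermat.Agent.RT.Diamond.ClassesInertia
import Fermat.Agent.Kummer.Comparison

/-!
# Classes of torsion points at a branch

`rawPoint N n φ` is the torsion point whose Kummer root has multiplier `φ` (no Fricke
conjugation); `torCls E n ι` sends a point to the class of the reduced expansion of its function.
-/

set_option autoImplicit false
set_option synthInstance.maxHeartbeats 400000

noncomputable section

open AlgebraicCurve ModularCurve CongruenceSubgroup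
open FLTA.Gamma0 (homPar0)

namespace FLTA.RT.Diamond

open FLTA.Kummer

local notation "Qb" => AlgebraicClosure ℚ

/-- The torsion point of a parabolic character. -/
def rawPoint (N n : ℕ) [NeZero N] [NeZero n] (φ : homPar0 ℤ (Gamma0 N) (ZMod n)) : JTors N n :=
  (kummerRaw N n).symm φ

variable {A : ValuationSubring Qb}

local notation "k" => IsLocalRing.ResidueField A

/-- The class of the reduced expansion of the function of a torsion point. -/
def torCls {N n : ℕ} [NeZero N] (E : IntermediateField k (LaurentSeries k))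
    (ι : modularFunctionFieldBar N →ₐ[Qb] LaurentSeries Qb) (x : JTors N n) : Cls A E n :=
  gClass E n (ι (exists_torsionRep x.2).choose)

/-- Constants and `n`-th powers have trivial class; representatives do not matter. -/
theorem torCls_eq {N n : ℕ} [NeZero N] [NeZero n] {q : ℕ} [Fact q.Prime] (hA : A.LiesOverPrime q)
    (hn : ¬ q ∣ n) (E : IntermediateField k (LaurentSeries k))
    (ι : modularFunctionFieldBar N →ₐ[Qb] LaurentSeries Qb)
    (hG : ∀ f, ι f ∈ gaussField A) (hE : ∀ f y, IsGRed A (ι f) y → y ∈ E)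
    (x : JTors N n) {f : modularFunctionFieldBar N}
    (hf : TorsionRep n (x : Pic0 Qb (modularFunctionFieldBar N)) f) :
    torCls E ι x = gClass E n (ι f) := by
  have hrep := (exists_torsionRep x.2).choose_spec
  set g := (exists_torsionRep x.2).choose with hg
  obtain ⟨hg0, D, hD, hDg⟩ := hrep
  obtain ⟨hf0, D', hD', hDf⟩ := hf
  have h := QuotientAddGroup.eq.1 (hD.trans hD'.symm)
  rw [AddSubgroup.mem_addSubgroupOf] at h
  obtain ⟨v, hv, hvD⟩ := h
  have hu : f / (g * v ^ n) ≠ 0 := div_ne_zero hf0 (mul_ne_zero hg0 (pow_ne_zero n hv))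
  have hu0 : ∀ P : Place Qb (modularFunctionFieldBar N), P.ord (f / (g * v ^ n)) = 0 := fun P => by
    rw [div_eq_mul_inv, P.ord_mul hf0 (inv_ne_zero (mul_ne_zero hg0 (pow_ne_zero n hv))),
      P.ord_inv, P.ord_mul hg0 (pow_ne_zero n hv), FLTA.Curves.ord_pow, ← hDg, ← hDf, ← hvD]
    simp only [AddSubgroup.coe_add, AddSubgroup.coe_neg, Finsupp.add_apply, Finsupp.neg_apply]
    ring
  obtain ⟨a, ha⟩ := mem_range_of_forall_ord_eq_zero N _ hu hu0
  have ha0 : a ≠ 0 := by
    rintro rfl
    exact hu (by rw [← ha, map_zero])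
  have hfeq : f = algebraMap Qb _ a * (g * v ^ n) := by
    rw [ha, div_mul_cancel₀]
    exact mul_ne_zero hg0 (pow_ne_zero n hv)
  obtain ⟨y, hy⟩ := exists_isGRed hA (hG g) ((map_ne_zero_iff _ ι.injective).mpr hg0)
  obtain ⟨z, hz⟩ := exists_isGRed hA (hG v) ((map_ne_zero_iff _ ι.injective).mpr hv)
  show gClass E n (ι g) = _
  rw [hfeq, map_mul, map_mul, map_pow, AlgHom.commutes,
    gClass_mul E (isGRed_const ha0) (hy.mul (hz.pow n)), gClass_mul E hy (hz.pow n),
    (gClass_eq_zero_iff E (isGRed_const ha0)).mpr ⟨1, one_mem E, (one_pow n).symm⟩,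
    (gClass_eq_zero_iff E (hz.pow n)).mpr ⟨z, hE v z hz, rfl⟩]
  abel

/-- Additivity. -/
theorem torCls_add {N n : ℕ} [NeZero N] [NeZero n] {q : ℕ} [Fact q.Prime]
    (hA : A.LiesOverPrime q) (hn : ¬ q ∣ n) (E : IntermediateField k (LaurentSeries k))
    (ι : modularFunctionFieldBar N →ₐ[Qb] LaurentSeries Qb)
    (hG : ∀ f, ι f ∈ gaussField A) (hE : ∀ f y, IsGRed A (ι f) y → y ∈ E) (x y : JTors N n) :
    torCls E ι (x + y) = torCls E ι x + torCls E ι y := by
  have hx := (exists_torsionRep x.2).choose_spec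
  have hy := (exists_torsionRep y.2).choose_spec
  have hxy : TorsionRep n ((x + y : JTors N n) : Pic0 Qb (modularFunctionFieldBar N))
      ((exists_torsionRep x.2).choose * (exists_torsionRep y.2).choose) := by
    rw [AddSubgroup.coe_add]
    exact hx.add hy
  obtain ⟨a, ha⟩ := exists_isGRed hA (hG _) ((map_ne_zero_iff _ ι.injective).mpr hx.1)
  obtain ⟨b, hb⟩ := exists_isGRed hA (hG _) ((map_ne_zero_iff _ ι.injective).mpr hy.1)
  rw [torCls_eq hA hn E ι hG hE (x + y) hxy, map_mul]
  exact gClass_mul E ha hb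

/-- Inertia permutes the middle cusps. -/
theorem torCls_inertia {L q n : ℕ} [NeZero L] [Fact q.Prime] [NeZero n] (hqL : ¬ q ∣ L)
    (hA : A.LiesOverPrime q) (hn : ¬ q ∣ n) {ζ : Qbˣ} (hζ : IsPrimitiveRoot ζ q)
    {σ : Qb ≃ₐ[ℚ] Qb} (hσ : σ ∈ A.inertiaSubgroupIn ℚ) {w : ℕ}
    (hw : σ (ζ : Qb) = (ζ : Qb) ^ w) {b b' : ℕ} (hb : ¬ q ∣ b) (hbb : b' ≡ b * w [MOD q])
    {ι ι' : modularFunctionFieldBar (L * q * q) →ₐ[Qb] LaurentSeries Qb}
    (hι : IsMidEmb L q ζ b ι) (hι' : IsMidEmb L q ζ b' ι')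
    (x : JTors (L * q * q) n) :
    torCls (midRes A L) ι' (JZero.torsionGaloisRep (L * q * q) n σ x)
      = torCls (midRes A L) ι x := by
  have hq : q.Prime := Fact.out
  have hx := (exists_torsionRep x.2).choose_spec
  set f := (exists_torsionRep x.2).choose with hf
  have hb' : ¬ q ∣ b' := by
    intro h
    have hw0 : ¬ q ∣ w := by
      intro hw0
      have h1 : σ (ζ : Qb) = 1 := by
        rw [hw, pow_eq_pow_mod w (by rw [← Units.val_pow_eq_pow_val, hζ.pow_eq_one, Units.val_one] :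
          (ζ : Qb) ^ q = 1), Nat.dvd_iff_mod_eq_zero.mp hw0, pow_zero]
      have h2 : (ζ : Qb) = 1 := σ.injective (by rw [h1, map_one])
      exact hq.one_lt.ne' (hζ.eq_orderOf.trans (orderOf_eq_one_iff.mpr (Units.ext h2)))
    rcases hq.dvd_mul.mp ((Nat.ModEq.dvd_iff hbb dvd_rfl).mp h) with h1 | h1
    exacts [hb h1, hw0 h1]
  have hrep : TorsionRep n ((JZero.torsionGaloisRep (L * q * q) n σ x : JTors (L * q * q) n) :
      Pic0 Qb (modularFunctionFieldBar (L * q * q)))
      (arithmeticGalois (modularFunctionFieldFull (L * q * q)) σ • f) := by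
    rw [JZero.coe_torsionGaloisRep_apply, galois_smul_pic0_def]
    exact hx.smul _
  rw [torCls_eq hA hn (midRes A L) ι' (midEmb_mem_gaussField hq hζ hι')
    (fun g y hy => mem_midRes_of_isGRed hqL hA hζ hb' hι' g hy) _ hrep,
    midEmb_galois hq hζ hw hbb hι hι']
  obtain ⟨y, hy⟩ := exists_isGRed hA (midEmb_mem_gaussField hq hζ hι f)
    ((map_ne_zero_iff _ ι.injective).mpr hx.1)
  exact gClass_inertia hσ (midRes A L) n hy

end FLTA.RT.Diamond
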