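import Fermat.Agent.RT.Diamond.FiniteOrbit
import Fermat.Agent.Kummer.Kernel

/-!
# Meromorphic functions of finite level

`levelRing` consists of the holomorphic functions of moderate growth at all cusps with finite
`SL(2, ℤ)`-orbit.  An element of its fraction field fixed by `SL(2, ℤ)` lies in `ℂ(j)`, hence a
root of an element of `ℂ(j, S)` which is fixed by everything fixing `S` lies in `ℂ(j, S)`.
-/

set_option autoImplicit false
set_option synthInstance.maxHeartbeats 400000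

noncomputable section

open scoped MatrixGroups
open UpperHalfPlane hiding I
open CongruenceSubgroup ModularCurve
open FLTA.Bridge FLTA.Kummer

namespace FLTA.RT.Diamond

/-- The action of `SL(2, ℤ)` on meromorphic functions, `g ↦ (F ↦ F ∘ g⁻¹)`. -/
def meroAct : SL(2, ℤ) →* RingAut Mero where
  toFun g := (meroSmul (slPosHom g⁻¹)).toRingEquiv
  map_one' := RingEquiv.ext fun x => by
    show meroSmul (slPosHom 1⁻¹) x = x
    rw [inv_one, map_one]
    obtain ⟨A, B, -, rfl⟩ := IsFractionRing.div_surjective (A := Hol) x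
    rw [map_div₀, meroSmul_algebraMap, meroSmul_algebraMap]
    congr 2 <;> (ext τ; simp)
  map_mul' g h := RingEquiv.ext fun x => by
    show meroSmul (slPosHom (g * h)⁻¹) x = meroSmul (slPosHom g⁻¹) (meroSmul (slPosHom h⁻¹) x)
    rw [mul_inv_rev, map_mul, meroSmul_mul]

theorem meroAct_apply (g : SL(2, ℤ)) (x : Mero) : meroAct g x = meroSmul (slPosHom g⁻¹) x := rfl

theorem meroAct_const (g : SL(2, ℤ)) (c : ℂ) :
    meroAct g (algebraMap ℂ Mero c) = algebraMap ℂ Mero c := AlgEquiv.commutes _ c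

theorem meroAct_algebraMap (g : SL(2, ℤ)) (F : Hol) :
    meroAct g (algebraMap Hol Mero F)
      = algebraMap Hol Mero ⟨fun τ => (F : ℍ → ℂ) (g⁻¹ • τ), smul_mem_hol F.2 g⁻¹⟩ := by
  rw [meroAct_apply, meroSmul_algebraMap]
  rfl

/-- The image of a function of moderate growth. -/
def IsGrowth (x : Mero) : Prop :=
  ∃ F : Hol, (F : ℍ → ℂ) ∈ GrowthHol ∧ algebraMap Hol Mero F = x

theorem IsGrowth.smul {x : Mero} (h : IsGrowth x) (g : SL(2, ℤ)) : IsGrowth (meroAct g x) := by
  obtain ⟨F, hF, rfl⟩ := h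
  exact ⟨_, mem_growthHol_comp_smul hF g⁻¹, (meroAct_algebraMap g F).symm⟩

theorem IsGrowth.of_pow {n : ℕ} [NeZero n] {x : Mero} (h : IsGrowth (x ^ n)) : IsGrowth x := by
  rcases eq_or_ne x 0 with rfl | hx
  · exact ⟨0, zero_mem GrowthHol, map_zero _⟩
  obtain ⟨G, hG, hGx⟩ := h
  have hG0 : G ≠ 0 := by
    rintro rfl
    rw [map_zero] at hGx
    exact pow_ne_zero n hx hGx.symm
  obtain ⟨F, rfl⟩ := exists_algebraMap_eq_of_meroOrd_nonneg (x := x) fun τ => by
    have h1 : meroOrd τ (x ^ n) = ordAt τ (G : ℍ → ℂ) := by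
      rw [← hGx, show algebraMap Hol Mero G = algebraMap Hol Mero G / algebraMap Hol Mero 1 by
        rw [map_one, div_one], meroOrd_div τ hG0 one_ne_zero,
        (ordAt_eq_zero_iff (1 : Hol).2 (fun h => one_ne_zero (Subtype.ext h)) τ).mpr one_ne_zero]
      simp
    rw [meroOrd_pow τ hx] at h1
    exact nonneg_of_mul_nonneg_right (h1 ▸ Int.natCast_nonneg _)
      (Int.natCast_pos.2 (NeZero.pos n))
  refine ⟨F, ⟨F.2, fun g => growthInfty_of_pow n ?_⟩, rfl⟩
  have hFG : F ^ n = G := IsFractionRing.injective Hol Mero (by rw [map_pow, hGx])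
  rw [show (fun τ : ℍ => (F : ℍ → ℂ) (g • τ) ^ n) = fun τ : ℍ => (G : ℍ → ℂ) (g • τ) from
    funext fun τ => congrArg (fun K : Hol => (K : ℍ → ℂ) (g • τ)) hFG]
  exact hG.2 g

/-- Functions of moderate growth with finite orbit. -/
def levelRing : Subring Mero where
  carrier := {x | IsGrowth x ∧ (Set.range fun g => meroAct g x).Finite}
  one_mem' := ⟨⟨1, one_mem GrowthHol, map_one _⟩, (Set.finite_singleton 1).subset (by
    rintro _ ⟨g, rfl⟩; simp)⟩
  zero_mem' := ⟨⟨0, zero_mem GrowthHol, map_zero _⟩, (Set.finite_singleton 0).subset (by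
    rintro _ ⟨g, rfl⟩; simp)⟩
  mul_mem' := by
    rintro x y ⟨⟨F, hF, rfl⟩, hx⟩ ⟨⟨G, hG, rfl⟩, hy⟩
    refine ⟨⟨F * G, mul_mem hF hG, map_mul _ _ _⟩, (Set.Finite.image2 (· * ·) hx hy).subset ?_⟩
    rintro _ ⟨g, rfl⟩
    exact ⟨_, ⟨g, rfl⟩, _, ⟨g, rfl⟩, (map_mul _ _ _).symm⟩
  add_mem' := by
    rintro x y ⟨⟨F, hF, rfl⟩, hx⟩ ⟨⟨G, hG, rfl⟩, hy⟩
    refine ⟨⟨F + G, add_mem hF hG, map_add _ _ _⟩, (Set.Finite.image2 (· + ·) hx hy).subset ?_⟩
    rintro _ ⟨g, rfl⟩
    exact ⟨_, ⟨g, rfl⟩, _, ⟨g, rfl⟩, (map_add _ _ _).symm⟩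
  neg_mem' := by
    rintro x ⟨⟨F, hF, rfl⟩, hx⟩
    refine ⟨⟨-F, neg_mem hF, map_neg _ _⟩, (hx.image fun z => -z).subset ?_⟩
    rintro _ ⟨g, rfl⟩
    exact ⟨_, ⟨g, rfl⟩, (map_neg _ _).symm⟩

theorem mem_levelRing {x : Mero} :
    x ∈ levelRing ↔ IsGrowth x ∧ (Set.range fun g => meroAct g x).Finite := Iff.rfl

theorem smul_mem_levelRing {x : Mero} (hx : x ∈ levelRing) (g : SL(2, ℤ)) :
    meroAct g x ∈ levelRing :=
  ⟨hx.1.smul g, hx.2.subset (by rintro _ ⟨g', rfl⟩; exact ⟨g' * g, by simp [map_mul]⟩)⟩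

theorem const_mem_levelRing (c : ℂ) : algebraMap ℂ Mero c ∈ levelRing := by
  refine ⟨⟨algebraMap ℂ Hol c, GrowthHol.algebraMap_mem c,
    (IsScalarTower.algebraMap_apply ℂ Hol Mero c).symm⟩,
    (Set.finite_singleton (algebraMap ℂ Mero c)).subset ?_⟩
  rintro _ ⟨g, rfl⟩
  exact meroAct_const g c

/-- The meromorphic functions of finite level. -/
def levelFrac : Subfield Mero := Subfield.closure (levelRing : Set Mero)

theorem mem_levelFrac {x : Mero} :
    x ∈ levelFrac ↔ ∃ a ∈ levelRing, ∃ b ∈ levelRing, a / b = x := by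
  rw [levelFrac, Subfield.mem_closure_iff, Subring.closure_eq]

/-- `j` as a meromorphic function. -/
def jMero : Mero := algebraMap Hol Mero (modHolToHol 1 (jMod 1))

theorem meroAct_jMero (g : SL(2, ℤ)) : meroAct g jMero = jMero := by
  rw [jMero, meroAct_algebraMap]
  refine congrArg _ (Subtype.ext ?_)
  exact funext fun τ => jInv_smul g⁻¹ τ

theorem jMero_mem_levelRing : jMero ∈ levelRing := by
  refine ⟨⟨_, ⟨(modHolToHol 1 (jMod 1)).2, (jMod 1).2.2.2⟩, rfl⟩,
    (Set.finite_singleton jMero).subset ?_⟩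
  rintro _ ⟨g, rfl⟩
  exact meroAct_jMero g

/-- `ℂ(j)`. -/
def jField : Subfield Mero := Subfield.closure (Set.range (algebraMap ℂ Mero) ∪ {jMero})

theorem meroAct_of_mem_jField (g : SL(2, ℤ)) {c : Mero} (hc : c ∈ jField) : meroAct g c = c := by
  have h : jField ≤ (meroAct g : Mero →+* Mero).eqLocusField (RingHom.id Mero) :=
    Subfield.closure_le.mpr (by
      rintro z (⟨a, rfl⟩ | rfl)
      · exact meroAct_const g a
      · exact meroAct_jMero g)
  exact h hc

theorem jField_le_levelFrac : jField ≤ levelFrac := Subfield.closure_le.mpr (by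
  rintro z (⟨a, rfl⟩ | rfl)
  · exact Subfield.subset_closure (const_mem_levelRing a)
  · exact Subfield.subset_closure jMero_mem_levelRing)

theorem mem_jField_of_fixed_levelRing {x : Mero} (hx : x ∈ levelRing)
    (h : ∀ g, meroAct g x = x) : x ∈ jField := by
  obtain ⟨F, hF, rfl⟩ := hx.1
  have hinv : ∀ (g : SL(2, ℤ)) (τ : ℍ), (F : ℍ → ℂ) (g • τ) = (F : ℍ → ℂ) τ := fun g τ => by
    have h1 := h g⁻¹
    rw [meroAct_algebraMap] at h1
    simpa using congrArg (fun K : Hol => (K : ℍ → ℂ) τ) (IsFractionRing.injective Hol Mero h1)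
  obtain ⟨P, hP⟩ := exists_aeval_jMod_eq 1 (F := (F : ℍ → ℂ))
    ⟨F.2, fun g _ => hinv g, hF.2⟩ hinv
  have hFP : F = modHolToHol 1 (Polynomial.aeval (jMod 1) P) := Subtype.ext (funext fun τ => by
    rw [hP]
    show _ = modHolEval 1 τ (Polynomial.aeval (jMod 1) P)
    rw [Polynomial.aeval_def, Polynomial.hom_eval₂]
    show P.eval (jInv τ) = _
    rw [← Polynomial.eval₂_id]
    congr 1)
  rw [hFP, ← Polynomial.aeval_algHom_apply, Polynomial.aeval_eq_sum_range, map_sum]
  refine sum_mem fun i _ => ?_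
  rw [Algebra.smul_def, map_mul, map_pow, ← IsScalarTower.algebraMap_apply]
  exact mul_mem (Subfield.subset_closure (Or.inl ⟨_, rfl⟩))
    (pow_mem (show jMero ∈ jField from Subfield.subset_closure (Or.inr rfl)) i)

theorem mem_jField_of_fixed {y : Mero} (hy : y ∈ levelFrac) (h : ∀ g, meroAct g y = y) :
    y ∈ jField := by
  classical
  obtain ⟨a, ha, b, hb, rfl⟩ := mem_levelFrac.mp hy
  rcases eq_or_ne b 0 with rfl | hb0
  · simp
  set O := hb.2.toFinset with hO
  set B : Mero := ∏ z ∈ O, z with hB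
  have hOmem : ∀ z ∈ O, z ∈ levelRing := fun z hz => by
    obtain ⟨g, rfl⟩ := hb.2.mem_toFinset.mp hz
    exact smul_mem_levelRing hb g
  have hB0 : B ≠ 0 := Finset.prod_ne_zero_iff.mpr fun z hz => by
    obtain ⟨g, rfl⟩ := hb.2.mem_toFinset.mp hz
    exact (map_ne_zero (meroAct g)).mpr hb0
  have hbO : b ∈ O := hb.2.mem_toFinset.mpr ⟨1, by simp⟩
  have hBfix : ∀ g, meroAct g B = B := fun g => by
    rw [hB, map_prod]
    refine Finset.prod_bij' (fun z _ => meroAct g z) (fun z _ => meroAct g⁻¹ z) ?_ ?_ ?_ ?_ ?_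
    · intro z hz
      obtain ⟨g', rfl⟩ := hb.2.mem_toFinset.mp hz
      exact hb.2.mem_toFinset.mpr ⟨g * g', by simp [map_mul]⟩
    · intro z hz
      obtain ⟨g', rfl⟩ := hb.2.mem_toFinset.mp hz
      exact hb.2.mem_toFinset.mpr ⟨g⁻¹ * g', by simp [map_mul]⟩
    · intro z _
      simp
    · intro z _
      simp
    · intro z _
      rfl
  have hA : a / b * B = a * ∏ z ∈ O.erase b, z := by
    rw [hB, ← Finset.mul_prod_erase O _ hbO, div_mul_eq_mul_div, ← mul_assoc, mul_comm a b,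
      mul_assoc b, mul_div_cancel_left₀ _ hb0]
  have hBmem : B ∈ jField := mem_jField_of_fixed_levelRing (prod_mem hOmem) hBfix
  have hAmem : a / b * B ∈ jField := by
    refine mem_jField_of_fixed_levelRing (hA ▸ mul_mem ha (prod_mem fun z hz =>
      hOmem z (Finset.mem_of_mem_erase hz))) fun g => ?_
    rw [map_mul, h g, hBfix g]
  rw [← mul_div_cancel_right₀ (a / b) hB0]
  exact div_mem hAmem hBmem

/-- A root fixed by everything fixing `S` lies in `ℂ(j, S)`. -/
theorem mem_closure_of_root {S : Set Mero} (hS : S.Finite) (hSl : S ⊆ levelRing) {n : ℕ}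
    [NeZero n] {H : Mero}
    (hH : H ^ n ∈ Subfield.closure (Set.range (algebraMap ℂ Mero) ∪ {jMero} ∪ S))
    (hinv : ∀ g, (∀ s ∈ S, meroAct g s = s) → meroAct g H = H) :
    H ∈ Subfield.closure (Set.range (algebraMap ℂ Mero) ∪ {jMero} ∪ S) := by
  have hfin : ∀ s ∈ S, (Set.range fun g => meroAct g s).Finite := fun s hs => (hSl hs).2
  have hle : Subfield.closure (Set.range (algebraMap ℂ Mero) ∪ {jMero} ∪ S) ≤ levelFrac :=
    Subfield.closure_le.mpr (Set.union_subset
      (fun z hz => jField_le_levelFrac (Subfield.subset_closure hz))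
      (fun z hz => Subfield.subset_closure (hSl hz)))
  have hHl : H ∈ levelFrac := by
    obtain ⟨a, ha, b, hb, hab⟩ := mem_levelFrac.mp (hle hH)
    rcases eq_or_ne b 0 with rfl | hb0
    · rw [div_zero] at hab
      simp [eq_zero_of_pow_eq_zero hab.symm]
    have hpow : IsGrowth ((H * b) ^ n) := by
      rw [mul_pow, ← hab, div_mul_eq_mul_div]
      have : a * b ^ n / b = a * b ^ (n - 1) := by
        rw [mul_div_assoc, ← Nat.sub_add_cancel (NeZero.pos n : 0 < n), pow_succ,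
          Nat.add_sub_cancel, mul_div_cancel_right₀ _ hb0]
      rw [this]
      exact (mul_mem ha (pow_mem hb _)).1
    have hHb : H * b ∈ levelRing := by
      refine ⟨IsGrowth.of_pow hpow,
        ((finite_orbit_of_fixed meroAct hS hfin hinv).image2 (· * ·) hb.2).subset ?_⟩
      rintro _ ⟨g, rfl⟩
      exact ⟨_, ⟨g, rfl⟩, _, ⟨g, rfl⟩, (map_mul _ _ _).symm⟩
    exact mem_levelFrac.mpr ⟨_, hHb, b, hb, mul_div_cancel_right₀ H hb0⟩
  have h1 := mem_closure_of_fixed meroAct (C := jField) (Φ := levelFrac)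
    (fun g _ hc => meroAct_of_mem_jField g hc) jField_le_levelFrac
    (fun g y hy => by
      obtain ⟨a, ha, b, hb, rfl⟩ := mem_levelFrac.mp hy
      exact mem_levelFrac.mpr ⟨_, smul_mem_levelRing ha g, _, smul_mem_levelRing hb g,
        (map_div₀ _ _ _).symm⟩)
    (fun y hy h => mem_jField_of_fixed hy h) hS (fun s hs => Subfield.subset_closure (hSl hs))
    hfin hHl hinv
  refine Subfield.closure_le.mpr (Set.union_subset ?_ fun z hz => Subfield.subset_closure ?_) h1
  · exact Subfield.closure_mono Set.subset_union_left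
  · exact Or.inr hz

end FLTA.RT.Diamond
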