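import Mathlib.FieldTheory.Fixed
import Mathlib.FieldTheory.Galois.Basic
import Mathlib.Algebra.Ring.Action.End

/-!
# Galois descent for elements with finite orbits

If a group acts on a field `M` by automorphisms, the fixed elements of an invariant subfield `Φ`
lie in `C` and `x ∈ Φ` is fixed by everything fixing `S ⊆ Φ` pointwise, all orbits being finite,
then `x` lies in the field generated by `C` and `S`.
-/

set_option autoImplicit false

namespace FLTA.RT.Diamond

variable {M : Type*} [Field M] {G : Type*} [Group G] (ρ : G →* RingAut M)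

theorem finite_orbit_of_fixed {S : Set M} (hS : S.Finite)
    (hfin : ∀ s ∈ S, (Set.range fun g => ρ g s).Finite) {x : M}
    (hinv : ∀ g, (∀ s ∈ S, ρ g s = s) → ρ g x = x) : (Set.range fun g => ρ g x).Finite := by
  classical
  have : Finite S := hS.to_subtype
  let T := fun s : S => {y // y ∈ Set.range fun g => ρ g (s : M)}
  have hT : ∀ s : S, Finite (T s) := fun s => (hfin s s.2).to_subtype
  let v : G → ∀ s : S, T s := fun g s => ⟨ρ g (s : M), g, rfl⟩
  refine (((Set.range v).toFinite).image fun w => if h : w ∈ Set.range v then ρ h.choose x else 0).subset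
    ?_
  rintro _ ⟨g, rfl⟩
  refine ⟨v g, ⟨g, rfl⟩, ?_⟩
  have hg : v g ∈ Set.range v := ⟨g, rfl⟩
  simp only [dif_pos hg]
  have hc := hg.choose_spec
  have h1 : ρ (g⁻¹ * hg.choose) x = x := hinv _ fun s hs => by
    have := congrArg Subtype.val (congrFun hc ⟨s, hs⟩)
    show ρ (g⁻¹ * hg.choose) s = s
    rw [map_mul, RingAut.mul_apply, show ρ hg.choose s = ρ g s from this, ← RingAut.mul_apply,
      ← map_mul, inv_mul_cancel, map_one, RingAut.one_apply]
  calc ρ hg.choose x = ρ (g * (g⁻¹ * hg.choose)) x := by rw [mul_inv_cancel_left]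
    _ = ρ g x := by rw [map_mul, RingAut.mul_apply, h1]

/-- The Galois correspondence for a group acting through a finite quotient. -/
theorem mem_closure_of_fixed {C Φ : Subfield M} (hC : ∀ g, ∀ c ∈ C, ρ g c = c) (hCΦ : C ≤ Φ)
    (hΦ : ∀ g, ∀ y ∈ Φ, ρ g y ∈ Φ) (hfix : ∀ y ∈ Φ, (∀ g, ρ g y = y) → y ∈ C)
    {S : Set M} (hS : S.Finite) (hSΦ : S ⊆ Φ)
    (hfin : ∀ s ∈ S, (Set.range fun g => ρ g s).Finite) {x : M} (hx : x ∈ Φ)
    (hinv : ∀ g, (∀ s ∈ S, ρ g s = s) → ρ g x = x) :
    x ∈ Subfield.closure ((C : Set M) ∪ S) := by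
  classical
  set T : Set M := (⋃ s ∈ S, Set.range fun g => ρ g s) ∪ Set.range fun g => ρ g x
  have hT : T.Finite :=
    (hS.biUnion hfin).union (finite_orbit_of_fixed ρ hS hfin hinv)
  have hTst : ∀ g, ∀ y ∈ T, ρ g y ∈ T := by
    rintro g y (hy | ⟨g', rfl⟩)
    · simp only [Set.mem_iUnion] at hy
      obtain ⟨s, hs, g', rfl⟩ := hy
      refine Or.inl (Set.mem_iUnion₂.mpr ⟨s, hs, g * g', ?_⟩)
      simp [map_mul]
    · exact Or.inr ⟨g * g', by simp [map_mul]⟩
  have hTΦ : T ⊆ Φ := by
    rintro y (hy | ⟨g, rfl⟩)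
    · simp only [Set.mem_iUnion] at hy
      obtain ⟨s, hs, g, rfl⟩ := hy
      exact hΦ g s (hSΦ hs)
    · exact hΦ g x hx
  set K : Subfield M := Subfield.closure ((C : Set M) ∪ T)
  have hKst : ∀ g, ∀ y ∈ K, ρ g y ∈ K := by
    intro g y hy
    have h : K ≤ K.comap (ρ g : M →+* M) := Subfield.closure_le.mpr (by
      rintro z (hz | hz)
      · show ρ g z ∈ K
        rw [hC g z hz]
        exact Subfield.subset_closure (Or.inl hz)
      · exact Subfield.subset_closure (Or.inr (hTst g z hz)))
    exact h hy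
  have hKΦ : K ≤ Φ := Subfield.closure_le.mpr (Set.union_subset hCΦ hTΦ)
  let res : G → RingAut K := fun g =>
    { toFun := fun y => ⟨ρ g y, hKst g y y.2⟩
      invFun := fun y => ⟨ρ g⁻¹ y, hKst g⁻¹ y y.2⟩
      left_inv := fun y => Subtype.ext (by
        show ρ g⁻¹ (ρ g y) = y
        rw [← RingAut.mul_apply, ← map_mul, inv_mul_cancel, map_one, RingAut.one_apply])
      right_inv := fun y => Subtype.ext (by
        show ρ g (ρ g⁻¹ y) = y
        rw [← RingAut.mul_apply, ← map_mul, mul_inv_cancel, map_one, RingAut.one_apply])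
      map_mul' := fun _ _ => Subtype.ext (map_mul (ρ g) _ _)
      map_add' := fun _ _ => Subtype.ext (map_add (ρ g) _ _) }
  let r : G →* RingAut K :=
    { toFun := res
      map_one' := RingEquiv.ext fun y => Subtype.ext (by
        show ρ 1 y = y
        rw [map_one, RingAut.one_apply])
      map_mul' := fun a b => RingEquiv.ext fun y => Subtype.ext (by
        show ρ (a * b) y = ρ a (ρ b y)
        rw [map_mul, RingAut.mul_apply]) }
  -- the image is finite: automorphisms are determined by the values on `T`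
  have : Finite T := hT.to_subtype
  have hrfin : Finite r.range := by
    refine Finite.of_injective (fun φ : r.range => fun t : T => (⟨(φ.1 ⟨t, Subfield.subset_closure
      (Or.inr t.2)⟩ : K), ?_⟩ : T)) ?_
    · obtain ⟨g, hg⟩ := φ.2
      rw [← hg]
      exact hTst g t t.2
    · rintro ⟨_, g, rfl⟩ ⟨_, g', rfl⟩ h
      refine Subtype.ext (RingEquiv.ext fun y => Subtype.ext ?_)
      show ρ g y = ρ g' y
      have hle : K ≤ (ρ g : M →+* M).eqLocusField (ρ g' : M →+* M) := Subfield.closure_le.mpr (by
        rintro z (hz | hz)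
        · show ρ g z = ρ g' z
          rw [hC g z hz, hC g' z hz]
        · exact congrArg Subtype.val (congrFun h ⟨z, hz⟩))
      exact hle y.2
  set F : Subfield K := FixedPoints.subfield r.range K
  have : IsGalois F K := inferInstance
  have hF : ∀ c : F, ((c : K) : M) ∈ C := fun c => hfix _ (hKΦ (c : K).2) fun g =>
    congrArg Subtype.val (c.2 ⟨r g, g, rfl⟩)
  let S' : Set K := {y | (y : M) ∈ S}
  let K₀ : IntermediateField F K := IntermediateField.adjoin F S'
  let x' : K := ⟨x, Subfield.subset_closure (Or.inr (Or.inr ⟨1, by simp⟩))⟩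
  have hx' : x' ∈ K₀ := by
    rw [← IsGalois.fixedField_fixingSubgroup K₀, IntermediateField.mem_fixedField_iff]
    intro φ hφ
    obtain ⟨⟨_, g, rfl⟩, rfl⟩ := FixedPoints.toAlgAut_surjective r.range K φ
    refine Subtype.ext (hinv g fun s hs => ?_)
    have hsK : s ∈ K := Subfield.subset_closure (Or.inr (Or.inl
      (Set.mem_iUnion₂.mpr ⟨s, hs, 1, by simp⟩)))
    exact congrArg Subtype.val ((IntermediateField.mem_fixingSubgroup_iff K₀ _).mp hφ ⟨s, hsK⟩
      (IntermediateField.subset_adjoin F S' hs))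
  have hmap : ∀ y ∈ K₀, (y : M) ∈ Subfield.closure ((C : Set M) ∪ S) := by
    intro y hy
    induction hy using IntermediateField.adjoin_induction with
    | mem z hz => exact Subfield.subset_closure (Or.inr hz)
    | algebraMap c => exact Subfield.subset_closure (Or.inl (hF c))
    | add a b _ _ ha hb => exact add_mem ha hb
    | inv a _ ha => exact inv_mem ha
    | mul a b _ _ ha hb => exact mul_mem ha hb
  exact hmap x' hx'

end FLTA.RT.Diamond
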