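import Fermat.Agent.BadRed.Series
import Fermat.Agent.BadRed.SeriesBounded
import Fermat.Agent.Galois.Places
import Fermat.Prelude.Def_ModularCurve_X0ModL
import Mathlib.GroupTheory.QuotientGroup.Defs

/-!
# Gauss reduction of Laurent series up to scalars

For a valuation ring `A` of `ℚ̄` above a prime, a series with a normalised form `c • a / b`
(`a`, `b` integral with non-zero reductions) has a reduction up to scalars.  `gClass` records it
in `k((t))ˣ` modulo the `n`-th powers of a subfield `E` containing the constants.
-/

set_option autoImplicit false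

noncomputable section

open ModularCurve

namespace FLTA.RT.Diamond

open FLTA.BadRed

local notation "Qb" => AlgebraicClosure ℚ

variable (A : ValuationSubring Qb)

local notation "k" => IsLocalRing.ResidueField A

/-- Integral for the Gauss valuation: `x * b = a` with `b` of non-zero reduction. -/
def GInt (x : LaurentSeries Qb) : Prop :=
  ∃ a b : LaurentSeries Qb, IntSeries A a ∧ IntSeries A b ∧
    redSeries A (IsLocalRing.residue A) b ≠ 0 ∧ x * b = a

open Classical in
/-- The reduction of an integral series, junk `0` otherwise. -/
def gRed (x : LaurentSeries Qb) : LaurentSeries k :=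
  if h : GInt A x then
    redSeries A (IsLocalRing.residue A) h.choose /
      redSeries A (IsLocalRing.residue A) h.choose_spec.choose
  else 0

/-- `y` is the reduction of `x` up to a scalar. -/
def IsGRed (x : LaurentSeries Qb) (y : LaurentSeries k) : Prop :=
  ∃ c : Qb, c ≠ 0 ∧ GInt A (c • x) ∧ gRed A (c • x) = y ∧ y ≠ 0

/-- Quotients of integral series with coefficients in number fields. -/
def gaussField : Subfield (LaurentSeries Qb) :=
  Subfield.closure {x | IntSeries A x ∧ FLTA.BadRed.Series.HasNumberField x}

/-- The `n`-th powers of the non-zero elements of `E`. -/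
def powUnits (E : IntermediateField k (LaurentSeries k)) (n : ℕ) :
    Subgroup (LaurentSeries k)ˣ where
  carrier := {y | ∃ b ∈ E, (y : LaurentSeries k) = b ^ n}
  one_mem' := ⟨1, one_mem E, by simp⟩
  mul_mem' := by
    rintro x y ⟨b, hb, hx⟩ ⟨c, hc, hy⟩
    exact ⟨b * c, mul_mem hb hc, by rw [Units.val_mul, hx, hy, mul_pow]⟩
  inv_mem' := by
    rintro x ⟨b, hb, hx⟩
    exact ⟨b⁻¹, inv_mem hb, by rw [Units.val_inv_eq_inv_val, hx, inv_pow]⟩

/-- Classes modulo `n`-th powers of `E`. -/
abbrev Cls (E : IntermediateField k (LaurentSeries k)) (n : ℕ) : Type :=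
  Additive ((LaurentSeries k)ˣ ⧸ powUnits A E n)

variable {A}

open Classical in
/-- The class of the reduction of a series, junk `0` if there is none. -/
def gClass (E : IntermediateField k (LaurentSeries k)) (n : ℕ) (x : LaurentSeries Qb) :
    Cls A E n :=
  if h : ∃ y, IsGRed A x y then
    Additive.ofMul ((Units.mk0 h.choose h.choose_spec.choose_spec.2.2.2 : (LaurentSeries k)ˣ) :
      (LaurentSeries k)ˣ ⧸ powUnits A E n)
  else 0

variable (A) in
/-- The reduction of the function field of level `L`. -/
abbrev levelRes (L : ℕ) : IntermediateField k (LaurentSeries k) := modularFunctionFieldFullC k L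

variable (A) in
/-- `θ j(t^L)`, for `θ = t d/dt`. -/
def thetaJ (L : ℕ) [NeZero L] : LaurentSeries k where
  coeff i := (i : k) * (qExpand k L (jqModC k)).coeff i
  isPWO_support' := (qExpand k L (jqModC k)).isPWO_support'.mono fun i hi h0 => hi (by simp [h0])

variable (A) in
/-- The residue field of the middle branches. -/
def midRes (L : ℕ) [NeZero L] : IntermediateField k (LaurentSeries k) :=
  IntermediateField.adjoin k ((levelRes A L : Set (LaurentSeries k)) ∪ {thetaJ A L})

theorem levelRes_le_midRes (L : ℕ) [NeZero L] : levelRes A L ≤ midRes A L := fun _ hx =>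
  IntermediateField.subset_adjoin _ _ (Or.inl hx)

theorem thetaJ_mem_midRes (L : ℕ) [NeZero L] : thetaJ A L ∈ midRes A L :=
  IntermediateField.subset_adjoin _ _ (Or.inr rfl)

/-- The residue field is algebraically closed of characteristic `q`. -/
theorem residue_surj : Function.Surjective (IsLocalRing.residue A) :=
  IsLocalRing.residue_surjective

end FLTA.RT.Diamond
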