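import Fermat.Agent.Igusa.Separable
import Fermat.Agent.Igusa.Theta
import Fermat.Agent.Congruence.FrobeniusField
import Fermat.Agent.RT.Diamond.BigField
import Fermat.Agent.BadRed.Toric.Root

/-!
# The field `C(θ j̄)` and the modular polynomial modulo `q`

`igusaField k L` is generated over the level-`L` field in characteristic `q` by `θ j̄`, `θ = q d/dq`.
The remaining lemmas say that the roots of the modular polynomials used in the tower are simple
after reduction.
-/

set_option autoImplicit false

noncomputable section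

open ModularCurve Polynomial
open FLTA.Igusa FLTA.PlaceRed

namespace FLTA.RT.Diamond

section Field

variable (k : Type) [Field k] (L : ℕ)

/-- `C(θ j̄)`. -/
def igusaField : IntermediateField k (LaurentSeries k) :=
  modularFunctionFieldFullC k L ⊔ IntermediateField.adjoin k {theta (jqModC k)}

theorem fullC_le_igusaField : modularFunctionFieldFullC k L ≤ igusaField k L := le_sup_left

theorem theta_jqModC_mem_igusaField : theta (jqModC k) ∈ igusaField k L :=
  le_sup_right (a := modularFunctionFieldFullC k L)
    (IntermediateField.mem_adjoin_simple_self k (theta (jqModC k)))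

theorem theta_jqModC_ne_zero : theta (jqModC k) ≠ 0 := fun h => by
  simpa [h] using coeff_theta_jqModC_neg_one (R := k)

variable {k}

/-- Expanding by the characteristic is a power followed by the inverse coefficient Frobenius. -/
theorem qExpand_char_eq_pow (q : ℕ) [NeZero q] [ExpChar k q] {d : ℕ} [NeZero d]
    [NeZero (q * d)] : qExpand k (q * d) (jqModC k) = qExpand k d (jqModC k) ^ q := by
  rw [← qExpand_qExpand, ← FLTA.Congruence.qExpand_coeffMap_frobenius q (qExpand k d (jqModC k)),
    coeffMap_qExpand, coeffMap_jqModC]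

/-- Every `j̄(q^d)`, `d ∣ L q^i`, lies in the level-`L` field. -/
theorem qExpand_jqModC_mem_of_dvd {L} (q : ℕ) [Fact q.Prime] [CharP k q] (i : ℕ) {d : ℕ} [NeZero d]
    (hd : d ∣ L * q ^ i) : qExpand k d (jqModC k) ∈ modularFunctionFieldFullC k L := by
  induction i generalizing d with
  | zero => exact jqModCd_mem_full k L (by simpa using hd)
  | succ i ih =>
    by_cases hqd : q ∣ d
    · obtain ⟨e, rfl⟩ := hqd
      haveI : NeZero e := ⟨right_ne_zero_of_mul (NeZero.ne (q * e))⟩
      have he : e ∣ L * q ^ i := Nat.dvd_of_mul_dvd_mul_left (Fact.out : q.Prime).pos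
        (by rwa [← mul_left_comm, ← pow_succ'])
      rw [qExpand_char_eq_pow q]
      exact pow_mem (ih he) q
    · refine ih ((Nat.Coprime.dvd_of_dvd_mul_right ?_ (by rwa [pow_succ, ← mul_assoc] at hd)))
      exact ((Nat.Prime.coprime_iff_not_dvd (Fact.out : q.Prime)).mpr hqd).symm

end Field

section Separable

variable {k : Type} [Field k] [IsAlgClosed k]

theorem aeval_qExpand_eq (d : ℕ) [NeZero d] (x : LaurentSeries k) :
    ((qExpand k d).comp (aeval (R := ℤ) x).toRingHom) =
      (aeval (R := ℤ) (qExpand k d x)).toRingHom :=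
  intPoly_hom_ext (by simp)

/-- `Φ_p(j̄(q^d), Y)` has simple roots for `p` prime to the characteristic. -/
theorem separable_modPoly_qExpand (p : ℕ) [NeZero p] (hp : p.Prime) (hpk : (p : k) ≠ 0) (d : ℕ)
    [NeZero d] :
    ((modPoly p hp).map (aeval (R := ℤ) (qExpand k d (jqModC k))).toRingHom).Separable := by
  obtain ⟨ζ, hζ⟩ := exists_primitiveRoot_unit (L := k) p hpk
  rw [← separable_map (qExpand k p), Polynomial.map_map, aeval_qExpand_eq, qExpand_qExpand,
    ← jExp_one (R := k), mul_comm p d]
  exact separable_modPoly_map_jExp p hp hζ d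

variable {L : Type} [Field L] [IsAlgClosed L] [CharZero L] {A : ValuationSubring L} (π : A →+* k)

/-- The product formula for `Φ_q` over the valuation ring. -/
theorem modPoly_map_jAt_int (q : ℕ) [NeZero q] (hq : q.Prime) {ζ : Aˣ}
    (hζ : IsPrimitiveRoot ζ q) (c : Aˣ) (e : ℕ) [NeZero e] :
    (modPoly q hq).map (aeval (R := ℤ) (jAt (c ^ q) (e * q))).toRingHom =
      (X - C (jAt (c ^ (q * q)) (e * (q * q)))) *
        ∏ i ∈ Finset.range q, (X - C (jAt (c * ζ ^ i) e)) := by
  apply Polynomial.map_injective (coeffMap A.subtype) (coeffMap_subtype_injective A)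
  rw [Polynomial.map_map, Polynomial.map_mul, Polynomial.map_prod]
  simp only [Polynomial.map_sub, Polynomial.map_X, Polynomial.map_C, coeffMap_jAt, map_mul, map_pow]
  rw [show (coeffMap A.subtype).comp (aeval (R := ℤ) (jAt (c ^ q) (e * q))).toRingHom =
    (aeval (R := ℤ) (jAt (Units.map (A.subtype : A →* L) c ^ q) (e * q))).toRingHom from
      intPoly_hom_ext (by simp [coeffMap_jAt])]
  exact modPoly_map_jAt q hq (hζ.map_of_injective (Units.map_injective Subtype.val_injective)) _ e

include π in
/-- Modulo `q`, `j̄(q^(dq))` is a simple root of `Φ_q(j̄(q^d), Y)`. -/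
theorem derivative_modPoly_eval_ne_zero (q : ℕ) [Fact q.Prime] [CharP k q] (d : ℕ) [NeZero d] :
    ((derivative (modPoly q Fact.out)).map
        (aeval (R := ℤ) (qExpand k d (jqModC k))).toRingHom).eval
      (qExpand k (d * q) (jqModC k)) ≠ 0 := by
  haveI : NeZero q := ⟨(Fact.out : q.Prime).ne_zero⟩
  obtain ⟨ζ₀, hζ₀⟩ := exists_primitiveRoot_unit (L := L) q
    (Nat.cast_ne_zero.mpr (NeZero.ne q))
  have hmem : (ζ₀ : L) ∈ A := FLTA.BadRed.mem_of_pow_mem (NeZero.pos q)
    (by rw [← Units.val_pow_eq_pow_val, hζ₀.pow_eq_one]; exact A.one_mem)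
  let z : A := ⟨ζ₀, hmem⟩
  have hz : z ^ q = 1 := Subtype.ext (by
    show (ζ₀ : L) ^ q = 1
    rw [← Units.val_pow_eq_pow_val, hζ₀.pow_eq_one, Units.val_one])
  let ζ : Aˣ := Units.ofPowEqOne z q hz (NeZero.ne q)
  have hζ : IsPrimitiveRoot ζ q := by
    refine IsPrimitiveRoot.of_map_of_injective (f := Units.map (A.subtype : A →* L)) ?_
      (Units.map_injective Subtype.val_injective)
    convert hζ₀
    exact Units.ext rfl
  have hζk : π (ζ : A) = 1 := by
    refine (frobenius_inj k q) ?_
    rw [frobenius_def, frobenius_def, one_pow, ← map_pow,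
      show ((ζ : A) ^ q) = 1 from hz, map_one]
  have h := congrArg (Polynomial.map (coeffMap π)) (modPoly_map_jAt_int q Fact.out hζ 1 d)
  rw [Polynomial.map_map, Polynomial.map_mul, Polynomial.map_prod] at h
  simp only [Polynomial.map_sub, Polynomial.map_X, Polynomial.map_C, coeffMap_jAt, map_mul, map_pow,
    map_one, one_pow, one_mul] at h
  have hone : Units.map (π : A →* k) ζ = 1 := Units.ext hζk
  rw [hone] at h
  simp only [one_pow, jAt_one, Finset.prod_const, Finset.card_range] at h
  rw [show (coeffMap π).comp (aeval (R := ℤ) (qExpand A (d * q) (jqModC A))).toRingHom =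
    (aeval (R := ℤ) (qExpand k (d * q) (jqModC k))).toRingHom from
      intPoly_hom_ext (by simp [coeffMap_qExpand, coeffMap_jqModC])] at h
  intro h0
  replace h0 := congrArg (qExpand k q) h0
  rw [map_zero, ← eval_map_apply, Polynomial.map_map, aeval_qExpand_eq, qExpand_qExpand,
    qExpand_qExpand, ← derivative_map] at h0
  simp only [mul_comm q d, show q * (d * q) = d * (q * q) by ring] at h0
  rw [h, derivative_mul, derivative_X_sub_C, eval_add, eval_mul, eval_mul, eval_one, eval_sub,
    eval_X, eval_C, sub_self, zero_mul, add_zero, one_mul, eval_pow, eval_sub, eval_X, eval_C] at h0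
  have hne := pow_eq_zero_iff (NeZero.ne q) |>.mp h0
  rw [sub_eq_zero, ← jExp_one (R := k), ← jExp_one (R := k)] at hne
  have := (jExp_inj (mul_ne_zero (NeZero.ne d) (mul_ne_zero (NeZero.ne q) (NeZero.ne q)))
    (NeZero.ne d) hne).1
  have h2 := (Fact.out : q.Prime).two_le
  nlinarith [NeZero.pos d, Nat.mul_le_mul h2 h2]

end Separable

end FLTA.RT.Diamond

end
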