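import Fermat.Agent.RT.Diamond.Classes
import Mathlib.RingTheory.Ideal.GoingUp
import Mathlib.NumberTheory.Padics.RingHoms
import Mathlib.RingTheory.RootsOfUnity.AlgebraicallyClosed

/-!
# Auxiliary facts for the local-global statement
-/

set_option autoImplicit false
set_option synthInstance.maxHeartbeats 400000

noncomputable section

open AlgebraicCurve ModularCurve CongruenceSubgroup
open FLTA.Gamma0 (homPar0 homPar0Map)

namespace FLTA.RT.Diamond

open FLTA.Kummer

local notation "Qb" => AlgebraicClosure ℚ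

variable {p : ℕ} [Fact p.Prime] {O : Type*} [CommRing O] [Algebra ℤ_[p] O]

/-- A non-zero element of a finite domain over `ℤ_p` divides a power of `p`. -/
theorem exists_mul_eq_prime_pow [IsDomain O] [Module.Finite ℤ_[p] O]
    [Module.Free ℤ_[p] O] {d : O} (hd : d ≠ 0) : ∃ (e : ℕ) (r : O), d * r = (p : O) ^ e := by
  have hint : IsIntegral ℤ_[p] d := Algebra.IsIntegral.isIntegral d
  have h := Ideal.comap_ne_bot_of_integral_mem hd (Ideal.mem_span_singleton_self d) hint
  obtain ⟨c, hc, hc0⟩ := Submodule.exists_mem_ne_zero_of_ne_bot h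
  rw [Ideal.mem_comap, Ideal.mem_span_singleton'] at hc
  obtain ⟨r, hr⟩ := hc
  set u := PadicInt.unitCoeff hc0
  refine ⟨c.valuation, r * algebraMap ℤ_[p] O ((u⁻¹ : ℤ_[p]ˣ) : ℤ_[p]), ?_⟩
  have hcu : c * ((u⁻¹ : ℤ_[p]ˣ) : ℤ_[p]) = (p : ℤ_[p]) ^ c.valuation := by
    conv_lhs => rw [PadicInt.unitCoeff_spec hc0, mul_right_comm, Units.mul_inv, one_mul]
  rw [← mul_assoc, mul_comm d r, hr, ← map_mul, hcu, map_pow, map_natCast]

/-- An additive functional modulo `p` lifts modulo every power of `p`. -/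
theorem exists_lift_functional [Module.Free ℤ_[p] O] [Module.Finite ℤ_[p] O] (m : ℕ)
    (l : O →+ ZMod p) : ∃ L : O →+ ZMod (p ^ (m + 1)),
      ∀ x, ZMod.castHom (dvd_pow_self p (Nat.succ_ne_zero m)) (ZMod p) (L x) = l x := by
  classical
  set B := Module.Free.chooseBasis ℤ_[p] O
  let L : O →+ ZMod (p ^ (m + 1)) := AddMonoidHom.mk'
    (fun x => ∑ i, PadicInt.toZModPow (m + 1) (B.repr x i) * ((l (B i)).val : ZMod (p ^ (m + 1))))
    fun x y => by
      simp only [map_add, Finsupp.add_apply, add_mul, Finset.sum_add_distrib]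
  refine ⟨L, fun x => ?_⟩
  have hsmul : ∀ (c : ℤ_[p]) (z : O), l (c • z)
      = ZMod.castHom (dvd_pow_self p (Nat.succ_ne_zero m)) (ZMod p)
          (PadicInt.toZModPow (m + 1) c) * l z := by
    intro c z
    set a := (PadicInt.toZModPow 1 c).val
    have hker : c - (a : ℤ_[p]) ∈ Ideal.span {(p : ℤ_[p]) ^ 1} := by
      rw [← PadicInt.ker_toZModPow, RingHom.mem_ker, map_sub, map_natCast, ZMod.natCast_zmod_val,
        sub_self]
    rw [pow_one, Ideal.mem_span_singleton'] at hker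
    obtain ⟨t, ht⟩ := hker
    have hc : ZMod.castHom (dvd_pow_self p (Nat.succ_ne_zero m)) (ZMod p)
        (PadicInt.toZModPow (m + 1) c) = (a : ZMod p) := by
      rw [show c = t * (p : ℤ_[p]) + (a : ℤ_[p]) by rw [ht, sub_add_cancel], map_add, map_add,
        map_mul, map_mul, map_natCast, map_natCast, map_natCast, map_natCast, ZMod.natCast_self,
        mul_zero, zero_add]
    rw [hc, show c = (a : ℤ_[p]) + t * (p : ℤ_[p]) by rw [ht, add_sub_cancel], add_smul,
      mul_comm t, mul_smul, Nat.cast_smul_eq_nsmul, Nat.cast_smul_eq_nsmul, map_add, map_nsmul,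
      map_nsmul, nsmul_eq_mul, nsmul_eq_mul, ZMod.natCast_self, zero_mul, add_zero]
  conv_rhs => rw [← B.sum_repr x, map_sum]
  simp only [hsmul, L, AddMonoidHom.mk'_apply, map_sum, map_mul, map_natCast,
    ZMod.natCast_zmod_val]

/-- `rawPoint` is additive. -/
theorem rawPoint_add {N n : ℕ} [NeZero N] [NeZero n] (φ ψ : homPar0 ℤ (Gamma0 N) (ZMod n)) :
    rawPoint N n (φ + ψ) = rawPoint N n φ + rawPoint N n ψ :=
  map_add (kummerRaw N n).symm φ ψ

/-- `rawPoint` commutes with `ZMod n → ZMod (n d)`. -/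
theorem coe_rawPoint_mulEmb {N n m d : ℕ} [NeZero N] [NeZero n] [NeZero m] (h : n * d = m)
    (φ : homPar0 ℤ (Gamma0 N) (ZMod n)) :
    rawPoint N m (homPar0Map (Gamma0 N) (mulEmb d h) φ)
      = ⟨(rawPoint N n φ).1, mem_torsion_of_dvd (Dvd.intro d h) (rawPoint N n φ).2⟩ := by
  set x := rawPoint N n φ
  rw [rawPoint, AddEquiv.symm_apply_eq]
  have h1 := kummerEquiv_incl N n m d h x
  have h2 : frickePar N (ZMod m) (homPar0Map (Gamma0 N) (mulEmb d h) φ)
      = homPar0Map (Gamma0 N) (mulEmb d h) (frickePar N (ZMod n) φ) :=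
    Subtype.ext (AddMonoidHom.ext fun γ => rfl)
  have hx : kummerRaw N n x = φ := (kummerRaw N n).apply_symm_apply φ
  refine (frickePar N (ZMod m)).injective ?_
  rw [h2]
  show _ = kummerEquiv N m _
  rw [h1, kummerEquiv, kummerTorsionEquiv, AddEquiv.trans_apply, hx]

variable {A : ValuationSubring Qb}

local notation "k" => IsLocalRing.ResidueField A

/-- Classes of `n`-torsion points are killed by `n`. -/
theorem nsmul_torCls {N n : ℕ} [NeZero N] [NeZero n] {q : ℕ} [Fact q.Prime]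
    (hA : A.LiesOverPrime q) (E : IntermediateField k (LaurentSeries k))
    (ι : modularFunctionFieldBar N →ₐ[Qb] LaurentSeries Qb)
    (hG : ∀ f, ι f ∈ gaussField A) (hE : ∀ f y, IsGRed A (ι f) y → y ∈ E) (x : JTors N n) :
    n • torCls E ι x = 0 := by
  have hf := (exists_torsionRep x.2).choose_spec
  set f := (exists_torsionRep x.2).choose
  obtain ⟨y, hy⟩ := exists_isGRed hA (hG f) ((map_ne_zero_iff _ ι.injective).mpr hf.1)
  show n • gClass E n (ι f) = 0
  rw [← gClass_pow E hy, gClass_eq_zero_iff E (hy.pow n)]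
  exact ⟨y, hE f y hy, rfl⟩

/-- A point of order dividing `n` whose class at level `n d` vanishes has trivial class. -/
theorem torCls_eq_zero_of_incl {N n m d : ℕ} [NeZero N] [NeZero n] [NeZero m] [NeZero d]
    (h : n * d = m) {q : ℕ} [Fact q.Prime] (hA : A.LiesOverPrime q) (hm : ¬ q ∣ m)
    (E : IntermediateField k (LaurentSeries k))
    (ι : modularFunctionFieldBar N →ₐ[Qb] LaurentSeries Qb)
    (hG : ∀ f, ι f ∈ gaussField A) (hE : ∀ f y, IsGRed A (ι f) y → y ∈ E) (x : JTors N n)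
    (h0 : torCls E ι (⟨x.1, mem_torsion_of_dvd (Dvd.intro d h) x.2⟩ : JTors N m) = 0) :
    torCls E ι x = 0 := by
  have hf := (exists_torsionRep x.2).choose_spec
  set f := (exists_torsionRep x.2).choose
  obtain ⟨hf0, D, hD, hDf⟩ := hf
  have hrep : TorsionRep m (x : JZero N) (f ^ d) := ⟨pow_ne_zero d hf0, D, hD, fun v => by
    rw [FLTA.Curves.ord_pow, ← hDf, ← h]
    push_cast
    ring⟩
  rw [torCls_eq hA hm E ι hG hE _ (f := f ^ d) hrep, map_pow] at h0
  obtain ⟨y, hy⟩ := exists_isGRed hA (hG f) ((map_ne_zero_iff _ ι.injective).mpr hf0)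
  rw [gClass_eq_zero_iff E (hy.pow d)] at h0
  obtain ⟨b, hb, hyb⟩ := h0
  show gClass E n (ι f) = 0
  rw [gClass_eq_zero_iff E hy]
  have hy0 := hy.red_ne_zero
  have hbn : b ^ n ≠ 0 := fun e => by
    rw [← h, pow_mul, e, zero_pow (NeZero.ne d)] at hyb
    exact pow_ne_zero d hy0 hyb
  have hz : (y / b ^ n) ^ d = 1 := by
    rw [div_pow, hyb, ← pow_mul, h, div_self]
    rw [← h, pow_mul]
    exact pow_ne_zero d hbn
  -- roots of unity are constants
  have := FLTA.Galois.charP_residueField (Fact.out : q.Prime) hA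
  have := FLTA.Galois.isAlgClosed_residueField A
  have hdk : (d : k) ≠ 0 := fun e => hm (h ▸ Dvd.dvd.mul_left ((CharP.cast_eq_zero_iff k q d).mp e) n)
  haveI : NeZero (d : k) := ⟨hdk⟩
  obtain ⟨ξ, hξ⟩ := HasEnoughRootsOfUnity.exists_primitiveRoot k d
  obtain ⟨i, -, hi⟩ := (hξ.map_of_injective (f := algebraMap k (LaurentSeries k))
    (algebraMap k (LaurentSeries k)).injective).eq_pow_of_pow_eq_one hz
  obtain ⟨w, hw⟩ := IsAlgClosed.exists_pow_nat_eq (ξ ^ i) (NeZero.pos n)
  refine ⟨algebraMap k (LaurentSeries k) w * b, mul_mem (E.algebraMap_mem w) hb, ?_⟩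
  rw [mul_pow, ← map_pow, hw, map_pow, hi, div_mul_cancel₀ y hbn]

end FLTA.RT.Diamond
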