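import Fermat.Agent.RT.Diamond.ResidueBridge
import Fermat.Agent.RT.Diamond.GaussLemmas
import Fermat.Agent.RT.Diamond.ClassesInertia
import Fermat.Agent.Bridge.Field

/-!
# The series of the middle cusps: descent to `ℚ̄` and residues

`midSet L q ζ` contains the `j(t^d)`, `d ∣ L q²`, and the translates `j((ζ^i t)^D)`, `D ∣ L`.  A
series over `ℚ̄` in `ℂ(midSet)` lies in `ℚ̄(midSet)`, whose reductions lie in the residue field of
the middle branches.
-/

set_option autoImplicit false
set_option synthInstance.maxHeartbeats 400000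

noncomputable section

open ModularCurve
open FLTA.Congruence (scaleHom scaleHom_coeff coeffEmb_qExpand_jq)

namespace FLTA.RT.Diamond

open FLTA.BadRed FLTA.PlaceRed FLTA.Igusa

local notation "Qb" => AlgebraicClosure ℚ

section Descent

variable {L : Type*} [Field L] [Algebra ℚ L] (ι : L →+* ℂ)

/-- A series over `L` in the field generated over `ℂ` by series over `L`. -/
theorem mem_adjoin_of_coeffMap_mem (T : Set (LaurentSeries L)) {x : LaurentSeries L}
    (h : coeffMap ι x ∈ IntermediateField.adjoin ℂ (coeffMap ι '' T)) :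
    x ∈ IntermediateField.adjoin L T := by
  rw [IntermediateField.mem_adjoin_iff_div] at h
  obtain ⟨r, hr, s, hs, hx⟩ := h
  rcases eq_or_ne s 0 with rfl | hs0
  · rw [div_zero] at hx
    rw [(map_eq_zero (coeffMap ι)).mp hx]
    exact zero_mem _
  obtain ⟨i, hi⟩ : ∃ i, s.coeff i ≠ 0 := by
    by_contra hc
    push Not at hc
    exact hs0 (HahnSeries.ext (funext fun i => by simpa using hc i))
  obtain ⟨π, hπ, hπ1⟩ := FLTA.Bridge.exists_retraction ι hi
  have key : ∀ w ∈ Algebra.adjoin ℂ (coeffMap ι '' T), w.map π ∈ Algebra.adjoin L T := by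
    intro w hw
    rw [← Subalgebra.mem_toSubmodule, Algebra.adjoin_eq_span] at hw
    have hall : ∀ c : ℂ, ((c • w : LaurentSeries ℂ)).map π ∈ Algebra.adjoin L T := by
      induction hw using Submodule.span_induction with
      | mem y hy =>
        rw [SetLike.mem_coe, ← MonoidHom.coe_coe, ← MonoidHom.map_mclosure] at hy
        obtain ⟨t, ht, rfl⟩ := hy
        intro c
        have htA : t ∈ Algebra.adjoin L T :=
          (Submonoid.closure_le.mpr (Algebra.subset_adjoin (R := L)) :
            Submonoid.closure T ≤ (Algebra.adjoin L T).toSubmonoid) ht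
        rw [FLTA.BadRed.Series.smul_eq_algebraMap_mul]
        show (algebraMap ℂ (LaurentSeries ℂ) c * coeffMap ι t).map π ∈ _
        rw [FLTA.Bridge.map_mul_coeffMap ι π hπ, FLTA.Bridge.map_algebraMap_series]
        exact mul_mem (Subalgebra.algebraMap_mem _ _) htA
      | zero =>
        intro c
        rw [smul_zero, FLTA.Bridge.map_zero_series]
        exact zero_mem _
      | add y z _ _ hy hz =>
        intro c
        rw [smul_add, FLTA.Bridge.map_add_series]
        exact add_mem (hy c) (hz c)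
      | smul a y _ hy =>
        intro c
        have hca := hy (c * a)
        rw [FLTA.BadRed.Series.smul_eq_algebraMap_mul] at hca
        rw [FLTA.BadRed.Series.smul_eq_algebraMap_mul, Algebra.smul_def, ← mul_assoc, ← map_mul]
        exact hca
    simpa using hall 1
  have hne : s.map π ≠ 0 := fun h0 => by
    have := congrArg (fun z : LaurentSeries L => z.coeff i) h0
    simp only [HahnSeries.map_coeff, hπ1, HahnSeries.coeff_zero] at this
    exact one_ne_zero this
  have h2 : r.map π = s.map π * x := by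
    rw [← FLTA.Bridge.map_mul_coeffMap ι π hπ, hx, mul_div_cancel₀ r hs0]
  rw [(eq_div_iff hne).mpr ((mul_comm x _).trans h2.symm)]
  exact div_mem (IntermediateField.algebra_adjoin_le_adjoin L _ (key r hr))
    (IntermediateField.algebra_adjoin_le_adjoin L _ (key s hs))

end Descent

/-- The series of the middle cusps. -/
def midSet (L q : ℕ) (ζ : Qbˣ) : Set (LaurentSeries Qb) :=
  {x | (∃ (d : ℕ) (_ : NeZero d), d ∣ L * q * q ∧ x = qExpand Qb d (jqModC Qb)) ∨
    ∃ (D : ℕ) (_ : NeZero D) (i : ℕ), D ∣ L ∧ x = scaleHom (ζ ^ i) (qExpand Qb D (jqModC Qb))}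

theorem scaleHom_eq_subst_twist {R : Type*} [CommRing R] (u : Rˣ) (x : LaurentSeries R) :
    scaleHom u x = twist u x := rfl

variable {A : ValuationSubring Qb} {L q : ℕ} [NeZero L] [Fact q.Prime] {ζ : Qbˣ}

theorem exists_unit_lift (hζ : ζ ^ q = 1) :
    ∃ z : Aˣ, z ^ q = 1 ∧ Units.map (A.subtype : A →* Qb) z = ζ := by
  have hpow : (ζ : Qb) ^ q = 1 := by rw [← Units.val_pow_eq_pow_val, hζ, Units.val_one]
  have hmem : (ζ : Qb) ∈ A := FLTA.BadRed.mem_of_pow_mem (NeZero.pos q)
    (by rw [hpow]; exact A.one_mem)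
  have hz : (⟨ζ, hmem⟩ : A) ^ q = 1 := Subtype.ext hpow
  refine ⟨Units.ofPowEqOne _ q hz (NeZero.ne q), ?_, Units.ext rfl⟩
  exact Units.ext (by rw [Units.val_pow_eq_pow_val]; exact hz)

local notation "k" => IsLocalRing.ResidueField A

/-- The reductions of `ℚ̄(midSet)` lie in the residue field of the middle branches. -/
theorem mem_midRes_of_midSet (hqL : ¬ q ∣ L) (hA : A.LiesOverPrime q) (hζ : ζ ^ q = 1)
    {g : LaurentSeries Qb} (hg : g ∈ IntermediateField.adjoin Qb (midSet L q ζ))
    {y : LaurentSeries k} (hy : IsGRed A g y) : y ∈ midRes A L := by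
  have := FLTA.Galois.charP_residueField (Fact.out : q.Prime) hA
  have := FLTA.Galois.isAlgClosed_residueField A
  haveI : NeZero q := ⟨(Fact.out : q.Prime).ne_zero⟩
  set hπ := (residue_surj (A := A))
  have hle : IntermediateField.adjoin Qb (midSet L q ζ) ≤
      (midField' A L q).map (bigField Qb).val := by
    rw [IntermediateField.adjoin_le_iff]
    rintro x (⟨d, hd0, hd, rfl⟩ | ⟨D, hD0, i, hD, rfl⟩)
    · refine ⟨(jB hπ d : bigField Qb), le_sup_left (b := IntermediateField.adjoin Qb _)
        (jB_mem hπ (S := {d | d ∣ L * q ^ 2}) ?_), coe_jB hπ d⟩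
      show d ∣ L * q ^ 2
      rwa [sq, ← mul_assoc]
    · obtain ⟨z, hz, hzζ⟩ := exists_unit_lift (A := A) hζ
      have hzi : (z ^ (i * D)) ^ q = 1 := by rw [← pow_mul, mul_comm, pow_mul, hz, one_pow]
      refine ⟨(toBig hπ ⟨_, jAt_mem_zInt hzi D⟩ : bigField Qb),
        le_sup_right (a := jField' {d | d ∣ L * q ^ 2}) (IntermediateField.subset_adjoin Qb _
          ⟨z ^ (i * D), D, hD0, hzi, hD, coe_toBig hπ _⟩), ?_⟩
      show ((toBig hπ ⟨_, jAt_mem_zInt hzi D⟩ : bigField Qb) : LaurentSeries Qb) = _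
      rw [coe_toBig, coeffMap_jAt, map_pow, hzζ, jAt, ← scaleHom_eq_subst_twist,
        FLTA.Congruence.scaleHom_qExpand_eq, ← pow_mul]
  obtain ⟨x, hx, rfl⟩ := hle hg
  exact igusaField_le_midRes Fact.out hA hqL (mem_of_isGRed (resIn_midField hπ hqL) hx hy)

theorem midSet_subset_gaussField (hζ : IsPrimitiveRoot ζ q) (hqL : ¬ q ∣ L) {x : LaurentSeries Qb}
    (hx : x ∈ IntermediateField.adjoin Qb (midSet L q ζ)) : x ∈ gaussField A := by
  have hj : ∀ (d : ℕ) [NeZero d], qExpand Qb d (jqModC Qb) ∈ gaussField A := fun d _ =>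
    Subfield.subset_closure ⟨FLTA.BadRed.Series.intSeries_qExpand_jqModC d,
      by rw [← coeffEmb_qExpand_jq]; exact FLTA.BadRed.Series.hasNumberField_coeffEmb _⟩
  have hscale : ∀ (D : ℕ) [NeZero D] (i : ℕ), D ∣ L →
      scaleHom (ζ ^ i) (qExpand Qb D (jqModC Qb)) ∈ gaussField A := by
    intro D _ i hD
    by_cases hi : q ∣ i
    · rw [(hζ.pow_eq_one_iff_dvd i).mpr hi, FLTA.Congruence.scaleHom_one]
      exact hj D
    · obtain ⟨ι, hι⟩ := exists_midEmb L q hqL hζ hi
      obtain ⟨-, -, h3⟩ := hι D inferInstance hD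
      rw [← h3]
      exact midEmb_mem_gaussField Fact.out hζ hι _
  induction hx using IntermediateField.adjoin_induction with
  | mem y hy =>
    rcases hy with ⟨d, hd0, -, rfl⟩ | ⟨D, hD0, i, hD, rfl⟩
    · exact hj d
    · exact hscale D i hD
  | algebraMap c => exact algebraMap_mem_gaussField c
  | add y z _ _ hy hz => exact add_mem hy hz
  | inv y _ hy => exact inv_mem hy
  | mul y z _ _ hy hz => exact mul_mem hy hz

/-- Translations by roots of unity of order `q` are invisible in the reduction. -/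
theorem IsGRed.scale (hA : A.LiesOverPrime q) {u : Qbˣ} (hu : u ^ q = 1) {x : LaurentSeries Qb}
    {y : LaurentSeries k} (h : IsGRed A x y) : IsGRed A (scaleHom u x) y := by
  have := FLTA.Galois.charP_residueField (Fact.out : q.Prime) hA
  obtain ⟨z, hz, rfl⟩ := exists_unit_lift (A := A) hu
  have hres : IsLocalRing.residue A (z : A) = 1 := by
    have h1 : IsLocalRing.residue A (z : A) ^ q = 1 := by
      rw [← map_pow, ← Units.val_pow_eq_pow_val, hz, Units.val_one, map_one]
    have h2 : (IsLocalRing.residue A (z : A) - 1) ^ q = 0 := by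
      rw [sub_pow_char, h1, one_pow, sub_self]
    exact sub_eq_zero.mp (eq_zero_of_pow_eq_zero h2)
  set u := Units.map (A.subtype : A →* Qb) z
  have hcoe : ∀ (a : LaurentSeries Qb) (i : ℤ), (scaleHom u a).coeff i
      = (((z ^ i : Aˣ) : A) : Qb) * a.coeff i := fun a i => by
    rw [scaleHom_coeff, ← map_zpow]
    rfl
  have hint : ∀ {a : LaurentSeries Qb}, IntSeries A a → IntSeries A (scaleHom u a) := fun ha i => by
    rw [hcoe]
    exact mul_mem (SetLike.coe_mem _) (ha i)
  have hred : ∀ {a : LaurentSeries Qb}, IntSeries A a →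
      redSeries A (IsLocalRing.residue A) (scaleHom u a) = redSeries A (IsLocalRing.residue A) a := by
    intro a ha
    refine HahnSeries.ext (funext fun i => ?_)
    have h1 : IsLocalRing.residue A ((z ^ i : Aˣ) : A) = 1 := by
      have hm : Units.map (IsLocalRing.residue A).toMonoidHom z = 1 := Units.ext hres
      have h2 := map_zpow (Units.map (IsLocalRing.residue A).toMonoidHom) z i
      rw [hm, one_zpow] at h2
      exact congrArg Units.val h2
    have e : (scaleHom u a).coeff i = ((((z ^ i : Aˣ) : A) * ⟨a.coeff i, ha i⟩ : A) : Qb) := by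
      rw [hcoe]; rfl
    rw [redSeries_coeff, redSeries_coeff, e, redCoeff_coe, map_mul, h1, one_mul]
    exact (redCoeff_coe A _ ⟨a.coeff i, ha i⟩).symm
  obtain ⟨c, hc, hi, hy, hy0⟩ := h
  obtain ⟨a, b, ha, hb, hb0, hab, hr⟩ := exists_rep_gRed hi
  have e : (c • scaleHom u x) * scaleHom u b = scaleHom u a := by
    rw [← hab, map_mul, FLTA.BadRed.Series.smul_eq_algebraMap_mul,
      FLTA.BadRed.Series.smul_eq_algebraMap_mul, map_mul,
      algebraMap_laurentSeries_eq_single, FLTA.Congruence.scaleHom_single]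
    simp
  refine ⟨c, hc, ⟨_, _, hint ha, hint hb, by rwa [hred hb], e⟩, ?_, hy0⟩
  rw [gRed_eq (hint ha) (hint hb) (by rwa [hred hb]) e, hred ha, hred hb, ← hr, hy]

end FLTA.RT.Diamond
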