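import Fermat.Agent.RT.Diamond.Twist
import Fermat.Agent.Bridge.Cosets
import Fermat.Agent.Kummer.HeckeNorm
import Fermat.Agent.Kummer.MeroRoot

/-!
# The maps `τ ↦ w_c (τ + i / q)` on modular functions of level `L q²`

`midPt L q c i` intertwines the elements of `Γ₀(L q²)` with diagonal `1 mod q` and preserves
holomorphic functions of exponential growth at all cusps.
-/

set_option autoImplicit false

noncomputable section

open scoped MatrixGroups Real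
open UpperHalfPlane hiding I
open Complex CongruenceSubgroup

namespace FLTA.RT.Diamond

open FLTA.Bridge FLTA.Kummer
open FLTA.Periods (gamma0GL)

section Growth

/-- Growth at infinity is kept by `τ ↦ (α τ + β) / δ`. -/
theorem growthInfty_affine {G : ℍ → ℂ} (hG : GrowthInfty G) {α δ : ℕ} (hα : 0 < α) (hδ : 0 < δ)
    (β : ℤ) {K : ℍ → ℂ}
    (hK : ∀ τ σ : ℍ, (σ : ℂ) = ((α : ℂ) * τ + β) / δ → K τ = G σ) : GrowthInfty K := by
  obtain ⟨n, hn⟩ := hG
  rw [isBoundedAtImInfty_iff] at hn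
  obtain ⟨M, A, hMA⟩ := hn
  refine ⟨n * α, ?_⟩
  rw [isBoundedAtImInfty_iff]
  refine ⟨M, max 0 (A * δ / α), fun τ hτ => ?_⟩
  have hδ' : (0 : ℝ) < δ := by exact_mod_cast hδ
  have hα' : (0 : ℝ) < α := by exact_mod_cast hα
  have him : (((α : ℂ) * τ + β) / δ).im = α * τ.im / δ := by
    simp [Complex.div_natCast_im]
  let σ : ℍ := ⟨((α : ℂ) * τ + β) / δ, by rw [him]; have := τ.im_pos; positivity⟩
  have hσim : σ.im = α * τ.im / δ := him
  have hσA : A ≤ σ.im := by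
    rw [hσim, le_div_iff₀ hδ']
    have := le_trans (le_max_right _ _) hτ
    rw [div_le_iff₀ hα'] at this
    linarith
  have := hMA σ hσA
  simp only [hK τ σ rfl, norm_mul, norm_pow, norm_qParam_one] at this ⊢
  refine le_trans (mul_le_mul_of_nonneg_right ?_ (norm_nonneg _)) this
  rw [← Real.exp_nat_mul, ← Real.exp_nat_mul]
  apply Real.exp_le_exp.mpr
  rw [hσim]
  have h1 : (α : ℝ) * τ.im / δ ≤ α * τ.im :=
    div_le_self (by have := τ.im_pos; positivity) (by exact_mod_cast hδ)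
  have h2 : (0 : ℝ) ≤ n * (2 * π) := by positivity
  push_cast
  nlinarith [mul_le_mul_of_nonneg_left h1 h2]

/-- `GrowthHol` is closed under `τ ↦ d τ`. -/
theorem growthHol_comp_scaleTau (d : ℕ) [NeZero d] {F : ℍ → ℂ} (hF : F ∈ GrowthHol) :
    (fun τ : ℍ => F (scaleTau d τ)) ∈ GrowthHol := by
  refine ⟨?_, fun g => ?_⟩
  · have h := comp_smul_mem_hol hF.1 (diagPos d)
    simpa [coe_diagPos_smul] using h
  · obtain ⟨h, α, δ, β, hα, hδ, -, he⟩ := exists_smul_eq_scaleTau_smul d g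
    exact growthInfty_affine (hF.2 h) hα hδ β fun τ σ hσ => congrArg F (he τ σ hσ)

end Growth

variable (L q : ℕ)

/-- Translation by a real number in `GL₂(ℝ)⁺`. -/
def shiftPos (x : ℝ) : GL(2, ℝ)⁺ :=
  ⟨shiftGL x, by
    show 0 < (Matrix.GeneralLinearGroup.det (shiftGL x) : ℝ)
    simp [Matrix.det_fin_two_of]⟩

theorem shiftGL_smul (x : ℝ) (τ : ℍ) : shiftGL x • τ = x +ᵥ τ := by
  apply UpperHalfPlane.ext
  rw [UpperHalfPlane.coe_smul_of_det_pos
    (show 0 < (Matrix.GeneralLinearGroup.det (shiftGL x) : ℝ) by simp [Matrix.det_fin_two_of])]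
  simp [UpperHalfPlane.num, UpperHalfPlane.denom, coe_vadd, add_comm]

/-- `w_c t (i/q)` in `GL₂(ℝ)⁺`. -/
def midPos (c i : ℤ) : GL(2, ℝ)⁺ := slPosHom (wcl L q c) * shiftPos ((i : ℝ) / q)

/-- `τ ↦ w_c (τ + i / q)`. -/
def midPt (c i : ℤ) (τ : ℍ) : ℍ := wcl L q c • (((i : ℝ) / q) +ᵥ τ)

theorem midPos_smul (c i : ℤ) (τ : ℍ) :
    ((midPos L q c i : GL(2, ℝ)⁺) : GL (Fin 2) ℝ) • τ = midPt L q c i τ := by
  show (((slPosHom (wcl L q c) : GL(2, ℝ)⁺) : GL (Fin 2) ℝ) * shiftGL ((i : ℝ) / q)) • τ = _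
  rw [mul_smul, shiftGL_smul]
  rfl

theorem coe_slPosHom (g : SL(2, ℤ)) :
    ((slPosHom g : GL(2, ℝ)⁺) : GL (Fin 2) ℝ) = Matrix.SpecialLinearGroup.mapGL ℝ g := by
  ext r s
  rw [mapGL_entry]
  rfl

theorem midPos_mul_slPosHom [NeZero q] {c i : ℤ} {η γ : Gamma0 (L * q * q)}
    (h : IsMidConj L q c i η γ) :
    midPos L q c i * slPosHom (η : SL(2, ℤ)) = slPosHom (γ : SL(2, ℤ)) * midPos L q c i := by
  apply Subtype.ext
  have hη : gamma0GL (L * q * q) η = Matrix.SpecialLinearGroup.mapGL ℝ (η : SL(2, ℤ)) := rfl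
  have hγ : gamma0GL (L * q * q) γ = Matrix.SpecialLinearGroup.mapGL ℝ (γ : SL(2, ℤ)) := rfl
  show ((slPosHom (wcl L q c) : GL(2, ℝ)⁺) : GL (Fin 2) ℝ) * shiftGL ((i : ℝ) / q)
      * ((slPosHom (η : SL(2, ℤ)) : GL(2, ℝ)⁺) : GL (Fin 2) ℝ)
    = ((slPosHom (γ : SL(2, ℤ)) : GL(2, ℝ)⁺) : GL (Fin 2) ℝ)
      * (((slPosHom (wcl L q c) : GL(2, ℝ)⁺) : GL (Fin 2) ℝ) * shiftGL ((i : ℝ) / q))
  rw [coe_slPosHom, coe_slPosHom, coe_slPosHom, ← hη, ← hγ, mul_assoc, h, mul_assoc, mul_assoc,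
    mul_inv_cancel_left]

theorem midPt_smul [NeZero q] {c i : ℤ} {η γ : Gamma0 (L * q * q)}
    (h : IsMidConj L q c i η γ) (τ : ℍ) :
    midPt L q c i ((η : SL(2, ℤ)) • τ) = (γ : SL(2, ℤ)) • midPt L q c i τ := by
  have h1 := congrArg (fun g : GL(2, ℝ)⁺ => (g : GL (Fin 2) ℝ) • τ) (midPos_mul_slPosHom L q h)
  simp only [Subgroup.coe_mul, mul_smul, midPos_smul] at h1
  exact h1

variable [NeZero q]

/-- `!![1, 0; c L, 1]`. -/
def ucl (c : ℤ) : SL(2, ℤ) := ⟨!![1, 0; c * L, 1], by simp [Matrix.det_fin_two_of]⟩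

theorem midPt_eq (c i : ℤ) (τ : ℍ) :
    midPt L q c i τ
      = ModularGroup.S • scaleTau q ((ModularGroup.S⁻¹ * ucl L c * ModularGroup.T ^ i) •
          scaleTau q τ) := by
  have hq : (q : ℂ) ≠ 0 := Nat.cast_ne_zero.mpr (NeZero.ne q)
  apply UpperHalfPlane.ext
  have hne := UpperHalfPlane.denom_ne_zero
    (Matrix.SpecialLinearGroup.mapGL ℝ (ucl L c)) ((((i : ℝ)) +ᵥ scaleTau q τ))
  have h0 : ((((i : ℝ)) +ᵥ scaleTau q τ : ℍ) : ℂ) ≠ 0 := UpperHalfPlane.ne_zero _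
  simp only [midPt, mul_smul, modular_T_zpow_smul, coe_smul_eq, coe_scaleTau, coe_vadd]
  simp only [UpperHalfPlane.denom, coe_vadd, coe_scaleTau] at hne h0
  simp [ucl] at hne
  simp [wcl, ucl, ModularGroup.S, Matrix.SpecialLinearGroup.coe_inv, Matrix.adjugate_fin_two] at hne h0 ⊢
  field_simp

theorem growthHol_comp_midPt (c i : ℤ) {F : ℍ → ℂ} (hF : F ∈ GrowthHol) :
    (fun τ : ℍ => F (midPt L q c i τ)) ∈ GrowthHol := by
  have h1 := growthHol_comp_scaleTau q (mem_growthHol_comp_smul (growthHol_comp_scaleTau q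
    (mem_growthHol_comp_smul hF ModularGroup.S)) (ModularGroup.S⁻¹ * ucl L c * ModularGroup.T ^ i))
  simpa [midPt_eq] using h1

theorem modHol_mem_growthHol {N : ℕ} {F : ℍ → ℂ} (hF : F ∈ ModHol N) : F ∈ GrowthHol :=
  ⟨hF.1, hF.2.2⟩

theorem growthHol_periodic_mem_holInfty {F : ℍ → ℂ} (hF : F ∈ GrowthHol)
    (hT : ∀ τ : ℍ, F ((1 : ℝ) +ᵥ τ) = F τ) : F ∈ HolInfty 1 := by
  refine ⟨hF.1, fun z => ?_, by simpa using hF.2 1⟩
  by_cases hz : 0 < z.im
  · have hz' : 0 < (z + ((1 : ℕ) : ℂ)).im := by simpa using hz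
    simp only [Function.comp_apply, ofComplex_apply_of_im_pos hz, ofComplex_apply_of_im_pos hz']
    rw [← hT ⟨z, hz⟩]
    congr 1
    apply UpperHalfPlane.ext
    simp [coe_vadd, add_comm]
  · have hz' : (z + ((1 : ℕ) : ℂ)).im ≤ 0 := by simpa using not_lt.mp hz
    simp only [Function.comp_apply, ofComplex_apply_of_im_nonpos hz',
      ofComplex_apply_of_im_nonpos (not_lt.mp hz)]

variable [NeZero L]

/-- Composition with `midPt`, into the functions of period one. -/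
def midInfty (c i : ℤ) : ModHol (L * q * q) →ₐ[ℂ] HolInfty 1 where
  toFun F := ⟨fun τ => (F : ℍ → ℂ) (midPt L q c i τ),
    growthHol_periodic_mem_holInfty
      (growthHol_comp_midPt L q c i (modHol_mem_growthHol F.2)) fun τ => by
      obtain ⟨γ, hγ, -⟩ := exists_isMidConj L q c i ⟨ModularGroup.T, T_mem_Gamma0 _⟩ (by
        simp [ModularGroup.T])
      have h := midPt_smul L q hγ τ
      rw [UpperHalfPlane.modular_T_smul] at h
      rw [h]
      exact F.2.2.1 _ γ.2 _⟩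
  map_one' := rfl
  map_mul' _ _ := rfl
  map_zero' := rfl
  map_add' _ _ := rfl
  commutes' _ := rfl

theorem midPt_shift (c i : ℤ) (τ : ℍ) :
    midPt L q c i τ = midPt L q c 0 (((i : ℝ) / q) +ᵥ τ) := by
  simp [midPt]

theorem exists_midPt_eq (c i : ℤ) (σ : ℍ) : ∃ τ, midPt L q c i τ = σ :=
  ⟨-((i : ℝ) / q) +ᵥ ((wcl L q c)⁻¹ • σ), by
    rw [midPt, vadd_vadd, add_neg_cancel, zero_vadd, smul_inv_smul]⟩

theorem midInfty_injective (c i : ℤ) : Function.Injective (midInfty L q c i) := by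
  intro F G h
  refine Subtype.ext (funext fun σ => ?_)
  obtain ⟨τ, rfl⟩ := exists_midPt_eq L q c i σ
  exact congrArg (fun K : HolInfty 1 => (K : ℍ → ℂ) τ) h

end FLTA.RT.Diamond
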