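import Fermat.Agent.RT.Diamond.FiniteLevel
import Fermat.Agent.RT.Diamond.RecurrenceShift
import Fermat.Agent.Congruence.Embeddings

/-!
# The functions `f (w_c (τ + i / q))` and their generators

`midMero L q c i` sends a function of level `L q²` to `f (w_c (τ + i / q))`.  The functions
`genSet L q` have finite level and an element of `SL(2, ℤ)` fixing all of them lies in `Γ₀(L q²)`
and has diagonal `± 1 mod q`.
-/

set_option autoImplicit false
set_option synthInstance.maxHeartbeats 400000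

noncomputable section

open scoped MatrixGroups Real
open UpperHalfPlane hiding I
open CongruenceSubgroup ModularCurve
open FLTA.Bridge FLTA.Kummer FLTA.Congruence

namespace FLTA.RT.Diamond

local notation "Qb" => AlgebraicClosure ℚ
local notation "ιC" => AlgHom.toRingHom complexEmbedding

variable (L q : ℕ) [NeZero L] [NeZero q]

/-- `f ↦ f (w_c (τ + i / q))`. -/
def midMero (c i : ℤ) : modularFunctionFieldBar (L * q * q) →+* Mero :=
  (meroSmul (midPos L q c i)).toRingEquiv.toRingHom.comp (evMero (L * q * q) ιC)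

theorem midMero_apply (c i : ℤ) (f : modularFunctionFieldBar (L * q * q)) :
    midMero L q c i f = meroSmul (midPos L q c i) (evMero (L * q * q) ιC f) := rfl

theorem meroSmul_midPos_algebraMap (c i : ℤ) (F : ModHol (L * q * q)) :
    meroSmul (midPos L q c i) (algebraMap Hol Mero (modHolToHol (L * q * q) F))
      = algebraMap Hol Mero ⟨_, (midInfty L q c i F).2.1⟩ := by
  rw [meroSmul_algebraMap]
  exact congrArg _ (Subtype.ext (funext fun τ => congrArg (F : ℍ → ℂ) (midPos_smul L q c i τ)))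

theorem evMero_jGenBar (d : ℕ) [NeZero d] (hd : d ∣ L * q * q) :
    evMero (L * q * q) ιC (jGenBar (L * q * q) d hd)
      = algebraMap Hol Mero (modHolToHol (L * q * q) (jAt (L * q * q) d hd)) := by
  rw [← evMero_jElt (L * q * q) ιC hd]
  exact congrArg _ (Subtype.ext (coeffEmb_qExpand_jq d).symm)

/-- The generators. -/
def genSet : Set Mero :=
  {x | ∃ (d : ℕ) (_ : NeZero d) (hd : d ∣ L * q * q),
    x = evMero (L * q * q) ιC (jGenBar (L * q * q) d hd) ∨
      ∃ c i : Fin q, (c : ℕ) ≠ 0 ∧ x = midMero L q (c : ℕ) (i : ℕ) (jGenBar (L * q * q) d hd)}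

theorem finite_genSet : (genSet L q).Finite := by
  classical
  let D := {d : ℕ // d ∈ (L * q * q).divisors}
  refine ((Set.finite_range fun d : D =>
    haveI : NeZero (d : ℕ) := ⟨ne_zero_of_dvd_ne_zero (NeZero.ne (L * q * q))
      (Nat.mem_divisors.mp d.2).1⟩
    evMero (L * q * q) ιC (jGenBar (L * q * q) d (Nat.mem_divisors.mp d.2).1)).union
    (Set.finite_range fun t : D × Fin q × Fin q =>
    haveI : NeZero (t.1 : ℕ) := ⟨ne_zero_of_dvd_ne_zero (NeZero.ne (L * q * q))
      (Nat.mem_divisors.mp t.1.2).1⟩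
    midMero L q (t.2.1 : ℕ) (t.2.2 : ℕ)
      (jGenBar (L * q * q) t.1 (Nat.mem_divisors.mp t.1.2).1))).subset ?_
  rintro x ⟨d, hd0, hd, rfl | ⟨c, i, -, rfl⟩⟩
  · exact Or.inl ⟨⟨d, Nat.mem_divisors.mpr ⟨hd, NeZero.ne _⟩⟩, rfl⟩
  · exact Or.inr ⟨(⟨d, Nat.mem_divisors.mpr ⟨hd, NeZero.ne _⟩⟩, c, i), rfl⟩

/-- `η ∈ Γ₀(L q²)` with diagonal `1 mod q` fixes the translates. -/
theorem meroSmul_midMero (c i : ℤ) {η : SL(2, ℤ)} (hη : η ∈ Gamma0 (L * q * q))
    (ha : ((η 0 0 : ℤ) : ZMod q) = 1) (f : modularFunctionFieldBar (L * q * q)) :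
    meroSmul (slPosHom η) (midMero L q c i f) = midMero L q c i f := by
  obtain ⟨γ, hγ, -⟩ := exists_isMidConj L q c i ⟨η, hη⟩ ha
  rw [midMero_apply, ← meroSmul_mul, midPos_mul_slPosHom L q hγ, meroSmul_mul,
    meroSmul_slPosHom_evMero (L * q * q) ιC γ.2]

theorem finite_orbit_of_gamma (N : ℕ) [NeZero N] {x : Mero}
    (h : ∀ η ∈ CongruenceSubgroup.Gamma N, meroSmul (slPosHom η) x = x) :
    (Set.range fun g => meroAct g x).Finite := by
  have : Finite (SL(2, ℤ) ⧸ CongruenceSubgroup.Gamma N) := inferInstance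
  refine (Set.finite_range fun c : SL(2, ℤ) ⧸ CongruenceSubgroup.Gamma N =>
    meroAct c.out x).subset ?_
  rintro _ ⟨g, rfl⟩
  refine ⟨QuotientGroup.mk g, ?_⟩
  obtain ⟨η, hη⟩ := QuotientGroup.mk_out_eq_mul (CongruenceSubgroup.Gamma N) g
  show meroAct (QuotientGroup.mk g : SL(2, ℤ) ⧸ CongruenceSubgroup.Gamma N).out x = meroAct g x
  rw [hη, map_mul, RingAut.mul_apply, meroAct_apply (η : SL(2, ℤ)), h _ (inv_mem η.2)]

theorem mem_gamma0_of_mem_gamma {N : ℕ} {η : SL(2, ℤ)} (hη : η ∈ CongruenceSubgroup.Gamma N) :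
    η ∈ Gamma0 N :=
  Gamma0_mem.mpr (CongruenceSubgroup.Gamma_mem.mp hη).2.2.1

theorem genSet_subset_levelRing : genSet L q ⊆ levelRing := by
  rintro x ⟨d, hd0, hd, rfl | ⟨c, i, -, rfl⟩⟩
  · refine ⟨?_, finite_orbit_of_gamma (L * q * q) fun η hη =>
      meroSmul_slPosHom_evMero (L * q * q) ιC (mem_gamma0_of_mem_gamma hη) _⟩
    rw [evMero_jGenBar]
    exact ⟨_, ⟨(jAt (L * q * q) d hd).2.1, (jAt (L * q * q) d hd).2.2.2⟩, rfl⟩
  · refine ⟨?_, finite_orbit_of_gamma (L * q * q) ?_⟩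
    · rw [midMero_apply, evMero_jGenBar, meroSmul_midPos_algebraMap]
      exact ⟨_, growthHol_comp_midPt L q ((c : ℕ) : ℤ) ((i : ℕ) : ℤ)
        (modHol_mem_growthHol (jAt (L * q * q) d hd).2), rfl⟩
    · intro η hη
      have ha : ((η 0 0 : ℤ) : ZMod q) = 1 := by
        have h := (CongruenceSubgroup.Gamma_mem.mp hη).1
        have h2 := congrArg (ZMod.castHom (dvd_mul_left q (L * q)) (ZMod q)) h
        simpa using h2
      exact meroSmul_midMero L q ((c : ℕ) : ℤ) ((i : ℕ) : ℤ) (mem_gamma0_of_mem_gamma hη) ha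
        (jGenBar (L := Qb) (L * q * q) d hd)

theorem midMero_mem_closure {c : Fin q} (hc : (c : ℕ) ≠ 0) (i : Fin q)
    (f : modularFunctionFieldBar (L * q * q)) :
    midMero L q (c : ℕ) (i : ℕ) f
      ∈ Subfield.closure (Set.range (algebraMap ℂ Mero) ∪ {jMero} ∪ genSet L q) := by
  set K := Subfield.closure (Set.range (algebraMap ℂ Mero) ∪ {jMero} ∪ genSet L q)
  have hle : IntermediateField.adjoin Qb (divisorExpansionsC Qb (L * q * q)) ≤
      modularFunctionFieldBar (L * q * q) := (laurentBaseChange_full_eq_adjoin (L * q * q)).ge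
  have key : ∀ (x : LaurentSeries Qb)
      (hx : x ∈ IntermediateField.adjoin Qb (divisorExpansionsC Qb (L * q * q))),
      midMero L q (c : ℕ) (i : ℕ) ⟨x, hle hx⟩ ∈ K := by
    intro x hx
    induction hx using IntermediateField.adjoin_induction with
    | mem y hy =>
      obtain ⟨d, hd0, hd, rfl⟩ := hy
      exact Subfield.subset_closure (Or.inr ⟨d, hd0, hd, Or.inr ⟨c, i, hc, rfl⟩⟩)
    | algebraMap a =>
      refine Subfield.subset_closure (Or.inl (Or.inl ⟨ιC a, ?_⟩))
      show _ = midMero L q (c : ℕ) (i : ℕ) (algebraMap Qb _ a)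
      rw [midMero_apply, evMero_algebraMap, AlgEquiv.commutes]
    | add y z hy hz hy' hz' =>
      have := add_mem hy' hz'
      rw [← map_add] at this
      exact this
    | inv y hy hy' =>
      have := inv_mem hy'
      rw [← map_inv₀] at this
      exact this
    | mul y z hy hz hy' hz' =>
      have := mul_mem hy' hz'
      rw [← map_mul] at this
      exact this
  exact key _ ((laurentBaseChange_full_eq_adjoin (L * q * q)).le f.2)

theorem evMero_jGenBar_comp_smul (d : ℕ) [NeZero d] (hd : d ∣ L * q * q) (g : SL(2, ℤ)) :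
    meroSmul (slPosHom g) (evMero (L * q * q) ιC (jGenBar (L * q * q) d hd))
      = algebraMap Hol Mero ⟨fun τ => jInv (scaleTau d (g • τ)),
          smul_mem_hol (jAt (L * q * q) d hd).2.1 g⟩ := by
  rw [evMero_jGenBar, meroSmul_algebraMap]
  rfl

/-- The stabiliser of the generators. -/
theorem mem_gamma0_of_fix [Fact q.Prime] (hqL : ¬ q ∣ L) {g : SL(2, ℤ)}
    (hg : ∀ s ∈ genSet L q, meroSmul (slPosHom g) s = s) :
    g ∈ Gamma0 (L * q * q) ∧
      (((g 0 0 : ℤ) : ZMod q) = 1 ∨ ((g 0 0 : ℤ) : ZMod q) = -1) := by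
  have hN : g ∈ Gamma0 (L * q * q) := by
    have h := hg _ ⟨L * q * q, inferInstance, dvd_rfl, Or.inl rfl⟩
    conv_rhs at h => rw [← AlgEquiv.one_apply (R := ℂ) (evMero (L * q * q) ιC _)]
    rw [evMero_jGenBar_comp_smul, AlgEquiv.one_apply, evMero_jGenBar] at h
    have h1 := IsFractionRing.injective Hol Mero h
    have := eq_of_jInv_scaleTau_smul_eq (L * q * q) (g := g) (g' := 1) fun τ => by
      rw [one_smul]
      exact congrArg (fun K : Hol => (K : ℍ → ℂ) τ) h1
    simpa using this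
  refine ⟨hN, ?_⟩
  -- the cusp `c = 1`
  have h1q : 1 < q := (Fact.out : q.Prime).one_lt
  have hd : q * q ∣ L * q * q := ⟨L, by ring⟩
  have h := hg _ ⟨q * q, inferInstance, hd, Or.inr ⟨⟨1, h1q⟩, ⟨0, h1q.le⟩, one_ne_zero, rfl⟩⟩
  have hw : midPos L q ((1 : ℕ) : ℤ) ((0 : ℕ) : ℤ) = slPosHom (wcl L q 1) := by
    have h0 : shiftPos (0 : ℝ) = 1 := Subtype.ext (Units.ext (by
      show ((shiftGL 0 : GL (Fin 2) ℝ) : Matrix (Fin 2) (Fin 2) ℝ) = 1
      rw [val_shiftGL]; exact Matrix.one_fin_two.symm))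
    simp [midPos, h0]
  rw [midMero_apply, hw, ← meroSmul_mul, ← map_mul, evMero_jGenBar_comp_smul,
    evMero_jGenBar_comp_smul] at h
  have h1 := IsFractionRing.injective Hol Mero h
  have hmem := eq_of_jInv_scaleTau_smul_eq (q * q) (g := wcl L q 1 * g) (g' := wcl L q 1)
    fun τ => congrArg (fun K : Hol => (K : ℍ → ℂ) τ) h1
  rw [Gamma0_mem, ZMod.intCast_zmod_eq_zero_iff_dvd] at hmem hN
  obtain ⟨e, he⟩ := hN
  set a := g 0 0 with ha
  set b := g 0 1
  set d := g 1 1
  have hdet : a * d - b * g 1 0 = 1 := by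
    have h := g.det_coe
    rwa [Matrix.det_fin_two] at h
  have hent : ((wcl L q 1 * g * (wcl L q 1)⁻¹ : SL(2, ℤ)) 1 0 : ℤ)
      = (L : ℤ) * q * (a - d) + g 1 0 - (L : ℤ) * q * ((L : ℤ) * q * b) := by
    simp only [Matrix.SpecialLinearGroup.coe_mul, Matrix.SpecialLinearGroup.coe_inv,
      Matrix.adjugate_fin_two, Matrix.mul_apply, Fin.sum_univ_two]
    simp [wcl]
    ring
  rw [hent, he] at hmem
  obtain ⟨m, hm⟩ := hmem
  push_cast at hm he
  have hq : (q : ℤ) ≠ 0 := Int.natCast_ne_zero.mpr (NeZero.ne q)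
  have hqa : (q : ℤ) ∣ (L : ℤ) * (a - d) := ⟨m - L * e + L * L * b, by
    refine mul_left_cancel₀ hq ?_
    linear_combination hm⟩
  have had : ((a : ℤ) : ZMod q) = ((d : ℤ) : ZMod q) := by
    rw [ZMod.intCast_eq_intCast_iff_dvd_sub]
    rcases (Nat.prime_iff_prime_int.mp Fact.out).dvd_or_dvd hqa with h | h
    · exact absurd (Int.natCast_dvd_natCast.mp h) hqL
    · exact (dvd_neg.mpr h).trans (by rw [neg_sub])
  have h2 : ((a : ℤ) : ZMod q) * ((a : ℤ) : ZMod q) = 1 := by
    have h3 := congrArg (Int.cast : ℤ → ZMod q) hdet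
    rw [he] at h3
    push_cast at h3
    simp only [ZMod.natCast_self, mul_zero, zero_mul, sub_zero] at h3
    rw [← had] at h3
    exact h3
  exact mul_self_eq_one_iff.mp h2

end FLTA.RT.Diamond
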