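import Fermat.Agent.RT.Diamond.RecurrenceShift
import Fermat.Agent.RT.Diamond.Embed
import Fermat.Agent.RT.Diamond.ClassesInertia
import Fermat.Agent.Bridge.Field

/-!
# Expansions at the middle cusps

The expansion of `f (w_c (τ + i / q))` is `scaleHom (ζ₀ ^ i) (ι_b f)` for `b c L = 1 mod q` and
`ζ₀` the root of unity going to `exp (2 π i / q)`.
-/

set_option autoImplicit false
set_option maxHeartbeats 1000000
set_option synthInstance.maxHeartbeats 400000

noncomputable section

open scoped MatrixGroups Real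
open UpperHalfPlane hiding I
open Complex CongruenceSubgroup ModularCurve

namespace FLTA.RT.Diamond

open FLTA.Bridge FLTA.Kummer FLTA.Congruence

local notation "Qb" => AlgebraicClosure ℚ
local notation "ιbar" => AlgHom.toRingHom complexEmbedding

variable (L q : ℕ) [NeZero L] [NeZero q]

/-- The expansion of `F (w_c (τ + i / q))`. -/
def midSer (c i : ℤ) : ModHol (L * q * q) →ₐ[ℂ] LaurentSeries ℂ :=
  (expansion 1).comp (midInfty L q c i)

theorem midSer_apply (c i : ℤ) (F : ModHol (L * q * q)) :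
    midSer L q c i F = expansionFun 1 (fun τ => (F : ℍ → ℂ) (midPt L q c i τ)) := rfl

theorem midSer_injective (c i : ℤ) : Function.Injective (midSer L q c i) :=
  (expansion_injective 1).comp (midInfty_injective L q c i)

/-- The expansion of `f (w_c (τ + i / q))` on the function field. -/
def midExp (c i : ℤ) : modularFunctionFieldBar (L * q * q) →+* LaurentSeries ℂ :=
  (IsFractionRing.lift (g := (midSer L q c i).toRingHom) (midSer_injective L q c i)).comp
    (evFrac (L * q * q) ιbar)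

theorem midExp_of_rep (c i : ℤ) {x : modularFunctionFieldBar (L * q * q)}
    {A B : ModHol (L * q * q)} (hB : B ≠ 0)
    (h : coeffMap ιbar (x : LaurentSeries Qb) * qexp _ B = qexp _ A) :
    midExp L q c i x = midSer L q c i A / midSer L q c i B := by
  have hB' : qexp (L * q * q) B ≠ 0 := fun h0 =>
    hB ((map_eq_zero_iff _ (qexp_injective _)).mp h0)
  have h1 : evFrac (L * q * q) ιbar x = algebraMap (ModHol (L * q * q)) (ModFrac (L * q * q)) A /
      algebraMap (ModHol (L * q * q)) (ModFrac (L * q * q)) B := by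
    apply qexpFrac_injective
    rw [qexpFrac_div, qexpFrac_evFrac, eq_div_iff hB', h]
  show IsFractionRing.lift (g := (midSer L q c i).toRingHom) (midSer_injective L q c i)
    (evFrac (L * q * q) ιbar x) = _
  rw [h1, map_div₀, IsFractionRing.lift_algebraMap, IsFractionRing.lift_algebraMap]
  rfl

/-- `exp (2 π i / q)` as a unit. -/
def zetaC : ℂˣ := Units.mk0 (Complex.exp (2 * π * I / q)) (Complex.exp_ne_zero _)

omit [NeZero L] in
theorem expansion_shift {F : ℍ → ℂ} (hF : F ∈ HolInfty 1) (i : ℤ) :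
    expansionFun 1 (fun τ : ℍ => F (((i : ℝ) / q) +ᵥ τ))
      = scaleHom (zetaC q ^ i) (expansionFun 1 F) := by
  ext m
  rw [coeff_expansion_translate 1 hF, scaleHom_coeff]
  congr 1
  rw [← zpow_mul, Units.val_zpow_eq_zpow_val, zetaC, Units.val_mk0, ← Complex.exp_int_mul]
  congr 1
  push_cast
  ring

theorem midSer_shift (c i : ℤ) (F : ModHol (L * q * q)) :
    midSer L q c i F = scaleHom (zetaC q ^ i) (midSer L q c 0 F) := by
  rw [midSer_apply, midSer_apply]
  exact (congrArg (expansionFun 1) (funext fun τ => congrArg (F : ℍ → ℂ)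
    (midPt_shift L q c i τ))).trans (expansion_shift q (midInfty L q c 0 F).2 i)

theorem midExp_shift (c i : ℤ) (x : modularFunctionFieldBar (L * q * q)) :
    midExp L q c i x = scaleHom (zetaC q ^ i) (midExp L q c 0 x) := by
  obtain ⟨A, B, hB, h⟩ := exists_rep (L * q * q) ιbar x
  rw [midExp_of_rep L q c i hB h, midExp_of_rep L q c 0 hB h, map_div₀, midSer_shift,
    midSer_shift L q c i B]

omit [NeZero q] in
theorem coe_midPt_zero (c : ℤ) (τ : ℍ) :
    ((midPt L q c 0 τ : ℍ) : ℂ) = (τ : ℂ) / ((c : ℂ) * L * q * τ + 1) := by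
  rw [midPt, coe_smul_eq]
  simp [wcl]

/-- `j (D τ)` at the middle cusp. -/
theorem jAt_midPt {D : ℕ} [NeZero D] (hD : D ∣ L) (c : ℤ) (τ : ℍ) :
    jInv (scaleTau D (midPt L q c 0 τ)) = jInv (scaleTau D τ) := by
  obtain ⟨e, he⟩ := hD
  let g : SL(2, ℤ) := ⟨!![1, 0; c * e * q, 1], by simp [Matrix.det_fin_two_of]⟩
  have h : scaleTau D (midPt L q c 0 τ) = g • scaleTau D τ := by
    apply UpperHalfPlane.ext
    rw [coe_scaleTau, coe_midPt_zero, coe_smul_eq, coe_scaleTau, he]
    simp only [g, Matrix.of_apply, Matrix.cons_val', Matrix.cons_val_zero, Matrix.cons_val_one,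
      Matrix.cons_val_fin_one, Matrix.empty_val']
    push_cast
    rw [mul_div_assoc']
    congr 1 <;> ring
  rw [h, jInv_smul]

/-- `j (D q τ)` at the middle cusp. -/
theorem jAt_mul_midPt {D : ℕ} [NeZero D] (hD : D ∣ L) (c : ℤ) (τ : ℍ) :
    jInv (scaleTau (D * q) (midPt L q c 0 τ)) = jInv (scaleTau (D * q) τ) := by
  obtain ⟨e, he⟩ := hD
  let g : SL(2, ℤ) := ⟨!![1, 0; c * e, 1], by simp [Matrix.det_fin_two_of]⟩
  have h : scaleTau (D * q) (midPt L q c 0 τ) = g • scaleTau (D * q) τ := by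
    apply UpperHalfPlane.ext
    rw [coe_scaleTau, coe_midPt_zero, coe_smul_eq, coe_scaleTau, he]
    simp only [g, Matrix.of_apply, Matrix.cons_val', Matrix.cons_val_zero, Matrix.cons_val_one,
      Matrix.cons_val_fin_one, Matrix.empty_val']
    push_cast
    rw [mul_div_assoc']
    congr 1 <;> ring
  rw [h, jInv_smul]

/-- `j (D q² τ)` at the middle cusp is `j (D (τ + b / q))`. -/
theorem jAt_sq_midPt {D : ℕ} [NeZero D] (hD : D ∣ L) {b : ℕ} {c : ℤ}
    (hbc : (q : ℤ) ∣ 1 - b * c * L) (τ : ℍ) :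
    jInv (scaleTau (D * q * q) (midPt L q c 0 τ))
      = jInv (scaleTau D (((b : ℝ) / q) +ᵥ τ)) := by
  obtain ⟨e, he⟩ := hD
  obtain ⟨s, hs⟩ := hbc
  let g : SL(2, ℤ) := ⟨!![(q : ℤ), -((D : ℤ) * b); c * e, s], by
    rw [Matrix.det_fin_two_of]
    rw [he] at hs
    push_cast at hs
    linear_combination -hs⟩
  have hq : (q : ℂ) ≠ 0 := Nat.cast_ne_zero.mpr (NeZero.ne q)
  have h : scaleTau (D * q * q) (midPt L q c 0 τ) = g • scaleTau D (((b : ℝ) / q) +ᵥ τ) := by
    apply UpperHalfPlane.ext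
    have hsC : (q : ℂ) * s = 1 - (b : ℂ) * c * ((D : ℂ) * e) := by
      rw [he] at hs
      exact_mod_cast hs.symm
    rw [coe_scaleTau, coe_midPt_zero, coe_smul_eq, coe_scaleTau, coe_vadd, he]
    simp only [g, Matrix.of_apply, Matrix.cons_val', Matrix.cons_val_zero, Matrix.cons_val_one,
      Matrix.cons_val_fin_one, Matrix.empty_val']
    push_cast
    have hnum : (q : ℂ) * ((D : ℂ) * ((b : ℂ) / q + τ)) + -((D : ℂ) * b) = (D : ℂ) * q * τ := by
      field_simp
      ring
    have hden : (c : ℂ) * e * ((D : ℂ) * ((b : ℂ) / q + τ)) + s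
        = ((c : ℂ) * ((D : ℂ) * e) * q * τ + 1) / q := by
      field_simp
      linear_combination hsC
    rw [hnum, hden]
    field_simp
  rw [h, jInv_smul]

theorem evFrac_jGenBar {d : ℕ} [NeZero d] (hd : d ∣ L * q * q) :
    coeffMap ιbar ((jGenBar (L := Qb) (L * q * q) d hd : modularFunctionFieldBar (L * q * q)) :
        LaurentSeries Qb) * qexp (L * q * q) 1 = qexp (L * q * q) (jAt (L * q * q) d hd) := by
  rw [map_one, mul_one, qexp_jAt, coe_jGenBar, coeffMap_qExpand, coeffMap_jqModC,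
    coeffEmb_qExpand_jq]

theorem midExp_jGenBar (c : ℤ) {d : ℕ} [NeZero d] (hd : d ∣ L * q * q) :
    midExp L q c 0 (jGenBar (L * q * q) d hd)
      = expansionFun 1 (fun τ => jInv (scaleTau d (midPt L q c 0 τ))) := by
  rw [midExp_of_rep L q c 0 one_ne_zero (evFrac_jGenBar L q hd), map_one, div_one]
  rfl

theorem qexp_scaleTau_jInv (d : ℕ) [NeZero d] :
    expansionFun 1 (fun τ => jInv (scaleTau d τ)) = qExpand ℂ d (jqModC ℂ) := by
  have h := qexp_jAt d (dvd_refl d)
  rw [coeffEmb_qExpand_jq] at h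
  exact h

variable {L q}

/-- The expansion at the middle cusp of index `c` is the embedding of index `b`, `b c L = 1`. -/
theorem midExp_eq [Fact q.Prime] {ζ : Qbˣ} (hζ : ιbar (ζ : Qb) = Complex.exp (2 * π * I / q))
    {b : ℕ} {c : ℤ} (hbc : (q : ℤ) ∣ 1 - b * c * L)
    {ι : modularFunctionFieldBar (L * q * q) →ₐ[Qb] LaurentSeries Qb}
    (hι : IsMidEmb L q ζ b ι) (i : ℤ) (x : modularFunctionFieldBar (L * q * q)) :
    midExp L q c i x = coeffMap ιbar (scaleHom (ζ ^ i) (ι x)) := by
  have hz : Units.map (ιbar : Qb →* ℂ) ζ = zetaC q := Units.ext hζ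
  rw [midExp_shift, coeffMap_scaleHom, map_zpow, hz]
  congr 1
  suffices h : midExp L q c 0 = (coeffMap ιbar).comp ι.toRingHom from RingHom.congr_fun h x
  refine ringHom_ext_jGenBar (fun a => ?_) fun d hd0 hd => ?_
  · show midExp L q c 0 (algebraMap Qb _ a) = coeffMap ιbar (ι (algebraMap Qb _ a))
    rw [midExp_of_rep L q c 0 (A := algebraMap ℂ (ModHol (L * q * q)) (ιbar a)) one_ne_zero,
      AlgHom.commutes, AlgHom.commutes, map_one, div_one]
    show _ = coeffMap ιbar (algebraMap Qb (LaurentSeries Qb) a)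
    rw [algebraMap_laurentSeries_eq_single (c := a), coeffMap_single, ← algebraMap_laurentSeries_eq_single]
    rw [map_one, mul_one, AlgHom.commutes]
    show coeffMap ιbar (algebraMap Qb (LaurentSeries Qb) a) = _
    rw [algebraMap_laurentSeries_eq_single, coeffMap_single, ← algebraMap_laurentSeries_eq_single]
  · show midExp L q c 0 (jGenBar _ d hd) = coeffMap ιbar (ι (jGenBar _ d hd))
    rw [midExp_jGenBar L q c hd]
    obtain ⟨D, hD, hcase⟩ := dvd_cases (Fact.out : q.Prime) hd
    haveI : NeZero D := ⟨ne_zero_of_dvd_ne_zero (NeZero.ne L) hD⟩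
    obtain ⟨h1, h2, h3⟩ := hι D inferInstance hD
    rcases hcase with rfl | rfl | rfl
    · rw [h1, coeffMap_qExpand, coeffMap_jqModC, ← qexp_scaleTau_jInv]
      congr 1
      funext τ
      exact jAt_midPt L q hD c τ
    · rw [h2, coeffMap_qExpand, coeffMap_jqModC, ← qexp_scaleTau_jInv]
      congr 1
      funext τ
      exact jAt_mul_midPt L q hD c τ
    · rw [h3, coeffMap_scaleHom, map_pow, hz, coeffMap_qExpand, coeffMap_jqModC,
        ← qexp_scaleTau_jInv, ← zpow_natCast]
      refine Eq.trans ?_ (expansion_shift q (F := fun τ => jInv (scaleTau D τ))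
        (mem_holInfty_one_of_mem_modHol D (jAt D D dvd_rfl).2) (b : ℤ))
      congr 1
      funext τ
      rw [jAt_sq_midPt L q hD hbc τ, Int.cast_natCast]

/-- The same for a representation `f = A / B`. -/
theorem expansion_midInfty_eq_mul [Fact q.Prime] {ζ : Qbˣ}
    (hζ : ιbar (ζ : Qb) = Complex.exp (2 * π * I / q)) {b c : ℕ}
    (hbc : ((b * c * L : ℕ) : ZMod q) = 1)
    {ι : modularFunctionFieldBar (L * q * q) →ₐ[Qb] LaurentSeries Qb}
    (hι : IsMidEmb L q ζ b ι) (i : ℕ) {x : modularFunctionFieldBar (L * q * q)}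
    {A B : ModHol (L * q * q)}
    (h : coeffMap ιbar (x : LaurentSeries Qb) * qexp _ B = qexp _ A) :
    expansion 1 (midInfty L q c i A)
      = expansion 1 (midInfty L q c i B) * coeffMap ιbar (scaleHom (ζ ^ i) (ι x)) := by
  rcases eq_or_ne B 0 with rfl | hB
  · rw [map_zero, mul_zero] at h
    rw [(map_eq_zero_iff _ (qexp_injective _)).mp h.symm, map_zero, map_zero, zero_mul]
  have hbc' : (q : ℤ) ∣ 1 - (b : ℤ) * (c : ℤ) * L := by
    rw [← ZMod.intCast_zmod_eq_zero_iff_dvd]
    push_cast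
    push_cast at hbc
    rw [hbc, sub_self]
  have h1 := midExp_eq hζ hbc' hι (i : ℤ) x
  rw [midExp_of_rep L q (c : ℤ) (i : ℤ) hB h, zpow_natCast,
    div_eq_iff ((map_ne_zero_iff _ (midSer_injective L q (c : ℤ) (i : ℤ))).mpr hB)] at h1
  exact h1.trans (mul_comm _ _)

end FLTA.RT.Diamond
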