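import Fermat.Agent.RT.Diamond.MidExp
import Fermat.Agent.RT.Diamond.MidGens
import Fermat.Agent.RT.Diamond.MidDescent
import Fermat.Agent.RT.Diamond.RecurrenceExpand
import Fermat.Agent.RT.Diamond.Classes
import Fermat.Agent.RT.Diamond.Twist

/-!
# The recurrence between the classes at the middle cusps

For a twist `P` by `ε` of a cocycle with character `ε²`, `g` a unit mod `q` and
`s = ε g + ε g⁻¹`, the classes satisfy `q (cls_{b g²}(l P) - cls_{b g}(l s P) + cls_b(l P)) = 0`.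
-/

set_option autoImplicit false
set_option synthInstance.maxHeartbeats 400000

noncomputable section

open scoped MatrixGroups Real
open UpperHalfPlane hiding I
open AlgebraicCurve ModularCurve CongruenceSubgroup
open FLTA.Gamma0 (homPar0 homPar0Map)
open FLTA.Bridge FLTA.Kummer FLTA.Congruence

namespace FLTA.RT.Diamond

open FLTA.LevelRaising

local notation "Qb" => AlgebraicClosure ℚ
local notation "ιC" => AlgHom.toRingHom complexEmbedding

section Roots

variable {N n : ℕ} [NeZero N] [NeZero n]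

/-- The root of the chosen function of `rawPoint N n φ` has multiplier `φ`. -/
theorem exists_root_rawPoint (φ : homPar0 ℤ (Gamma0 N) (ZMod n)) :
    ∃ F : Mero, F ^ n = evMero N ιC (exists_torsionRep (rawPoint N n φ).2).choose ∧
      HasMult φ.1 F := by
  have hf := (exists_torsionRep (rawPoint N n φ).2).choose_spec
  set f := (exists_torsionRep (rawPoint N n φ).2).choose
  obtain ⟨F, hF, hχ, -⟩ := exists_isKummerRoot N n ιC hf.isDivFun
  have h : ((kummerRaw N n) (rawPoint N n φ)).1 = kummerChar N n ιC f :=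
    (kummerMapBar N n).torsionEquiv_apply (mem_range_of_forall_ord_eq_zero N) (NeZero.ne n) _
      (fun _ hf => kummerChar_mem_homPar0 N n ιC hf)
      (fun _ ha => exists_kummerChar_eq N n ιC ha) hf
  rw [rawPoint, AddEquiv.apply_symm_apply] at h
  exact ⟨F, hF, h ▸ hχ⟩

end Roots

variable {L q : ℕ} [NeZero L] [Fact q.Prime] {ζ : Qbˣ}

/-- The expansion of `f (w_c (τ + i / q))`. -/
theorem hasExp_midMero (hζ : complexEmbedding (ζ : Qb) = Complex.exp (2 * π * Complex.I / q))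
    {b c : ℕ} (hbc : ((b * c * L : ℕ) : ZMod q) = 1)
    {ι : modularFunctionFieldBar (L * q * q) →ₐ[Qb] LaurentSeries Qb}
    (hι : IsMidEmb L q ζ b ι) (i : ℕ) (f : modularFunctionFieldBar (L * q * q)) :
    HasExp (midMero L q (c : ℤ) (i : ℤ) f) (coeffMap ιC (scaleHom (ζ ^ i) (ι f))) := by
  haveI : NeZero q := ⟨(Fact.out : q.Prime).ne_zero⟩
  obtain ⟨A, B, hB, h⟩ := exists_rep (L * q * q) ιC f
  refine ⟨midInfty L q c i A, midInfty L q c i B, fun h0 => hB ?_, ?_, ?_⟩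
  · exact midInfty_injective L q c i (h0.trans (map_zero _).symm)
  · have hB' : algebraMap Hol Mero (modHolToHol (L * q * q) B) ≠ 0 :=
      (map_ne_zero_iff _ (IsFractionRing.injective Hol Mero)).mpr
        ((map_ne_zero_iff _ (modHolToHol_injective _)).mpr hB)
    have e : ∀ F : ModHol (L * q * q), algebraMap Hol Mero (holInftyToHol (midInfty L q c i F))
        = meroSmul (midPos L q c i) (algebraMap Hol Mero (modHolToHol (L * q * q) F)) := fun F =>
      (meroSmul_midPos_algebraMap L q c i F).symm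
    rw [midMero_apply, evMero_eq_of_rep (L * q * q) ιC hB h, e, e, ← map_mul,
      div_mul_cancel₀ _ hB']
  · rw [mul_comm]
    exact (expansion_midInfty_eq_mul hζ hbc hι i h).symm

theorem hasExp_evMero_jGenBar (d : ℕ) [NeZero d] (hd : d ∣ L * q * q) :
    HasExp (evMero (L * q * q) ιC (jGenBar (L * q * q) d hd))
      (coeffMap ιC (qExpand Qb d (jqModC Qb))) := by
  rw [evMero_jGenBar]
  have h := hasExp_holInfty ⟨_, mem_holInfty_one_of_mem_modHol _ (jAt (L * q * q) d hd).2⟩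
  have e : coeffMap ιC (qExpand Qb d (jqModC Qb)) = qexp (L * q * q) (jAt (L * q * q) d hd) := by
    rw [qexp_jAt, ← coeffEmb_qExpand_jq, coeffEmb, coeffEmb, coeffMap_coeffMap]
    exact coeffMap_congr (Subsingleton.elim _ _) _
  rw [e]
  exact h

theorem jMero_eq_evMero :
    jMero = evMero (L * q * q) ιC (jGenBar (L * q * q) 1 (one_dvd _)) := by
  rw [evMero_jGenBar, jMero]
  refine congrArg _ (Subtype.ext (funext fun τ => ?_))
  show jInv τ = jInv (scaleTau 1 τ)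
  congr 1
  exact UpperHalfPlane.ext (by simp [coe_scaleTau])

/-- Elements of `ℂ(j, genSet)` have expansions in `ℂ(midSet)`. -/
theorem exists_hasExp_of_mem (hqL : ¬ q ∣ L)
    (hζ : complexEmbedding (ζ : Qb) = Complex.exp (2 * π * Complex.I / q))
    (hprim : IsPrimitiveRoot ζ q) {x : Mero}
    (hx : x ∈ Subfield.closure (Set.range (algebraMap ℂ Mero) ∪ {jMero} ∪ genSet L q)) :
    ∃ y ∈ IntermediateField.adjoin ℂ (coeffMap ιC '' midSet L q ζ), HasExp x y := by
  set E := IntermediateField.adjoin ℂ (coeffMap ιC '' midSet L q ζ)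
  have hgen : ∀ (d : ℕ) [NeZero d] (hd : d ∣ L * q * q),
      ∃ y ∈ E, HasExp (evMero (L * q * q) ιC (jGenBar (L * q * q) d hd)) y := fun d _ hd =>
    ⟨_, IntermediateField.subset_adjoin ℂ _ ⟨_, Or.inl ⟨d, ‹_›, hd, rfl⟩, rfl⟩,
      hasExp_evMero_jGenBar d hd⟩
  induction hx using Subfield.closure_induction with
  | mem z hz =>
    rcases hz with (⟨a, rfl⟩ | rfl) | ⟨d, hd0, hd, rfl | ⟨c, i, hc, rfl⟩⟩
    · exact ⟨_, E.algebraMap_mem a, hasExp_const a⟩
    · rw [jMero_eq_evMero (L := L) (q := q)]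
      exact hgen 1 (one_dvd _)
    · exact hgen d hd
    · have hcq : ((c : ℕ) : ZMod q) ≠ 0 := fun h => hc (Nat.eq_zero_of_dvd_of_lt
        ((ZMod.natCast_eq_zero_iff _ _).mp h) c.2)
      have hLq : ((L : ℕ) : ZMod q) ≠ 0 := fun h => hqL ((ZMod.natCast_eq_zero_iff _ _).mp h)
      set b := (((c : ℕ) : ZMod q) * (L : ZMod q))⁻¹.val
      have hbc : ((b * (c : ℕ) * L : ℕ) : ZMod q) = 1 := by
        rw [Nat.cast_mul, Nat.cast_mul, ZMod.natCast_zmod_val, mul_assoc]
        exact inv_mul_cancel₀ (mul_ne_zero hcq hLq)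
      have hb : ¬ q ∣ b := fun h => by
        rw [← ZMod.natCast_eq_zero_iff] at h
        rw [Nat.cast_mul, Nat.cast_mul, h, zero_mul, zero_mul] at hbc
        exact zero_ne_one hbc
      obtain ⟨ι, hι⟩ := exists_midEmb L q hqL hprim hb
      refine ⟨_, ?_, hasExp_midMero hζ hbc hι (i : ℕ) _⟩
      refine IntermediateField.subset_adjoin ℂ _ ⟨_, ?_, rfl⟩
      obtain ⟨D, hD, hcase⟩ := dvd_cases (Fact.out : q.Prime) hd
      haveI : NeZero D := ⟨ne_zero_of_dvd_ne_zero (NeZero.ne L) hD⟩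
      obtain ⟨h1, h2, h3⟩ := hι D inferInstance hD
      rcases hcase with rfl | rfl | rfl
      · rw [h1]
        exact Or.inr ⟨d, inferInstance, i, hD, rfl⟩
      · rw [h2, scaleHom_qExpand _ _ (by
          rw [← pow_mul, ← mul_assoc, mul_comm, pow_mul, hprim.pow_eq_one, one_pow])]
        exact Or.inl ⟨D * q, inferInstance, hd, rfl⟩
      · rw [h3, scaleHom_scaleHom, ← pow_add]
        exact Or.inr ⟨D, inferInstance, (i : ℕ) + b, hD, rfl⟩
  | one => exact ⟨1, one_mem E, by simpa using hasExp_const 1⟩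
  | add u v _ _ hu hv =>
    obtain ⟨y, hy, h⟩ := hu
    obtain ⟨z, hz, h'⟩ := hv
    exact ⟨_, add_mem hy hz, h.add h'⟩
  | neg u _ hu =>
    obtain ⟨y, hy, h⟩ := hu
    exact ⟨_, neg_mem hy, h.neg⟩
  | inv u _ hu =>
    obtain ⟨y, hy, h⟩ := hu
    exact ⟨_, inv_mem hy, h.inv⟩
  | mul u v _ _ hu hv =>
    obtain ⟨y, hy, h⟩ := hu
    obtain ⟨z, hz, h'⟩ := hv
    exact ⟨_, mul_mem hy hz, h.mul h'⟩

theorem meroSmul_neg_one {η : SL(2, ℤ)} (x : Mero) :
    meroSmul (slPosHom (-η)) x = meroSmul (slPosHom η) x := by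
  obtain ⟨A, B, -, rfl⟩ := IsFractionRing.div_surjective (A := Hol) x
  have h : ∀ F : Hol, holSmulEquiv (slPosHom (-η)) F = holSmulEquiv (slPosHom η) F := fun F =>
    Subtype.ext (funext fun τ => congrArg (F : ℍ → ℂ) (ModularGroup.SL_neg_smul η τ))
  rw [map_div₀, map_div₀, meroSmul_algebraMap, meroSmul_algebraMap, meroSmul_algebraMap,
    meroSmul_algebraMap, h, h]

variable {n : ℕ} [NeZero n] {O : Type*} [CommRing O]

/-- The translates of a root multiply by the values of its multiplier at the conjugates. -/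
theorem meroSmul_root {φ : Additive (Gamma0 (L * q * q)) →+ ZMod n} {F : Mero}
    (hF : HasMult φ F) {c i : ℤ} {η γ : Gamma0 (L * q * q)} (h : IsMidConj L q c i η γ) :
    meroSmul (slPosHom (η : SL(2, ℤ))) (meroSmul (midPos L q c i) F)
      = algebraMap ℂ Mero (ZMod.stdAddChar (φ (Additive.ofMul γ)))
          * meroSmul (midPos L q c i) F := by
  haveI : NeZero q := ⟨(Fact.out : q.Prime).ne_zero⟩
  rw [← meroSmul_mul, midPos_mul_slPosHom L q h, meroSmul_mul, hF γ, map_mul, AlgEquiv.commutes]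

theorem stdAddChar_sum {κ : Type*} (t : Finset κ) (v : κ → ZMod n) :
    ZMod.stdAddChar (∑ i ∈ t, v i) = ∏ i ∈ t, ZMod.stdAddChar (v i) := by
  induction t using Finset.cons_induction with
  | empty => simp
  | cons a t ha ih => rw [Finset.sum_cons, Finset.prod_cons, AddChar.map_add_eq_mul, ih]

variable {A : ValuationSubring Qb}

local notation "k" => IsLocalRing.ResidueField A

set_option maxHeartbeats 2400000 in
/-- The recurrence. -/
theorem midCls_recurrence (hqL : ¬ q ∣ L) (hA : A.LiesOverPrime q) (hn : ¬ q ∣ n)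
    (ε : (ZMod q)ˣ →* Oˣ) (x : Gamma0 (L * q) → O)
    (hx : ∀ g h, x (g * h) = x g + (ε (aMod L q g) : O) ^ 2 * x h)
    (P : homPar0 ℤ (Gamma0 (L * q * q)) O)
    (hP : ∀ γ, P.1 (Additive.ofMul γ) = twistFun (Dvd.intro_left L rfl) ε x γ)
    (l : O →+ ZMod n) (hζ : complexEmbedding (ζ : Qb) = Complex.exp (2 * π * Complex.I / q))
    (hprim : IsPrimitiveRoot ζ q) (g : (ZMod q)ˣ) {b₀ b₁ b₂ : ℕ} (hb₀ : ¬ q ∣ b₀)
    (hb₁ : (b₁ : ZMod q) = b₀ * (g : ZMod q)) (hb₂ : (b₂ : ZMod q) = b₁ * (g : ZMod q))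
    {ι₀ ι₁ ι₂ : modularFunctionFieldBar (L * q * q) →ₐ[Qb] LaurentSeries Qb}
    (hι₀ : IsMidEmb L q ζ b₀ ι₀) (hι₁ : IsMidEmb L q ζ b₁ ι₁) (hι₂ : IsMidEmb L q ζ b₂ ι₂) :
    q • (torCls (midRes A L) ι₂ (rawPoint (L * q * q) n (homPar0Map (Gamma0 _) l P))
      - torCls (midRes A L) ι₁ (rawPoint (L * q * q) n (homPar0Map (Gamma0 _)
          (l.comp (AddMonoidHom.mulLeft ((ε g : O) + ((ε g)⁻¹ : Oˣ)))) P))
      + torCls (midRes A L) ι₀ (rawPoint (L * q * q) n (homPar0Map (Gamma0 _) l P))) = 0 := by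
  classical
  haveI : NeZero q := ⟨(Fact.out : q.Prime).ne_zero⟩
  set s : O := (ε g : O) + ((ε g)⁻¹ : Oˣ) with hs
  set φ := homPar0Map (Gamma0 (L * q * q)) l P with hφ
  set φ' := homPar0Map (Gamma0 (L * q * q)) (l.comp (AddMonoidHom.mulLeft s)) P with hφ'
  set f := (exists_torsionRep (rawPoint (L * q * q) n φ).2).choose with hfdef
  set f' := (exists_torsionRep (rawPoint (L * q * q) n φ').2).choose with hfdef'
  obtain ⟨F, hF, hFχ⟩ := exists_root_rawPoint φ
  obtain ⟨F', hF', hFχ'⟩ := exists_root_rawPoint φ'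
  rw [← hfdef] at hF
  rw [← hfdef'] at hF'
  have hf0 : f ≠ 0 := (exists_torsionRep (rawPoint (L * q * q) n φ).2).choose_spec.1
  have hf0' : f' ≠ 0 := (exists_torsionRep (rawPoint (L * q * q) n φ').2).choose_spec.1
  -- the cusps
  have hLq : ((L : ℕ) : ZMod q) ≠ 0 := fun h => hqL ((ZMod.natCast_eq_zero_iff _ _).mp h)
  have hb0q : (b₀ : ZMod q) ≠ 0 := fun h => hb₀ ((ZMod.natCast_eq_zero_iff _ _).mp h)
  set u₀ : (ZMod q)ˣ := Units.mk0 _ (inv_ne_zero (mul_ne_zero hb0q hLq)) with hu₀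
  set u₁ : (ZMod q)ˣ := u₀ * g⁻¹ with hu₁
  set u₂ : (ZMod q)ˣ := u₁ * g⁻¹ with hu₂
  set c₀ := (u₀ : ZMod q).val
  set c₁ := (u₁ : ZMod q).val
  set c₂ := (u₂ : ZMod q).val
  have hgg : (g : ZMod q) * ((g⁻¹ : (ZMod q)ˣ) : ZMod q) = 1 := Units.mul_inv g
  have h0 : ((b₀ * c₀ * L : ℕ) : ZMod q) = 1 := by
    rw [Nat.cast_mul, Nat.cast_mul, ZMod.natCast_zmod_val, hu₀, Units.val_mk0]
    field_simp
  have h1 : ((b₁ * c₁ * L : ℕ) : ZMod q) = 1 := by
    rw [← h0, Nat.cast_mul, Nat.cast_mul, Nat.cast_mul, Nat.cast_mul, ZMod.natCast_zmod_val,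
      ZMod.natCast_zmod_val, hb₁, hu₁, Units.val_mul]
    linear_combination ((b₀ : ZMod q) * (u₀ : ZMod q) * (L : ZMod q)) * hgg
  have h2 : ((b₂ * c₂ * L : ℕ) : ZMod q) = 1 := by
    rw [← h1, Nat.cast_mul, Nat.cast_mul, Nat.cast_mul, Nat.cast_mul, ZMod.natCast_zmod_val,
      ZMod.natCast_zmod_val, hb₂, hu₂, Units.val_mul]
    linear_combination ((b₁ : ZMod q) * (u₁ : ZMod q) * (L : ZMod q)) * hgg
  have hcne : ∀ u : (ZMod q)ˣ, (u : ZMod q).val ≠ 0 := fun u h =>
    u.ne_zero ((ZMod.val_eq_zero _).mp h)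
  -- the product
  let G : Fin q → Mero := fun i =>
    meroSmul (midPos L q (c₂ : ℤ) (i : ℕ)) F * meroSmul (midPos L q (c₀ : ℤ) (i : ℕ)) F
      / meroSmul (midPos L q (c₁ : ℤ) (i : ℕ)) F'
  set H := ∏ i, G i with hH
  have hpow : H ^ n = ∏ i : Fin q, (midMero L q (c₂ : ℤ) (i : ℕ) f *
      midMero L q (c₀ : ℤ) (i : ℕ) f / midMero L q (c₁ : ℤ) (i : ℕ) f') := by
    rw [hH, ← Finset.prod_pow]
    refine Finset.prod_congr rfl fun i _ => ?_
    simp only [G, div_pow, mul_pow, ← map_pow, hF, hF', midMero_apply]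
  have hinv1 : ∀ η : Gamma0 (L * q * q), (((η : SL(2, ℤ)) 0 0 : ℤ) : ZMod q) = 1 →
      meroSmul (slPosHom (η : SL(2, ℤ))) H = H := by
    intro η hη
    obtain ⟨X, Y, hXY⟩ := exists_twist_avg hqL ε hx η hη
    choose γ hγ _ using fun (c : ℕ) (i : Fin q) => exists_isMidConj L q (c : ℤ) (i : ℕ) η hη
    have hsum : ∀ u : (ZMod q)ˣ, ∑ i, P.1 (Additive.ofMul (γ (u : ZMod q).val i))
        = (ε u : O) * X + ((ε u)⁻¹ : Oˣ) * Y := fun u => by
      simp only [hP]
      exact hXY _ u (by simp) _ fun i => hγ _ i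
    have hzero : ∑ i, (φ.1 (Additive.ofMul (γ c₂ i)) + φ.1 (Additive.ofMul (γ c₀ i))
        - φ'.1 (Additive.ofMul (γ c₁ i))) = 0 := by
      simp only [Finset.sum_sub_distrib, Finset.sum_add_distrib]
      show ∑ i, l (P.1 (Additive.ofMul (γ c₂ i))) + ∑ i, l (P.1 (Additive.ofMul (γ c₀ i)))
        - ∑ i, l (s * P.1 (Additive.ofMul (γ c₁ i))) = 0
      rw [← map_sum l, ← map_sum l, ← map_sum l, ← map_add l, ← map_sub l, ← Finset.mul_sum, hsum,
        hsum, hsum]
      refine (congrArg l ?_).trans (map_zero l)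
      simp only [hu₂, hu₁, hs, map_mul, map_inv, mul_inv_rev, inv_inv, Units.val_mul]
      have hv : (ε g : O) * ((ε g)⁻¹ : Oˣ) = 1 := Units.mul_inv _
      linear_combination (-(ε u₀ : O) * X - ((ε u₀)⁻¹ : Oˣ) * Y) * hv
    rw [hH, map_prod]
    have hG : ∀ i, meroSmul (slPosHom (η : SL(2, ℤ))) (G i)
        = algebraMap ℂ Mero (ZMod.stdAddChar (φ.1 (Additive.ofMul (γ c₂ i))
            + φ.1 (Additive.ofMul (γ c₀ i)) - φ'.1 (Additive.ofMul (γ c₁ i)))) * G i := fun i => by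
      simp only [G, map_div₀, map_mul, meroSmul_root hFχ (hγ c₂ i), meroSmul_root hFχ (hγ c₀ i),
        meroSmul_root hFχ' (hγ c₁ i), AddChar.map_sub_eq_div, AddChar.map_add_eq_mul]
      ring
    simp only [hG]
    rw [Finset.prod_mul_distrib, ← map_prod, ← stdAddChar_sum, hzero,
      AddChar.map_zero_eq_one, map_one, one_mul]
  -- descent
  have hHmem : H ∈ Subfield.closure (Set.range (algebraMap ℂ Mero) ∪ {jMero} ∪ genSet L q) := by
    refine mem_closure_of_root (finite_genSet L q) (genSet_subset_levelRing L q) (n := n) ?_ ?_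
    · rw [hpow]
      refine prod_mem fun i _ => div_mem (mul_mem ?_ ?_) ?_
      · exact midMero_mem_closure L q (c := ⟨c₂, ZMod.val_lt _⟩) (hcne u₂) i f
      · exact midMero_mem_closure L q (c := ⟨c₀, ZMod.val_lt _⟩) (hcne u₀) i f
      · exact midMero_mem_closure L q (c := ⟨c₁, ZMod.val_lt _⟩) (hcne u₁) i f'
    · intro η hη
      obtain ⟨hη0, ha⟩ := mem_gamma0_of_fix L q hqL (g := η⁻¹) hη
      show meroSmul (slPosHom η⁻¹) H = H
      rcases ha with ha | ha
      · exact hinv1 ⟨η⁻¹, hη0⟩ ha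
      · rw [← meroSmul_neg_one]
        refine hinv1 ⟨-η⁻¹, ?_⟩ ?_
        · rw [Gamma0_mem] at hη0 ⊢
          rw [show ((-η⁻¹ : SL(2, ℤ)) 1 0 : ℤ) = -((η⁻¹ : SL(2, ℤ)) 1 0) from rfl]
          simpa using hη0
        · show ((((-η⁻¹ : SL(2, ℤ)) 0 0 : ℤ)) : ZMod q) = 1
          rw [show ((-η⁻¹ : SL(2, ℤ)) 0 0 : ℤ) = -((η⁻¹ : SL(2, ℤ)) 0 0) from rfl, Int.cast_neg,
            ha, neg_neg]
  obtain ⟨y, hy, hHy⟩ := exists_hasExp_of_mem hqL hζ hprim hHmem
  let X : LaurentSeries Qb := ∏ i : Fin q, scaleHom (ζ ^ (i : ℕ)) (ι₂ f * ι₀ f / ι₁ f')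
  have hyX : y ^ n = coeffMap ιC X := by
    refine (show HasExp (H ^ n) (y ^ n) from ?_).unique ?_
    · have h := hasExp_prod (Finset.range n) (x := fun _ => H) (y := fun _ => y) fun _ _ => hHy
      simpa using h
    · rw [hpow, map_prod]
      refine hasExp_prod Finset.univ fun i _ => ?_
      rw [map_div₀, map_mul, map_div₀, map_mul]
      exact ((hasExp_midMero hζ h2 hι₂ i f).mul (hasExp_midMero hζ h0 hι₀ i f)).div
        (hasExp_midMero hζ h1 hι₁ i f')
  -- the reductions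
  obtain ⟨y₂, hy₂⟩ := exists_isGRed hA (midEmb_mem_gaussField (A := A) Fact.out hprim hι₂ f)
    ((map_ne_zero_iff _ ι₂.injective).mpr hf0)
  obtain ⟨y₀, hy₀⟩ := exists_isGRed hA (midEmb_mem_gaussField (A := A) Fact.out hprim hι₀ f)
    ((map_ne_zero_iff _ ι₀.injective).mpr hf0)
  obtain ⟨y₁, hy₁⟩ := exists_isGRed hA (midEmb_mem_gaussField (A := A) Fact.out hprim hι₁ f')
    ((map_ne_zero_iff _ ι₁.injective).mpr hf0')
  have hW : IsGRed A (ι₂ f * ι₀ f / ι₁ f') (y₂ * y₀ / y₁) := by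
    rw [div_eq_mul_inv, div_eq_mul_inv]
    exact (hy₂.mul hy₀).mul hy₁.inv
  have hXterm : ∀ i : Fin q, IsGRed A (scaleHom (ζ ^ (i : ℕ)) (ι₂ f * ι₀ f / ι₁ f'))
      (y₂ * y₀ / y₁) := fun i =>
    IsGRed.scale hA (by rw [← pow_mul, mul_comm, pow_mul, hprim.pow_eq_one, one_pow]) hW
  have hXred : IsGRed A X ((y₂ * y₀ / y₁) ^ q) := by
    have : ∀ t : Finset (Fin q), IsGRed A
        (∏ i ∈ t, scaleHom (ζ ^ (i : ℕ)) (ι₂ f * ι₀ f / ι₁ f')) ((y₂ * y₀ / y₁) ^ t.card) := by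
      intro t
      induction t using Finset.induction with
      | empty => simpa using isGRed_one
      | insert a t ha ih =>
        rw [Finset.prod_insert ha, Finset.card_insert_of_notMem ha, pow_succ']
        exact (hXterm a).mul ih
    have h := this Finset.univ
    rw [Finset.card_univ, Fintype.card_fin] at h
    exact h
  have hX0 : X ≠ 0 := fun h => by
    obtain ⟨c, -, -, hc, hc0⟩ := hXred
    rw [h, smul_zero, gRed_of_intSeries FLTA.BadRed.IntSeries.zero] at hc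
    refine hc0 (hc.symm.trans (HahnSeries.ext (funext fun i => ?_)))
    rw [FLTA.BadRed.redSeries_coeff, HahnSeries.coeff_zero, HahnSeries.coeff_zero,
      ← ZeroMemClass.coe_zero A, FLTA.BadRed.redCoeff_coe, map_zero]
  -- normalise
  set a := X.leadingCoeff with ha
  have ha0 : a ≠ 0 := HahnSeries.leadingCoeff_ne_zero.2 hX0
  set lc := y.leadingCoeff
  have hlc : lc ^ n = ιC a := by
    rw [← leadingCoeff_pow', hyX, leadingCoeff_coeffMap_hom]
  have hlc0 : lc ≠ 0 := fun h => by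
    rw [h, zero_pow (NeZero.ne n)] at hlc
    exact ha0 ((map_eq_zero ιC).1 hlc.symm)
  set y' := algebraMap ℂ (LaurentSeries ℂ) lc⁻¹ * y with hy'def
  have hy'l : y'.leadingCoeff = 1 := by
    rw [hy'def, leadingCoeff_mul', (leadingCoeff_algebraMap' _).1, inv_mul_cancel₀ hlc0]
  have hy'n : y' ^ n = coeffMap ιC (algebraMap Qb (LaurentSeries Qb) a⁻¹ * X) := by
    rw [hy'def, mul_pow, hyX, ← map_pow, inv_pow, hlc, map_mul]
    congr 1
    rw [← map_inv₀ ιC, algebraMap_laurentSeries_eq_single, algebraMap_laurentSeries_eq_single,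
      coeffMap_single]
  obtain ⟨r, hr⟩ := exists_coeffMap_eq ιC fun i => coeff_mem_range_of_pow_eq ιC hy'l hy'n i
  have hrmem : r ∈ IntermediateField.adjoin Qb (midSet L q ζ) :=
    mem_adjoin_of_coeffMap_mem ιC _ (hr.symm ▸
      mul_mem ((IntermediateField.adjoin ℂ _).algebraMap_mem _) hy)
  have hrn : r ^ n = algebraMap Qb (LaurentSeries Qb) a⁻¹ * X := by
    apply (coeffMap ιC).injective
    rw [map_pow, hr, hy'n]
  have hr0 : r ≠ 0 := by
    rintro rfl
    rw [zero_pow (NeZero.ne n)] at hrn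
    exact mul_ne_zero ((map_ne_zero _).mpr (inv_ne_zero ha0)) hX0 hrn.symm
  obtain ⟨z, hz⟩ := exists_isGRed hA (midSet_subset_gaussField hprim hqL hrmem) hr0
  have hzE := mem_midRes_of_midSet hqL hA hprim.pow_eq_one hrmem hz
  -- conclude
  have hcls : gClass (A := A) (midRes A L) n X = 0 := by
    have h1 : gClass (A := A) (midRes A L) n (r ^ n) = 0 :=
      (gClass_eq_zero_iff _ (hz.pow n)).mpr ⟨z, hzE, rfl⟩
    rw [hrn, gClass_mul _ (isGRed_const (inv_ne_zero ha0)) hXred,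
      (gClass_eq_zero_iff _ (isGRed_const (inv_ne_zero ha0))).mpr
        ⟨1, one_mem _, (one_pow n).symm⟩] at h1
    exact (zero_add _).symm.trans h1
  rw [← hcls]
  show q • (gClass _ n (ι₂ f) - gClass _ n (ι₁ f') + gClass _ n (ι₀ f)) = _
  have hXcls : ∀ t : Finset (Fin q), gClass (A := A) (midRes A L) n
      (∏ i ∈ t, scaleHom (ζ ^ (i : ℕ)) (ι₂ f * ι₀ f / ι₁ f'))
        = t.card • gClass (A := A) (midRes A L) n (ι₂ f * ι₀ f / ι₁ f') ∧
      ∃ w, IsGRed A (∏ i ∈ t, scaleHom (ζ ^ (i : ℕ)) (ι₂ f * ι₀ f / ι₁ f')) w := by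
    intro t
    induction t using Finset.induction with
    | empty =>
      refine ⟨?_, 1, by simpa using isGRed_one⟩
      rw [Finset.prod_empty, Finset.card_empty, zero_nsmul, gClass_eq_zero_iff _ isGRed_one]
      exact ⟨1, one_mem _, (one_pow n).symm⟩
    | insert i t ht ih =>
      obtain ⟨ih1, w, hw⟩ := ih
      rw [Finset.prod_insert ht]
      refine ⟨?_, _, (hXterm i).mul hw⟩
      rw [gClass_mul _ (hXterm i) hw, ih1, Finset.card_insert_of_notMem ht, succ_nsmul',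
        gClass_eq _ (hXterm i) (hXterm i).red_ne_zero, gClass_eq _ hW hW.red_ne_zero]
  rw [show X = ∏ i ∈ (Finset.univ : Finset (Fin q)), scaleHom (ζ ^ (i : ℕ)) (ι₂ f * ι₀ f / ι₁ f') from rfl,
    (hXcls Finset.univ).1, Finset.card_univ, Fintype.card_fin, div_eq_mul_inv,
    gClass_mul _ (hy₂.mul hy₀) hy₁.inv, gClass_mul _ hy₂ hy₀]
  have hinv : gClass (A := A) (midRes A L) n (ι₁ f')⁻¹
      + gClass (A := A) (midRes A L) n (ι₁ f') = 0 := by
    rw [← gClass_mul _ hy₁.inv hy₁, inv_mul_cancel₀ (show ι₁ f' ≠ 0 from (map_ne_zero_iff _ ι₁.injective).mpr hf0'),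
      gClass_eq_zero_iff _ isGRed_one]
    exact ⟨1, one_mem _, (one_pow n).symm⟩
  congr 1
  conv_lhs => rw [← add_zero (gClass (A := A) (midRes A L) n (ι₂ f)
    - gClass (A := A) (midRes A L) n (ι₁ f') + gClass (A := A) (midRes A L) n (ι₀ f)), ← hinv]
  abel

end FLTA.RT.Diamond
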