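import Fermat.Agent.RT.Diamond.Classes
import Fermat.Agent.RT.Diamond.Bottom
import Fermat.Agent.RT.Diamond.MainAux
import Fermat.Agent.RT.Diamond.Recurrence
import Fermat.Agent.RT.Diamond.Twist
import Mathlib.NumberTheory.Padics.PadicIntegers

/-!
# Local-global compatibility at an auxiliary prime

Let `q = 1 mod p`, `x` a cocycle of `Γ₀(L q)` twisted by `ε²`, whose twist gives torsion points of
`J₀(L q²)` on which `σ ∈ I_q` satisfies `σ² - τ σ + 1`.  If the reduction of `x` is old with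
`T_q = t`, `t² ≠ 4` and non-zero first component, then `τ = ε(ω σ) + ε(ω σ)⁻¹`.
-/

set_option autoImplicit false
set_option synthInstance.maxHeartbeats 400000

noncomputable section

open AlgebraicCurve ModularCurve CongruenceSubgroup
open FLTA.Gamma0 (homPar0 homPar0Map)

namespace FLTA.RT.Diamond

open FLTA.LevelRaising FLTA.Kummer

local notation "Qb" => AlgebraicClosure ℚ

theorem nsmul_sub_add_eq_zero {G : Type*} [AddCommGroup G] (N : ℕ) (a b c : G) (ha : N • a = 0)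
    (hb : N • b = 0) (hc : N • c = 0) : N • (a - b + c) = 0 := by
  rw [nsmul_add, nsmul_sub, ha, hb, hc, sub_zero, add_zero]

set_option maxHeartbeats 2400000 in
/-- `inertia_trace_eq` for every prime `p`. -/
theorem inertia_trace_eq_of_dvd {p q L : ℕ} [Fact p.Prime] [Fact q.Prime] [NeZero L] (hqL : ¬ q ∣ L)
    (hpq : p ∣ q - 1)
    {O : Type*} [CommRing O] [IsDomain O] [Algebra ℤ_[p] O] [Module.Free ℤ_[p] O]
    [Module.Finite ℤ_[p] O] {κ : Type*} [Field κ] [CharP κ p] (res : O →+* κ)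
    (hres : Function.Surjective res) (ε : (ZMod q)ˣ →* Oˣ) (hε : ∀ u, res (ε u) = 1)
    (x : Gamma0 (L * q) → O) (hx : ∀ g h, x (g * h) = x g + (ε (aMod L q g) : O) ^ 2 * x h)
    (P : homPar0 ℤ (Gamma0 (L * q * q)) O)
    (hP : ∀ γ, P.1 (Additive.ofMul γ) = twistFun (Dvd.intro_left L rfl) ε x γ)
    (y y' : homPar0 ℤ (Gamma0 L) κ)
    (hxy : ∀ g, res (x g) =
      y.1 (Additive.ofMul (inclHom L q g)) + y'.1 (Additive.ofMul (conjHom L q g)))
    (hy : y ≠ 0) (t : κ) (ht : t ^ 2 ≠ 4)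
    (hTq : FLTA.Periods.heckeHom κ L q y.1 = t • y.1)
    (hTJ : ∀ l : κ →+ ZMod p,
      heckeOperatorBar L ⟨q, Fact.out⟩ (rawPoint L p (homPar0Map (Gamma0 L) l y) : JZero L)
        = (rawPoint L p (homPar0Map (Gamma0 L) (l.comp (AddMonoidHom.mulLeft t)) y) : JZero L))
    {A : ValuationSubring Qb} (hA : A.LiesOverPrime q) {σ : Qb ≃ₐ[ℚ] Qb}
    (hσ : σ ∈ A.inertiaSubgroupIn ℚ) (τ : O)
    (hrel : ∀ (m : ℕ) (l : O →+ ZMod (p ^ m)),
      σ • σ • (rawPoint (L * q * q) (p ^ m) (homPar0Map (Gamma0 _) l P) : JZero (L * q * q))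
        - σ • (rawPoint (L * q * q) (p ^ m)
            (homPar0Map (Gamma0 _) (l.comp (AddMonoidHom.mulLeft τ)) P) : JZero (L * q * q))
        + (rawPoint (L * q * q) (p ^ m) (homPar0Map (Gamma0 _) l P) : JZero (L * q * q)) = 0)
    {ζ : Qbˣ} (hζ : IsPrimitiveRoot ζ q) {w : (ZMod q)ˣ}
    (hw : σ (ζ : Qb) = (ζ : Qb) ^ (w : ZMod q).val) :
    τ = (ε w : O) + ((ε w)⁻¹ : Oˣ) := by
  classical
  by_contra hne
  have hq : q.Prime := Fact.out
  have hpp : p.Prime := Fact.out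
  have hqp : ¬ q ∣ p := fun h => by
    have he : q = p := (Nat.prime_dvd_prime_iff_eq hq hpp).mp h
    subst he
    have h1 := Nat.le_of_dvd (Nat.sub_pos_of_lt hq.one_lt) hpq
    have h2 := hq.one_lt
    omega
  have hqpm : ∀ m, ¬ q ∣ p ^ m := fun m h => hqp (hq.dvd_of_dvd_pow h)
  -- the standard root of unity
  set z := complexEmbedding (ζ : Qb)
  have hz : IsPrimitiveRoot z q :=
    (hζ.map_of_injective (f := (Units.coeHom Qb : Qbˣ →* Qb)) Units.val_injective).map_of_injective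
      complexEmbedding.toRingHom.injective
  obtain ⟨a, -, ha⟩ := hz.eq_pow_of_pow_eq_one
    (Complex.isPrimitiveRoot_exp q hq.ne_zero).pow_eq_one
  set ζ₀ : Qbˣ := ζ ^ a with hζ₀def
  have hζ₀ : complexEmbedding (ζ₀ : Qb) = Complex.exp (2 * Real.pi * Complex.I / q) := by
    rw [hζ₀def, Units.val_pow_eq_pow_val, map_pow]
    exact ha
  have hprim : IsPrimitiveRoot ζ₀ q := by
    refine IsPrimitiveRoot.of_map_of_injective
      (f := (complexEmbedding.toRingHom : Qb →* ℂ).comp (Units.coeHom Qb)) ?_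
      (complexEmbedding.toRingHom.injective.comp Units.val_injective)
    show IsPrimitiveRoot (complexEmbedding (ζ₀ : Qb)) q
    rw [hζ₀]
    exact Complex.isPrimitiveRoot_exp q hq.ne_zero
  have hw₀ : σ (ζ₀ : Qb) = (ζ₀ : Qb) ^ (w : ZMod q).val := by
    rw [hζ₀def, Units.val_pow_eq_pow_val, map_pow, hw, ← pow_mul, ← pow_mul, mul_comm]
  set s : O := (ε w : O) + ((ε w)⁻¹ : Oˣ)
  set R := fun (n : ℕ) (_ : NeZero n) (l : O →+ ZMod n) =>
    rawPoint (L * q * q) n (homPar0Map (Gamma0 (L * q * q)) l P) with hR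
  -- every class of `(τ - s) P` vanishes
  have hkill : ∀ (m : ℕ) (l : O →+ ZMod (p ^ m)) (b : ℕ), ¬ q ∣ b →
      ∀ ι : modularFunctionFieldBar (L * q * q) →ₐ[Qb] LaurentSeries Qb,
        IsMidEmb L q ζ₀ b ι →
        torCls (midRes A L) ι (rawPoint (L * q * q) (p ^ m)
          (homPar0Map (Gamma0 _) (l.comp (AddMonoidHom.mulLeft (τ - s))) P)) = 0 := by
    intro m l b hb ι hι
    set b₀ := ((b : ZMod q) * ((w⁻¹ : (ZMod q)ˣ) : ZMod q)).val
    set b₂ := ((b : ZMod q) * (w : ZMod q)).val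
    have hbq : (b : ZMod q) ≠ 0 := fun h => hb ((ZMod.natCast_eq_zero_iff _ _).mp h)
    have hb₀c : (b₀ : ZMod q) = (b : ZMod q) * ((w⁻¹ : (ZMod q)ˣ) : ZMod q) :=
      ZMod.natCast_zmod_val _
    have hb₂c : (b₂ : ZMod q) = (b : ZMod q) * (w : ZMod q) := ZMod.natCast_zmod_val _
    have hb₁c : (b : ZMod q) = (b₀ : ZMod q) * (w : ZMod q) := by
      rw [hb₀c, mul_assoc, Units.inv_mul, mul_one]
    have hb₀ : ¬ q ∣ b₀ := fun h => by
      rw [← ZMod.natCast_eq_zero_iff, hb₀c] at h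
      exact mul_ne_zero hbq (Units.ne_zero _) h
    have hb₂ : ¬ q ∣ b₂ := fun h => by
      rw [← ZMod.natCast_eq_zero_iff, hb₂c] at h
      exact mul_ne_zero hbq (Units.ne_zero _) h
    obtain ⟨ι₀, hι₀⟩ := exists_midEmb L q hqL hprim hb₀
    obtain ⟨ι₂, hι₂⟩ := exists_midEmb L q hqL hprim hb₂
    have hcong : ∀ x y : ℕ, (x : ZMod q) = (y : ZMod q) * (w : ZMod q) →
        x ≡ y * (w : ZMod q).val [MOD q] := fun x y h => by
      rw [← ZMod.natCast_eq_natCast_iff, Nat.cast_mul, ZMod.natCast_zmod_val]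
      exact h
    have hG : ∀ (c : ℕ) (j : modularFunctionFieldBar (L * q * q) →ₐ[Qb] LaurentSeries Qb),
        IsMidEmb L q ζ₀ c j → ∀ f, j f ∈ gaussField A := fun c j hj =>
      midEmb_mem_gaussField hq hprim hj
    have hE : ∀ (c : ℕ) (_ : ¬ q ∣ c)
        (j : modularFunctionFieldBar (L * q * q) →ₐ[Qb] LaurentSeries Qb),
        IsMidEmb L q ζ₀ c j → ∀ f y, IsGRed A (j f) y → y ∈ midRes A L := fun c hc j hj f y hy =>
      mem_midRes_of_isGRed hqL hA hprim hc hj f hy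
    set r₁ := R (p ^ m) inferInstance l
    set rτ := R (p ^ m) inferInstance (l.comp (AddMonoidHom.mulLeft τ))
    set rs := R (p ^ m) inferInstance (l.comp (AddMonoidHom.mulLeft s))
    set rd := R (p ^ m) inferInstance (l.comp (AddMonoidHom.mulLeft (τ - s)))
    let T := JZero.torsionGaloisRep (L * q * q) (p ^ m) σ
    have hrel' : T (T r₁) + r₁ = T rτ := by
      apply Subtype.ext
      have h := hrel m l
      rw [sub_add_eq_add_sub, sub_eq_zero] at h
      simp only [AddSubgroup.coe_add, T, JZero.coe_torsionGaloisRep_apply]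
      exact h
    have e1 := congrArg (torCls (midRes A L) ι₂) hrel'
    rw [torCls_add hA (hqpm m) _ ι₂ (hG _ _ hι₂) (hE _ hb₂ _ hι₂),
      torCls_inertia hqL hA (hqpm m) hprim hσ hw₀ hb (hcong b₂ b hb₂c) hι hι₂,
      torCls_inertia hqL hA (hqpm m) hprim hσ hw₀ hb₀ (hcong b b₀ hb₁c) hι₀ hι,
      torCls_inertia hqL hA (hqpm m) hprim hσ hw₀ hb (hcong b₂ b hb₂c) hι hι₂] at e1
    have hx2 : ∀ g h, x (g * h) = x g + (ε (aMod L q g) : O) ^ 2 * x h := hx
    have e2 := midCls_recurrence (A := A) hqL hA (hqpm m) ε x hx2 P hP l hζ₀ hprim w hb₀ hb₁c hb₂c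
      hι₀ hι hι₂
    -- `q` is prime to the order
    have hn2 := fun X : JTors (L * q * q) (p ^ m) =>
      nsmul_torCls (q := q) hA _ ι₂ (hG _ _ hι₂) (hE _ hb₂ _ hι₂) X
    have hn1 := fun X : JTors (L * q * q) (p ^ m) =>
      nsmul_torCls (q := q) hA _ ι (hG _ _ hι) (hE _ hb _ hι) X
    have hn0 := fun X : JTors (L * q * q) (p ^ m) =>
      nsmul_torCls (q := q) hA _ ι₀ (hG _ _ hι₀) (hE _ hb₀ _ hι₀) X
    have e3 : torCls (midRes A L) ι₂ r₁ - torCls (midRes A L) ι rs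
        + torCls (midRes A L) ι₀ r₁ = 0 := by
      set X := torCls (midRes A L) ι₂ r₁ - torCls (midRes A L) ι rs + torCls (midRes A L) ι₀ r₁
      have hX : (p ^ m) • X = 0 := by
        exact nsmul_sub_add_eq_zero (G := Cls A (midRes A L) (p ^ m)) (p ^ m)
          (torCls (midRes A L) ι₂ r₁) (torCls (midRes A L) ι rs) (torCls (midRes A L) ι₀ r₁)
          (hn2 r₁) (hn1 rs) (hn0 r₁)
      have hco : addOrderOf X ∣ Nat.gcd q (p ^ m) :=
        Nat.dvd_gcd (addOrderOf_dvd_of_nsmul_eq_zero e2) (addOrderOf_dvd_of_nsmul_eq_zero hX)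
      rw [(Nat.Prime.coprime_iff_not_dvd hq).mpr (hqpm m), Nat.dvd_one,
        AddMonoid.addOrderOf_eq_one_iff] at hco
      exact hco
    have hsplit : rτ = rd + rs := by
      simp only [rτ, rd, rs, hR, ← rawPoint_add]
      congr 1
      refine Subtype.ext (AddMonoidHom.ext fun γ => ?_)
      show l (τ * P.1 γ) = l ((τ - s) * P.1 γ) + l (s * P.1 γ)
      rw [← map_add, sub_mul, sub_add_cancel]
    rw [hsplit, torCls_add hA (hqpm m) _ ι (hG _ _ hι) (hE _ hb _ hι)] at e1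
    calc torCls (midRes A L) ι rd
        = (torCls (midRes A L) ι₂ r₁ - torCls (midRes A L) ι rs + torCls (midRes A L) ι₀ r₁)
          + ((torCls (midRes A L) ι rd + torCls (midRes A L) ι rs)
            - (torCls (midRes A L) ι₀ r₁ + torCls (midRes A L) ι₂ r₁)) := by abel
      _ = 0 := by rw [e3, ← e1]; abel
  obtain ⟨e, r, hr⟩ := exists_mul_eq_prime_pow (p := p) (sub_ne_zero.mpr hne : τ - s ≠ 0)
  -- descend to level `p`
  have hmod : ∀ l : κ →+ ZMod p, ∀ (b : ℕ), ¬ q ∣ b →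
      ∀ ι : modularFunctionFieldBar (L * q * q) →ₐ[Qb] LaurentSeries Qb,
        IsMidEmb L q ζ₀ b ι →
        torCls (midRes A L) ι
          (rawPoint (L * q * q) p (homPar0Map (Gamma0 _) (l.comp res.toAddMonoidHom) P)) = 0 := by
    intro l b hb ι hι
    obtain ⟨Λ, hΛ⟩ := exists_lift_functional (p := p) e (l.comp res.toAddMonoidHom)
    have hm : p * p ^ e = p ^ (e + 1) := (pow_succ' p e).symm
    have h := hkill (e + 1) (Λ.comp (AddMonoidHom.mulLeft r)) b hb ι hι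
    have heq : ((Λ.comp (AddMonoidHom.mulLeft r)).comp (AddMonoidHom.mulLeft (τ - s)))
        = (mulEmb (p ^ e) hm).comp (l.comp res.toAddMonoidHom) := by
      refine AddMonoidHom.ext fun o => ?_
      show Λ (r * ((τ - s) * o)) = mulEmb (p ^ e) hm (l (res o))
      rw [show r * ((τ - s) * o) = (τ - s) * r * o by ring, hr, ← Nat.cast_pow, ← nsmul_eq_mul,
        map_nsmul]
      obtain ⟨j, hj⟩ := ZMod.intCast_surjective (Λ o)
      have hl : l (res o) = (j : ZMod p) := by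
        rw [← show _ = l (res o) from hΛ o, ← hj, map_intCast]
      rw [hl, mulEmb_intCast, ← hj, nsmul_eq_mul, mul_comm]
    rw [heq, show homPar0Map (Gamma0 (L * q * q)) ((mulEmb (p ^ e) hm).comp
        (l.comp res.toAddMonoidHom)) P
      = homPar0Map (Gamma0 _) (mulEmb (p ^ e) hm)
          (homPar0Map (Gamma0 _) (l.comp res.toAddMonoidHom) P) from rfl,
      coe_rawPoint_mulEmb hm] at h
    exact torCls_eq_zero_of_incl hm hA (hqpm _) _ ι (midEmb_mem_gaussField hq hprim hι)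
      (fun f y hy => mem_midRes_of_isGRed hqL hA hprim hb hι f hy) _ h
  -- the reduction is old
  have hq1 : (q : κ) = 1 := by
    have h : ((q - 1 : ℕ) : κ) = 0 := (CharP.cast_eq_zero_iff κ p _).mpr hpq
    rwa [Nat.cast_sub hq.one_lt.le, Nat.cast_one, sub_eq_zero] at h
  set Pbar := homPar0Map (Gamma0 (L * q * q)) res.toAddMonoidHom P
  have hPbar : ∀ γ, Pbar.1 (Additive.ofMul γ)
      = FLTA.Periods.heckeHom κ L q y.1 (Additive.ofMul (conjHom L q (inclHom (L * q) q γ)))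
        - y.1 (Additive.ofMul (inclHom L q (inclHom (L * q) q γ)))
        - y.1 (Additive.ofMul (conjHom L q (conjHom (L * q) q γ))) := by
    intro γ
    rw [← twist_old hqL hq1 y.2 y'.2 γ]
    show res.toAddMonoidHom (P.1 (Additive.ofMul γ)) = _
    rw [hP, twistFun_map (Dvd.intro_left L rfl) ε res res.toAddMonoidHom
      (fun r o => by simp) x γ]
    congr 1
    · refine MonoidHom.ext fun u => Units.ext ?_
      exact hε u
    · exact funext hxy
  have hb1 : ¬ q ∣ 1 := fun h => hq.one_lt.ne' (Nat.dvd_one.mp h)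
  obtain ⟨ι, hι⟩ := exists_midEmb L q hqL hprim hb1
  exact hy (old_bottom_eq_zero hqL hpq hA y t ht hTq hTJ Pbar hPbar hprim hb1 hι
    fun l => hmod l 1 hb1 ι hι)

theorem inertia_trace_eq {p q L : ℕ} [Fact p.Prime] [Fact q.Prime] [NeZero L] (hqL : ¬ q ∣ L)
    (hpq : p ∣ q - 1) (hpL : ¬ p ∣ 2)
    {O : Type*} [CommRing O] [IsDomain O] [Algebra ℤ_[p] O] [Module.Free ℤ_[p] O]
    [Module.Finite ℤ_[p] O] {κ : Type*} [Field κ] [CharP κ p] (res : O →+* κ)
    (hres : Function.Surjective res) (ε : (ZMod q)ˣ →* Oˣ) (hε : ∀ u, res (ε u) = 1)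
    (x : Gamma0 (L * q) → O) (hx : ∀ g h, x (g * h) = x g + (ε (aMod L q g) : O) ^ 2 * x h)
    (P : homPar0 ℤ (Gamma0 (L * q * q)) O)
    (hP : ∀ γ, P.1 (Additive.ofMul γ) = twistFun (Dvd.intro_left L rfl) ε x γ)
    (y y' : homPar0 ℤ (Gamma0 L) κ)
    (hxy : ∀ g, res (x g) =
      y.1 (Additive.ofMul (inclHom L q g)) + y'.1 (Additive.ofMul (conjHom L q g)))
    (hy : y ≠ 0) (t : κ) (ht : t ^ 2 ≠ 4)
    (hTq : FLTA.Periods.heckeHom κ L q y.1 = t • y.1)
    (hTJ : ∀ l : κ →+ ZMod p,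
      heckeOperatorBar L ⟨q, Fact.out⟩ (rawPoint L p (homPar0Map (Gamma0 L) l y) : JZero L)
        = (rawPoint L p (homPar0Map (Gamma0 L) (l.comp (AddMonoidHom.mulLeft t)) y) : JZero L))
    {A : ValuationSubring Qb} (hA : A.LiesOverPrime q) {σ : Qb ≃ₐ[ℚ] Qb}
    (hσ : σ ∈ A.inertiaSubgroupIn ℚ) (τ : O)
    (hrel : ∀ (m : ℕ) (l : O →+ ZMod (p ^ m)),
      σ • σ • (rawPoint (L * q * q) (p ^ m) (homPar0Map (Gamma0 _) l P) : JZero (L * q * q))
        - σ • (rawPoint (L * q * q) (p ^ m)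
            (homPar0Map (Gamma0 _) (l.comp (AddMonoidHom.mulLeft τ)) P) : JZero (L * q * q))
        + (rawPoint (L * q * q) (p ^ m) (homPar0Map (Gamma0 _) l P) : JZero (L * q * q)) = 0)
    {ζ : Qbˣ} (hζ : IsPrimitiveRoot ζ q) {w : (ZMod q)ˣ}
    (hw : σ (ζ : Qb) = (ζ : Qb) ^ (w : ZMod q).val) :
    τ = (ε w : O) + ((ε w)⁻¹ : Oˣ) :=
  have _ := hpL
  inertia_trace_eq_of_dvd hqL hpq res hres ε hε x hx P hP y y' hxy hy t ht hTq hTJ hA hσ τ hrel hζ hw

end FLTA.RT.Diamond
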