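import Fermat.Agent.RT.Diamond.RecurrenceShift
import Fermat.Agent.Bridge.Field

/-!
# Expansions of periodic meromorphic functions

`HasExp x y`: the meromorphic function `x` is `1`-periodic, meromorphic at `i∞`, with expansion
`y`.
-/

set_option autoImplicit false
set_option synthInstance.maxHeartbeats 400000

noncomputable section

open scoped MatrixGroups Real
open UpperHalfPlane hiding I
open CongruenceSubgroup ModularCurve Complex Function
open FLTA.Bridge

namespace FLTA.RT.Diamond

/-- The inclusion of periodic functions. -/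
def holInftyToHol : HolInfty 1 →ₐ[ℂ] Hol := Subalgebra.inclusion fun _ h => h.1

theorem holInftyToHol_injective : Function.Injective holInftyToHol := fun _ _ h =>
  Subtype.ext (congrArg (fun F : Hol => (F : ℍ → ℂ)) h)

/-- `x` has expansion `y`. -/
def HasExp (x : Mero) (y : LaurentSeries ℂ) : Prop :=
  ∃ P Q : HolInfty 1, Q ≠ 0 ∧
    x * algebraMap Hol Mero (holInftyToHol Q) = algebraMap Hol Mero (holInftyToHol P) ∧
    y * expansion 1 Q = expansion 1 P

theorem hasExp_holInfty (F : HolInfty 1) :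
    HasExp (algebraMap Hol Mero (holInftyToHol F)) (expansion 1 F) :=
  ⟨F, 1, fun h => by simpa using congrArg (fun K : HolInfty 1 => (K : ℍ → ℂ) UpperHalfPlane.I) h,
    by rw [map_one, map_one, mul_one], by rw [map_one, mul_one]⟩

theorem hasExp_const (c : ℂ) :
    HasExp (algebraMap ℂ Mero c) (algebraMap ℂ (LaurentSeries ℂ) c) := by
  simpa [← IsScalarTower.algebraMap_apply] using hasExp_holInfty (algebraMap ℂ (HolInfty 1) c)

theorem expansion_ne_zero {Q : HolInfty 1} (hQ : Q ≠ 0) : expansion 1 Q ≠ 0 := fun h =>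
  hQ (expansion_injective 1 (by rw [h, map_zero]))

theorem algebraMap_holInfty_ne_zero {Q : HolInfty 1} (hQ : Q ≠ 0) :
    algebraMap Hol Mero (holInftyToHol Q) ≠ 0 := fun h =>
  hQ (holInftyToHol_injective (IsFractionRing.injective Hol Mero (by rw [h, map_zero, map_zero])))

theorem holInfty_mul_ne_zero {Q Q' : HolInfty 1} (hQ : Q ≠ 0) (hQ' : Q' ≠ 0) : Q * Q' ≠ 0 :=
  fun h => mul_ne_zero (expansion_ne_zero hQ) (expansion_ne_zero hQ') (by rw [← map_mul, h, map_zero])

theorem HasExp.mul {x x' : Mero} {y y' : LaurentSeries ℂ} (h : HasExp x y) (h' : HasExp x' y') :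
    HasExp (x * x') (y * y') := by
  obtain ⟨P, Q, hQ, hx, hy⟩ := h
  obtain ⟨P', Q', hQ', hx', hy'⟩ := h'
  refine ⟨P * P', Q * Q', holInfty_mul_ne_zero hQ hQ', ?_, ?_⟩
  · rw [map_mul, map_mul, map_mul, map_mul, ← hx, ← hx']; ring
  · rw [map_mul, map_mul, ← hy, ← hy']; ring

theorem HasExp.add {x x' : Mero} {y y' : LaurentSeries ℂ} (h : HasExp x y) (h' : HasExp x' y') :
    HasExp (x + x') (y + y') := by
  obtain ⟨P, Q, hQ, hx, hy⟩ := h
  obtain ⟨P', Q', hQ', hx', hy'⟩ := h'
  refine ⟨P * Q' + P' * Q, Q * Q', holInfty_mul_ne_zero hQ hQ', ?_, ?_⟩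
  · rw [map_mul, map_mul, map_add, map_add, map_mul, map_mul, map_mul, map_mul, ← hx, ← hx']; ring
  · rw [map_mul, map_add, map_mul, map_mul, ← hy, ← hy']; ring

theorem HasExp.neg {x : Mero} {y : LaurentSeries ℂ} (h : HasExp x y) : HasExp (-x) (-y) := by
  have h1 := (hasExp_const (-1)).mul h
  have e : algebraMap ℂ (LaurentSeries ℂ) (-1) * y = -y := by
    rw [map_neg, map_one]; exact neg_one_mul y
  have e' : algebraMap ℂ Mero (-1) * x = -x := by rw [map_neg, map_one, neg_one_mul]
  rwa [e, e'] at h1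

theorem HasExp.unique {x : Mero} {y y' : LaurentSeries ℂ} (h : HasExp x y) (h' : HasExp x y') :
    y = y' := by
  obtain ⟨P, Q, hQ, hx, hy⟩ := h
  obtain ⟨P', Q', hQ', hx', hy'⟩ := h'
  have h1 : P * Q' = P' * Q := holInftyToHol_injective (IsFractionRing.injective Hol Mero (by
    rw [map_mul, map_mul, map_mul, map_mul, ← hx, ← hx']; ring))
  have h2 := congrArg (expansion 1) h1
  rw [map_mul, map_mul, ← hy, ← hy'] at h2
  exact mul_right_cancel₀ (mul_ne_zero (expansion_ne_zero hQ) (expansion_ne_zero hQ'))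
    (by linear_combination h2)

theorem HasExp.eq_zero_iff {x : Mero} {y : LaurentSeries ℂ} (h : HasExp x y) : x = 0 ↔ y = 0 := by
  obtain ⟨P, Q, hQ, hx, hy⟩ := h
  constructor
  · rintro rfl
    rw [zero_mul] at hx
    have hP : P = 0 := holInftyToHol_injective
      (IsFractionRing.injective Hol Mero (by rw [← hx, map_zero, map_zero]))
    rw [hP, map_zero] at hy
    exact (mul_eq_zero.mp hy).resolve_right (expansion_ne_zero hQ)
  · rintro rfl
    rw [zero_mul] at hy
    have hP : P = 0 := expansion_injective 1 (by rw [← hy, map_zero])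
    rw [hP, map_zero, map_zero] at hx
    exact (mul_eq_zero.mp hx).resolve_right (algebraMap_holInfty_ne_zero hQ)

theorem HasExp.inv {x : Mero} {y : LaurentSeries ℂ} (h : HasExp x y) : HasExp x⁻¹ y⁻¹ := by
  rcases eq_or_ne x 0 with rfl | hx0
  · rw [h.eq_zero_iff.mp rfl, inv_zero, inv_zero]
    simpa using hasExp_const 0
  have hy0 : y ≠ 0 := fun e => hx0 (h.eq_zero_iff.mpr e)
  obtain ⟨P, Q, hQ, hx, hy⟩ := h
  refine ⟨Q, P, fun hP => ?_, ?_, ?_⟩
  · rw [hP, map_zero] at hy
    exact mul_ne_zero hy0 (expansion_ne_zero hQ) hy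
  · rw [← hx, inv_mul_cancel_left₀ hx0]
  · rw [← hy, inv_mul_cancel_left₀ hy0]

theorem HasExp.div {x x' : Mero} {y y' : LaurentSeries ℂ} (h : HasExp x y) (h' : HasExp x' y') :
    HasExp (x / x') (y / y') := by
  rw [div_eq_mul_inv, div_eq_mul_inv]
  exact h.mul h'.inv

theorem hasExp_prod {ι : Type*} (s : Finset ι) {x : ι → Mero} {y : ι → LaurentSeries ℂ}
    (h : ∀ i ∈ s, HasExp (x i) (y i)) : HasExp (∏ i ∈ s, x i) (∏ i ∈ s, y i) := by
  classical
  induction s using Finset.induction with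
  | empty => simpa using hasExp_const 1
  | insert a s ha ih =>
    rw [Finset.prod_insert ha, Finset.prod_insert ha]
    exact (h a (Finset.mem_insert_self a s)).mul (ih fun i hi => h i (Finset.mem_insert_of_mem hi))

end FLTA.RT.Diamond
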