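import Fermat.Agent.RT.Diamond.MidSeries

/-!
# The tower of simple residual roots and its residues

The integral elements of the field generated by `j(q^d)`, `d ∣ L q²`, reduce into the level-`L`
field in characteristic `q`; adjoining `j(z q^e)`, `z ^ q = 1`, `e ∣ L`, they reduce into the field
generated in addition by `θ j̄`, whose `(q-1)`-st power is in the level-`L` field.
-/

set_option autoImplicit false
set_option synthInstance.maxHeartbeats 400000

noncomputable section

open ModularCurve Polynomial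
open FLTA.Igusa FLTA.PlaceRed

namespace FLTA.RT.Diamond

local notation "Qb" => AlgebraicClosure ℚ

section Roots

variable {A : ValuationSubring Qb} {q : ℕ}

theorem exists_unit_root [NeZero q] : ∃ ζ : Aˣ, IsPrimitiveRoot ζ q := by
  obtain ⟨ζ₀, hζ₀⟩ := exists_primitiveRoot_unit (L := Qb) q (Nat.cast_ne_zero.mpr (NeZero.ne q))
  have hmem : (ζ₀ : Qb) ∈ A := FLTA.BadRed.mem_of_pow_mem (NeZero.pos q)
    (by rw [← Units.val_pow_eq_pow_val, hζ₀.pow_eq_one]; exact A.one_mem)
  have hz : (⟨ζ₀, hmem⟩ : A) ^ q = 1 := Subtype.ext (by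
    show (ζ₀ : Qb) ^ q = 1
    rw [← Units.val_pow_eq_pow_val, hζ₀.pow_eq_one, Units.val_one])
  refine ⟨Units.ofPowEqOne _ q hz (NeZero.ne q), ?_⟩
  refine IsPrimitiveRoot.of_map_of_injective (f := Units.map (A.subtype : A →* Qb)) ?_
    (Units.map_injective Subtype.val_injective)
  convert hζ₀
  exact Units.ext rfl

theorem jAt_mem_zInt [NeZero q] {z : Aˣ} (hz : z ^ q = 1) (d : ℕ) [NeZero d] :
    jAt z d ∈ zInt A := by
  rw [mem_zInt, coeffMap_jAt]
  exact isZFinite_jAt (NeZero.ne q) (by rw [← map_pow, hz, map_one]) d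

theorem jAt_one_mem_zInt (d : ℕ) [NeZero d] : jAt (1 : Aˣ) d ∈ zInt A :=
  jAt_mem_zInt (q := 1) (one_pow 1) d

end Roots

section Tower

variable {A : ValuationSubring Qb} {k : Type} [Field k] [IsAlgClosed k] {π : A →+* k}
  (hπ : Function.Surjective π) {q : ℕ} [Fact q.Prime] [CharP k q]

/-- `j(q^d)` in the valuation ring. -/
def jB (d : ℕ) [NeZero d] : bigRing hπ := toBig hπ ⟨jAt (1 : Aˣ) d, jAt_one_mem_zInt d⟩

theorem coe_jB (d : ℕ) [NeZero d] :
    (((jB hπ d : bigRing hπ) : bigField Qb) : LaurentSeries Qb) = qExpand Qb d (jqModC Qb) := by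
  rw [jB, coe_toBig, coeffMap_jAt, map_one, jAt_one]

theorem bigRed_jB (d : ℕ) [NeZero d] : bigRed hπ (jB hπ d) = qExpand k d (jqModC k) := by
  rw [jB, bigRed_toBig, coeffMap_jAt, map_one, jAt_one]

variable (A) in
/-- The field generated by the `j(q^d)`, `d` in `S`, inside the big field. -/
def jField' (S : Set ℕ) : IntermediateField Qb (bigField Qb) :=
  IntermediateField.adjoin Qb
    {x | ∃ (d : ℕ) (_ : NeZero d), d ∈ S ∧ (x : LaurentSeries Qb) = qExpand Qb d (jqModC Qb)}

theorem jB_mem {S : Set ℕ} {d : ℕ} [NeZero d] (hd : d ∈ S) :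
    (jB hπ d : bigField Qb) ∈ jField' S :=
  IntermediateField.subset_adjoin Qb _ ⟨d, ‹_›, hd, coe_jB hπ d⟩

theorem coe_eval₂_aeval_mem {F : IntermediateField Qb (bigField Qb)} {x : bigRing hπ}
    (hx : (x : bigField Qb) ∈ F) (P : Polynomial ℤ) :
    ((aeval (R := ℤ) x P : bigRing hπ) : bigField Qb) ∈ F := by
  induction P using Polynomial.induction_on' with
  | add P Q hP hQ => rw [map_add]; exact add_mem hP hQ
  | monomial n a =>
    rw [aeval_monomial, eq_intCast]
    push_cast
    exact mul_mem (intCast_mem _ _) (pow_mem hx n)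

omit [IsAlgClosed k] [Fact q.Prime] [CharP k q] in
theorem bigRed_comp_aeval (x : bigRing hπ) :
    (bigRed hπ).comp (aeval (R := ℤ) x).toRingHom = (aeval (R := ℤ) (bigRed hπ x)).toRingHom :=
  intPoly_hom_ext (by simp)

/-- A step of the tower along `Φ_p`. -/
theorem resIn_step_modPoly {K₀ : IntermediateField k (LaurentSeries k)}
    {F : IntermediateField Qb (bigField Qb)} (h : ResIn hπ K₀ F) {w : Aˣ} (hw : w ^ q = 1)
    {e p : ℕ} [NeZero e] [NeZero p] (hp : p.Prime)
    (hx : (toBig hπ ⟨jAt w e, haveI := NeZero.mk (Fact.out : q.Prime).ne_zero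
      jAt_mem_zInt hw e⟩ : bigField Qb) ∈ F)
    (hK : qExpand k (e * p) (jqModC k) ∈ K₀) :
    ∀ hy : jAt (w ^ p) (e * p) ∈ zInt A,
      ResIn hπ K₀ (F ⊔ IntermediateField.adjoin Qb {(toBig hπ ⟨_, hy⟩ : bigField Qb)}) := by
  haveI : NeZero q := ⟨(Fact.out : q.Prime).ne_zero⟩
  intro hy
  set xz : zInt A := ⟨jAt w e, jAt_mem_zInt hw e⟩
  set yz : zInt A := ⟨jAt (w ^ p) (e * p), hy⟩
  have hrx : bigRed hπ (toBig hπ xz) = qExpand k e (jqModC k) := by
    rw [bigRed_toBig]
    simpa using coeffMap_jAt_root π w hw 1 e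
  have hry : bigRed hπ (toBig hπ yz) = qExpand k (e * p) (jqModC k) := by
    rw [bigRed_toBig]
    exact coeffMap_jAt_root π w hw p (e * p)
  let Q : (bigRing hπ)[X] := (modPoly p hp).map (aeval (R := ℤ) (toBig hπ xz)).toRingHom
  have hroot : Q.eval (toBig hπ yz) = 0 := by
    have h0 : (modPoly p hp).eval₂ (aeval (R := ℤ) xz).toRingHom yz = 0 := by
      apply Subtype.val_injective
      show (zInt A).subtype _ = _
      rw [hom_eval₂]
      convert modPoly_eval_jAt p hp w e using 2
      · exact intPoly_hom_ext (by simp [xz])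
      · rfl
      · rfl
    have h1 := congrArg (toBig hπ) h0
    rw [map_zero, hom_eval₂] at h1
    rw [eval_map]
    convert h1 using 2
    exact intPoly_hom_ext (by simp)
  refine h.insert _ (by rw [hry]; exact hK) Q ((modPoly_monic p hp).map _) (fun i => ?_) hroot ?_
  · rw [coeff_map]
    exact coe_eval₂_aeval_mem hπ hx _
  · rw [derivative_map, Polynomial.map_map, bigRed_comp_aeval, hrx, hry]
    by_cases hpq : p = q
    · subst hpq
      exact derivative_modPoly_eval_ne_zero π p e
    · have hpk : (p : k) ≠ 0 := fun h0 => hpq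
        ((Nat.prime_dvd_prime_iff_eq (Fact.out : q.Prime) hp).mp
          ((CharP.cast_eq_zero_iff k q p).mp h0)).symm
      rw [← derivative_map]
      refine (separable_modPoly_qExpand p hp hpk e).eval₂_derivative_ne_zero (RingHom.id _) ?_
      rw [eval₂_id, eval_map, ← jAt_one, ← jAt_one]
      simpa using modPoly_eval_jAt (R := k) p hp 1 e

variable {L : ℕ} [NeZero L]

/-- Every `j(q^d)`, `d ∣ L q²`, is in the tower over `j`, with residues at level `L`. -/
theorem resIn_jField' :
    ResIn hπ (modularFunctionFieldFullC k L) (jField' {d | d ∣ L * q ^ 2}) := by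
  suffices h : ∀ m, ResIn hπ (modularFunctionFieldFullC k L)
      (jField' {d | d = 1 ∨ d ∣ L * q ^ 2 ∧ d < m}) by
    refine (h (L * q ^ 2 + 1)).mono (IntermediateField.adjoin.mono Qb _ _ ?_)
    rintro x ⟨d, hd0, hd, hx⟩
    exact ⟨d, hd0, Or.inr ⟨hd, Nat.lt_succ_of_le (Nat.le_of_dvd
      (Nat.mul_pos (NeZero.pos L) (pow_pos (Fact.out : q.Prime).pos 2)) hd)⟩, hx⟩
  intro m
  induction m with
  | zero =>
    refine ((resIn_baseField 1 (by simp)).mono ?_).mono_right (full_degeneracyC_le k (one_dvd L))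
    rw [jField', IntermediateField.adjoin_le_iff]
    rintro x ⟨d, hd0, (rfl | ⟨-, hd⟩), hx⟩
    · show (x : LaurentSeries Qb) ∈ laurentBaseChange Qb (modularFunctionFieldFull 1)
      rw [hx, FLTA.Curves.laurentBaseChange_full_eq]
      exact jqModCd_mem_full _ 1 dvd_rfl
    · omega
  | succ m ih =>
    by_cases hm : m ∣ L * q ^ 2 ∧ m ≠ 1
    · obtain ⟨hmd, hm1⟩ := hm
      obtain ⟨p, hp, hpm⟩ := Nat.exists_prime_and_dvd hm1
      obtain ⟨e, rfl⟩ : ∃ e, m = e * p := ⟨m / p, (Nat.div_mul_cancel hpm).symm⟩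
      have hne : e * p ≠ 0 := ne_zero_of_dvd_ne_zero
        (mul_ne_zero (NeZero.ne L) (pow_ne_zero 2 (Fact.out : q.Prime).ne_zero)) hmd
      haveI : NeZero e := ⟨left_ne_zero_of_mul hne⟩
      haveI : NeZero p := ⟨hp.ne_zero⟩
      have hy : jAt ((1 : Aˣ) ^ p) (e * p) ∈ zInt A := by
        rw [one_pow]; exact jAt_one_mem_zInt _
      refine (resIn_step_modPoly hπ ih (w := 1) (one_pow q) hp
        (jB_mem hπ (d := e) (Or.inr ⟨(dvd_mul_right e p).trans hmd,
          (lt_mul_iff_one_lt_right (NeZero.pos e)).mpr hp.one_lt⟩))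
        (qExpand_jqModC_mem_of_dvd q 2 hmd) hy).mono ?_
      rw [jField', IntermediateField.adjoin_le_iff]
      rintro x ⟨d, hd0, hd, hx⟩
      rcases eq_or_ne d (e * p) with rfl | hde
      · refine le_sup_right (a := jField' _) (IntermediateField.subset_adjoin Qb _ ?_)
        show x = _
        apply Subtype.ext
        rw [hx, coe_toBig, coeffMap_jAt]
        simp [jAt_one]
      · refine le_sup_left (b := IntermediateField.adjoin Qb _)
          (IntermediateField.subset_adjoin Qb _ ⟨d, hd0, ?_, hx⟩)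
        rcases hd with rfl | ⟨hd1, hd2⟩
        · exact Or.inl rfl
        · exact Or.inr ⟨hd1, by omega⟩
    · refine ih.mono (IntermediateField.adjoin.mono Qb _ _ ?_)
      rintro x ⟨d, hd0, hd, hx⟩
      refine ⟨d, hd0, ?_, hx⟩
      rcases hd with rfl | ⟨hd1, hd2⟩
      · exact Or.inl rfl
      · rcases eq_or_ne d m with rfl | hdm
        · exact Or.inl (of_not_not fun h => hm ⟨hd1, h⟩)
        · exact Or.inr ⟨hd1, by omega⟩

end Tower

end FLTA.RT.Diamond

end
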