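import Fermat.Agent.RT.Diamond.IgusaField

/-!
# The integral series of the tower: `j(ζ^i q^d)` and `(j(ζ^i q) - j(q)) / (ζ - 1)`
-/

set_option autoImplicit false

noncomputable section

open ModularCurve Polynomial
open FLTA.Igusa FLTA.PlaceRed

namespace FLTA.RT.Diamond

section ZFinite

variable {L : Type*} [Field L]

theorem isZFinite_jqModC : IsZFinite (jqModC L) := by
  rw [← coeffMap_jqModC (Int.castRingHom L)]
  exact isZFinite_coeffMap_intCast _

theorem isZFinite_qExpand (d : ℕ) [NeZero d] {x : LaurentSeries L} (hx : IsZFinite x) :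
    IsZFinite (qExpand L d x) := by
  obtain ⟨M, hM, hx⟩ := hx
  refine ⟨M, hM, fun n => ?_⟩
  by_cases h : (d : ℤ) ∣ n
  · obtain ⟨m, rfl⟩ := h
    rw [qExpand_coeff_mul]
    exact hx m
  · rw [qExpand_coeff_of_not_dvd d _ h]
    exact zero_mem _

theorem isZFinite_twist {z : Lˣ} {m : ℕ} (hm : m ≠ 0) (hz : z ^ m = 1) {x : LaurentSeries L}
    (hx : IsZFinite x) : IsZFinite (FLTA.Igusa.twist z x) := by
  obtain ⟨M, hM, hx⟩ := hx
  refine ⟨Submodule.span ℤ (Set.range fun i : Fin m => ((z ^ (i : ℕ) : Lˣ) : L)) * M,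
    (Submodule.fg_span (Set.finite_range _)).mul hM, fun n => ?_⟩
  rw [twist_coeff]
  refine Submodule.mul_mem_mul ?_ (hx n)
  have hm' : (0 : ℤ) < m := by exact_mod_cast Nat.pos_of_ne_zero hm
  obtain ⟨i, hi⟩ : ∃ i : ℕ, (i : ℤ) = n % m :=
    ⟨(n % m).toNat, Int.toNat_of_nonneg (Int.emod_nonneg _ hm'.ne')⟩
  refine Submodule.subset_span ⟨⟨i, by have := Int.emod_lt_of_pos n hm'; omega⟩, ?_⟩
  show ((z ^ i : Lˣ) : L) = _
  rw [zpow_eq_zpow_emod n (n := (m : ℕ)) (x := z) hz, ← hi, zpow_natCast]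

theorem isZFinite_jAt {z : Lˣ} {m : ℕ} (hm : m ≠ 0) (hz : z ^ m = 1) (d : ℕ) [NeZero d] :
    IsZFinite (jAt z d) :=
  isZFinite_qExpand d (isZFinite_twist hm hz isZFinite_jqModC)

end ZFinite

/-- `Φ_p(j(w q^e), j(w^p q^(ep))) = 0`. -/
theorem modPoly_eval_jAt {R : Type} [CommRing R] (p : ℕ) [NeZero p] (hp : p.Prime) (w : Rˣ)
    (e : ℕ) [NeZero e] :
    (modPoly p hp).eval₂ (aeval (R := ℤ) (jAt w e)).toRingHom (jAt (w ^ p) (e * p)) = 0 := by
  have h := congrArg ((qExpand R e).comp (FLTA.Igusa.twist w)) (modPoly_eval_jp R p hp)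
  rw [map_zero, hom_eval₂] at h
  convert h using 2
  · exact intPoly_hom_ext (by simp [jAt])
  · simp [jAt, jqNModC, twist_qExpand, qExpand_qExpand]

section Ser

variable {R : Type*} [CommRing R] (z : Rˣ) (q : ℕ)

/-- The exponent of `z` in the `n`-th coefficient. -/
def zExp (i : ℕ) (n : ℤ) : ℕ := ((i : ℤ) * n : ZMod q).val

/-- `(j(z^i q) - j(q)) / (z - 1)` for `z^q = 1`, by geometric sums. -/
def zSer (i : ℕ) : LaurentSeries R where
  coeff n := (∑ l ∈ Finset.range (zExp q i n), (z : R) ^ l) * (jqModC R).coeff n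
  isPWO_support' := (jqModC R).isPWO_support.mono fun n hn => by
    simp only [Function.mem_support, HahnSeries.mem_support] at hn ⊢
    exact fun h => hn (by rw [h, mul_zero])

theorem zSer_coeff (i : ℕ) (n : ℤ) : (zSer z q i).coeff n =
    (∑ l ∈ Finset.range (zExp q i n), (z : R) ^ l) * (jqModC R).coeff n := rfl

variable [NeZero q]

theorem C_sub_one_mul_zSer (hz : z ^ q = 1) (i : ℕ) :
    HahnSeries.C ((z : R) - 1) * zSer z q i = jAt (z ^ i) 1 - jAt (1 : Rˣ) 1 := by
  rw [HahnSeries.C_mul_eq_smul]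
  ext n
  have hpow : ((z ^ i) ^ n : Rˣ) = z ^ zExp q i n := by
    rw [← zpow_natCast z i, ← zpow_mul, zpow_eq_zpow_emod _ (n := q) hz,
      ← zpow_natCast z (zExp q i n)]
    congr 1
    rw [zExp, ← Int.cast_mul, ZMod.val_intCast]
  simp only [jAt, qExpand_one_apply, twist_one_apply, HahnSeries.coeff_smul, zSer_coeff,
    HahnSeries.coeff_sub, twist_coeff, smul_eq_mul, ← mul_assoc, mul_geom_sum, hpow]
  push_cast
  ring

end Ser

section Residue

variable {A : Type} [CommRing A] {k : Type} [Field k] (π : A →+* k) {q : ℕ} [Fact q.Prime]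
  [CharP k q] (z : Aˣ)

include π in
theorem map_root_eq_one (hz : z ^ q = 1) : π (z : A) = 1 := by
  refine frobenius_inj k q ?_
  rw [frobenius_def, frobenius_def, one_pow, ← map_pow, ← Units.val_pow_eq_pow_val, hz,
    Units.val_one, map_one]

theorem coeffMap_jAt_root (hz : z ^ q = 1) (i d : ℕ) [NeZero d] :
    coeffMap π (jAt (z ^ i) d) = qExpand k d (jqModC k) := by
  rw [coeffMap_jAt, ← jAt_one]
  congr 1
  ext
  simp [map_root_eq_one π z hz]

theorem coeffMap_zSer (hz : z ^ q = 1) (i : ℕ) :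
    coeffMap π (zSer z q i) = (i : LaurentSeries k) * theta (jqModC k) := by
  haveI : NeZero q := ⟨(Fact.out : q.Prime).ne_zero⟩
  rw [← map_natCast HahnSeries.C, HahnSeries.C_mul_eq_smul]
  ext n
  rw [coeffMap_coeff, zSer_coeff, map_mul, map_sum, HahnSeries.coeff_smul, theta_coeff,
    smul_eq_mul]
  simp only [map_pow, map_root_eq_one π z hz, one_pow, Finset.sum_const, Finset.card_range,
    nsmul_eq_mul, mul_one]
  have hv : ((zExp q i n : ℕ) : k) = (i : k) * (n : k) := by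
    rw [show (i : k) * (n : k) = (((i : ℤ) * n : ℤ) : k) by push_cast; rfl,
      ← ZMod.cast_intCast' (R := k) (n := q), zExp, ← Int.cast_mul, ZMod.natCast_val]
  rw [hv, ← coeffMap_coeff π, coeffMap_jqModC, mul_assoc]

end Residue

end FLTA.RT.Diamond

end
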