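import Fermat.Agent.RT.Diamond.MidField

/-!
# Adjoining the translates: residues in `C(θ j̄)`

With `x = j(q^q)`, the polynomial with roots `(j(ζ^i q) - j(q)) / (ζ - 1)` has coefficients in
`ℚ̄(j(q), j(q^q), j(q^(q²)))`, and its reduction has the distinct roots `i θ j̄`.
-/

set_option autoImplicit false
set_option synthInstance.maxHeartbeats 400000

noncomputable section

open ModularCurve Polynomial
open FLTA.Igusa FLTA.PlaceRed

namespace FLTA.RT.Diamond

local notation "Qb" => AlgebraicClosure ℚ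

variable {A : ValuationSubring Qb} {k : Type} [Field k] [IsAlgClosed k] {π : A →+* k}
  (hπ : Function.Surjective π) {q : ℕ} [Fact q.Prime] [CharP k q] {ζ : Aˣ}
  (hζ : IsPrimitiveRoot ζ q)

include hζ in
theorem exists_pow_eq {z : Aˣ} (hz : z ^ q = 1) : ∃ i < q, ζ ^ i = z := by
  haveI : NeZero q := ⟨(Fact.out : q.Prime).ne_zero⟩
  obtain ⟨i, hi, h⟩ := (IsPrimitiveRoot.coe_units_iff.mpr hζ).eq_pow_of_pow_eq_one
    (ξ := (z : A)) (by rw [← Units.val_pow_eq_pow_val, hz, Units.val_one])
  exact ⟨i, hi, Units.ext (by rw [Units.val_pow_eq_pow_val, h])⟩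

include hζ in
theorem zSer_mem_zInt (i : ℕ) : zSer ζ q i ∈ zInt A := by
  haveI : NeZero q := ⟨(Fact.out : q.Prime).ne_zero⟩
  have hc : ((ζ : A) : Qb) - 1 ≠ 0 := sub_ne_zero.mpr fun h => hζ.ne_one (Fact.out : q.Prime).one_lt
    (Units.ext (Subtype.ext h))
  have h := congrArg (coeffMap A.subtype) (C_sub_one_mul_zSer ζ q hζ.pow_eq_one i)
  rw [map_mul, coeffMap_subtype_C] at h
  rw [mem_zInt]
  have heq : coeffMap A.subtype (zSer ζ q i) =
      algebraMap Qb (LaurentSeries Qb) (((ζ : A) : Qb) - 1)⁻¹ *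
        coeffMap A.subtype (jAt (ζ ^ i) 1 - jAt (1 : Aˣ) 1) := by
    rw [← h, ← mul_assoc, ← map_mul]
    rw [show (((ζ : A) - 1 : A) : Qb) = ((ζ : A) : Qb) - 1 by push_cast; rfl,
      inv_mul_cancel₀ hc, map_one, one_mul]
  rw [heq]
  exact (isZFinite_algebraMap _).mul
    (sub_mem (jAt_mem_zInt (q := q) (by rw [← pow_mul, mul_comm, pow_mul, hζ.pow_eq_one, one_pow]) 1)
      (jAt_one_mem_zInt 1) : jAt (ζ ^ i) 1 - jAt (1 : Aˣ) 1 ∈ zInt A)

/-- `(j(ζ^i q) - j(q)) / (ζ - 1)` in the valuation ring. -/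
def zB (i : ℕ) : bigRing hπ := toBig hπ ⟨zSer ζ q i, zSer_mem_zInt hζ i⟩

/-- The polynomial with roots `zB i`. -/
def zPoly : (bigRing hπ)[X] := ∏ i ∈ Finset.range q, (X - C (zB hπ hζ i))

theorem bigRed_zB (i : ℕ) : bigRed hπ (zB hπ hζ i) = (i : LaurentSeries k) * theta (jqModC k) := by
  rw [zB, bigRed_toBig]
  exact coeffMap_zSer π ζ hζ.pow_eq_one i

theorem map_zPoly : (zPoly hπ hζ).map (bigRed hπ) =
    ∏ i ∈ Finset.range q, (X - C ((i : LaurentSeries k) * theta (jqModC k))) := by
  simp [zPoly, Polynomial.map_prod, bigRed_zB hπ hζ]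

/-- The coefficients of `zPoly` lie in `ℚ̄(j(q), j(q^q), j(q^(q²)))`. -/
theorem coeff_zPoly_mem {S : Set ℕ} (h1 : 1 ∈ S) (hq : q ∈ S) (hqq : q * q ∈ S) (n : ℕ) :
    ((zPoly hπ hζ).coeff n : bigField Qb) ∈ jField' S := by
  haveI : NeZero q := ⟨(Fact.out : q.Prime).ne_zero⟩
  set F := jField' S
  let ψ : F →+* LaurentSeries Qb := (bigField Qb).val.toRingHom.comp F.val.toRingHom
  let ν : bigRing hπ →+* LaurentSeries Qb :=
    (bigField Qb).val.toRingHom.comp (bigRing hπ).subtype
  let z : Qbˣ := Units.map (A.subtype : A →* Qb) ζ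
  have hz : IsPrimitiveRoot z q := hζ.map_of_injective (Units.map_injective Subtype.val_injective)
  let d : Qb := (z : Qb) - 1
  have hd : d ≠ 0 := sub_ne_zero.mpr fun h => hz.ne_one (Fact.out : q.Prime).one_lt
    (Units.ext h)
  let j1 : F := ⟨_, jB_mem hπ (S := S) h1⟩
  let jq : F := ⟨_, jB_mem hπ (S := S) hq⟩
  let jqq : F := ⟨_, jB_mem hπ (S := S) hqq⟩
  have hj : ∀ (e : ℕ) (_ : NeZero e) (he : e ∈ S),
      ψ ⟨_, jB_mem hπ (S := S) he⟩ = jAt (1 : Qbˣ) e := fun e _ _ => by
    rw [jAt_one]
    exact coe_jB hπ e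
  let R : F[X] := ((modPoly q Fact.out).map (aeval (R := ℤ) jq).toRingHom).comp
    (C j1 + C (algebraMap Qb F d) * X)
  let D : F[X] := C ((algebraMap Qb F d) ^ q) * (C (algebraMap Qb F d) * X + C (j1 - jqq))
  set dd : LaurentSeries Qb := algebraMap Qb (LaurentSeries Qb) d
  have hψd : ψ (algebraMap Qb F d) = dd := rfl
  have hzB : ∀ i, dd * ν (zB hπ hζ i) = jAt (z ^ i) 1 - jAt (1 : Qbˣ) 1 := fun i => by
    have h := congrArg (coeffMap A.subtype) (C_sub_one_mul_zSer ζ q hζ.pow_eq_one i)
    rw [map_mul, coeffMap_subtype_C, map_sub, coeffMap_jAt, coeffMap_jAt, map_pow, map_one] at h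
    exact h
  have hR : R.map ψ = (zPoly hπ hζ).map ν * D.map ψ := by
    have hP := congrArg (fun P => Polynomial.comp P (C (jAt (1 : Qbˣ) 1) + C dd * X))
      (modPoly_map_jAt q Fact.out hz (1 : Qbˣ) 1)
    simp only [one_pow, one_mul, mul_comp, prod_comp, sub_comp, X_comp, C_comp] at hP
    rw [show R.map ψ = ((modPoly q Fact.out).map (aeval (R := ℤ) (jAt (1 : Qbˣ) q)).toRingHom).comp
        (C (jAt (1 : Qbˣ) 1) + C dd * X) by
      rw [Polynomial.map_comp, Polynomial.map_map, Polynomial.map_add, Polynomial.map_mul,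
        Polynomial.map_C, Polynomial.map_C, Polynomial.map_X, hψd, hj 1 inferInstance h1]
      congr 2
      exact intPoly_hom_ext (by simpa using hj q inferInstance hq)]
    refine Eq.trans ?_ (Eq.trans hP ?_)
    · congr 2
    rw [zPoly, Polynomial.map_prod, Polynomial.map_mul, Polynomial.map_add, Polynomial.map_mul,
      Polynomial.map_C, Polynomial.map_C, Polynomial.map_C, Polynomial.map_X, map_pow, hψd, map_sub,
      hj 1 inferInstance h1, hj (q * q) inferInstance hqq]
    simp only [Polynomial.map_sub, Polynomial.map_X, Polynomial.map_C, map_sub, map_pow]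
    have hcard : (C dd) ^ q = ∏ _i ∈ Finset.range q, C dd := by simp
    rw [hcard, mul_comm ((∏ i ∈ Finset.range q, (X - C (ν (zB hπ hζ i))))), mul_right_comm,
      ← Finset.prod_mul_distrib, mul_comm _ (C dd * X + _)]
    congr 1
    · ring
    · refine Finset.prod_congr rfl fun i _ => ?_
      rw [mul_sub, ← map_mul C dd, hzB, map_sub]
      ring
  have hD : D.map ψ ≠ 0 := by
    refine (Polynomial.map_ne_zero_iff ψ.injective).mpr (mul_ne_zero ?_ fun h => ?_)
    · rw [Ne, C_eq_zero]
      exact pow_ne_zero q (by simpa using hd)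
    · have := congrArg (fun P => Polynomial.coeff P 1) h
      simp [coeff_C] at this
      exact hd this
  have hdiv : (R / D).map ψ = (zPoly hπ hζ).map ν := by
    rw [Polynomial.map_div, hR, mul_div_cancel_right₀ _ hD]
  have hn := congrArg (fun P => Polynomial.coeff P n) hdiv
  simp only [coeff_map] at hn
  have : (((R / D).coeff n : F) : bigField Qb) = ((zPoly hπ hζ).coeff n : bigField Qb) :=
    Subtype.ext hn
  rw [← this]
  exact ((R / D).coeff n).2

variable {L : ℕ} [NeZero L]

include hπ in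
/-- `(θ j̄)^(q-1)` lies in the level-`L` field. -/
theorem theta_pow_mem_fullC : theta (jqModC k) ^ (q - 1) ∈ modularFunctionFieldFullC k L := by
  haveI : NeZero q := ⟨(Fact.out : q.Prime).ne_zero⟩
  obtain ⟨ζ, hζ⟩ := exists_unit_root (A := A) (q := q)
  have hmem : bigRed hπ ((zPoly hπ hζ).coeff 1) ∈ modularFunctionFieldFullC k L :=
    resIn_jField' (L := L) hπ _ (coeff_zPoly_mem hπ hζ (one_dvd _)
      ((dvd_pow_self q two_ne_zero).trans (dvd_mul_left _ L))
      (by rw [← sq]; exact dvd_mul_left _ L) 1)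
  rw [← coeff_map, map_zPoly, ← Finset.mul_prod_erase _ _
    (Finset.mem_range.mpr (Fact.out : q.Prime).pos), Nat.cast_zero, zero_mul, map_zero, sub_zero,
    coeff_X_mul] at hmem
  rw [coeff_zero_eq_eval_zero, eval_prod] at hmem
  simp only [eval_sub, eval_X, eval_C, zero_sub] at hmem
  simp only [neg_mul_eq_neg_mul] at hmem
  rw [Finset.prod_mul_distrib, Finset.prod_const,
    Finset.card_erase_of_mem (Finset.mem_range.mpr (Fact.out : q.Prime).pos), Finset.card_range]
    at hmem
  set c := ∏ i ∈ (Finset.range q).erase 0, -(i : k)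
  have hc : c ≠ 0 := Finset.prod_ne_zero_iff.mpr fun i hi => neg_ne_zero.mpr fun h => by
    rw [Finset.mem_erase, Finset.mem_range] at hi
    exact hi.1 (Nat.eq_zero_of_dvd_of_lt ((CharP.cast_eq_zero_iff k q i).mp h) hi.2)
  have hcast : ∏ i ∈ (Finset.range q).erase 0, -(i : LaurentSeries k) =
      algebraMap k (LaurentSeries k) c := by
    simp [c, map_prod]
  rw [hcast] at hmem
  have h2 := mul_mem ((modularFunctionFieldFullC k L).algebraMap_mem c⁻¹) hmem
  rwa [← mul_assoc, ← map_mul, inv_mul_cancel₀ hc, map_one, one_mul] at h2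

variable (A L) in
/-- `ℚ̄` with all `j(q^d)`, `d ∣ L q²`, and `j(z q^e)`, `z ^ q = 1`, `e ∣ L`, inside the big
field. -/
def midField' (q : ℕ) : IntermediateField Qb (bigField Qb) :=
  jField' {d | d ∣ L * q ^ 2} ⊔ IntermediateField.adjoin Qb
    {x | ∃ (z : Aˣ) (e : ℕ) (_ : NeZero e), z ^ q = 1 ∧ e ∣ L ∧
      (x : LaurentSeries Qb) = coeffMap A.subtype (jAt z e)}

/-- Its residues lie in `C(θ j̄)`. -/
theorem resIn_midField (hqL : ¬ q ∣ L) : ResIn hπ (igusaField k L) (midField' A L q) := by
  haveI : NeZero q := ⟨(Fact.out : q.Prime).ne_zero⟩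
  obtain ⟨ζ, hζ⟩ := exists_unit_root (A := A) (q := q)
  have hq2 : q * q ∣ L * q ^ 2 := by rw [← sq]; exact dvd_mul_left _ L
  have hbase := (resIn_jField' (L := L) hπ).mono_right (fullC_le_igusaField k L)
  set F₂ := jField' {d | d ∣ L * q ^ 2}
  -- the translates of `j`
  have hz := hbase.union (Finset.range q) (zB hπ hζ)
    (fun i _ => by
      rw [bigRed_zB]
      exact mul_mem (natCast_mem _ i) (theta_jqModC_mem_igusaField k L))
    (fun i hi => ⟨zPoly hπ hζ, monic_prod_of_monic _ _ fun _ _ => monic_X_sub_C _,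
      coeff_zPoly_mem hπ hζ (one_dvd _) ((dvd_pow_self q two_ne_zero).trans (dvd_mul_left _ L))
        hq2,
      by rw [zPoly, eval_prod]; exact Finset.prod_eq_zero hi (by simp),
      eval_derivative_ne_zero_of_separable
        (by rw [zPoly, eval_prod]; exact Finset.prod_eq_zero hi (by simp)) (by
          rw [map_zPoly]
          refine Polynomial.separable_prod_X_sub_C_iff'.mpr fun a ha b hb h => ?_
          have h' := mul_right_cancel₀ (theta_jqModC_ne_zero k) h
          rw [← map_natCast (algebraMap k (LaurentSeries k)),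
            ← map_natCast (algebraMap k (LaurentSeries k))] at h'
          exact CharP.natCast_injOn_Iio k q (Finset.mem_range.mp ha) (Finset.mem_range.mp hb)
            ((algebraMap k (LaurentSeries k)).injective h'))⟩)
  suffices h : ∀ m, ResIn hπ (igusaField k L) (F₂ ⊔ IntermediateField.adjoin Qb
      {x | ∃ (z : Aˣ) (e : ℕ) (_ : NeZero e), z ^ q = 1 ∧ e ∣ L ∧ (e = 1 ∨ e < m) ∧
        (x : LaurentSeries Qb) = coeffMap A.subtype (jAt z e)}) by
    refine (h (L + 1)).mono (sup_le_sup_left (IntermediateField.adjoin.mono Qb _ _ ?_) _)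
    rintro x ⟨z, e, he0, hz, he, hx⟩
    exact ⟨z, e, he0, hz, he, Or.inr (Nat.lt_succ_of_le (Nat.le_of_dvd (NeZero.pos L) he)), hx⟩
  intro m
  induction m with
  | zero =>
    refine hz.mono (sup_le le_sup_left ?_)
    rw [IntermediateField.adjoin_le_iff]
    rintro x ⟨z, e, he0, hzq, -, (rfl | he), hx⟩
    · obtain ⟨i, hi, rfl⟩ := exists_pow_eq hζ hzq
      have hd : x = (jB hπ 1 : bigField Qb) +
          algebraMap Qb (bigField Qb) (((ζ : A) : Qb) - 1) * (zB hπ hζ i : bigField Qb) := by
        apply Subtype.ext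
        rw [hx, IntermediateField.coe_add, IntermediateField.coe_mul, coe_jB, zB, coe_toBig]
        have h := congrArg (coeffMap A.subtype) (C_sub_one_mul_zSer ζ q hζ.pow_eq_one i)
        rw [map_mul, coeffMap_subtype_C, map_sub, coeffMap_jAt (c := (1 : Aˣ)), map_one] at h
        rw [show (algebraMap Qb (bigField Qb) (((ζ : A) : Qb) - 1) : LaurentSeries Qb) =
          algebraMap Qb (LaurentSeries Qb) (((ζ : A) : Qb) - 1) from rfl,
          show ((ζ : A) : Qb) - 1 = (((ζ : A) - 1 : A) : Qb) by push_cast; rfl, h, jAt_one]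
        ring
      rw [hd]
      exact add_mem (le_sup_left (b := IntermediateField.adjoin Qb _) (jB_mem hπ (one_dvd _)))
        (mul_mem (IntermediateField.algebraMap_mem _ _)
          (le_sup_right (a := F₂) (IntermediateField.subset_adjoin Qb _
            ⟨i, Finset.mem_coe.mpr (Finset.mem_range.mpr hi), rfl⟩)))
    · omega
  | succ m ih =>
    by_cases hm : m ∣ L ∧ m ≠ 1
    · obtain ⟨hmd, hm1⟩ := hm
      obtain ⟨p, hp, hpm⟩ := Nat.exists_prime_and_dvd hm1
      obtain ⟨e, rfl⟩ : ∃ e, m = e * p := ⟨m / p, (Nat.div_mul_cancel hpm).symm⟩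
      have hne : e * p ≠ 0 := ne_zero_of_dvd_ne_zero (NeZero.ne L) hmd
      haveI : NeZero e := ⟨left_ne_zero_of_mul hne⟩
      haveI : NeZero p := ⟨hp.ne_zero⟩
      have hcop : p.Coprime q := (Nat.coprime_primes hp Fact.out).mpr fun h => hqL
        (h ▸ (dvd_mul_left p e).trans hmd)
      obtain ⟨p', hp'⟩ : ∃ p', p * p' % q = 1 := Nat.exists_mul_mod_eq_one_of_coprime hcop
        (Fact.out : q.Prime).one_lt |>.imp fun _ h => h.2
      have key : ∀ s : Finset Aˣ, (∀ z ∈ s, z ^ q = 1) → ResIn hπ (igusaField k L)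
          ((F₂ ⊔ IntermediateField.adjoin Qb
            {x | ∃ (z : Aˣ) (e' : ℕ) (_ : NeZero e'), z ^ q = 1 ∧ e' ∣ L ∧ (e' = 1 ∨ e' < e * p) ∧
              (x : LaurentSeries Qb) = coeffMap A.subtype (jAt z e')}) ⊔
            IntermediateField.adjoin Qb
              {x | ∃ z ∈ s, (x : LaurentSeries Qb) = coeffMap A.subtype (jAt z (e * p))}) := by
        classical
        intro s hs
        induction s using Finset.induction with
        | empty => simpa using ih
        | insert a s _ ihs =>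
          have ha : a ^ q = 1 := hs a (Finset.mem_insert_self a s)
          set w : Aˣ := a ^ p' with hw
          have hwq : w ^ q = 1 := by rw [hw, ← pow_mul, mul_comm, pow_mul, ha, one_pow]
          have hwp : w ^ p = a := by
            rw [hw, ← pow_mul, ← Nat.mod_add_div (p' * p) q, pow_add, pow_mul, ha, one_pow, mul_one,
              mul_comm p', hp', pow_one]
          have hy : jAt (w ^ p) (e * p) ∈ zInt A := by rw [hwp]; exact jAt_mem_zInt ha _
          refine (resIn_step_modPoly hπ (ihs fun z hz => hs z (Finset.mem_insert_of_mem hz)) hwq hp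
            ?_ (fullC_le_igusaField k L (jqModCd_mem_full k L hmd)) hy).mono
              (sup_le (le_sup_left.trans le_sup_left) ?_)
          · exact le_sup_left (b := IntermediateField.adjoin Qb _) (le_sup_right (a := F₂)
              (IntermediateField.subset_adjoin Qb _ ⟨w, e, ‹_›, hwq, (dvd_mul_right e p).trans hmd,
                Or.inr ((lt_mul_iff_one_lt_right (NeZero.pos e)).mpr hp.one_lt),
                coe_toBig hπ _⟩))
          · rw [IntermediateField.adjoin_le_iff]
            rintro x ⟨z, hz, hx⟩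
            rcases Finset.mem_insert.mp hz with rfl | hz
            · refine SetLike.le_def.mp le_sup_right (IntermediateField.subset_adjoin Qb _ ?_)
              show x = _
              apply Subtype.ext
              rw [hx, coe_toBig]
              show _ = coeffMap A.subtype (jAt (w ^ p) (e * p))
              rw [hwp]
            · exact le_sup_left (b := IntermediateField.adjoin Qb _)
                (SetLike.le_def.mp le_sup_right (IntermediateField.subset_adjoin Qb _ ⟨z, hz, hx⟩))
      classical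
      refine (key ((Finset.range q).image fun i => ζ ^ i) fun z hz => by
        obtain ⟨i, -, rfl⟩ := Finset.mem_image.mp hz
        rw [← pow_mul, mul_comm, pow_mul, hζ.pow_eq_one, one_pow]).mono
          (sup_le (le_sup_left.trans le_sup_left) ?_)
      rw [IntermediateField.adjoin_le_iff]
      rintro x ⟨z, e', he0, hz, he, he', hx⟩
      rcases eq_or_ne e' (e * p) with rfl | hne'
      · refine SetLike.le_def.mp le_sup_right (IntermediateField.subset_adjoin Qb _ ⟨z, ?_, hx⟩)
        obtain ⟨i, hi, rfl⟩ := exists_pow_eq hζ hz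
        exact Finset.mem_image.mpr ⟨i, Finset.mem_range.mpr hi, rfl⟩
      · refine le_sup_left (b := IntermediateField.adjoin Qb _) (le_sup_right (a := F₂)
          (IntermediateField.subset_adjoin Qb _ ⟨z, e', he0, hz, he, ?_, hx⟩))
        omega
    · refine ih.mono (sup_le_sup_left (IntermediateField.adjoin.mono Qb _ _ ?_) _)
      rintro x ⟨z, e, he0, hz, he, he', hx⟩
      refine ⟨z, e, he0, hz, he, ?_, hx⟩
      rcases eq_or_ne e m with rfl | hem
      · exact Or.inl (of_not_not fun h => hm ⟨he, h⟩)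
      · omega

end FLTA.RT.Diamond

end
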