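import Fermat.Agent.GaloisReps.TateConstructTorsion
import Fermat.Agent.RT.Diamond.Classes

/-!
# Hecke operators on the raw Kummer points

`T_l`, `l ∤ N`, commutes with Fricke conjugation, so `T_l (rawPoint φ) = rawPoint (T_l φ)`.
-/

set_option autoImplicit false
set_option synthInstance.maxHeartbeats 400000

noncomputable section

open AlgebraicCurve ModularCurve CongruenceSubgroup OnePoint
open FLTA.Gamma0 (homPar0 homPar0Map)

namespace FLTA.RT.Diamond

open FLTA.Kummer FLTA.Periods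

variable {N : ℕ} [NeZero N]

/-- Fricke conjugation commutes with `T_l`, `l ∤ N`. -/
theorem heckeHom_frickePull {l : ℕ} (hl : l.Prime) (hlN : ¬ l ∣ N) {A : Type} [AddCommGroup A]
    (φ : Additive (Gamma0 N) →+ A) :
    heckeHom ℤ N l (frickePull N A φ) = frickePull N A (heckeHom ℤ N l φ) := by
  haveI := Fact.mk hl
  haveI : NeZero l := ⟨hl.ne_zero⟩
  let R := normRepsT (N := N) hlN
  let R₀ := repsT (N := N) hlN
  have hrep : ∀ x, R.reps.rep x = gamma0GL N (R.left x * R₀.cocyc (R.gam x) ∞) *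
      R₀.rep (R₀.perm (R.gam x) ∞) := fun x => by
    rw [map_mul, mul_assoc, ← R₀.rep_mul, R.rep_eq, mul_assoc]
    rfl
  have hinj : Function.Injective fun x => R₀.perm (R.gam x) ∞ := fun x y hxy => by
    refine R.reps.unique x y
      (R.left y * R₀.cocyc (R.gam y) ∞ * (R.left x * R₀.cocyc (R.gam x) ∞)⁻¹) ?_
    rw [map_mul, map_inv, hrep x, hrep y, ← show R₀.perm (R.gam x) ∞ = R₀.perm (R.gam y) ∞ from hxy,
      mul_assoc, inv_mul_cancel_left]
  rw [R.transfer_eq A φ]
  refine congrArg _ ?_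
  rw [FLTA.Periods.heckeHom_of_not_dvd ℤ hl hlN]
  exact R₀.transferHom_congr R.reps
    (Equiv.ofBijective _ (Finite.injective_iff_bijective.mp hinj)) _ hrep φ

variable {n : ℕ} [NeZero n]

theorem kummerEquiv_rawPoint (φ : homPar0 ℤ (Gamma0 N) (ZMod n)) :
    (kummerEquiv N n (rawPoint N n φ)).1 = frickePull N (ZMod n) φ.1 := by
  show frickePull N (ZMod n) (kummerRaw N n ((kummerRaw N n).symm φ)).1 = _
  rw [AddEquiv.apply_symm_apply]

/-- `T_l (rawPoint φ) = rawPoint ψ` when `T_l φ = ψ`. -/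
theorem heckeOperatorBar_rawPoint {l : ℕ} (hl : l.Prime) (hlN : ¬ l ∣ N)
    (φ ψ : homPar0 ℤ (Gamma0 N) (ZMod n)) (h : heckeHom ℤ N l φ.1 = ψ.1) :
    heckeOperatorBar N ⟨l, hl⟩ (rawPoint N n φ : JZero N) = (rawPoint N n ψ : JZero N) := by
  let y : JTors N n := ⟨_, GaloisReps.hecke_mem_torsion N n ⟨l, hl⟩ (rawPoint N n φ)⟩
  have hy := kummerEquiv_heckeOperatorBar N n ⟨l, hl⟩ (rawPoint N n φ) y rfl
  rw [kummerEquiv_rawPoint, heckeHom_frickePull hl hlN, h, ← kummerEquiv_rawPoint] at hy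
  exact congrArg Subtype.val ((kummerEquiv N n).injective (Subtype.ext hy))

end FLTA.RT.Diamond
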