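import Mathlib

/-!
# Residue fields of simple extensions with a simple residual root

If `y` is a root of a monic polynomial over the valuation ring of `F` whose derivative at `y` is a
unit of a valuation ring `V` above it, then the residue of every element of `F(y) ∩ V` lies in the
field generated by the residues of `F ∩ V` and the residue of `y`.
-/

set_option autoImplicit false

noncomputable section

namespace FLTA.RT.Diamond

open Polynomial

section Horner

variable {O E : Type*} [CommRing O] [Field E] [Algebra O E]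

/-- The tail `∑_{i ≥ j} a_i u^(i-j)` of a polynomial relation. -/
def hornerTail (a : ℕ → O) (m : ℕ) (u : E) (j : ℕ) : E :=
  ∑ i ∈ Finset.range (m + 1 - j), algebraMap O E (a (j + i)) * u ^ i

theorem hornerTail_succ (a : ℕ → O) (m : ℕ) (u : E) {j : ℕ} (hj : j ≤ m) :
    hornerTail a m u j = algebraMap O E (a j) + u * hornerTail a m u (j + 1) := by
  unfold hornerTail
  rw [show m + 1 - j = (m + 1 - (j + 1)) + 1 by omega, Finset.sum_range_succ', add_comm]
  congr 1
  · simp
  · rw [Finset.mul_sum]
    refine Finset.sum_congr rfl fun i _ => ?_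
    rw [show j + (i + 1) = j + 1 + i by omega, pow_succ]
    ring

theorem sum_range_add_hornerTail (a : ℕ → O) (m : ℕ) (u : E) {j : ℕ} (hj : j ≤ m + 1) :
    ∑ i ∈ Finset.range j, algebraMap O E (a i) * u ^ i + u ^ j * hornerTail a m u j =
      ∑ i ∈ Finset.range (m + 1), algebraMap O E (a i) * u ^ i := by
  conv_rhs => rw [show m + 1 = j + (m + 1 - j) by omega, Finset.sum_range_add]
  congr 1
  rw [hornerTail, Finset.mul_sum]
  refine Finset.sum_congr rfl fun i _ => ?_
  rw [pow_add]
  ring

/-- A root of a relation times each tail, and each tail itself, are integral. -/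
theorem isIntegral_hornerTail (a : ℕ → O) (m : ℕ) (u : E)
    (h : ∑ i ∈ Finset.range (m + 1), algebraMap O E (a i) * u ^ i = 0) :
    ∀ d, IsIntegral O (hornerTail a m u (m + 1 - d)) ∧
      IsIntegral O (u * hornerTail a m u (m + 1 - d)) := by
  intro d
  induction d with
  | zero =>
    simp [hornerTail, isIntegral_zero]
  | succ d ih =>
    by_cases hd : m + 1 ≤ d
    · rwa [show m + 1 - (d + 1) = m + 1 - d by omega]
    set j := m + 1 - (d + 1) with hj
    have hjs : m + 1 - d = j + 1 := by omega
    rw [hjs] at ih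
    have hc : IsIntegral O (hornerTail a m u j) := by
      rw [hornerTail_succ a m u (by omega)]
      exact isIntegral_algebraMap.add ih.2
    refine ⟨hc, ?_⟩
    -- the relation with the tail as leading coefficient
    let B := integralClosure O E
    let c : B := ⟨_, hc⟩
    let P : B[X] := ∑ i ∈ Finset.range j, C (algebraMap O B (a i)) * X ^ i + C c * X ^ j
    have hP : P.eval₂ (algebraMap B E) u = 0 := by
      simp only [P, eval₂_add, eval₂_finsetSum, eval₂_mul, eval₂_C, eval₂_pow, eval₂_X,
        c]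
      rw [← h, ← sum_range_add_hornerTail a m u (j := j) (by omega)]
      congr 1
      rw [mul_comm]
      rfl
    have hdeg : (∑ i ∈ Finset.range j, C (algebraMap O B (a i)) * X ^ i).degree < (j : WithBot ℕ) := by
      refine (degree_sum_le _ _).trans_lt ((Finset.sup_lt_iff (WithBot.bot_lt_coe j)).mpr ?_)
      intro i hi
      exact (degree_C_mul_X_pow_le i _).trans_lt
        (WithBot.coe_lt_coe.mpr (Finset.mem_range.mp hi))
    by_cases hc0 : c = 0
    · have : hornerTail a m u j = 0 := congrArg Subtype.val hc0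
      rw [this, mul_zero]
      exact isIntegral_zero
    have hlead : P.leadingCoeff = c := by
      have hd' : (C c * X ^ j).degree = (j : WithBot ℕ) := degree_C_mul_X_pow j hc0
      rw [leadingCoeff_add_of_degree_lt (hd'.symm ▸ hdeg), leadingCoeff_C_mul_X_pow]
    have hint := RingHom.isIntegralElem_leadingCoeff_mul (algebraMap B E) P u hP
    rw [hlead, mul_comm] at hint
    exact isIntegral_trans (R := O) (A := B) _ hint

end Horner

section Field

variable {F E R : Type*} [Field F] [Field E] [Algebra F E] [Field R]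
  (V : ValuationSubring E) (red : V →+* R)

/-- The valuation ring below. -/
abbrev belowRing : ValuationSubring F := V.comap (algebraMap F E)

/-- The map to the valuation ring above. -/
def toAbove : belowRing (F := F) V →+* V :=
  ((algebraMap F E).comp (belowRing (F := F) V).subtype).codRestrict V.toSubring fun o => o.2

variable {V red}

theorem algebraMap_mem_of_mem_below (o : belowRing (F := F) V) : algebraMap F E (o : F) ∈ V := o.2

/-- A nonzero element of a finite family has a multiple scaling the family into the ring, with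
unit value. -/
theorem exists_scale_below {ι : Type*} (s : Finset ι) (a : ι → F) (h : ∃ i ∈ s, a i ≠ 0) :
    ∃ i₀ ∈ s, a i₀ ≠ 0 ∧ ∀ i ∈ s, (a i₀)⁻¹ * a i ∈ belowRing (F := F) V := by
  classical
  obtain ⟨i₁, hi₁, hne⟩ := h
  obtain ⟨i₀, hi₀, hmax⟩ := Finset.exists_max_image (s.filter fun i => a i ≠ 0)
    (fun i => (belowRing (F := F) V).valuation (a i)) ⟨i₁, Finset.mem_filter.mpr ⟨hi₁, hne⟩⟩
  rw [Finset.mem_filter] at hi₀
  refine ⟨i₀, hi₀.1, hi₀.2, fun i hi => ?_⟩
  by_cases hzero : a i = 0
  · rw [hzero, mul_zero]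
    exact zero_mem _
  rw [← ValuationSubring.valuation_le_one_iff, map_mul, map_inv₀, ← div_eq_inv_mul]
  exact div_le_one_of_le₀ (hmax i (Finset.mem_filter.mpr ⟨hi, hzero⟩)) zero_le

local notation "𝒪" => belowRing (F := F) V

theorem isIntegral_below_mem [Algebra (belowRing (F := F) V) E]
    [IsScalarTower (belowRing (F := F) V) F E] {b : E}
    (hb : IsIntegral (belowRing (F := F) V) b) : b ∈ V := by
  obtain ⟨P, hP, hPb⟩ := hb
  have hint : IsIntegral V b := by
    refine ⟨P.map (toAbove V), hP.map _, ?_⟩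
    rw [eval₂_map]
    convert hPb using 2
    exact RingHom.ext fun o => (IsScalarTower.algebraMap_apply _ F E o).symm
  obtain ⟨v, hv⟩ := IsIntegrallyClosed.isIntegral_iff.mp hint
  exact hv ▸ v.2

/-- The conductor lemma: the derivative moves integral elements into `𝒪[y]`. -/
theorem derivative_mul_mem_adjoin [Algebra (belowRing (F := F) V) E]
    [IsScalarTower (belowRing (F := F) V) F E] {y : E} {Q : (belowRing (F := F) V)[X]}
    (hQ : Q.Monic) (hy : aeval y Q = 0) (hQ' : aeval y (derivative Q) ≠ 0) {b : E}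
    (hbF : b ∈ IntermediateField.adjoin F {y}) (hb : IsIntegral (belowRing (F := F) V) b) :
    aeval y (derivative Q) * b ∈ Algebra.adjoin (belowRing (F := F) V) {y} := by
  have hyO : IsIntegral 𝒪 y := ⟨Q, hQ, hy⟩
  have hinj : Function.Injective (algebraMap 𝒪 E) := by
    rw [IsScalarTower.algebraMap_eq 𝒪 F E]
    exact (algebraMap F E).injective.comp (IsFractionRing.injective 𝒪 F)
  have : Module.IsTorsionFree 𝒪 E := Module.isTorsionFree_iff_algebraMap_injective.mpr hinj
  have hyF : IsIntegral F y := hyO.tower_top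
  obtain ⟨T, hT⟩ : minpoly 𝒪 y ∣ Q := minpoly.isIntegrallyClosed_dvd hyO hy
  have hfac : aeval y (derivative Q) =
      aeval y (derivative (minpoly 𝒪 y)) * aeval y T := by
    conv_lhs => rw [hT, derivative_mul, map_add, map_mul, map_mul, minpoly.aeval, zero_mul,
      add_zero]
  have hm' : aeval y (derivative (minpoly 𝒪 y)) ≠ 0 := fun h => hQ' (by rw [hfac, h, zero_mul])
  have hmF : minpoly F y = (minpoly 𝒪 y).map (algebraMap 𝒪 F) :=
    minpoly.isIntegrallyClosed_eq_field_fractions' F hyO
  have hsep : IsSeparable F y := by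
    refine (separable_iff_derivative_ne_zero (minpoly.irreducible hyF)).mpr fun h => hm' ?_
    rw [hmF, derivative_map] at h
    rw [← aeval_map_algebraMap F, h, map_zero]
  set K₁ := IntermediateField.adjoin F ({y} : Set E)
  have : FiniteDimensional F K₁ := IntermediateField.adjoin.finiteDimensional hyF
  have : Algebra.IsSeparable F K₁ :=
    (IntermediateField.isSeparable_adjoin_simple_iff_isSeparable F E).mpr hsep
  let g : K₁ := IntermediateField.AdjoinSimple.gen F y
  let bK : K₁ := ⟨b, hbF⟩
  have htop : Algebra.adjoin F {g} = (⊤ : Subalgebra F K₁) := by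
    have h := (IntermediateField.adjoin.powerBasis hyF).adjoin_gen_eq_top
    rwa [IntermediateField.adjoin.powerBasis_gen] at h
  let toE : K₁ →ₐ[𝒪] E := (IntermediateField.val K₁).restrictScalars 𝒪
  have hgO : IsIntegral 𝒪 g :=
    (isIntegral_algHom_iff toE (Subtype.val_injective)).mp hyO
  have hbO : IsIntegral 𝒪 bK :=
    (isIntegral_algHom_iff toE (Subtype.val_injective)).mp hb
  have hdual : bK ∈ (Algebra.traceForm F K₁).dualSubmodule
      (Subalgebra.toSubmodule (Algebra.adjoin 𝒪 {g})) := by
    rw [LinearMap.BilinForm.mem_dualSubmodule]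
    intro x hx
    rw [Submodule.mem_one, Algebra.traceForm_apply]
    refine IsIntegrallyClosed.isIntegral_iff.mp (Algebra.isIntegral_trace (hbO.mul ?_))
    exact IsIntegral.of_mem_of_fg _ hgO.fg_adjoin_singleton x hx
  rw [traceForm_dualSubmodule_adjoin 𝒪 F htop hgO] at hdual
  set d := aeval g (derivative (minpoly F g)) with hd
  obtain ⟨a, ha, hab⟩ := hdual
  have hd0 : d ≠ 0 := (Algebra.IsSeparable.isSeparable F g).aeval_derivative_ne_zero
    (minpoly.aeval _ _)
  have hdb : d * bK = a := by
    rw [← hab]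
    show d * (d⁻¹ • a) = a
    rw [smul_eq_mul, ← mul_assoc, mul_inv_cancel₀ hd0, one_mul]
  have hdy : (d : E) = aeval y (derivative (minpoly 𝒪 y)) := by
    have hmg : minpoly F g = minpoly F y :=
      (minpoly.algHom_eq (IntermediateField.val K₁) Subtype.val_injective g).symm
    show (IntermediateField.val K₁) d = _
    rw [hd, ← aeval_algHom_apply, hmg, hmF, derivative_map, aeval_map_algebraMap]
    rfl
  have hmem : (a : E) ∈ Algebra.adjoin 𝒪 {y} := by
    have : toE a ∈ (Algebra.adjoin 𝒪 {g}).map toE := ⟨a, ha, rfl⟩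
    rwa [AlgHom.map_adjoin_singleton] at this
  rw [hfac, mul_comm (aeval y _) (aeval y T), mul_assoc]
  refine mul_mem (aeval_mem_adjoin_singleton 𝒪 y) ?_
  rw [← hdy]
  rw [← show ((d : E) * b) = (a : E) from congrArg Subtype.val hdb] at hmem
  exact hmem

/-- Elements integral at the place are quotients of integral elements, the denominator a unit. -/
theorem exists_integral_quotient [Algebra (belowRing (F := F) V) E]
    [IsScalarTower (belowRing (F := F) V) F E] {L : IntermediateField F E}
    [FiniteDimensional F L] {u : E} (hu : u ∈ L) (huV : u ∈ V) :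
    ∃ b s : E, b ∈ L ∧ s ∈ L ∧ IsIntegral (belowRing (F := F) V) b ∧
      IsIntegral (belowRing (F := F) V) s ∧ (∀ hs : s ∈ V, red ⟨s, hs⟩ ≠ 0) ∧ u * s = b := by
  classical
  obtain ⟨P, hP0, hPu⟩ : ∃ P : F[X], P ≠ 0 ∧ aeval u P = 0 := by
    refine ⟨minpoly F (⟨u, hu⟩ : L), minpoly.ne_zero (IsIntegral.of_finite F _), ?_⟩
    have h := congrArg (IntermediateField.val L) (minpoly.aeval F (⟨u, hu⟩ : L))
    rwa [← aeval_algHom_apply, map_zero] at h
  set m := P.natDegree
  obtain ⟨i₀, hi₀, hne, hmem⟩ := exists_scale_below (V := V) (Finset.range (m + 1)) P.coeff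
    ⟨m, by simp, leadingCoeff_ne_zero.mpr hP0⟩
  let a : ℕ → 𝒪 := fun i => if h : i ∈ Finset.range (m + 1) then ⟨_, hmem i h⟩ else 0
  have ha : ∀ i ∈ Finset.range (m + 1), algebraMap 𝒪 E (a i) =
      algebraMap F E ((P.coeff i₀)⁻¹ * P.coeff i) := fun i hi => by
    rw [IsScalarTower.algebraMap_apply 𝒪 F E, show a i = ⟨_, hmem i hi⟩ from dif_pos hi]
    rfl
  have hrel : ∑ i ∈ Finset.range (m + 1), algebraMap 𝒪 E (a i) * u ^ i = 0 := by
    rw [Finset.sum_congr rfl fun i hi => show algebraMap 𝒪 E (a i) * u ^ i =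
      algebraMap F E (P.coeff i₀)⁻¹ * (algebraMap F E (P.coeff i) * u ^ i) by
        rw [ha i hi, map_mul]; ring, ← Finset.mul_sum]
    have : ∑ i ∈ Finset.range (m + 1), algebraMap F E (P.coeff i) * u ^ i = aeval u P := by
      rw [aeval_eq_sum_range]
      simp [Algebra.smul_def, m]
    rw [this, hPu, mul_zero]
  let aV : ℕ → V := fun i => toAbove V (a i)
  have haV : ∀ i, ((aV i : V) : E) = algebraMap 𝒪 E (a i) := fun i =>
    (IsScalarTower.algebraMap_apply 𝒪 F E (a i)).symm
  have hred₀ : red (aV i₀) ≠ 0 := by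
    have h1 : a i₀ = 1 := by
      rw [show a i₀ = ⟨_, hmem i₀ hi₀⟩ from dif_pos hi₀]
      exact Subtype.ext (inv_mul_cancel₀ hne)
    simp [aV, h1]
  obtain ⟨j, hj, hjmax⟩ := Finset.exists_max_image
    ((Finset.range (m + 1)).filter fun i => red (aV i) ≠ 0) id
    ⟨i₀, Finset.mem_filter.mpr ⟨hi₀, hred₀⟩⟩
  rw [Finset.mem_filter, Finset.mem_range] at hj
  obtain ⟨hs, hus⟩ := by
    have h := isIntegral_hornerTail a m u hrel (m + 1 - j)
    rwa [show m + 1 - (m + 1 - j) = j by omega] at h
  have hinL : hornerTail a m u j ∈ L := by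
    refine sum_mem fun i _ => mul_mem ?_ (pow_mem hu i)
    rw [IsScalarTower.algebraMap_apply 𝒪 F E]
    exact L.algebraMap_mem _
  refine ⟨u * hornerTail a m u j, hornerTail a m u j, mul_mem hu hinL, hinL, hus, hs,
    fun hsV => ?_, rfl⟩
  have hsum : (⟨hornerTail a m u j, hsV⟩ : V) =
      ∑ i ∈ Finset.range (m + 1 - j), aV (j + i) * (⟨u, huV⟩ : V) ^ i := by
    apply Subtype.ext
    rw [AddSubmonoidClass.coe_finsetSum]
    show hornerTail a m u j = _
    unfold hornerTail
    refine Finset.sum_congr rfl fun i _ => ?_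
    push_cast
    rw [haV]
  rw [hsum, map_sum, Finset.sum_eq_single 0]
  · simpa using hj.2
  · intro i hi hi0
    have : red (aV (j + i)) = 0 := by
      by_contra h
      have hle := hjmax (j + i) (Finset.mem_filter.mpr
        ⟨Finset.mem_range.mpr (by rw [Finset.mem_range] at hi; omega), h⟩)
      simp only [id] at hle
      omega
    rw [map_mul, this, zero_mul]
  · intro h
    exact absurd (Finset.mem_range.mpr (show 0 < m + 1 - j by omega)) h

/-- The residue of an element of `F(y) ∩ V` lies in the field generated by the residues of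
`F ∩ V` and of `y`, when the derivative at `y` is a unit. -/
theorem red_mem_of_simple_root {C : Subfield R}
    (hC : ∀ o : belowRing (F := F) V, red (toAbove V o) ∈ C) {y : E} (hyV : y ∈ V)
    {Q : (belowRing (F := F) V)[X]} (hQ : Q.Monic)
    (hy : Q.eval₂ ((algebraMap F E).comp (belowRing (F := F) V).subtype) y = 0)
    (hQ' : red ((derivative Q).eval₂ (toAbove V) ⟨y, hyV⟩) ≠ 0) {u : E}
    (hu : u ∈ IntermediateField.adjoin F {y}) (huV : u ∈ V) :
    red ⟨u, huV⟩ ∈ Subfield.closure ((C : Set R) ∪ {red ⟨y, hyV⟩}) := by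
  let : Algebra 𝒪 E := ((algebraMap F E).comp (𝒪).subtype).toAlgebra
  have : IsScalarTower 𝒪 F E := IsScalarTower.of_algebraMap_eq fun o => by
    rw [RingHom.algebraMap_toAlgebra]
    rfl
  set D := Subfield.closure ((C : Set R) ∪ {red ⟨y, hyV⟩})
  have hadj : ∀ x ∈ Algebra.adjoin 𝒪 {y}, ∀ hx : x ∈ V, red ⟨x, hx⟩ ∈ D := by
    intro x hx hxV
    rw [Algebra.adjoin_singleton_eq_range_aeval] at hx
    obtain ⟨P, rfl⟩ := hx
    have hPV : (⟨(aeval y) P, hxV⟩ : V) = P.eval₂ (toAbove V) ⟨y, hyV⟩ := by
      apply Subtype.ext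
      show _ = V.subtype _
      rw [hom_eval₂]
      rfl
    show red (⟨aeval y P, hxV⟩ : V) ∈ D
    rw [hPV, hom_eval₂, eval₂_eq_sum_range]
    refine sum_mem fun i _ => mul_mem (Subfield.subset_closure (Or.inl (hC _)))
      (pow_mem ?_ i)
    exact Subfield.subset_closure (s := (C : Set R) ∪ {red ⟨y, hyV⟩}) (Or.inr (Set.mem_singleton _))
  have hQ'e : aeval y (derivative Q) = (((derivative Q).eval₂ (toAbove V) ⟨y, hyV⟩ : V) : E) := by
    show _ = V.subtype _
    rw [hom_eval₂]
    rfl
  have hQ'0 : aeval y (derivative Q) ≠ 0 := fun h => hQ' (by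
    rw [hQ'e] at h
    rw [show (derivative Q).eval₂ (toAbove V) ⟨y, hyV⟩ = 0 from Subtype.ext h, map_zero])
  have hyF : IsIntegral F y := (show IsIntegral 𝒪 y from ⟨Q, hQ, hy⟩).tower_top
  have : FiniteDimensional F (IntermediateField.adjoin F ({y} : Set E)) :=
    IntermediateField.adjoin.finiteDimensional hyF
  obtain ⟨b, s, hbL, hsL, hb, hs, hs0, hus⟩ := exists_integral_quotient (red := red) hu huV
  have hsV := isIntegral_below_mem (V := V) hs
  have hbV := isIntegral_below_mem (V := V) hb
  set δ : V := (derivative Q).eval₂ (toAbove V) ⟨y, hyV⟩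
  have hkey : ∀ x, x ∈ IntermediateField.adjoin F ({y} : Set E) → IsIntegral 𝒪 x →
      ∀ hxV : x ∈ V, red δ * red ⟨x, hxV⟩ ∈ D := by
    intro x hxL hx hxV
    rw [← map_mul]
    refine hadj _ ?_ _
    show (δ : E) * x ∈ _
    rw [← hQ'e]
    exact derivative_mul_mem_adjoin hQ hy hQ'0 hxL hx
  have hprod : red ⟨u, huV⟩ * red ⟨s, hsV⟩ = red ⟨b, hbV⟩ := by
    rw [← map_mul]
    exact congrArg red (Subtype.ext hus)
  have hval : red ⟨u, huV⟩ = (red δ * red ⟨b, hbV⟩) / (red δ * red ⟨s, hsV⟩) := by
    rw [eq_div_iff (mul_ne_zero hQ' (hs0 hsV)), ← hprod]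
    ring
  rw [hval]
  exact div_mem (hkey b hbL hb hbV) (hkey s hsL hs hsV)

end Field

end FLTA.RT.Diamond

end
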