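import Fermat.Agent.RT.Diamond.IgusaField

/-!
# `θ j̄(q^d)` is a multiple of `θ j̄` by an element of the level-`L` field
-/

set_option autoImplicit false

noncomputable section

open ModularCurve Polynomial
open FLTA.Igusa

namespace FLTA.RT.Diamond

variable {k : Type} [Field k]

theorem theta_aeval_int (x : LaurentSeries k) (P : Polynomial ℤ) :
    theta (aeval x P) = aeval x (derivative P) * theta x := by
  have hev : ∀ Q : Polynomial ℤ, aeval x (Q.map (Int.castRingHom k)) = aeval x Q := fun Q =>
    RingHom.congr_fun (intPoly_hom_ext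
      (f := (aeval (R := k) x).toRingHom.comp (mapRingHom (Int.castRingHom k)))
      (g := (aeval (R := ℤ) x).toRingHom) (by simp)) Q
  have h := theta_aeval x (P.map (Int.castRingHom k))
  rwa [derivative_map, hev, hev] at h

theorem aeval_int_mem (E : Subfield (LaurentSeries k)) {x : LaurentSeries k} (hx : x ∈ E)
    (P : Polynomial ℤ) : aeval x P ∈ E := by
  induction P using Polynomial.induction_on' with
  | add P Q hP hQ => rw [map_add]; exact add_mem hP hQ
  | monomial n a =>
    rw [aeval_monomial, eq_intCast]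
    exact mul_mem (intCast_mem _ _) (pow_mem hx n)

/-- The chain rule along a polynomial in two variables. -/
theorem theta_eval₂_two (E : Subfield (LaurentSeries k)) {x y : LaurentSeries k} (hx : x ∈ E)
    (hy : y ∈ E) (P : Polynomial (Polynomial ℤ)) : ∃ c ∈ E,
      theta (P.eval₂ (aeval (R := ℤ) x).toRingHom y) =
        (derivative P).eval₂ (aeval (R := ℤ) x).toRingHom y * theta y + c * theta x := by
  induction P using Polynomial.induction_on' with
  | add P Q hP hQ =>
    obtain ⟨c, hc, hP⟩ := hP
    obtain ⟨d, hd, hQ⟩ := hQ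
    refine ⟨c + d, add_mem hc hd, ?_⟩
    rw [eval₂_add, map_add, hP, hQ, derivative_add, eval₂_add]
    ring
  | monomial n a =>
    have hpow : theta (y ^ n) = (n : LaurentSeries k) * y ^ (n - 1) * theta y := by
      have h := theta_aeval_int y (X ^ n)
      rw [map_pow, aeval_X, derivative_X_pow] at h
      simpa using h
    refine ⟨aeval x (derivative a) * y ^ n, mul_mem ?_ (pow_mem hy n), ?_⟩
    · exact aeval_int_mem E hx _
    · rw [eval₂_monomial, derivative_monomial, eval₂_monomial]
      simp only [AlgHom.toRingHom_eq_coe, RingHom.coe_coe]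
      rw [theta_mul, theta_aeval_int, hpow, map_mul, map_natCast]
      ring

variable [IsAlgClosed k] (L : ℕ)

/-- `θ j̄(q^d) = c θ j̄` with `c` at level `L`, `d ∣ L`. -/
theorem exists_theta_qExpand_eq (hL : (L : k) ≠ 0) (d : ℕ) [NeZero d] (hd : d ∣ L) :
    ∃ c ∈ modularFunctionFieldFullC k L,
      theta (qExpand k d (jqModC k)) = c * theta (jqModC k) := by
  suffices h : ∀ (m : ℕ) (_ : NeZero m), m ∣ L → ∃ c ∈ modularFunctionFieldFullC k L,
      theta (qExpand k m (jqModC k)) = c * theta (jqModC k) from h d ‹_› hd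
  intro m
  induction m using Nat.strong_induction_on with
  | _ m ih =>
    intro hm hmL
    rcases eq_or_ne m 1 with rfl | hm1
    · exact ⟨1, one_mem _, by rw [qExpand_one_apply, one_mul]⟩
    obtain ⟨p, hp, hpm⟩ := Nat.exists_prime_and_dvd hm1
    obtain ⟨e, rfl⟩ : ∃ e, m = e * p := ⟨m / p, (Nat.div_mul_cancel hpm).symm⟩
    have : NeZero e := ⟨left_ne_zero_of_mul hm.out⟩
    have : NeZero p := ⟨hp.ne_zero⟩
    have heL : e ∣ L := (dvd_mul_right e p).trans hmL
    have hpk : (p : k) ≠ 0 := natCast_ne_zero_of_dvd hL (hpm.trans hmL)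
    obtain ⟨ce, hce, he⟩ := ih e ((lt_mul_iff_one_lt_right (NeZero.pos e)).mpr hp.one_lt) ‹_› heL
    set x := qExpand k e (jqModC k)
    set y := qExpand k (e * p) (jqModC k)
    have hroot : (modPoly p hp).eval₂ (aeval (R := ℤ) x).toRingHom y = 0 :=
      modPoly_eval_qExpand k p hp e
    have hx : x ∈ modularFunctionFieldFullC k L := jqModCd_mem_full k L heL
    have hy : y ∈ modularFunctionFieldFullC k L := jqModCd_mem_full k L hmL
    have hD : (derivative (modPoly p hp)).eval₂ (aeval (R := ℤ) x).toRingHom y ≠ 0 := by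
      have h := (separable_modPoly_qExpand p hp hpk e).eval₂_derivative_ne_zero (RingHom.id _)
        (x := y) (by rw [eval₂_id, eval_map]; exact hroot)
      rwa [eval₂_id, derivative_map, eval_map] at h
    obtain ⟨c, hc, hθ⟩ := theta_eval₂_two (modularFunctionFieldFullC k L).toSubfield hx hy
      (modPoly p hp)
    rw [hroot, map_zero, he] at hθ
    refine ⟨-(c * ce) / (derivative (modPoly p hp)).eval₂ (aeval (R := ℤ) x).toRingHom y,
      div_mem (neg_mem (mul_mem hc hce)) ?_, ?_⟩
    · rw [eval₂_eq_sum_range]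
      refine sum_mem fun i _ => mul_mem ?_ (pow_mem hy i)
      exact aeval_int_mem (modularFunctionFieldFullC k L).toSubfield hx _
    · rw [div_mul_eq_mul_div, eq_div_iff hD]
      linear_combination hθ.symm

end FLTA.RT.Diamond

end
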