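import Fermat.Agent.RT.Diamond.Embed
import Fermat.Agent.RT.Diamond.MidTheta
import Fermat.Agent.RT.Diamond.ThetaChain

/-!
# Reductions up to scalars as reductions in the Gauss valuation ring
-/

set_option autoImplicit false
set_option synthInstance.maxHeartbeats 400000

noncomputable section

open ModularCurve

namespace FLTA.RT.Diamond

open FLTA.BadRed FLTA.PlaceRed FLTA.Igusa

local notation "Qb" => AlgebraicClosure ℚ

variable {A : ValuationSubring Qb}

local notation "k" => IsLocalRing.ResidueField A
local notation "π₀" => IsLocalRing.residue A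

/-- A chosen representation computing the reduction. -/
theorem exists_rep_gRed {x : LaurentSeries Qb} (h : GInt A x) :
    ∃ a b : LaurentSeries Qb, IntSeries A a ∧ IntSeries A b ∧ redSeries A π₀ b ≠ 0 ∧ x * b = a ∧
      gRed A x = redSeries A π₀ a / redSeries A π₀ b :=
  ⟨_, _, h.choose_spec.choose_spec.1, h.choose_spec.choose_spec.2.1,
    h.choose_spec.choose_spec.2.2.1, h.choose_spec.choose_spec.2.2.2, dif_pos h⟩

/-- An element of the big field with a reduction up to scalars is a scalar multiple of an element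
of the valuation ring with that reduction. -/
theorem exists_bigRed_eq_of_isGRed (x : bigField Qb) {y : LaurentSeries k}
    (hy : IsGRed A (x : LaurentSeries Qb) y) :
    ∃ (c : Qb) (u : bigRing (A := A) (residue_surj (A := A))),
      (u : bigField Qb) = c • x ∧ bigRed (residue_surj (A := A)) u = y := by
  obtain ⟨c, -, hint, hred, hy0⟩ := hy
  obtain ⟨a, b, ha, hb, hb0, hab, he⟩ := exists_rep_gRed hint
  rw [he] at hred
  obtain ⟨a', ha'⟩ := exists_coeffMap_eq ha
  obtain ⟨b', hb'⟩ := exists_coeffMap_eq hb
  rw [← ha', ← hb', redSeries_coeffMap, redSeries_coeffMap] at hred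
  rw [← hb', redSeries_coeffMap] at hb0
  rw [← ha', ← hb'] at hab
  have hcx : ((c • x : bigField Qb) : LaurentSeries Qb) = c • (x : LaurentSeries Qb) := by
    rw [Algebra.smul_def, FLTA.BadRed.Series.smul_eq_algebraMap_mul]
    rfl
  set X : LaurentSeries Qb := c • (x : LaurentSeries Qb)
  have ha0 : coeffMap π₀ a' ≠ 0 := fun h => hy0 (by rw [← hred, h, zero_div])
  by_cases hmem : c • x ∈ bigRing (A := A) (residue_surj (A := A))
  · refine ⟨c, ⟨_, hmem⟩, rfl, ?_⟩
    obtain ⟨y₁, z₁, h⟩ := hmem
    rw [bigRed, gaussRedHom_eq (hasZFiniteFractions_big Qb) _ _ h, ← hred,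
      div_eq_div_iff h.den_ne hb0, ← map_mul, ← map_mul]
    congr 1
    apply coeffMap_subtype_injective A
    rw [map_mul, map_mul, ← hab, ← h.mul_eq, hcx]
    ring
  · exfalso
    obtain ⟨y₁, z₁, h⟩ := ((bigRing (A := A) (residue_surj (A := A))).mem_or_inv_mem
      (c • x)).resolve_left hmem
    by_cases hy1 : coeffMap π₀ y₁ = 0
    · have key : y₁ * a' = z₁ * b' := by
        apply coeffMap_subtype_injective A
        have hx0 : X ≠ 0 := fun h0 => ha0 (coeffMap_π_eq_zero
          (by rw [← hab, h0, zero_mul]))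
        rw [map_mul, map_mul, ← hab, ← h.mul_eq, IntermediateField.coe_inv, hcx]
        field_simp
      have := congrArg (coeffMap π₀) key
      rw [map_mul, map_mul, hy1, zero_mul] at this
      exact mul_ne_zero h.den_ne hb0 this.symm
    · -- the inverse is a unit, so the element itself is in the ring
      have hinv := h.inv hy1
      rw [inv_inv] at hinv
      exact hmem ⟨_, _, hinv⟩

/-- Reductions of elements of a subfield of the big field lie in a given field. -/
theorem mem_of_isGRed {K₀ : IntermediateField k (LaurentSeries k)}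
    {F : IntermediateField Qb (bigField Qb)}
    (h : ResIn (A := A) (residue_surj (A := A)) K₀ F) {x : bigField Qb} (hx : x ∈ F)
    {y : LaurentSeries k} (hy : IsGRed A (x : LaurentSeries Qb) y) : y ∈ K₀ := by
  obtain ⟨c, u, hu, rfl⟩ := exists_bigRed_eq_of_isGRed x hy
  refine h u ?_
  rw [hu]
  exact IntermediateField.smul_mem _ hx

theorem thetaJ_eq (L : ℕ) [NeZero L] : thetaJ A L = theta (qExpand k L (jqModC k)) := by
  ext i
  rfl

/-- `C(θ j̄)` lies in the residue field of the middle branches. -/
theorem igusaField_le_midRes {L q : ℕ} [NeZero L] (hq : q.Prime) (hA : A.LiesOverPrime q)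
    (hqL : ¬ q ∣ L) : igusaField k L ≤ midRes A L := by
  have := FLTA.Galois.charP_residueField hq hA
  have := FLTA.Galois.isAlgClosed_residueField A
  have hL : (L : k) ≠ 0 := fun h => hqL ((CharP.cast_eq_zero_iff k q L).mp h)
  refine sup_le (levelRes_le_midRes L) ?_
  rw [IntermediateField.adjoin_simple_le_iff]
  obtain ⟨c, hc, hθ⟩ := exists_theta_qExpand_eq L hL L dvd_rfl
  have hne : thetaJ A L ≠ 0 := fun h => by
    have h1 := congrArg (fun s => HahnSeries.coeff s (-(L : ℤ))) h
    simp only [thetaJ_eq, theta_coeff, HahnSeries.coeff_zero, ← jAt_one, coeff_jAt_neg] at h1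
    simp [hL] at h1
  rw [← thetaJ_eq] at hθ
  have hc0 : c ≠ 0 := fun h => hne (by rw [hθ, h, zero_mul])
  have : theta (jqModC k) = c⁻¹ * thetaJ A L := by rw [hθ, inv_mul_cancel_left₀ hc0]
  rw [this]
  exact mul_mem (inv_mem (levelRes_le_midRes L hc)) (thetaJ_mem_midRes L)

end FLTA.RT.Diamond

end
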