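import Mathlib.Algebra.Polynomial.Splits
import Mathlib.FieldTheory.Minpoly.Field
import Mathlib.RingTheory.RootsOfUnity.PrimitiveRoots
import Mathlib.FieldTheory.KummerExtension

/-!
# Radical elements of bounded degree

If `h ^ (p ^ m)` lies in a subfield containing the roots of unity and `h` is killed by a non-zero
polynomial of degree at most `D` over it, then `h ^ (p ^ D)` lies in the subfield.
-/

set_option autoImplicit false

open Polynomial

namespace FLTA.RT.Diamond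

variable {S : Type*} [Field S] (F : Subfield S)

theorem pow_natDegree_mem_of_dvd {n : ℕ} [NeZero n] {ξ : S} (hξ : IsPrimitiveRoot ξ n)
    (hξF : ξ ∈ F) {h : S} (h0 : h ≠ 0) (g : F[X]) (hg : g.Monic)
    (hdvd : g.map F.subtype ∣ X ^ n - C (h ^ n)) : h ^ g.natDegree ∈ F := by
  classical
  have hsp : (X ^ n - C (h ^ n) : S[X]) = ∏ i ∈ Finset.range n, (X - C (ξ ^ i * h)) :=
    X_pow_sub_C_eq_prod hξ (Nat.pos_of_ne_zero (NeZero.ne n)) rfl
  have hgs : (g.map F.subtype).Splits := by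
    refine Splits.of_dvd ?_ (X_pow_sub_C_ne_zero (Nat.pos_of_ne_zero (NeZero.ne n)) _) hdvd
    rw [hsp]
    exact Splits.prod fun i _ => Splits.X_sub_C _
  have hroot : ∀ r ∈ (g.map F.subtype).roots, ∃ z ∈ F, r = z * h := by
    intro r hr
    have h1 : (X ^ n - C (h ^ n) : S[X]).eval r = 0 :=
      eval_eq_zero_of_dvd_of_eval_eq_zero hdvd (isRoot_of_mem_roots hr)
    rw [hsp, eval_prod, Finset.prod_eq_zero_iff] at h1
    obtain ⟨i, -, hi⟩ := h1
    rw [eval_sub, eval_X, eval_C, sub_eq_zero] at hi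
    exact ⟨ξ ^ i, pow_mem hξF i, hi⟩
  have hprod : ∀ s : Multiset S, (∀ r ∈ s, ∃ z ∈ F, r = z * h) →
      ∃ z ∈ F, s.prod = z * h ^ Multiset.card s := by
    intro s
    induction s using Multiset.induction_on with
    | empty => exact fun _ => ⟨1, one_mem F, by simp⟩
    | cons r s ih =>
      intro hs
      obtain ⟨z, hz, hrz⟩ := hs r (Multiset.mem_cons_self r s)
      obtain ⟨w, hw, hsw⟩ := ih fun r hr => hs r (Multiset.mem_cons_of_mem hr)
      refine ⟨z * w, mul_mem hz hw, ?_⟩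
      rw [Multiset.prod_cons, hrz, hsw, Multiset.card_cons]
      ring
  obtain ⟨z, hz, hzp⟩ := hprod _ hroot
  have hcard : Multiset.card (g.map F.subtype).roots = g.natDegree := by
    rw [← hgs.natDegree_eq_card_roots, hg.natDegree_map]
  rw [hcard] at hzp
  have hc := hgs.coeff_zero_eq_prod_roots_of_monic (hg.map _)
  rw [hzp, coeff_map] at hc
  have hz0 : z ≠ 0 := by
    rintro rfl
    rw [zero_mul, Multiset.prod_eq_zero_iff] at hzp
    obtain ⟨i, hi, hi'⟩ := hroot 0 hzp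
    have h1 : (X ^ n - C (h ^ n) : S[X]).eval 0 = 0 :=
      eval_eq_zero_of_dvd_of_eval_eq_zero hdvd (isRoot_of_mem_roots hzp)
    simp [zero_pow (NeZero.ne n), h0] at h1
  have : h ^ g.natDegree =
      (z * (-1) ^ (g.map F.subtype).natDegree)⁻¹ * F.subtype (g.coeff 0) := by
    rw [hc]
    field_simp
  rw [this]
  exact mul_mem (inv_mem (mul_mem hz (pow_mem (neg_mem (one_mem F)) _))) (SetLike.coe_mem _)

/-- The degree bounds the radical exponent. -/
theorem pow_pow_mem_of_degree {p m D : ℕ} (hp : p.Prime) [NeZero (p ^ m)] {ξ : S}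
    (hξ : IsPrimitiveRoot ξ (p ^ m)) (hξF : ξ ∈ F) {h : S} (hn : h ^ p ^ m ∈ F) (P : F[X])
    (hP0 : P ≠ 0) (hPD : P.natDegree ≤ D) (hP : P.eval₂ F.subtype h = 0) : h ^ p ^ D ∈ F := by
  rcases eq_or_ne h 0 with rfl | h0
  · rw [zero_pow (pow_ne_zero _ hp.ne_zero)]
    exact zero_mem F
  have hint : IsIntegral F h := by
    refine ⟨X ^ (p ^ m) - C (⟨h ^ p ^ m, hn⟩ : F), monic_X_pow_sub_C _ (NeZero.ne _), ?_⟩
    simp [eval₂_sub]
    exact sub_self _
  set g := minpoly F h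
  have hd : g.natDegree ≤ D :=
    (natDegree_le_of_dvd (minpoly.dvd F h hP) hP0).trans hPD
  have hdvd : g.map F.subtype ∣ X ^ (p ^ m) - C (h ^ p ^ m) := by
    have h1 : g ∣ X ^ (p ^ m) - C (⟨h ^ p ^ m, hn⟩ : F) :=
      minpoly.dvd F h (by simp [aeval_def, eval₂_sub]; exact sub_self _)
    have h2 := Polynomial.map_dvd F.subtype h1
    simpa using h2
  have hmem := pow_natDegree_mem_of_dvd F hξ hξF h0 g (minpoly.monic hint) hdvd
  have hpos : 0 < g.natDegree := minpoly.natDegree_pos hint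
  obtain ⟨j, hj, hgcd⟩ := (Nat.dvd_prime_pow hp).mp (Nat.gcd_dvd_right g.natDegree (p ^ m))
  have hjD : j ≤ D := by
    have h1 : p ^ j ≤ D := hgcd ▸ (Nat.le_of_dvd hpos (Nat.gcd_dvd_left _ _)).trans hd
    exact ((Nat.lt_pow_self hp.one_lt).le).trans h1
  have hg : h ^ Nat.gcd g.natDegree (p ^ m) ∈ F := by
    have hb : ((Nat.gcd g.natDegree (p ^ m) : ℕ) : ℤ) = _ := Nat.gcd_eq_gcd_ab _ _
    rw [← zpow_natCast, hb, zpow_add₀ h0, zpow_mul, zpow_mul, zpow_natCast, zpow_natCast]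
    exact mul_mem (zpow_mem hmem _) (zpow_mem hn _)
  rw [hgcd] at hg
  rw [← Nat.add_sub_cancel' hjD, pow_add, pow_mul]
  exact pow_mem hg _

end FLTA.RT.Diamond
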