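import Fermat.Agent.RT.Diamond.ResidueBridge
import Fermat.Agent.RT.Diamond.RootDegree

/-!
# `p`-th powers of the middle residue field at level `L`

If `Θ ^ m ∈ C` with `m` least, an element of `C` which is a `p`-th power in `C(Θ)` is
`(c Θ ^ l) ^ p`; as Frobenius on coefficients fixes `Θ`, it fixes such a class modulo `C ^ p`.
-/

set_option autoImplicit false
set_option synthInstance.maxHeartbeats 400000

noncomputable section

open ModularCurve Polynomial

namespace FLTA.RT.Diamond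

open FLTA.Igusa

section Radical

variable {k : Type*} [Field k] [IsAlgClosed k] {S : Type*} [Field S] [Algebra k S]

/-- A `p`-th root in `F(Θ)`, `Θ` radical over `F`, of an element of `F` is a monomial. -/
theorem exists_monomial_of_pow_mem {F : IntermediateField k S} {Θ : S} (hΘ0 : Θ ≠ 0)
    {n : ℕ} (hn : 0 < n) (hΘ : Θ ^ n ∈ F) (hchar : ∀ m, 0 < m → m ≤ n → (m : k) ≠ 0) {p : ℕ}
    (hp : p.Prime) (hpk : (p : k) ≠ 0) {b : S} (hb : b ∈ IntermediateField.adjoin F ({Θ} : Set S))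
    (hb0 : b ≠ 0) (hbp : b ^ p ∈ F) : ∃ c ∈ F, ∃ l : ℕ, b = c * Θ ^ l := by
  classical
  have hex : ∃ m, 0 < m ∧ Θ ^ m ∈ F := ⟨n, hn, hΘ⟩
  set m := Nat.find hex
  obtain ⟨hm, hΘm⟩ : 0 < m ∧ Θ ^ m ∈ F := Nat.find_spec hex
  have hmn : m ≤ n := Nat.find_min' hex ⟨hn, hΘ⟩
  have : NeZero (m : k) := ⟨hchar m hm hmn⟩
  have : NeZero (p : k) := ⟨hpk⟩
  have : NeZero m := ⟨hm.ne'⟩
  have : NeZero p := ⟨hp.ne_zero⟩
  obtain ⟨ξ₀, hξ₀⟩ := HasEnoughRootsOfUnity.exists_primitiveRoot k m
  obtain ⟨η₀, hη₀⟩ := HasEnoughRootsOfUnity.exists_primitiveRoot k p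
  have hξ := hξ₀.map_of_injective (algebraMap k S).injective
  have hη := hη₀.map_of_injective (algebraMap k S).injective
  set h : F := ⟨Θ ^ m, hΘm⟩
  set G : F[X] := X ^ m - C h with hG
  have hGm : G.Monic := monic_X_pow_sub_C _ hm.ne'
  have hGΘ : aeval Θ G = 0 := by simp [G, h, IntermediateField.algebraMap_apply]
  have hint : IsIntegral F Θ := ⟨G, hGm, hGΘ⟩
  have hdvd := minpoly.dvd F Θ hGΘ
  have hdeg : m ≤ (minpoly F Θ).natDegree := by
    refine Nat.find_min' hex ⟨minpoly.natDegree_pos hint, ?_⟩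
    refine pow_natDegree_mem_of_dvd F.toSubfield hξ (IntermediateField.algebraMap_mem F ξ₀) hΘ0
      (minpoly F Θ) (minpoly.monic hint) ?_
    have h2 := Polynomial.map_dvd (algebraMap F S) hdvd
    have h3 : (minpoly F Θ).map (algebraMap F S) ∣ X ^ m - C (Θ ^ m) := by
      simpa [G, h, IntermediateField.algebraMap_apply] using h2
    exact h3
  have hmin : minpoly F Θ = G := (Polynomial.eq_of_monic_of_dvd_of_natDegree_le
    (minpoly.monic hint) hGm hdvd (by rw [natDegree_X_pow_sub_C]; exact hdeg)).symm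
  -- write `b` as a polynomial of degree `< m`
  obtain ⟨P₀, hP₀⟩ : ∃ P : F[X], aeval Θ P = b := by
    rw [← IntermediateField.mem_toSubalgebra,
      IntermediateField.adjoin_simple_toSubalgebra_of_isAlgebraic hint.isAlgebraic,
      Algebra.adjoin_singleton_eq_range_aeval] at hb
    exact hb
  set P := P₀ %ₘ G with hPdef
  have hP : aeval Θ P = b := by
    rw [hPdef, ← hP₀]
    conv_rhs => rw [← modByMonic_add_div P₀ G]
    rw [map_add, map_mul, hGΘ, zero_mul, add_zero]
  have hPdeg : P.natDegree < m := by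
    have h1 := natDegree_modByMonic_lt P₀ hGm (fun h1 => by
      have := congrArg natDegree h1
      rw [hG, natDegree_X_pow_sub_C, natDegree_one] at this
      omega)
    rwa [natDegree_X_pow_sub_C] at h1
  set a : F := ⟨b ^ p, hbp⟩
  have hroot : aeval Θ (P ^ p - C a) = 0 := by
    rw [map_sub, map_pow, hP, aeval_C]
    exact sub_self _
  have hconj : aeval (algebraMap k S ξ₀ * Θ) (P ^ p - C a) = 0 := by
    obtain ⟨T, hT⟩ := minpoly.dvd F Θ hroot
    rw [hT, map_mul, hmin]
    have : aeval (algebraMap k S ξ₀ * Θ) G = 0 := by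
      simp [G, h, IntermediateField.algebraMap_apply, mul_pow, hξ.pow_eq_one]
    rw [this, zero_mul]
  set b' := aeval (algebraMap k S ξ₀ * Θ) P with hb'
  have hb'p : b' ^ p = b ^ p := by
    rw [map_sub, map_pow, aeval_C, sub_eq_zero] at hconj
    exact hconj
  obtain ⟨i, -, hi⟩ := hη.eq_pow_of_pow_eq_one (ξ := b' / b)
    (by rw [div_pow, hb'p, div_self (pow_ne_zero p hb0)])
  let μ : F := ⟨algebraMap k S (η₀ ^ i), F.algebraMap_mem _⟩
  let x : F := ⟨algebraMap k S ξ₀, F.algebraMap_mem _⟩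
  have hμ : (μ : S) * b = b' := by
    show algebraMap k S (η₀ ^ i) * b = b'
    rw [map_pow, hi, div_mul_cancel₀ _ hb0]
  set Q : F[X] := P.comp (C x * X) - C μ * P with hQdef
  have hQ0 : aeval Θ Q = 0 := by
    rw [hQdef, map_sub, aeval_comp, map_mul, map_mul, aeval_C, aeval_X, aeval_C, hP,
      IntermediateField.algebraMap_apply, IntermediateField.algebraMap_apply, hμ, sub_eq_zero]
  have hQdeg : Q.natDegree < m := by
    refine (natDegree_sub_le _ _).trans_lt (max_lt ?_ ((natDegree_C_mul_le _ _).trans_lt hPdeg))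
    refine (natDegree_comp_le).trans_lt (lt_of_le_of_lt ?_ hPdeg)
    calc P.natDegree * (C x * X : F[X]).natDegree
        ≤ P.natDegree * 1 := Nat.mul_le_mul_left _ ((natDegree_C_mul_le _ _).trans natDegree_X_le)
      _ = P.natDegree := mul_one _
  have hQ : Q = 0 := by
    by_contra h0
    have := natDegree_le_of_dvd (minpoly.dvd F Θ hQ0) h0
    omega
  have hcoef : ∀ l, P.coeff l ≠ 0 → x ^ l = μ := fun l hl => by
    have h1 := congrArg (fun R => coeff R l) hQ
    simp only [hQdef, coeff_sub, coeff_C_mul, coeff_zero, comp_C_mul_X_coeff] at h1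
    rw [mul_comm μ, ← mul_sub, mul_eq_zero] at h1
    exact sub_eq_zero.mp (h1.resolve_left hl)
  have hP0 : P ≠ 0 := fun h0 => hb0 (by rw [← hP, h0, map_zero])
  obtain ⟨l, hl⟩ : ∃ l, P.coeff l ≠ 0 := ⟨P.natDegree, leadingCoeff_ne_zero.mpr hP0⟩
  have hsingle : P = C (P.coeff l) * X ^ l := by
    ext l'
    rw [coeff_C_mul_X_pow]
    split_ifs with hll
    · rw [hll]
    by_contra hne0
    have hne : P.coeff l' ≠ 0 := fun h => hne0 (by simp [h])
    have h1 : l' ≤ P.natDegree := le_natDegree_of_ne_zero hne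
    have h2 : l ≤ P.natDegree := le_natDegree_of_ne_zero hl
    have h3 : (algebraMap k S ξ₀) ^ l' = (algebraMap k S ξ₀) ^ l :=
      congrArg (Subtype.val : F → S) ((hcoef l' hne).trans (hcoef l hl).symm)
    exact hll (hξ.pow_inj (by omega) (by omega) h3)
  refine ⟨(P.coeff l : S), (P.coeff l).2, l, ?_⟩
  conv_lhs => rw [← hP, hsingle]
  rw [map_mul, map_pow, aeval_C, aeval_X, IntermediateField.algebraMap_apply]

omit [IsAlgClosed k] in
/-- `k(F ∪ {Θ}) ⊆ F(Θ)`. -/
theorem mem_adjoin_simple_of_mem {F : IntermediateField k S} {Θ b : S}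
    (hb : b ∈ IntermediateField.adjoin k ((F : Set S) ∪ {Θ})) :
    b ∈ IntermediateField.adjoin F ({Θ} : Set S) := by
  have hle : IntermediateField.adjoin k ((F : Set S) ∪ {Θ}) ≤
      (IntermediateField.adjoin F ({Θ} : Set S)).restrictScalars k := by
    rw [IntermediateField.adjoin_le_iff]
    intro x hx
    rw [SetLike.mem_coe, IntermediateField.mem_restrictScalars]
    rcases hx with hx | rfl
    · exact (IntermediateField.adjoin F ({Θ} : Set S)).algebraMap_mem ⟨x, hx⟩
    · exact IntermediateField.mem_adjoin_simple_self F x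
  exact (IntermediateField.mem_restrictScalars k).mp (hle hb)

omit [IsAlgClosed k] in
/-- A field automorphism fixing `Θ` moves `(c Θ ^ l) ^ p` by a `p`-th power. -/
theorem map_monomial_pow {E : IntermediateField k S} (f : S →+* S) (hf : ∀ x ∈ E, f x ∈ E)
    {c Θ : S} (hc : c ∈ E) (hc0 : c ≠ 0) (hΘ : f Θ = Θ) (l p : ℕ) :
    ∃ d ∈ E, f ((c * Θ ^ l) ^ p) = (c * Θ ^ l) ^ p * d ^ p := by
  refine ⟨f c / c, div_mem (hf c hc) hc, ?_⟩
  rw [← mul_pow, map_pow, map_mul, map_pow, hΘ]
  congr 1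
  field_simp

end Radical

local notation "Qb" => AlgebraicClosure ℚ

variable {L q : ℕ} [NeZero L] [Fact q.Prime] {A : ValuationSubring Qb}

local notation "k" => IsLocalRing.ResidueField A

/-- `(θ j̄(q^L))^(q-1)` lies at level `L`. -/
theorem thetaJ_pow_mem (hqL : ¬ q ∣ L) (hA : A.LiesOverPrime q) :
    thetaJ A L ^ (q - 1) ∈ levelRes A L := by
  have := FLTA.Galois.charP_residueField (Fact.out : q.Prime) hA
  have := FLTA.Galois.isAlgClosed_residueField A
  have hL : (L : k) ≠ 0 := fun h => hqL ((CharP.cast_eq_zero_iff k q L).mp h)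
  obtain ⟨c, hc, hθ⟩ := exists_theta_qExpand_eq L hL L dvd_rfl
  rw [thetaJ_eq, hθ, mul_pow]
  exact mul_mem (pow_mem hc _) (theta_pow_mem_fullC (residue_surj (A := A)))

/-- The `p`-th powers of the middle residue field at level `L` are Frobenius invariant classes. -/
theorem exists_frob_mul_pow_of_pow (hqL : ¬ q ∣ L) (hA : A.LiesOverPrime q) {p : ℕ} (hp : p.Prime)
    (hpq : p ∣ q - 1) {φ : k →+* k} (hφ : ∀ c, φ c = c ^ q) {b : LaurentSeries k}
    (hb : b ∈ midRes A L) (hbp : b ^ p ∈ levelRes A L) :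
    ∃ c ∈ levelRes A L, coeffMap φ (b ^ p) = b ^ p * c ^ p := by
  have := FLTA.Galois.charP_residueField (Fact.out : q.Prime) hA
  have := FLTA.Galois.isAlgClosed_residueField A
  rcases eq_or_ne b 0 with rfl | hb0
  · exact ⟨0, zero_mem _, by simp [zero_pow hp.ne_zero]⟩
  have hL : (L : k) ≠ 0 := fun h => hqL ((CharP.cast_eq_zero_iff k q L).mp h)
  have hq2 := (Fact.out : q.Prime).two_le
  have hchar : ∀ m, 0 < m → m ≤ q - 1 → (m : k) ≠ 0 := fun m h1 h2 h => by
    have := Nat.le_of_dvd h1 ((CharP.cast_eq_zero_iff k q m).mp h)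
    omega
  have hΘ0 : thetaJ A L ≠ 0 := fun h => by
    have h1 := congrArg (fun s => HahnSeries.coeff s (-(L : ℤ))) h
    simp only [thetaJ_eq, theta_coeff, HahnSeries.coeff_zero, ← jAt_one, coeff_jAt_neg] at h1
    simp [hL] at h1
  have hb' := mem_adjoin_simple_of_mem (F := levelRes A L) (Θ := thetaJ A L) hb
  obtain ⟨c, hc, l, rfl⟩ := exists_monomial_of_pow_mem hΘ0 (by omega) (thetaJ_pow_mem hqL hA)
    hchar hp (hchar p hp.pos (Nat.le_of_dvd (by omega) hpq)) hb' hb0 hbp
  have hc0 : c ≠ 0 := left_ne_zero_of_mul hb0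
  have hfix : coeffMap φ (thetaJ A L) = thetaJ A L := by
    rw [thetaJ_eq, coeffMap_theta, coeffMap_qExpand, coeffMap_jqModC]
  exact map_monomial_pow (coeffMap φ) (fun x hx => FLTA.Congruence.coeffMap_mem_fullC L φ hx)
    hc hc0 hfix l p

end FLTA.RT.Diamond

end
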