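import Fermat.Agent.RT.Diamond.Embed
import Fermat.Agent.RT.Diamond.ResidueKernel

/-!
# Residue fields of the branches

The residue field at infinity of level `L q` is that of level `L`; the residue field of a middle
branch of level `L q²` lies in `levelRes A L` with `θ j` adjoined; an element of `levelRes A L`
which becomes a `p`-th power there is fixed by Frobenius modulo `p`-th powers.
-/

set_option autoImplicit false
set_option synthInstance.maxHeartbeats 400000

noncomputable section

open ModularCurve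
open FLTA.Congruence (jGenBar)

namespace FLTA.RT.Diamond

open FLTA.BadRed FLTA.PlaceRed

local notation "Qb" => AlgebraicClosure ℚ

variable {L q : ℕ} [NeZero L] [Fact q.Prime] {A : ValuationSubring Qb}

local notation "k" => IsLocalRing.ResidueField A

/-- The function field of a level dividing `L q²` lies in the tower. -/
theorem bar_le_jField' {M : ℕ} [NeZero M] (hM : M ∣ L * q ^ 2) {x : LaurentSeries Qb}
    (hx : x ∈ modularFunctionFieldBar M) :
    ∃ h : x ∈ bigField Qb,
      (⟨x, h⟩ : bigField Qb) ∈ jField' {d | d ∣ L * q ^ 2} := by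
  have hle : modularFunctionFieldBar M ≤
      (jField' {d | d ∣ L * q ^ 2}).map (bigField Qb).val := by
    show laurentBaseChange Qb (modularFunctionFieldFull M) ≤ _
    rw [FLTA.Curves.laurentBaseChange_full_eq, modularFunctionFieldFullC,
      IntermediateField.adjoin_le_iff]
    rintro y ⟨d, hd0, hd, rfl⟩
    refine ⟨⟨qExpand Qb d (jqModC Qb), mem_bigField (isZFinite_qExpand d isZFinite_jqModC)⟩,
      IntermediateField.subset_adjoin Qb _ ⟨d, hd0, hd.trans hM, rfl⟩, rfl⟩
  obtain ⟨u, hu, hux⟩ := hle hx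
  obtain rfl : (u : LaurentSeries Qb) = x := hux
  exact ⟨u.2, hu⟩

theorem scaleHom_eq_twist {R : Type*} [CommRing R] (u : Rˣ) :
    FLTA.Congruence.scaleHom u = FLTA.Igusa.twist u := RingHom.ext fun x => by
  ext n
  rw [FLTA.Congruence.scaleHom_coeff, FLTA.Igusa.twist_coeff]

/-- Level `L`. -/
theorem mem_levelRes_of_isGRed (hqL : ¬ q ∣ L) (hA : A.LiesOverPrime q) {x : LaurentSeries Qb}
    (hx : x ∈ modularFunctionFieldBar L) {y : LaurentSeries k} (hy : IsGRed A x y) :
    y ∈ levelRes A L := by
  have := FLTA.Galois.charP_residueField (Fact.out : q.Prime) hA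
  have := FLTA.Galois.isAlgClosed_residueField A
  obtain ⟨h, hmem⟩ := bar_le_jField' (q := q) (dvd_mul_right L (q ^ 2)) hx
  exact mem_of_isGRed (resIn_jField' (L := L) (residue_surj (A := A))) hmem hy

/-- The branch at infinity of level `L q`. -/
theorem mem_levelRes_of_isGRed_mul (hqL : ¬ q ∣ L) (hA : A.LiesOverPrime q)
    {x : LaurentSeries Qb} (hx : x ∈ modularFunctionFieldBar (L * q)) {y : LaurentSeries k}
    (hy : IsGRed A x y) : y ∈ levelRes A L := by
  have := FLTA.Galois.charP_residueField (Fact.out : q.Prime) hA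
  have := FLTA.Galois.isAlgClosed_residueField A
  have hq0 : NeZero q := ⟨(Fact.out : q.Prime).ne_zero⟩
  obtain ⟨h, hmem⟩ := bar_le_jField' (L := L) (q := q)
    (Nat.mul_dvd_mul_left L (dvd_pow_self q two_ne_zero)) hx
  exact mem_of_isGRed (resIn_jField' (L := L) (residue_surj (A := A))) hmem hy

/-- The middle branches of level `L q²`. -/
theorem mem_midRes_of_isGRed (hqL : ¬ q ∣ L) (hA : A.LiesOverPrime q) {ζ : Qbˣ}
    (hζ : IsPrimitiveRoot ζ q) {b : ℕ} (hb : ¬ q ∣ b)
    {ι : modularFunctionFieldBar (L * q * q) →ₐ[Qb] LaurentSeries Qb}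
    (hι : IsMidEmb L q ζ b ι) (x : modularFunctionFieldBar (L * q * q)) {y : LaurentSeries k}
    (hy : IsGRed A (ι x) y) : y ∈ midRes A L := by
  have := FLTA.Galois.charP_residueField (Fact.out : q.Prime) hA
  have := FLTA.Galois.isAlgClosed_residueField A
  refine igusaField_le_midRes (Fact.out : q.Prime) hA hqL ?_
  have hq : q.Prime := Fact.out
  have hle : ι.fieldRange ≤ (midField' A L q).map (bigField Qb).val := by
    have hgen : ∀ (d : ℕ) (_ : NeZero d) (hd : d ∣ L * q * q),
        ι (jGenBar (L * q * q) d hd) ∈ (midField' A L q).map (bigField Qb).val := by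
      intro d hd0 hd
      obtain ⟨D, hD, hcase⟩ : ∃ D, D ∣ L ∧ (d = D ∨ d = D * q ∨ d = D * q * q) := by
        obtain ⟨a, b', ha, hb', rfl⟩ :=
          exists_dvd_and_dvd_of_dvd_mul (show d ∣ L * q ^ 2 by rwa [sq, ← mul_assoc])
        obtain ⟨i, hi, rfl⟩ := (Nat.dvd_prime_pow hq).mp hb'
        refine ⟨a, ha, ?_⟩
        interval_cases i
        · exact Or.inl (by rw [pow_zero, mul_one])
        · exact Or.inr (Or.inl (by rw [pow_one]))
        · exact Or.inr (Or.inr (by rw [sq, mul_assoc]))
      have hD0 : NeZero D := ⟨ne_zero_of_dvd_ne_zero (NeZero.ne L) hD⟩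
      obtain ⟨h1, h2, h3⟩ := hι D hD0 hD
      have hmemJ : ∀ (e : ℕ) (_ : NeZero e), e ∣ L * q ^ 2 →
          qExpand Qb e (jqModC Qb) ∈ (midField' A L q).map (bigField Qb).val := fun e _ he =>
        ⟨⟨_, mem_bigField (isZFinite_qExpand e isZFinite_jqModC)⟩,
          le_sup_left (b := IntermediateField.adjoin Qb _)
            (IntermediateField.subset_adjoin Qb _ ⟨e, ‹_›, he, rfl⟩), rfl⟩
      rcases hcase with rfl | rfl | rfl
      · rw [h1]
        exact hmemJ d hd0 (hD.trans (dvd_mul_right _ _))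
      · rw [h2]
        exact hmemJ (D * q) hd0 (mul_dvd_mul hD (dvd_pow_self q two_ne_zero))
      · rw [h3, scaleHom_eq_twist]
        have hζA : ((ζ ^ b : Qbˣ) : Qb) ∈ A := FLTA.BadRed.mem_of_pow_mem hq.pos (by
          rw [← Units.val_pow_eq_pow_val, ← pow_mul, mul_comm, pow_mul, hζ.pow_eq_one, one_pow]
          exact A.one_mem)
        have hz : (⟨_, hζA⟩ : A) ^ q = 1 := Subtype.ext (by
          show ((ζ ^ b : Qbˣ) : Qb) ^ q = 1
          rw [← Units.val_pow_eq_pow_val, ← pow_mul, mul_comm, pow_mul, hζ.pow_eq_one, one_pow,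
            Units.val_one])
        let z : Aˣ := Units.ofPowEqOne _ q hz hq.ne_zero
        have hzq : z ^ q = 1 := Units.pow_ofPowEqOne _ _
        have heq : FLTA.Igusa.twist (ζ ^ b) (qExpand Qb D (jqModC Qb)) =
            coeffMap A.subtype (FLTA.Igusa.jAt (z ^ D) D) := by
          rw [FLTA.Igusa.coeffMap_jAt, map_pow, ← FLTA.Igusa.jAt_one, FLTA.Igusa.twist_jAt, mul_one]
          congr 2
          exact Units.ext rfl
        have hzD : (z ^ D) ^ q = 1 := by rw [← pow_mul, mul_comm, pow_mul, hzq, one_pow]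
        rw [heq]
        refine ⟨⟨_, mem_bigField (haveI := NeZero.mk hq.ne_zero; jAt_mem_zInt hzD D)⟩,
          le_sup_right (a := jField' _) (IntermediateField.subset_adjoin Qb _
            ⟨z ^ D, D, hD0, hzD, hD, rfl⟩), rfl⟩
    rintro _ ⟨f, rfl⟩
    have hf : (f : LaurentSeries Qb) ∈
        IntermediateField.adjoin Qb (divisorExpansionsC Qb (L * q * q)) := by
      rw [← FLTA.Congruence.laurentBaseChange_full_eq_adjoin]
      exact f.2
    have htop : IntermediateField.comap ι ((midField' A L q).map (bigField Qb).val) = ⊤ := by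
      refine eq_top_iff.mpr fun g _ => ?_
      have hg : (g : LaurentSeries Qb) ∈
          (IntermediateField.comap ι ((midField' A L q).map (bigField Qb).val)).map
            (modularFunctionFieldBar (L * q * q)).val := by
        refine (IntermediateField.adjoin_le_iff.mpr ?_) (show (g : LaurentSeries Qb) ∈
          IntermediateField.adjoin Qb (divisorExpansionsC Qb (L * q * q)) by
            rw [← FLTA.Congruence.laurentBaseChange_full_eq_adjoin]; exact g.2)
        rintro y ⟨d, hd0, hd, rfl⟩
        exact ⟨jGenBar (L * q * q) d hd, hgen d hd0 hd, rfl⟩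
      obtain ⟨g', hg', hgg⟩ := hg
      obtain rfl : g' = g := Subtype.ext hgg
      exact hg'
    exact (htop.ge (IntermediateField.mem_top (x := f)) : _)
  obtain ⟨u, hu, hux⟩ := hle ⟨x, rfl⟩
  refine mem_of_isGRed (resIn_midField (residue_surj (A := A)) hqL) (x := u) hu ?_
  rw [show (u : LaurentSeries Qb) = ι x from hux]
  exact hy

/-- The kernel of `p`-th power classes: Frobenius invariance. -/
theorem exists_frob_eq_mul_pow (hqL : ¬ q ∣ L) (hA : A.LiesOverPrime q) {p : ℕ} (hp : p.Prime)
    (hpq : p ∣ q - 1) {φ : k →+* k} (hφ : ∀ c, φ c = c ^ q) {a b : LaurentSeries k}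
    (ha : a ∈ levelRes A L) (hb : b ∈ midRes A L) (hab : a = b ^ p) :
    ∃ c ∈ levelRes A L, coeffMap φ a = a * c ^ p := by
  subst hab
  exact exists_frob_mul_pow_of_pow hqL hA hp hpq hφ hb ha

end FLTA.RT.Diamond
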